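/-
S35 [CORE-RES], abstract part (Mathlib only): steps (G0)–(G3) of the geometric core.

Setting: `α β : E →+* F` two embeddings of fields, `VE` a valuation subring of `E`, `V₁ V₂`
valuation subrings of `F` above `VE` for both embeddings ("bridges" `crs`-hypotheses `hα1m`, …),
`Φ : E →+* E` a "Frobenius lift" preserving `VE` and its maximal ideal, `σ : F →+* F` acting as
`Φ ∘ Φ` on `α E` and on `β E` and preserving the maximal ideals of `V₁`, `V₂`; the twisted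
Kronecker congruences `(α z)^q ≡ β (Φ z)` mod `𝔪_{V₁}` and `(β z)^q ≡ α (Φ z)` mod `𝔪_{V₂}`.

For a common unit `u` of `V₁` and `V₂` whose residues are read in `VE` (`u ≡ α a` on `V₁`,
`u ≡ β b` on `V₂`) and whose two norms `nα`, `nβ` satisfy the norm-residue formula in element form
(`nα ≡ x e`, `α x ≡ u` on `V₁`, `α e ≡ u^q` on `V₂`; `nβ ≡ x' e'`, `β x' ≡ u` on `V₂`,
`β e' ≡ u^q` on `V₁`) and are `m`-th powers up to units (`nα = c₁ ε₁^m`, `nβ = c₂ ε₂^m`):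

* `crs_main` : `σ u / u ≡ α (Φ c₂ / c₁ · (Φ ε₂ / ε₁)^m)` mod `𝔪_{V₁}` and
               `σ u / u ≡ β (Φ c₁ / c₂ · (Φ ε₁ / ε₂)^m)` mod `𝔪_{V₂}`.

Also the bookkeeping of (G0):

* `crs_norm` : `N (σ f / f) = (σ_E c / c) · (σ_E e / e)^m` when `N f = c e^m` and `σ` is
  semilinear over `σ_E`;
* `crs_unit` : `σ f / f` is a unit of a valuation ring `V` stable under `σ` which has a
  uniformiser `ϖ` with `σ ϖ / ϖ` a unit.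
-/
import Mathlib

set_option autoImplicit false

namespace Fermat.Agent.S35

section CoreResBasic

variable {F : Type*} [Field F]

/-- an element of the valuation ring times a nonunit is a nonunit -/
theorem crs_mul_mem (V : ValuationSubring F) {x y : F} (hx : x ∈ V) (hy : y ∈ V.nonunits) :
    x * y ∈ V.nonunits := by
  rw [ValuationSubring.mem_nonunits_iff] at hy ⊢
  rw [map_mul]
  exact mul_lt_one_of_nonneg_of_lt_one_right ((V.valuation_le_one_iff x).2 hx) zero_le hy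

/-- a nonunit times an element of the valuation ring is a nonunit -/
theorem crs_mem_mul (V : ValuationSubring F) {x y : F} (hx : x ∈ V.nonunits) (hy : y ∈ V) :
    x * y ∈ V.nonunits := by
  rw [mul_comm]
  exact crs_mul_mem V hy hx

/-- congruent elements have congruent powers -/
theorem crs_pow_sub (V : ValuationSubring F) {x y : F} (hx : x ∈ V) (hy : y ∈ V)
    (h : x - y ∈ V.nonunits) (n : ℕ) : x ^ n - y ^ n ∈ V.nonunits := by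
  induction n with
  | zero => simp
  | succ n ih =>
    have h1 : x ^ (n + 1) - y ^ (n + 1) = x * (x ^ n - y ^ n) + (x - y) * y ^ n := by ring
    rw [h1]
    exact V.nonunits.add_mem (crs_mul_mem V hx ih) (crs_mem_mul V h (pow_mem hy n))

/-- an element of `V` congruent to a unit is a unit -/
theorem crs_unit_of_sub (V : ValuationSubring F) {u y : F} (hu' : u⁻¹ ∈ V) (hu0 : u ≠ 0)
    (h : u - y ∈ V.nonunits) : y ∉ V.nonunits := by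
  intro hy
  have h1 : u ∈ V.nonunits := by
    have : u = (u - y) + y := by ring
    rw [this]
    exact V.nonunits.add_mem h hy
  rw [ValuationSubring.mem_nonunits_iff_or] at h1
  rcases h1 with h1 | h1
  · exact hu0 h1
  · exact h1 hu'

/-- congruent units have congruent inverses -/
theorem crs_inv_sub (V : ValuationSubring F) {x y : F} (hx' : x⁻¹ ∈ V) (hy' : y⁻¹ ∈ V)
    (hx0 : x ≠ 0) (hy0 : y ≠ 0) (h : x - y ∈ V.nonunits) : x⁻¹ - y⁻¹ ∈ V.nonunits := by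
  have h1 : x⁻¹ - y⁻¹ = -((x - y) * (x⁻¹ * y⁻¹)) := by
    field_simp
    ring
  rw [h1]
  exact V.nonunits.neg_mem (crs_mem_mul V h (mul_mem hx' hy'))

end CoreResBasic

section CoreResHalf

variable {E F : Type*} [Field E] [Field F]

/-- **(G3), one side.**  See the file header. -/
theorem crs_half (q m : ℕ)
    (α β : E →+* F) (VE : ValuationSubring E) (V1 V2 : ValuationSubring F)
    (Φ : E →+* E) (σ : F →+* F)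
    (hΦV : ∀ z ∈ VE, Φ z ∈ VE) (hΦm : ∀ z ∈ VE.nonunits, Φ z ∈ VE.nonunits)
    (hσα : ∀ z, σ (α z) = α (Φ (Φ z)))
    (hσ1 : ∀ x ∈ V1.nonunits, σ x ∈ V1.nonunits)
    (hα1 : ∀ z ∈ VE, α z ∈ V1) (hβ2 : ∀ z ∈ VE, β z ∈ V2)
    (hα1m : ∀ z ∈ VE, (α z ∈ V1.nonunits ↔ z ∈ VE.nonunits))
    (hα2m : ∀ z ∈ VE, (α z ∈ V2.nonunits ↔ z ∈ VE.nonunits))
    (hβ1m : ∀ z ∈ VE, (β z ∈ V1.nonunits ↔ z ∈ VE.nonunits))
    (hβ2m : ∀ z ∈ VE, (β z ∈ V2.nonunits ↔ z ∈ VE.nonunits))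
    (hK1 : ∀ z ∈ VE, (α z) ^ q - β (Φ z) ∈ V1.nonunits)
    (hK2 : ∀ z ∈ VE, (β z) ^ q - α (Φ z) ∈ V2.nonunits)
    (u : F) (hu0 : u ≠ 0) (hu1 : u ∈ V1) (hu1' : u⁻¹ ∈ V1) (hu2 : u ∈ V2)
    (a b : E) (ha : a ∈ VE) (hb : b ∈ VE)
    (hua : u - α a ∈ V1.nonunits) (hub : u - β b ∈ V2.nonunits)
    (nα nβ : E)
    (x e : E) (hx : x ∈ VE) (he : e ∈ VE) (hNα : nα - x * e ∈ VE.nonunits)
    (hxu : α x - u ∈ V1.nonunits) (heu : α e - u ^ q ∈ V2.nonunits)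
    (x' e' : E) (hx' : x' ∈ VE) (he' : e' ∈ VE) (hNβ : nβ - x' * e' ∈ VE.nonunits)
    (hxu' : β x' - u ∈ V2.nonunits) (heu' : β e' - u ^ q ∈ V1.nonunits)
    (c₁ ε₁ c₂ ε₂ : E) (hc₁0 : c₁ ≠ 0) (hc₁' : c₁⁻¹ ∈ VE) (hε₁0 : ε₁ ≠ 0) (hε₁' : ε₁⁻¹ ∈ VE)
    (hnα : nα = c₁ * ε₁ ^ m) (hnβ : nβ = c₂ * ε₂ ^ m) :
    σ u * u⁻¹ - α (Φ c₂ * c₁⁻¹ * (Φ ε₂ * ε₁⁻¹) ^ m) ∈ V1.nonunits := by
  have hΦa : Φ a ∈ VE := hΦV a ha
  have hΦb : Φ b ∈ VE := hΦV b hb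
  have hΦΦa : Φ (Φ a) ∈ VE := hΦV _ hΦa
  -- `x ≡ a`
  have h1 : x - a ∈ VE.nonunits := by
    rw [← hα1m _ (sub_mem hx ha), map_sub]
    have : α x - α a = (α x - u) + (u - α a) := by ring
    rw [this]
    exact V1.nonunits.add_mem hxu hua
  -- `e ≡ Φ b`
  have h2 : e - Φ b ∈ VE.nonunits := by
    rw [← hα2m _ (sub_mem he hΦb), map_sub]
    have : α e - α (Φ b) = (α e - u ^ q) + (u ^ q - (β b) ^ q) + ((β b) ^ q - α (Φ b)) := by ring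
    rw [this]
    exact V2.nonunits.add_mem (V2.nonunits.add_mem heu (crs_pow_sub V2 hu2 (hβ2 b hb) hub q))
      (hK2 b hb)
  -- `nα ≡ a Φ b`
  have h3 : nα - a * Φ b ∈ VE.nonunits := by
    have : nα - a * Φ b = (nα - x * e) + ((x - a) * e + a * (e - Φ b)) := by ring
    rw [this]
    exact VE.nonunits.add_mem hNα
      (VE.nonunits.add_mem (crs_mem_mul VE h1 he) (crs_mul_mem VE ha h2))
  -- `x' ≡ b`
  have h4 : x' - b ∈ VE.nonunits := by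
    rw [← hβ2m _ (sub_mem hx' hb), map_sub]
    have : β x' - β b = (β x' - u) + (u - β b) := by ring
    rw [this]
    exact V2.nonunits.add_mem hxu' hub
  -- `e' ≡ Φ a`
  have h5 : e' - Φ a ∈ VE.nonunits := by
    rw [← hβ1m _ (sub_mem he' hΦa), map_sub]
    have : β e' - β (Φ a) = (β e' - u ^ q) + (u ^ q - (α a) ^ q) + ((α a) ^ q - β (Φ a)) := by
      ring
    rw [this]
    exact V1.nonunits.add_mem (V1.nonunits.add_mem heu' (crs_pow_sub V1 hu1 (hα1 a ha) hua q))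
      (hK1 a ha)
  -- `nβ ≡ b Φ a`
  have h6 : nβ - b * Φ a ∈ VE.nonunits := by
    have : nβ - b * Φ a = (nβ - x' * e') + ((x' - b) * e' + b * (e' - Φ a)) := by ring
    rw [this]
    exact VE.nonunits.add_mem hNβ
      (VE.nonunits.add_mem (crs_mem_mul VE h4 he') (crs_mul_mem VE hb h5))
  -- apply `Φ` to the second congruence
  have h7 : Φ c₂ * (Φ ε₂) ^ m - Φ b * Φ (Φ a) ∈ VE.nonunits := by
    have := hΦm _ h6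
    rwa [hnβ, map_sub, map_mul, map_mul, map_pow] at this
  -- `a` is a unit of `VE`
  have haV1 : α a ∉ V1.nonunits := crs_unit_of_sub V1 hu1' hu0 hua
  have haVE : a ∉ VE.nonunits := fun h => haV1 ((hα1m a ha).2 h)
  have ha0 : a ≠ 0 := fun h => haVE (h ▸ VE.nonunits.zero_mem)
  have ha' : a⁻¹ ∈ VE := by
    by_contra h
    exact haVE ((ValuationSubring.mem_nonunits_iff_or VE).2 (Or.inr h))
  -- the congruence in `VE`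
  have h8 : Φ (Φ a) * (c₁ * ε₁ ^ m) - a * (Φ c₂ * (Φ ε₂) ^ m) ∈ VE.nonunits := by
    have : Φ (Φ a) * (c₁ * ε₁ ^ m) - a * (Φ c₂ * (Φ ε₂) ^ m)
        = Φ (Φ a) * (nα - a * Φ b) - a * (Φ c₂ * (Φ ε₂) ^ m - Φ b * Φ (Φ a)) := by
      rw [hnα]
      ring
    rw [this]
    exact VE.nonunits.sub_mem (crs_mul_mem VE hΦΦa h3) (crs_mul_mem VE ha h7)
  have h9 : Φ (Φ a) * a⁻¹ - Φ c₂ * c₁⁻¹ * (Φ ε₂ * ε₁⁻¹) ^ m ∈ VE.nonunits := by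
    have : Φ (Φ a) * a⁻¹ - Φ c₂ * c₁⁻¹ * (Φ ε₂ * ε₁⁻¹) ^ m
        = (Φ (Φ a) * (c₁ * ε₁ ^ m) - a * (Φ c₂ * (Φ ε₂) ^ m)) * (a⁻¹ * (c₁⁻¹ * ε₁⁻¹ ^ m)) := by
      have hε : ε₁ ^ m ≠ 0 := pow_ne_zero m hε₁0
      rw [mul_pow, inv_pow]
      field_simp
    rw [this]
    exact crs_mem_mul VE h8 (mul_mem ha' (mul_mem hc₁' (pow_mem hε₁' m)))
  have hmem9 : Φ (Φ a) * a⁻¹ - Φ c₂ * c₁⁻¹ * (Φ ε₂ * ε₁⁻¹) ^ m ∈ VE :=
    VE.nonunits_subset h9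
  have h10 : α (Φ (Φ a) * a⁻¹) - α (Φ c₂ * c₁⁻¹ * (Φ ε₂ * ε₁⁻¹) ^ m) ∈ V1.nonunits := by
    rw [← map_sub]
    exact (hα1m _ hmem9).2 h9
  -- transfer to `F`
  have hαa0 : α a ≠ 0 := by
    rw [Ne, map_eq_zero]
    exact ha0
  have hαa' : (α a)⁻¹ ∈ V1 := by
    rw [← map_inv₀]
    exact hα1 _ ha'
  have h11 : σ u - α (Φ (Φ a)) ∈ V1.nonunits := by
    have := hσ1 _ hua
    rwa [map_sub, hσα] at this
  have h12 : u⁻¹ - (α a)⁻¹ ∈ V1.nonunits := crs_inv_sub V1 hu1' hαa' hu0 hαa0 hua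
  have h13 : σ u * u⁻¹ - α (Φ (Φ a) * a⁻¹) ∈ V1.nonunits := by
    have : σ u * u⁻¹ - α (Φ (Φ a) * a⁻¹)
        = (σ u - α (Φ (Φ a))) * u⁻¹ + α (Φ (Φ a)) * (u⁻¹ - (α a)⁻¹) := by
      rw [map_mul, map_inv₀]
      ring
    rw [this]
    exact V1.nonunits.add_mem (crs_mem_mul V1 h11 hu1') (crs_mul_mem V1 (hα1 _ hΦΦa) h12)
  have : σ u * u⁻¹ - α (Φ c₂ * c₁⁻¹ * (Φ ε₂ * ε₁⁻¹) ^ m)
      = (σ u * u⁻¹ - α (Φ (Φ a) * a⁻¹))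
        + (α (Φ (Φ a) * a⁻¹) - α (Φ c₂ * c₁⁻¹ * (Φ ε₂ * ε₁⁻¹) ^ m)) := by ring
  rw [this]
  exact V1.nonunits.add_mem h13 h10

/-- **(G3).**  `σ u / u ≡ α (Φ c₂ / c₁ · (Φ ε₂ / ε₁)^m)` mod `𝔪_{V₁}` and
`σ u / u ≡ β (Φ c₁ / c₂ · (Φ ε₁ / ε₂)^m)` mod `𝔪_{V₂}`. -/
theorem crs_main (q m : ℕ)
    (α β : E →+* F) (VE : ValuationSubring E) (V1 V2 : ValuationSubring F)
    (Φ : E →+* E) (σ : F →+* F)
    (hΦV : ∀ z ∈ VE, Φ z ∈ VE) (hΦm : ∀ z ∈ VE.nonunits, Φ z ∈ VE.nonunits)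
    (hσα : ∀ z, σ (α z) = α (Φ (Φ z))) (hσβ : ∀ z, σ (β z) = β (Φ (Φ z)))
    (hσ1 : ∀ x ∈ V1.nonunits, σ x ∈ V1.nonunits)
    (hσ2 : ∀ x ∈ V2.nonunits, σ x ∈ V2.nonunits)
    (hα1 : ∀ z ∈ VE, α z ∈ V1) (hβ2 : ∀ z ∈ VE, β z ∈ V2)
    (hα1m : ∀ z ∈ VE, (α z ∈ V1.nonunits ↔ z ∈ VE.nonunits))
    (hα2m : ∀ z ∈ VE, (α z ∈ V2.nonunits ↔ z ∈ VE.nonunits))
    (hβ1m : ∀ z ∈ VE, (β z ∈ V1.nonunits ↔ z ∈ VE.nonunits))
    (hβ2m : ∀ z ∈ VE, (β z ∈ V2.nonunits ↔ z ∈ VE.nonunits))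
    (hK1 : ∀ z ∈ VE, (α z) ^ q - β (Φ z) ∈ V1.nonunits)
    (hK2 : ∀ z ∈ VE, (β z) ^ q - α (Φ z) ∈ V2.nonunits)
    (u : F) (hu0 : u ≠ 0) (hu1 : u ∈ V1) (hu1' : u⁻¹ ∈ V1) (hu2 : u ∈ V2) (hu2' : u⁻¹ ∈ V2)
    (a b : E) (ha : a ∈ VE) (hb : b ∈ VE)
    (hua : u - α a ∈ V1.nonunits) (hub : u - β b ∈ V2.nonunits)
    (nα nβ : E)
    (x e : E) (hx : x ∈ VE) (he : e ∈ VE) (hNα : nα - x * e ∈ VE.nonunits)
    (hxu : α x - u ∈ V1.nonunits) (heu : α e - u ^ q ∈ V2.nonunits)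
    (x' e' : E) (hx' : x' ∈ VE) (he' : e' ∈ VE) (hNβ : nβ - x' * e' ∈ VE.nonunits)
    (hxu' : β x' - u ∈ V2.nonunits) (heu' : β e' - u ^ q ∈ V1.nonunits)
    (c₁ ε₁ c₂ ε₂ : E) (hc₁0 : c₁ ≠ 0) (hc₁' : c₁⁻¹ ∈ VE) (hε₁0 : ε₁ ≠ 0) (hε₁' : ε₁⁻¹ ∈ VE)
    (hc₂0 : c₂ ≠ 0) (hc₂' : c₂⁻¹ ∈ VE) (hε₂0 : ε₂ ≠ 0) (hε₂' : ε₂⁻¹ ∈ VE)
    (hnα : nα = c₁ * ε₁ ^ m) (hnβ : nβ = c₂ * ε₂ ^ m) :
    σ u * u⁻¹ - α (Φ c₂ * c₁⁻¹ * (Φ ε₂ * ε₁⁻¹) ^ m) ∈ V1.nonunits ∧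
    σ u * u⁻¹ - β (Φ c₁ * c₂⁻¹ * (Φ ε₁ * ε₂⁻¹) ^ m) ∈ V2.nonunits :=
  ⟨crs_half q m α β VE V1 V2 Φ σ hΦV hΦm hσα hσ1 hα1 hβ2 hα1m hα2m hβ1m hβ2m hK1 hK2
      u hu0 hu1 hu1' hu2 a b ha hb hua hub nα nβ x e hx he hNα hxu heu x' e' hx' he' hNβ hxu' heu'
      c₁ ε₁ c₂ ε₂ hc₁0 hc₁' hε₁0 hε₁' hnα hnβ,
   crs_half q m β α VE V2 V1 Φ σ hΦV hΦm hσβ hσ2 hβ2 hα1 hβ2m hβ1m hα2m hα1m hK2 hK1
      u hu0 hu2 hu2' hu1 b a hb ha hub hua nβ nα x' e' hx' he' hNβ hxu' heu' x e hx he hNα hxu heu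
      c₂ ε₂ c₁ ε₁ hc₂0 hc₂' hε₂0 hε₂' hnβ hnα⟩

end CoreResHalf

section CoreResG0

variable {E F : Type*} [Field E] [Field F] [Algebra E F]

/-- **(G0), norms.**  If `σ` is a ring automorphism of `F` semilinear over the automorphism `σE`
of `E` and `N f = c e^m`, then `N (σ f / f) = (σE c / c) (σE e / e)^m`. -/
theorem crs_norm (σE : E ≃+* E) (σ : F ≃+* F)
    (hσ : ∀ z : E, σ (algebraMap E F z) = algebraMap E F (σE z))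
    (f : F) (hf : f ≠ 0) (c e : E) (m : ℕ) (hN : Algebra.norm E f = c * e ^ m) :
    Algebra.norm E (σ f * f⁻¹) = (σE c * c⁻¹) * (σE e * e⁻¹) ^ m := by
  have h1 : Algebra.norm E (σ f) = σE (Algebra.norm E f) := by
    have h := Algebra.norm_eq_of_equiv_equiv σE σ (RingHom.ext fun z => (hσ z).symm) f
    rw [h, RingEquiv.apply_symm_apply]
  have h2 : Algebra.norm E f * Algebra.norm E f⁻¹ = 1 := by
    rw [← map_mul, mul_inv_cancel₀ hf, map_one]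
  have h3 : Algebra.norm E f⁻¹ = (Algebra.norm E f)⁻¹ := eq_inv_of_mul_eq_one_right h2
  rw [map_mul, h3, h1, hN, map_mul, map_pow, mul_pow, mul_inv, inv_pow]
  ring

/-- **(G0), units.**  `σ f / f` is a unit of a valuation ring stable under `σ` which has a
uniformiser `ϖ` with `σ ϖ / ϖ` a unit. -/
theorem crs_unit (V : ValuationSubring F) (σ : F →+* F) (hσ : ∀ x ∈ V, σ x ∈ V)
    (ϖ : F) (hϖ0 : ϖ ≠ 0)
    (hϖ : ∀ f : F, f ≠ 0 → ∃ n : ℤ, f * ϖ ^ n ∈ V ∧ (f * ϖ ^ n)⁻¹ ∈ V)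
    (hσϖ : σ ϖ * ϖ⁻¹ ∈ V) (hσϖ' : (σ ϖ * ϖ⁻¹)⁻¹ ∈ V) (f : F) (hf : f ≠ 0) :
    σ f * f⁻¹ ∈ V ∧ (σ f * f⁻¹)⁻¹ ∈ V := by
  obtain ⟨n, hg, hg'⟩ := hϖ f hf
  set g : F := f * ϖ ^ n with hgdef
  have hg0 : g ≠ 0 := mul_ne_zero hf (zpow_ne_zero n hϖ0)
  have hσg0 : σ g ≠ 0 := by
    rw [Ne, map_eq_zero]
    exact hg0
  have hσϖ0 : σ ϖ ≠ 0 := by
    rw [Ne, map_eq_zero]
    exact hϖ0
  have hf' : f = g * ϖ ^ (-n) := by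
    rw [hgdef, mul_assoc, ← zpow_add₀ hϖ0, add_neg_cancel, zpow_zero, mul_one]
  have hσg' : (σ g)⁻¹ ∈ V := by
    rw [← map_inv₀]
    exact hσ _ hg'
  have hz : ∀ k : ℤ, (σ ϖ * ϖ⁻¹) ^ k ∈ V := by
    intro k
    rcases Int.eq_nat_or_neg k with ⟨j, rfl | rfl⟩
    · rw [zpow_natCast]
      exact pow_mem hσϖ j
    · rw [zpow_neg, zpow_natCast, ← inv_pow]
      exact pow_mem hσϖ' j
  have h1 : σ f * f⁻¹ = (σ g * g⁻¹) * (σ ϖ * ϖ⁻¹) ^ (-n) := by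
    rw [hf', map_mul, map_zpow₀, mul_zpow, inv_zpow, mul_inv]
    rw [show (ϖ ^ (-n))⁻¹ = ϖ⁻¹ ^ (-n) from (inv_zpow ϖ (-n)).symm]
    ring
  have h2 : (σ f * f⁻¹)⁻¹ = (g * (σ g)⁻¹) * (σ ϖ * ϖ⁻¹) ^ n := by
    rw [h1, mul_inv, mul_inv, inv_inv, zpow_neg, inv_inv]
    ring
  refine ⟨?_, ?_⟩
  · rw [h1]
    exact mul_mem (mul_mem (hσ _ hg) hg') (hz _)
  · rw [h2]
    exact mul_mem (mul_mem hg hσg') (hz _)

end CoreResG0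

end Fermat.Agent.S35
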