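import Mathlib
import Fermat.Agent.S34.Val2Inst
import Fermat.Agent.S34.SigmaVal
import Fermat.Agent.S37.JRingGal
import Fermat.Agent.S37.FrobSeries
import Fermat.Agent.S37.TwoVal
import Fermat.Agent.S18.CoreInstGauss
import Fermat.Agent.S18.GaussCompat

/-!
# S35, leaves CORE-GAL and CORE-KRON: a Frobenius lift and the two degeneracy maps

`K0` a field over `ℚ` with an embedding into `ℚ̄`, `A0` a valuation subring of `K0` over the
prime `q ∤ M`, `E = K0(X₀(M))`, `F = K0(X₀(M q))`, `α, β : E → F` the two degeneracy maps,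
`V₁ = va2V1` (Gauss), `V₂ = va2V2` (its swap), `s : K0 ≃ₐ[ℚ] K0` and
`Φ = arithmeticRingAut _ s` its coefficientwise action on `E` and on `F`.

* `fkr_frobenius_mul`, `fkr_frobenius_sq`: products of Frobenius elements;
* `fkr_frobenius_restrict`: a Frobenius element restricts to a Frobenius element of a normal
  subextension;
* `fkr_gal_mul`: `Φ_{s s'} = Φ_s ∘ Φ_{s'}`; `fkr_alpha_gal`, `fkr_beta_gal`: `Φ` commutes with
  `α` and `β` (with the swap: `va2Swap_gal`, S34);
* `fkr_gauss_mem(_iff)`, `fkr_gauss_nonunits(_iff)`: an element of the decomposition group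
  preserves the Gauss ring of every level and its non-units; `fkr_V1_*`, `fkr_V2_*`: the same
  for `V₁`, `V₂`;
* `fkr_const`: a Frobenius element acts as the `q`-th power on residues of constants;
* `fkr_kron1`, `fkr_kron2`: **twisted Kronecker congruences**: for a Frobenius element `s` and a
  Gauss-integral `z` of level `M`,
  `(α z) ^ q - β (Φ z) ∈ 𝔪_{V₁}` and `(β z) ^ q - α (Φ z) ∈ 𝔪_{V₂}`.
-/

set_option autoImplicit false

noncomputable section

open AlgebraicCurve ModularCurve Fermat.Agent.S18 Fermat.Agent.S37 Fermat.Agent.S34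

namespace Fermat.Agent.S35

local notation "Qb" => AlgebraicClosure ℚ

section Frob

variable {K L : Type*} [Field K] [Field L] [Algebra K L] (A : ValuationSubring L)

/-- the product of two Frobenius elements -/
theorem fkr_frobenius_mul {σ τ : L ≃ₐ[K] L} {a b : ℕ} (hσ : A.IsFrobeniusAt σ a)
    (hτ : A.IsFrobeniusAt τ b) : A.IsFrobeniusAt (σ * τ) (b * a) := by
  refine ⟨mul_mem hσ.mem_decompositionSubgroup hτ.mem_decompositionSubgroup, fun x => ?_⟩
  have h : (⟨σ * τ, mul_mem hσ.mem_decompositionSubgroup hτ.mem_decompositionSubgroup⟩ :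
      A.decompositionSubgroup K) = ⟨σ, hσ.mem_decompositionSubgroup⟩ *
        ⟨τ, hτ.mem_decompositionSubgroup⟩ := rfl
  rw [h, mul_smul, hτ.smul_residue_eq, smul_pow', hσ.smul_residue_eq, ← pow_mul, mul_comm]

/-- the square of a Frobenius element at `q` is a Frobenius element at `q * q` -/
theorem fkr_frobenius_sq {σ : L ≃ₐ[K] L} {q : ℕ} (hσ : A.IsFrobeniusAt σ q) :
    A.IsFrobeniusAt (σ * σ) (q * q) :=
  fkr_frobenius_mul A hσ hσ

/-- a Frobenius element restricts to a Frobenius element of a normal subextension -/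
theorem fkr_frobenius_restrict (E : IntermediateField K L) [Normal K E] {σ : L ≃ₐ[K] L} {ℓ : ℕ}
    (hσ : A.IsFrobeniusAt σ ℓ) :
    (A.comap (algebraMap E L)).IsFrobeniusAt (σ.restrictNormal E) ℓ := by
  have hsD := sgv_restrict_decomp E A hσ.mem_decompositionSubgroup
  refine ⟨hsD, fun y => ?_⟩
  obtain ⟨x, rfl⟩ := IsLocalRing.residue_surjective y
  rw [← IsLocalRing.ResidueField.residue_smul, ← map_pow, ← sub_eq_zero, ← map_sub,
    IsLocalRing.residue_eq_zero_iff, IsLocalRing.mem_maximalIdeal, mem_nonunits_iff]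
  intro hu
  obtain ⟨v, hv⟩ := hu.exists_right_inv
  have hxA : algebraMap E L (x : E) ∈ A := x.2
  obtain ⟨h1, h2⟩ := jrg_frobenius_residue K A hσ ⟨algebraMap E L (x : E), hxA⟩
  have hvA : algebraMap E L (v : E) ∈ A := v.2
  have hmax : (⟨σ (algebraMap E L (x : E)), h1⟩ - ⟨algebraMap E L (x : E), hxA⟩ ^ ℓ : A) ∈
      IsLocalRing.maximalIdeal A := by
    rw [← IsLocalRing.residue_eq_zero_iff, map_sub, map_pow, h2, sub_self]
  rw [IsLocalRing.mem_maximalIdeal, mem_nonunits_iff] at hmax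
  apply hmax
  refine IsUnit.of_mul_eq_one ⟨algebraMap E L (v : E), hvA⟩ ?_
  apply Subtype.ext
  have hv' := congrArg (fun z : ↥(A.comap (algebraMap E L)) => algebraMap E L (z : E)) hv
  simp only [MulMemClass.coe_mul, map_mul, OneMemClass.coe_one, map_one] at hv'
  show (σ (algebraMap E L (x : E)) - algebraMap E L (x : E) ^ ℓ) * algebraMap E L (v : E) = 1
  rw [← hv']
  congr 1
  have h3 : algebraMap E L ((σ.restrictNormal E) (x : E) - (x : E) ^ ℓ) =
      σ (algebraMap E L (x : E)) - algebraMap E L (x : E) ^ ℓ := by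
    rw [map_sub, map_pow, AlgEquiv.restrictNormal_commutes]
  exact h3.symm

end Frob

section Coeff

variable {K0 : Type*} [Field K0] [Algebra ℚ K0]

/-- the coefficientwise action is multiplicative -/
theorem fkr_gal_mul (F₀ : IntermediateField ℚ (LaurentSeries ℚ)) (s s' : K0 ≃ₐ[ℚ] K0)
    (x : ↥(laurentBaseChange K0 F₀)) :
    arithmeticRingAut F₀ (s * s') x = arithmeticRingAut F₀ s (arithmeticRingAut F₀ s' x) := by
  apply Subtype.ext
  rw [coe_arithmeticRingAut_apply, coe_arithmeticRingAut_apply, coe_arithmeticRingAut_apply,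
    coeffMap_coeffMap]
  exact coeffMap_congr (RingHom.ext fun _ => rfl) _

variable (A0 : ValuationSubring K0) (F₀ : IntermediateField ℚ (LaurentSeries ℚ))

/-- the decomposition group preserves Gauss-integrality of the `q`-expansion -/
theorem fkr_gauss_mem {s : K0 ≃ₐ[ℚ] K0} (hs : s ∈ A0.decompositionSubgroup ℚ)
    (x : ↥(laurentBaseChange K0 F₀)) (hx : (x : LaurentSeries K0) ∈ grV A0) :
    ((arithmeticRingAut F₀ s x : ↥(laurentBaseChange K0 F₀)) : LaurentSeries K0) ∈ grV A0 :=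
  jrg_grV_coeffMap ℚ A0 ⟨s, hs⟩ hx

theorem fkr_gauss_mem_iff {s : K0 ≃ₐ[ℚ] K0} (hs : s ∈ A0.decompositionSubgroup ℚ)
    (x : ↥(laurentBaseChange K0 F₀)) :
    ((arithmeticRingAut F₀ s x : ↥(laurentBaseChange K0 F₀)) : LaurentSeries K0) ∈ grV A0 ↔
      (x : LaurentSeries K0) ∈ grV A0 := by
  refine ⟨fun h => ?_, fkr_gauss_mem A0 F₀ hs x⟩
  have hs' : s⁻¹ ∈ A0.decompositionSubgroup ℚ := inv_mem hs
  have h1 := fkr_gauss_mem A0 F₀ hs' _ h
  rw [← fkr_gal_mul, inv_mul_cancel] at h1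
  have h2 : arithmeticRingAut F₀ (1 : K0 ≃ₐ[ℚ] K0) x = x := by
    apply Subtype.ext
    rw [coe_arithmeticRingAut_apply]
    exact (coeffMap_congr (g := RingHom.id K0) (RingHom.ext fun _ => rfl) _).trans
      (coeffMap_id _)
  rwa [h2] at h1

variable (VG : ValuationSubring ↥(laurentBaseChange K0 F₀))
  (hVG : ∀ x : ↥(laurentBaseChange K0 F₀), x ∈ VG ↔ (x : LaurentSeries K0) ∈ grV A0)

include hVG in
/-- the decomposition group preserves the Gauss valuation subring, both ways -/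
theorem fkr_VG_mem_iff {s : K0 ≃ₐ[ℚ] K0} (hs : s ∈ A0.decompositionSubgroup ℚ)
    (x : ↥(laurentBaseChange K0 F₀)) : arithmeticRingAut F₀ s x ∈ VG ↔ x ∈ VG := by
  rw [hVG, hVG]
  exact fkr_gauss_mem_iff A0 F₀ hs x

/-- a ring automorphism preserving a valuation subring (both ways) preserves its non-units -/
theorem fkr_nonunits_iff_of_mem_iff {F : Type*} [Field F] (V : ValuationSubring F) (Φ : F ≃+* F)
    (h : ∀ x : F, Φ x ∈ V ↔ x ∈ V) (x : F) : Φ x ∈ V.nonunits ↔ x ∈ V.nonunits := by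
  have key : ∀ y : F, y ∈ V.nonunits ↔ y = 0 ∨ y⁻¹ ∉ V := by
    intro y
    have h0 := V.inv_mem_nonunits_iff (x := y⁻¹)
    rw [inv_inv, inv_eq_zero] at h0
    exact h0
  rw [key, key, ← map_inv₀, h, map_eq_zero_iff Φ Φ.injective]

include hVG in
/-- the decomposition group preserves the non-units of the Gauss valuation subring -/
theorem fkr_VG_nonunits_iff {s : K0 ≃ₐ[ℚ] K0} (hs : s ∈ A0.decompositionSubgroup ℚ)
    (x : ↥(laurentBaseChange K0 F₀)) :
    arithmeticRingAut F₀ s x ∈ VG.nonunits ↔ x ∈ VG.nonunits :=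
  fkr_nonunits_iff_of_mem_iff VG (arithmeticRingAut F₀ s)
    (fun y => fkr_VG_mem_iff A0 F₀ VG hVG hs y) x

end Coeff

section Level

variable (M q : ℕ) [NeZero M] [hq : Fact q.Prime] (hM : ¬ q ∣ M)
  (K0 : Type*) [Field K0] [Algebra ℚ K0] [Algebra K0 Qb]
  (A0 : ValuationSubring K0) [IsDiscreteValuationRing ↥A0]

omit [Algebra K0 Qb] in
/-- the coefficientwise action commutes with `α` -/
theorem fkr_alpha_gal (s : K0 ≃ₐ[ℚ] K0)
    (x : ↥(laurentBaseChange K0 (modularFunctionFieldFull M))) :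
    arithmeticRingAut (modularFunctionFieldFull (M * q)) s (heckeAlphaBar K0 M q x)
      = heckeAlphaBar K0 M q (arithmeticRingAut (modularFunctionFieldFull M) s x) := by
  apply Subtype.ext
  rw [coe_arithmeticRingAut_apply, coe_heckeAlphaBar, coe_heckeAlphaBar,
    coe_arithmeticRingAut_apply]

omit [NeZero M] [Algebra K0 Qb] in
/-- the coefficientwise action commutes with `β` -/
theorem fkr_beta_gal (s : K0 ≃ₐ[ℚ] K0)
    (x : ↥(laurentBaseChange K0 (modularFunctionFieldFull M))) :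
    arithmeticRingAut (modularFunctionFieldFull (M * q)) s (heckeBetaBar K0 M q x)
      = heckeBetaBar K0 M q (arithmeticRingAut (modularFunctionFieldFull M) s x) := by
  apply Subtype.ext
  rw [coe_arithmeticRingAut_apply, coe_heckeBetaBar, coe_heckeBetaBar,
    coe_arithmeticRingAut_apply, coeffMap_qExpand]

omit [Algebra K0 Qb] in
/-- the decomposition group preserves `V₁` -/
theorem fkr_V1_mem_iff {s : K0 ≃ₐ[ℚ] K0} (hs : s ∈ A0.decompositionSubgroup ℚ)
    (x : ↥(laurentBaseChange K0 (modularFunctionFieldFull (M * q)))) :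
    arithmeticRingAut (modularFunctionFieldFull (M * q)) s x ∈ va2V1 M q K0 A0 ↔
      x ∈ va2V1 M q K0 A0 :=
  fkr_VG_mem_iff A0 _ (va2V1 M q K0 A0) (fun _ => Iff.rfl) hs x

omit [Algebra K0 Qb] in
/-- the decomposition group preserves the non-units of `V₁` -/
theorem fkr_V1_nonunits_iff {s : K0 ≃ₐ[ℚ] K0} (hs : s ∈ A0.decompositionSubgroup ℚ)
    (x : ↥(laurentBaseChange K0 (modularFunctionFieldFull (M * q)))) :
    arithmeticRingAut (modularFunctionFieldFull (M * q)) s x ∈ (va2V1 M q K0 A0).nonunits ↔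
      x ∈ (va2V1 M q K0 A0).nonunits :=
  fkr_VG_nonunits_iff A0 _ (va2V1 M q K0 A0) (fun _ => Iff.rfl) hs x

/-- the decomposition group preserves `V₂` -/
theorem fkr_V2_mem_iff {s : K0 ≃ₐ[ℚ] K0} (hs : s ∈ A0.decompositionSubgroup ℚ)
    (x : ↥(laurentBaseChange K0 (modularFunctionFieldFull (M * q)))) :
    arithmeticRingAut (modularFunctionFieldFull (M * q)) s x ∈ va2V2 M q hM K0 A0 ↔
      x ∈ va2V2 M q hM K0 A0 := by
  rw [mem_va2V2, mem_va2V2, va2Swap_gal]
  exact fkr_V1_mem_iff M q K0 A0 hs _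

/-- the decomposition group preserves the non-units of `V₂` -/
theorem fkr_V2_nonunits_iff {s : K0 ≃ₐ[ℚ] K0} (hs : s ∈ A0.decompositionSubgroup ℚ)
    (x : ↥(laurentBaseChange K0 (modularFunctionFieldFull (M * q)))) :
    arithmeticRingAut (modularFunctionFieldFull (M * q)) s x ∈ (va2V2 M q hM K0 A0).nonunits ↔
      x ∈ (va2V2 M q hM K0 A0).nonunits :=
  fkr_nonunits_iff_of_mem_iff (va2V2 M q hM K0 A0)
    (arithmeticRingAut (modularFunctionFieldFull (M * q)) s)
    (fun y => fkr_V2_mem_iff M q hM K0 A0 hs y) x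

omit [Algebra K0 Qb] [IsDiscreteValuationRing ↥A0] in
/-- a Frobenius element acts as the `q`-th power on residues of constants -/
theorem fkr_const {s : K0 ≃ₐ[ℚ] K0} {n : ℕ} (hs : A0.IsFrobeniusAt s n) (c : K0) (hc : c ∈ A0) :
    s c - c ^ n ∈ A0.nonunits := by
  obtain ⟨h1, h2⟩ := jrg_frobenius_residue ℚ A0 hs ⟨c, hc⟩
  have hmax : (⟨s c, h1⟩ - ⟨c, hc⟩ ^ n : A0) ∈ IsLocalRing.maximalIdeal A0 := by
    rw [← IsLocalRing.residue_eq_zero_iff, map_sub, map_pow, h2, sub_self]
  have h3 := (ValuationSubring.mem_nonunits_iff_exists_mem_maximalIdeal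
    (A := A0) (a := s c - c ^ n)).mpr ⟨(⟨s c, h1⟩ - ⟨c, hc⟩ ^ n : A0).2, hmax⟩
  exact h3

omit [Algebra K0 Qb] in
/-- **Twisted Kronecker congruence on `V₁`**: `(α z) ^ q ≡ β (Φ z)` modulo the maximal ideal of
the Gauss valuation ring, for a Frobenius element `s` (`Φ` its coefficientwise action) and a
Gauss-integral `z` of level `M`. -/
theorem fkr_kron1 (hA0 : A0.LiesOverPrime q) {s : K0 ≃ₐ[ℚ] K0} (hs : A0.IsFrobeniusAt s q)
    (z : ↥(laurentBaseChange K0 (modularFunctionFieldFull M)))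
    (hz : (z : LaurentSeries K0) ∈ grV A0) :
    heckeAlphaBar K0 M q z ^ q
      - heckeBetaBar K0 M q (arithmeticRingAut (modularFunctionFieldFull M) s z)
        ∈ (va2V1 M q K0 A0).nonunits := by
  have hcharA : CharP (IsLocalRing.ResidueField A0) q := grc_charP A0 q hA0
  obtain ⟨hsz, hρ⟩ := jrg_grRho_frobenius ℚ A0 q hs ⟨(z : LaurentSeries K0), hz⟩
  rw [cinst_mem_nonunits_iff (va2V1 M q K0 A0) (fun _ => Iff.rfl)]
  have hpow : (z : LaurentSeries K0) ^ q ∈ grV A0 := (grV A0).pow_mem hz q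
  have hqe : qExpand K0 q (coeffMap ((s : K0 ≃ₐ[ℚ] K0) : K0 →+* K0) (z : LaurentSeries K0))
      ∈ grV A0 := tv_qExpand_mem A0 q hsz
  have hcoe : ((heckeAlphaBar K0 M q z ^ q
      - heckeBetaBar K0 M q (arithmeticRingAut (modularFunctionFieldFull M) s z) :
        ↥(laurentBaseChange K0 (modularFunctionFieldFull (M * q)))) : LaurentSeries K0)
      = (z : LaurentSeries K0) ^ q
        - qExpand K0 q (coeffMap ((s : K0 ≃ₐ[ℚ] K0) : K0 →+* K0) (z : LaurentSeries K0)) := by
    rw [AddSubgroupClass.coe_sub, SubmonoidClass.coe_pow, coe_heckeAlphaBar, coe_heckeBetaBar,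
      coe_arithmeticRingAut_apply]
  have hmem : ((heckeAlphaBar K0 M q z ^ q
      - heckeBetaBar K0 M q (arithmeticRingAut (modularFunctionFieldFull M) s z) :
        ↥(laurentBaseChange K0 (modularFunctionFieldFull (M * q)))) : LaurentSeries K0)
      ∈ grV A0 := by
    rw [hcoe]
    exact (grV A0).sub_mem hpow hqe
  refine ⟨hmem, ?_⟩
  have h3 : (⟨_, hmem⟩ : grV A0)
      = ⟨(z : LaurentSeries K0), hz⟩ ^ q - ⟨_, hqe⟩ := Subtype.ext hcoe
  rw [h3, map_sub, map_pow, tv_grRho_qExpand A0 q hsz, hρ, tvf_pow_char q, sub_self]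

/-- **Twisted Kronecker congruence on `V₂`**: `(β z) ^ q ≡ α (Φ z)` modulo the maximal ideal of
`V₂`. -/
theorem fkr_kron2 (hA0 : A0.LiesOverPrime q) {s : K0 ≃ₐ[ℚ] K0} (hs : A0.IsFrobeniusAt s q)
    (z : ↥(laurentBaseChange K0 (modularFunctionFieldFull M)))
    (hz : (z : LaurentSeries K0) ∈ grV A0) :
    heckeBetaBar K0 M q z ^ q
      - heckeAlphaBar K0 M q (arithmeticRingAut (modularFunctionFieldFull M) s z)
        ∈ (va2V2 M q hM K0 A0).nonunits := by
  rw [va2_mem_nonunits_V2, map_sub, map_pow, va2Swap_beta, va2Swap_alpha]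
  exact fkr_kron1 M q K0 A0 hA0 hs z hz

end Level

end Fermat.Agent.S35
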