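import Mathlib
import Fermat.Prelude.Def_ModularCurve_HeckeOperator
import Fermat.Prelude.Def_ModularCurve_ArithmeticGalois

/-!
# S35, package CORE-INST / CORE-KUM: the core statement over a number field (definition only)

* `s35NormA L M q`, `s35NormB L M q`: the field norms from the level-`M q` function field over
  `L` to the level-`M` function field over `L`, along the two degeneracy maps `heckeAlphaBar`,
  `heckeBetaBar`.
* `S35hCore K1 ψ M q m`: the Kummer form of the geometric core of S35 over a number field `K1`
  (normal over `ℚ`): for a nonzero function `f₀` of the level-`M q` function field over `K1`,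
  all of whose orders are divisible by `m`, whose zeros and poles are `K1`-rational places, and
  whose two norms to the level `M` are constants times `m`-th powers, the function
  `(Ψ - q²)(Ψ - 1)² f₀` (multiplicative notation, `Ψ` the action of `ψ|K1` on the coefficients)
  is a constant times an `m`-th power.
-/

set_option autoImplicit false
set_option linter.unusedSectionVars false

noncomputable section

open ModularCurve AlgebraicCurve

namespace Fermat.Agent.S35

local notation "Qb" => AlgebraicClosure ℚ

section Norms

variable (L : Type*) [Field L] [Algebra ℚ L] (M q : ℕ) [NeZero M] [NeZero q]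

/-- the norm from the level-`M q` function field over `L` to the level-`M` function field,
along `heckeAlphaBar` -/
def s35NormA : ↥(laurentBaseChange L (modularFunctionFieldFull (M * q))) →*
    ↥(laurentBaseChange L (modularFunctionFieldFull M)) :=
  letI := algebraAlong (heckeAlphaBar L M q)
  Algebra.norm ↥(laurentBaseChange L (modularFunctionFieldFull M))

/-- the norm from the level-`M q` function field over `L` to the level-`M` function field,
along `heckeBetaBar` -/
def s35NormB : ↥(laurentBaseChange L (modularFunctionFieldFull (M * q))) →*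
    ↥(laurentBaseChange L (modularFunctionFieldFull M)) :=
  letI := algebraAlong (heckeBetaBar L M q)
  Algebra.norm ↥(laurentBaseChange L (modularFunctionFieldFull M))

theorem s35NormA_def (x : ↥(laurentBaseChange L (modularFunctionFieldFull (M * q)))) :
    s35NormA L M q x =
      (letI := algebraAlong (heckeAlphaBar L M q)
       Algebra.norm ↥(laurentBaseChange L (modularFunctionFieldFull M)) x) := rfl

theorem s35NormB_def (x : ↥(laurentBaseChange L (modularFunctionFieldFull (M * q)))) :
    s35NormB L M q x =
      (letI := algebraAlong (heckeBetaBar L M q)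
       Algebra.norm ↥(laurentBaseChange L (modularFunctionFieldFull M)) x) := rfl

end Norms

/-- **The core statement of S35 over a number field `K₁`** (normal over `ℚ`), for the levels
`M q → M`, the exponent `m` and the automorphism `ψ` (in the application `ψ = φ * φ` with `φ` a
Frobenius element at `q`): a nonzero function `f₀` of the function field of `X₀(M q)` over `K₁`,
all of whose orders are divisible by `m`, all of whose zeros and poles are `K₁`-rational places,
and whose norms along both degeneracy maps are constants times `m`-th powers, satisfies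
`Ψ³ f₀ · (Ψ f₀) ^ (1 + 2 q²) = w · G ^ m · (Ψ² f₀) ^ (2 + q²) · f₀ ^ (q²)` with `w ∈ K₁`,
`G ≠ 0`, where `Ψ` is the action of `ψ|K₁` on the coefficients. -/
def S35hCore (K1 : IntermediateField ℚ Qb) [Normal ℚ K1] (ψ : Qb ≃ₐ[ℚ] Qb) (M q m : ℕ)
    [NeZero M] [NeZero q] : Prop :=
  ∀ f0 : ↥(laurentBaseChange ↥K1 (modularFunctionFieldFull (M * q))), f0 ≠ 0 →
    (∀ Q : Place ↥K1 ↥(laurentBaseChange ↥K1 (modularFunctionFieldFull (M * q))),
      (m : ℤ) ∣ Q.ord f0) →
    (∀ Q : Place ↥K1 ↥(laurentBaseChange ↥K1 (modularFunctionFieldFull (M * q))), Q.ord f0 ≠ 0 →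
      Q.deg = 1 ∧ Function.Bijective (algebraMap ↥K1 Q.ResidueField) ∧
      ∀ y ∈ Q.toValuationSubring, ∃ c : ↥K1,
        y - algebraMap ↥K1 ↥(laurentBaseChange ↥K1 (modularFunctionFieldFull (M * q))) c ∈
          Q.toValuationSubring.nonunits) →
    (∃ (c : ↥K1) (e : ↥(laurentBaseChange ↥K1 (modularFunctionFieldFull M))),
      s35NormA ↥K1 M q f0 =
        algebraMap ↥K1 ↥(laurentBaseChange ↥K1 (modularFunctionFieldFull M)) c * e ^ m) →
    (∃ (c : ↥K1) (e : ↥(laurentBaseChange ↥K1 (modularFunctionFieldFull M))),
      s35NormB ↥K1 M q f0 =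
        algebraMap ↥K1 ↥(laurentBaseChange ↥K1 (modularFunctionFieldFull M)) c * e ^ m) →
    ∃ (w : ↥K1) (G : ↥(laurentBaseChange ↥K1 (modularFunctionFieldFull (M * q)))), G ≠ 0 ∧
      (arithmeticGalois (modularFunctionFieldFull (M * q)) (ψ.restrictNormal ↥K1) •
        arithmeticGalois (modularFunctionFieldFull (M * q)) (ψ.restrictNormal ↥K1) •
        arithmeticGalois (modularFunctionFieldFull (M * q)) (ψ.restrictNormal ↥K1) • f0) *
        (arithmeticGalois (modularFunctionFieldFull (M * q)) (ψ.restrictNormal ↥K1) • f0) ^
          (1 + 2 * q ^ 2) =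
      algebraMap ↥K1 ↥(laurentBaseChange ↥K1 (modularFunctionFieldFull (M * q))) w * G ^ m *
        (arithmeticGalois (modularFunctionFieldFull (M * q)) (ψ.restrictNormal ↥K1) •
          arithmeticGalois (modularFunctionFieldFull (M * q)) (ψ.restrictNormal ↥K1) • f0) ^
          (2 + q ^ 2) * f0 ^ (q ^ 2)

end Fermat.Agent.S35
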