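import Mathlib
import Fermat.Agent.S34.SigmaVal
import Fermat.Agent.S34.Val2Def
import Fermat.Agent.S35.FrobKron
import Fermat.Agent.S35.HCoreDef

/-!
# S35, package CORE-INST, leaf INST-UNITV

`K0` a field over `ℚ` with an embedding into `ℚ̄`, `A0` a discrete valuation subring of `K0`,
`s : K0 ≃ₐ[ℚ] K0` in the decomposition group of `A0`, `Φ = arithmeticRingAut _ s` the
coefficientwise action of `s` on the function fields `E = K0(X₀(M))`, `F = K0(X₀(M q))`.

* `s35in_u_gauss`: for `f ≠ 0` of the level-`N` function field, `Φ f / f` is a unit of every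
  valuation subring `VG` cut out by Gauss-integrality of the `q`-expansion
  (`s35in_u_gauss_mem`, `s35in_u_gauss_inv` are the two halves; `s35in_u_graOf` is the form
  for `graOf (gra_decomp_dvr A0 N)`);
* `s35in_u_V1`, `s35in_u_V2`: the same for `va2V1`, `va2V2` of the level `M q`
  (`s35in_u_V1_notMem`, `s35in_u_V2_notMem`: in the form `∉ nonunits`);
* `s35in_u_normA`, `s35in_u_normB`: `Φ` commutes with the norms along the two degeneracy maps,
  `s35NormA K0 M q (Φ f) = Φ (s35NormA K0 M q f)`;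
* `s35in_u_normA_div`, `s35in_u_normB_div`: if `N f = c e ^ m` then
  `N (Φ f / f) = (s c / c) (Φ e / e) ^ m`.
-/

set_option autoImplicit false

noncomputable section

open AlgebraicCurve ModularCurve Fermat.Agent.S18 Fermat.Agent.S37 Fermat.Agent.S34

namespace Fermat.Agent.S35

local notation "Qb" => AlgebraicClosure ℚ

section Aux

/-- an element whose inverse lies in a valuation subring is not in its maximal ideal -/
theorem s35in_u_notMem_of_inv {F : Type*} [Field F] (V : ValuationSubring F) {x : F}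
    (hx : x ≠ 0) (hinv : x⁻¹ ∈ V) : x ∉ V.nonunits := by
  intro h
  have h2 := V.inv_mem_nonunits_iff (x := x⁻¹)
  rw [inv_inv] at h2
  rcases h2.mp h with h3 | h3
  · exact hx (inv_eq_zero.mp h3)
  · exact h3 hinv

/-- `Φ f / f ≠ 0` -/
theorem s35in_u_ne_zero {K0 : Type*} [Field K0] [Algebra ℚ K0] (N : ℕ) (s : K0 ≃ₐ[ℚ] K0)
    (f : ↥(laurentBaseChange K0 (modularFunctionFieldFull N))) (hf : f ≠ 0) :
    arithmeticRingAut (modularFunctionFieldFull N) s f * f⁻¹ ≠ 0 := by
  refine mul_ne_zero ?_ (inv_ne_zero hf)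
  rw [Ne, map_eq_zero_iff _ (arithmeticRingAut (modularFunctionFieldFull N) s).injective]
  exact hf

/-- the coefficientwise action commutes with `α` (any `q ≠ 0`) -/
theorem s35in_u_alpha_gal {K0 : Type*} [Field K0] [Algebra ℚ K0] (M q : ℕ) [NeZero M]
    [NeZero q] (s : K0 ≃ₐ[ℚ] K0)
    (x : ↥(laurentBaseChange K0 (modularFunctionFieldFull M))) :
    arithmeticRingAut (modularFunctionFieldFull (M * q)) s (heckeAlphaBar K0 M q x)
      = heckeAlphaBar K0 M q (arithmeticRingAut (modularFunctionFieldFull M) s x) := by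
  apply Subtype.ext
  rw [coe_arithmeticRingAut_apply, coe_heckeAlphaBar, coe_heckeAlphaBar,
    coe_arithmeticRingAut_apply]

/-- the coefficientwise action commutes with `β` (any `q ≠ 0`) -/
theorem s35in_u_beta_gal {K0 : Type*} [Field K0] [Algebra ℚ K0] (M q : ℕ) [NeZero M]
    [NeZero q] (s : K0 ≃ₐ[ℚ] K0)
    (x : ↥(laurentBaseChange K0 (modularFunctionFieldFull M))) :
    arithmeticRingAut (modularFunctionFieldFull (M * q)) s (heckeBetaBar K0 M q x)
      = heckeBetaBar K0 M q (arithmeticRingAut (modularFunctionFieldFull M) s x) := by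
  apply Subtype.ext
  rw [coe_arithmeticRingAut_apply, coe_heckeBetaBar, coe_heckeBetaBar,
    coe_arithmeticRingAut_apply, coeffMap_qExpand]

end Aux

section Gauss

variable {K0 : Type*} [Field K0] [Algebra ℚ K0] (A0 : ValuationSubring K0)
  [IsDiscreteValuationRing ↥A0] (N : ℕ) [NeZero N]
  (VG : ValuationSubring ↥(laurentBaseChange K0 (modularFunctionFieldFull N)))
  (hVG : ∀ x : ↥(laurentBaseChange K0 (modularFunctionFieldFull N)),
    x ∈ VG ↔ (x : LaurentSeries K0) ∈ grV A0)

include hVG in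
/-- `Φ f / f` is Gauss-integral (decomposition group). -/
theorem s35in_u_gauss_mem {s : K0 ≃ₐ[ℚ] K0} (hs : s ∈ A0.decompositionSubgroup ℚ)
    (f : ↥(laurentBaseChange K0 (modularFunctionFieldFull N))) (hf : f ≠ 0) :
    arithmeticRingAut (modularFunctionFieldFull N) s f * f⁻¹ ∈ VG :=
  sgv_hσu A0 (modularFunctionFieldFull N) VG hVG (fun _ hx => gdv_full_le A0 N hx) hs f hf

include hVG in
/-- `(Φ f / f)⁻¹` is Gauss-integral (decomposition group). -/
theorem s35in_u_gauss_inv {s : K0 ≃ₐ[ℚ] K0} (hs : s ∈ A0.decompositionSubgroup ℚ)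
    (f : ↥(laurentBaseChange K0 (modularFunctionFieldFull N))) (hf : f ≠ 0) :
    (arithmeticRingAut (modularFunctionFieldFull N) s f * f⁻¹)⁻¹ ∈ VG := by
  have hs' : s⁻¹ ∈ A0.decompositionSubgroup ℚ := inv_mem hs
  have hΦf : arithmeticRingAut (modularFunctionFieldFull N) s f ≠ 0 := by
    rw [Ne, map_eq_zero_iff _ (arithmeticRingAut (modularFunctionFieldFull N) s).injective]
    exact hf
  have h1 := s35in_u_gauss_mem A0 N VG hVG hs'
    (arithmeticRingAut (modularFunctionFieldFull N) s f) hΦf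
  have h2 : arithmeticRingAut (modularFunctionFieldFull N) s⁻¹
      (arithmeticRingAut (modularFunctionFieldFull N) s f) = f := by
    rw [← fkr_gal_mul, inv_mul_cancel]
    apply Subtype.ext
    rw [coe_arithmeticRingAut_apply]
    exact (coeffMap_congr (g := RingHom.id K0) (RingHom.ext fun _ => rfl) _).trans
      (coeffMap_id _)
  rw [h2] at h1
  rw [mul_inv, inv_inv, mul_comm]
  exact h1

include hVG in
/-- **`Φ f / f` is a unit of the Gauss valuation ring** of any level (decomposition group). -/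
theorem s35in_u_gauss {s : K0 ≃ₐ[ℚ] K0} (hs : s ∈ A0.decompositionSubgroup ℚ)
    (f : ↥(laurentBaseChange K0 (modularFunctionFieldFull N))) (hf : f ≠ 0) :
    arithmeticRingAut (modularFunctionFieldFull N) s f * f⁻¹ ∈ VG ∧
      (arithmeticRingAut (modularFunctionFieldFull N) s f * f⁻¹)⁻¹ ∈ VG :=
  ⟨s35in_u_gauss_mem A0 N VG hVG hs f hf, s35in_u_gauss_inv A0 N VG hVG hs f hf⟩

/-- the form for the Gauss valuation ring `graOf (gra_decomp_dvr A0 N)` of the level `N` -/
theorem s35in_u_graOf {s : K0 ≃ₐ[ℚ] K0} (hs : s ∈ A0.decompositionSubgroup ℚ)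
    (f : ↥(laurentBaseChange K0 (modularFunctionFieldFull N))) (hf : f ≠ 0) :
    arithmeticRingAut (modularFunctionFieldFull N) s f * f⁻¹ ∈ graOf (gra_decomp_dvr A0 N) ∧
      (arithmeticRingAut (modularFunctionFieldFull N) s f * f⁻¹)⁻¹ ∈
        graOf (gra_decomp_dvr A0 N) :=
  s35in_u_gauss A0 N (graOf (gra_decomp_dvr A0 N)) (fun _ => Iff.rfl) hs f hf

end Gauss

section Level

variable (M q : ℕ) [NeZero M] [hq : Fact q.Prime] (hM : ¬ q ∣ M)
  (K0 : Type*) [Field K0] [Algebra ℚ K0] [Algebra K0 Qb]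
  (A0 : ValuationSubring K0) [IsDiscreteValuationRing ↥A0]

omit [Algebra K0 Qb] in
/-- **`Φ f / f` is a unit of `V₁`** (decomposition group). -/
theorem s35in_u_V1 {s : K0 ≃ₐ[ℚ] K0} (hs : s ∈ A0.decompositionSubgroup ℚ)
    (f : ↥(laurentBaseChange K0 (modularFunctionFieldFull (M * q)))) (hf : f ≠ 0) :
    arithmeticRingAut (modularFunctionFieldFull (M * q)) s f * f⁻¹ ∈ va2V1 M q K0 A0 ∧
      (arithmeticRingAut (modularFunctionFieldFull (M * q)) s f * f⁻¹)⁻¹ ∈ va2V1 M q K0 A0 :=
  s35in_u_gauss A0 (M * q) (va2V1 M q K0 A0) (fun _ => Iff.rfl) hs f hf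

/-- **`Φ f / f` is a unit of `V₂`** (decomposition group). -/
theorem s35in_u_V2 {s : K0 ≃ₐ[ℚ] K0} (hs : s ∈ A0.decompositionSubgroup ℚ)
    (f : ↥(laurentBaseChange K0 (modularFunctionFieldFull (M * q)))) (hf : f ≠ 0) :
    arithmeticRingAut (modularFunctionFieldFull (M * q)) s f * f⁻¹ ∈ va2V2 M q hM K0 A0 ∧
      (arithmeticRingAut (modularFunctionFieldFull (M * q)) s f * f⁻¹)⁻¹ ∈
        va2V2 M q hM K0 A0 := by
  have hf' : va2Swap M q hq.out hM K0 f ≠ 0 := by
    rw [Ne, map_eq_zero]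
    exact hf
  have h := s35in_u_V1 M q K0 A0 hs (va2Swap M q hq.out hM K0 f) hf'
  rw [mem_va2V2, mem_va2V2, map_inv₀, map_mul, map_inv₀, va2Swap_gal]
  exact h

omit [Algebra K0 Qb] in
/-- `Φ f / f` is not in the maximal ideal of `V₁`. -/
theorem s35in_u_V1_notMem {s : K0 ≃ₐ[ℚ] K0} (hs : s ∈ A0.decompositionSubgroup ℚ)
    (f : ↥(laurentBaseChange K0 (modularFunctionFieldFull (M * q)))) (hf : f ≠ 0) :
    arithmeticRingAut (modularFunctionFieldFull (M * q)) s f * f⁻¹ ∉
      (va2V1 M q K0 A0).nonunits := by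
  exact s35in_u_notMem_of_inv (va2V1 M q K0 A0) (s35in_u_ne_zero (M * q) s f hf)
    (s35in_u_V1 M q K0 A0 hs f hf).2

/-- `Φ f / f` is not in the maximal ideal of `V₂`. -/
theorem s35in_u_V2_notMem {s : K0 ≃ₐ[ℚ] K0} (hs : s ∈ A0.decompositionSubgroup ℚ)
    (f : ↥(laurentBaseChange K0 (modularFunctionFieldFull (M * q)))) (hf : f ≠ 0) :
    arithmeticRingAut (modularFunctionFieldFull (M * q)) s f * f⁻¹ ∉
      (va2V2 M q hM K0 A0).nonunits := by
  exact s35in_u_notMem_of_inv (va2V2 M q hM K0 A0) (s35in_u_ne_zero (M * q) s f hf)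
    (s35in_u_V2 M q hM K0 A0 hs f hf).2

end Level

section Norm

variable (M q : ℕ) [NeZero M] [NeZero q]
  (K0 : Type*) [Field K0] [Algebra ℚ K0]

/-- **The coefficientwise action commutes with the norm along `α`.** -/
theorem s35in_u_normA (s : K0 ≃ₐ[ℚ] K0)
    (f : ↥(laurentBaseChange K0 (modularFunctionFieldFull (M * q)))) :
    s35NormA K0 M q (arithmeticRingAut (modularFunctionFieldFull (M * q)) s f) =
      arithmeticRingAut (modularFunctionFieldFull M) s (s35NormA K0 M q f) := by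
  rw [s35NormA_def, s35NormA_def]
  let _ := algebraAlong (heckeAlphaBar K0 M q)
  have h := Algebra.norm_eq_of_equiv_equiv
    (arithmeticRingAut (modularFunctionFieldFull M) s)
    (arithmeticRingAut (modularFunctionFieldFull (M * q)) s)
    (RingHom.ext fun z => (s35in_u_alpha_gal M q s z).symm) f
  rw [h, RingEquiv.apply_symm_apply]

/-- **The coefficientwise action commutes with the norm along `β`.** -/
theorem s35in_u_normB (s : K0 ≃ₐ[ℚ] K0)
    (f : ↥(laurentBaseChange K0 (modularFunctionFieldFull (M * q)))) :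
    s35NormB K0 M q (arithmeticRingAut (modularFunctionFieldFull (M * q)) s f) =
      arithmeticRingAut (modularFunctionFieldFull M) s (s35NormB K0 M q f) := by
  rw [s35NormB_def, s35NormB_def]
  let _ := algebraAlong (heckeBetaBar K0 M q)
  have h := Algebra.norm_eq_of_equiv_equiv
    (arithmeticRingAut (modularFunctionFieldFull M) s)
    (arithmeticRingAut (modularFunctionFieldFull (M * q)) s)
    (RingHom.ext fun z => (s35in_u_beta_gal M q s z).symm) f
  rw [h, RingEquiv.apply_symm_apply]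

/-- If `N_α f = c e ^ m` then `N_α (Φ f / f) = (s c / c) (Φ e / e) ^ m`. -/
theorem s35in_u_normA_div (s : K0 ≃ₐ[ℚ] K0)
    (f : ↥(laurentBaseChange K0 (modularFunctionFieldFull (M * q)))) (hf : f ≠ 0)
    (c : K0) (e : ↥(laurentBaseChange K0 (modularFunctionFieldFull M))) (m : ℕ)
    (hN : s35NormA K0 M q f =
      algebraMap K0 ↥(laurentBaseChange K0 (modularFunctionFieldFull M)) c * e ^ m) :
    s35NormA K0 M q (arithmeticRingAut (modularFunctionFieldFull (M * q)) s f * f⁻¹) =
      algebraMap K0 ↥(laurentBaseChange K0 (modularFunctionFieldFull M)) (s c * c⁻¹) *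
        (arithmeticRingAut (modularFunctionFieldFull M) s e * e⁻¹) ^ m := by
  have h2 : s35NormA K0 M q f * s35NormA K0 M q f⁻¹ = 1 := by
    rw [← map_mul, mul_inv_cancel₀ hf, map_one]
  have h3 : s35NormA K0 M q f⁻¹ = (s35NormA K0 M q f)⁻¹ := eq_inv_of_mul_eq_one_right h2
  rw [map_mul, h3, s35in_u_normA, hN, map_mul, map_pow, arithmeticRingAut_algebraMap, mul_pow,
    mul_inv, inv_pow, map_mul, map_inv₀]
  ring

/-- If `N_β f = c e ^ m` then `N_β (Φ f / f) = (s c / c) (Φ e / e) ^ m`. -/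
theorem s35in_u_normB_div (s : K0 ≃ₐ[ℚ] K0)
    (f : ↥(laurentBaseChange K0 (modularFunctionFieldFull (M * q)))) (hf : f ≠ 0)
    (c : K0) (e : ↥(laurentBaseChange K0 (modularFunctionFieldFull M))) (m : ℕ)
    (hN : s35NormB K0 M q f =
      algebraMap K0 ↥(laurentBaseChange K0 (modularFunctionFieldFull M)) c * e ^ m) :
    s35NormB K0 M q (arithmeticRingAut (modularFunctionFieldFull (M * q)) s f * f⁻¹) =
      algebraMap K0 ↥(laurentBaseChange K0 (modularFunctionFieldFull M)) (s c * c⁻¹) *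
        (arithmeticRingAut (modularFunctionFieldFull M) s e * e⁻¹) ^ m := by
  have h2 : s35NormB K0 M q f * s35NormB K0 M q f⁻¹ = 1 := by
    rw [← map_mul, mul_inv_cancel₀ hf, map_one]
  have h3 : s35NormB K0 M q f⁻¹ = (s35NormB K0 M q f)⁻¹ := eq_inv_of_mul_eq_one_right h2
  rw [map_mul, h3, s35in_u_normB, hN, map_mul, map_pow, arithmeticRingAut_algebraMap, mul_pow,
    mul_inv, inv_pow, map_mul, map_inv₀]
  ring

end Norm

end Fermat.Agent.S35
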