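import Fermat.Agent.S35.NormBC
import Fermat.Agent.S35.HCoreDef
import Fermat.Agent.S34.Val2Swap
import Fermat.Agent.S34.Val2Deg
import Fermat.Agent.S37.HeckeDeg

/-!
# S35 — KUM-NORM-K1 : the norms along `α`, `β` commute with the base change `K0 → ℚ̄`

`K0` a field with an embedding into `ℚ̄` (`[Algebra K0 ℚ̄]`), `q ∤ M` a prime.

* `ndk_alpha` : `hkdNorm M q (bcfHom K0 ℚ̄ _ f₀) = bcfHom K0 ℚ̄ _ (s35NormA K0 M q f₀)`;
* `ndk_beta`  : `hkdNormBeta M q (bcfHom K0 ℚ̄ _ f₀) = bcfHom K0 ℚ̄ _ (s35NormB K0 M q f₀)`;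
* `ndk_finrank_beta`, `ndk_finite_beta` : `[K0(X₀(M q)) : β K0(X₀(M))] = q + 1`.

(`s35NormA`, `s35NormB` = `Algebra.norm` under `algebraAlong (heckeAlphaBar K0 M q)` resp.
`heckeBetaBar`; the statements hold verbatim for any definitionally equal norm.)
-/

set_option autoImplicit false
set_option linter.unusedSectionVars false
set_option linter.style.haveILetI false

open AlgebraicCurve ModularCurve Fermat.Agent.S18 Fermat.Agent.S37 Fermat.Agent.S34

namespace Fermat.Agent.S35

local notation "Qb" => AlgebraicClosure ℚ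

section gen

variable (K0 : Type*) [Field K0] [Algebra ℚ K0] [Algebra K0 Qb]

/-- the level-`N'` function field over `ℚ̄` is generated, over the image of any `ℚ̄`-embedding
`φ`, by the image of the level-`N'` function field over `K0`. -/
theorem ndk_gen (N N' : ℕ)
    (φ : ↥(modularFunctionFieldBar N) →ₐ[Qb] ↥(modularFunctionFieldBar N'))
    (y : ↥(modularFunctionFieldBar N')) :
    y ∈ Subfield.closure (Set.range φ.toRingHom ∪
      Set.range (bcfHom K0 Qb (modularFunctionFieldFull N'))) := by
  letI := bcfAlgebra K0 Qb (modularFunctionFieldFull N')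
  have h1 : y ∈ IntermediateField.adjoin ↥(laurentBaseChange K0 (modularFunctionFieldFull N'))
      (Set.range (algebraMap Qb ↥(laurentBaseChange Qb (modularFunctionFieldFull N')))) := by
    rw [bcf_adjoin_eq_top K0 Qb (modularFunctionFieldFull N')]
    trivial
  have h2 : y ∈ (IntermediateField.adjoin ↥(laurentBaseChange K0 (modularFunctionFieldFull N'))
      (Set.range (algebraMap Qb ↥(laurentBaseChange Qb (modularFunctionFieldFull N'))))).toSubfield :=
    h1
  rw [IntermediateField.adjoin_toSubfield] at h2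
  refine (Subfield.closure_le.2 ?_) h2
  rintro z (⟨w, rfl⟩ | ⟨c, rfl⟩)
  · exact Subfield.subset_closure (Or.inr ⟨w, rfl⟩)
  · refine Subfield.subset_closure (Or.inl ⟨algebraMap Qb _ c, ?_⟩)
    exact φ.commutes c

end gen

section main

variable (K0 : Type*) [Field K0] [Algebra ℚ K0] [Algebra K0 Qb]
  (M q : ℕ) [NeZero M] [NeZero q] (hq : q.Prime) (hM : ¬ q ∣ M)

include hq hM in
/-- **KUM-NORM-K1 (α).** -/
theorem ndk_alpha (f0 : ↥(laurentBaseChange K0 (modularFunctionFieldFull (M * q)))) :
    hkdNorm M q (bcfHom K0 Qb (modularFunctionFieldFull (M * q)) f0) =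
      bcfHom K0 Qb (modularFunctionFieldFull M) (s35NormA K0 M q f0) := by
  letI iK := algebraAlong (heckeAlphaBar K0 M q)
  letI iQ := algebraAlong (heckeAlphaBar Qb M q)
  haveI : FiniteDimensional ↥(laurentBaseChange K0 (modularFunctionFieldFull M))
      ↥(laurentBaseChange K0 (modularFunctionFieldFull (M * q))) := va2d_finite K0 M hq hM
  have hdeg : Module.finrank ↥(laurentBaseChange Qb (modularFunctionFieldFull M))
        ↥(laurentBaseChange Qb (modularFunctionFieldFull (M * q))) =
      Module.finrank ↥(laurentBaseChange K0 (modularFunctionFieldFull M))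
        ↥(laurentBaseChange K0 (modularFunctionFieldFull (M * q))) :=
    (va2d_finrank Qb M hq hM).trans (va2d_finrank K0 M hq hM).symm
  exact nbc_norm_eq_of_closure (bcfHom K0 Qb (modularFunctionFieldFull M))
    (bcfHom K0 Qb (modularFunctionFieldFull (M * q))) (fun a => va2_bcf_alpha M q K0 a) hdeg
    (ndk_gen K0 M (M * q) (heckeAlphaBar Qb M q)) f0

include hq hM in
/-- `[K0(X₀(M q)) : β K0(X₀(M))] = q + 1`. -/
theorem ndk_finrank_beta :
    finrankAlong K0 (heckeBetaBar K0 M q) = q + 1 := by
  rw [← va2d_finrank K0 M hq hM]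
  symm
  exact @Algebra.finrank_eq_of_equiv_equiv
    ↥(laurentBaseChange K0 (modularFunctionFieldFull M))
    ↥(laurentBaseChange K0 (modularFunctionFieldFull (M * q))) _ _
    (algebraAlong (heckeAlphaBar K0 M q))
    ↥(laurentBaseChange K0 (modularFunctionFieldFull M))
    ↥(laurentBaseChange K0 (modularFunctionFieldFull (M * q))) _ _
    (algebraAlong (heckeBetaBar K0 M q))
    (RingEquiv.refl _) (va2SwapEquiv M q hq hM K0)
    (RingHom.ext fun x => (va2Swap_alpha M q hq hM K0 x).symm)

include hq hM in
/-- `K0(X₀(M q))` is finite over `β K0(X₀(M))`. -/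
theorem ndk_finite_beta : FiniteAlong K0 (heckeBetaBar K0 M q) := by
  have h := ndk_finrank_beta K0 M q hq hM
  letI := algebraAlong (heckeBetaBar K0 M q)
  show Module.Finite ↥(laurentBaseChange K0 (modularFunctionFieldFull M))
    ↥(laurentBaseChange K0 (modularFunctionFieldFull (M * q)))
  exact Module.finite_of_finrank_pos (by
    have h' : Module.finrank ↥(laurentBaseChange K0 (modularFunctionFieldFull M))
      ↥(laurentBaseChange K0 (modularFunctionFieldFull (M * q))) = q + 1 := h
    omega)

include hq hM in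
/-- **KUM-NORM-K1 (β).** -/
theorem ndk_beta (f0 : ↥(laurentBaseChange K0 (modularFunctionFieldFull (M * q)))) :
    hkdNormBeta M q (bcfHom K0 Qb (modularFunctionFieldFull (M * q)) f0) =
      bcfHom K0 Qb (modularFunctionFieldFull M) (s35NormB K0 M q f0) := by
  letI iK := algebraAlong (heckeBetaBar K0 M q)
  letI iQ := algebraAlong (heckeBetaBar Qb M q)
  haveI : FiniteDimensional ↥(laurentBaseChange K0 (modularFunctionFieldFull M))
      ↥(laurentBaseChange K0 (modularFunctionFieldFull (M * q))) := ndk_finite_beta K0 M q hq hM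
  have hdeg : Module.finrank ↥(laurentBaseChange Qb (modularFunctionFieldFull M))
        ↥(laurentBaseChange Qb (modularFunctionFieldFull (M * q))) =
      Module.finrank ↥(laurentBaseChange K0 (modularFunctionFieldFull M))
        ↥(laurentBaseChange K0 (modularFunctionFieldFull (M * q))) :=
    (hkd_finrankAlong_beta M hq hM).trans (ndk_finrank_beta K0 M q hq hM).symm
  exact nbc_norm_eq_of_closure (bcfHom K0 Qb (modularFunctionFieldFull M))
    (bcfHom K0 Qb (modularFunctionFieldFull (M * q))) (fun a => va2_bcf_beta M q K0 a) hdeg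
    (ndk_gen K0 M (M * q) (heckeBetaBar Qb M q)) f0

end main

end Fermat.Agent.S35
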