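import Mathlib
import Fermat.Agent.S37.TwoValAbs
import Fermat.Agent.S37.FrobSeries

/-!
# S35 [CORE-NR], abstract Hecke form: the norm-residue formula for an arbitrary element

Same setting and binders as `tvc_main` (S37/TwoValCore):
`α β : E → F` two embeddings of fields exchanged by an endomorphism `w` of `F`
(`w ∘ α = β`, `w ∘ β = α`), `F` of degree `ℓ + 1` over `β E` (the algebra structure), `VE` a
valuation subring of `E` with residue map `ρE` into a field `L` of characteristic `ℓ`; `V₁` a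
subring of `F` with residue map `ρ₁` such that `ρ₁ ∘ α = ρE` and `ρ₁ ∘ β = φ ∘ ρE` for an
endomorphism `φ` of `L` (some `J = ρE j` has `J ^ ℓ = φ J`, `J ∉ φ L`).

`nrh_main`: for EVERY `u ∈ V₁ ∩ w⁻¹ V₁` and `z` with `(ρ₁ u) ^ ℓ = φ z`:
`N_{F/βE} u ∈ VE` and `ρE (N u) = z · ρ₁ (w u)`.

(`tvc_main` is the case `u = α g`.)  The proof is the proof of `tvc_main`.
-/

set_option autoImplicit false

namespace Fermat.Agent.S35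

open Fermat.Agent.S37

section NormResHecke

variable {E F L : Type*} [Field E] [Field F] [Algebra E F] [Field L]
  (ℓ : ℕ) [Fact ℓ.Prime] [CharP L ℓ]
  (α β : E →+* F) (hβ : ∀ a, algebraMap E F a = β a)
  (w : F →+* F) (hwα : ∀ a, w (α a) = β a) (hwβ : ∀ a, w (β a) = α a)
  (VE : ValuationSubring E) (ρE : VE →+* L) (hkerE : ∀ a : VE, (a : E)⁻¹ ∉ VE → ρE a = 0)
  (V₁ : Subring F) (ρ₁ : V₁ →+* L) (hinv : ∀ z : V₁, ρ₁ z ≠ 0 → (z : F)⁻¹ ∈ V₁)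
  (φ : L →+* L)
  (hα : ∀ a (ha : a ∈ VE), ∃ h : α a ∈ V₁, ρ₁ ⟨α a, h⟩ = ρE ⟨a, ha⟩)
  (hβ' : ∀ a (ha : a ∈ VE), ∃ h : β a ∈ V₁, ρ₁ ⟨β a, h⟩ = φ (ρE ⟨a, ha⟩))
  (jE : E) (hjE : jE ∈ VE) (hJφ : (ρE ⟨jE, hjE⟩) ^ ℓ = φ (ρE ⟨jE, hjE⟩))
  (hJ : ∀ c, φ c ≠ ρE ⟨jE, hjE⟩)
  (hdeg : Module.finrank E F = ℓ + 1)

include hβ hwα hwβ hkerE hinv hα hβ' hJφ hJ hdeg in
/-- **Norm-residue formula, abstract Hecke form, arbitrary element.** -/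
theorem nrh_main (u : F) (hu₁ : u ∈ V₁) (hu₂ : w u ∈ V₁) (z : L)
    (hz : (ρ₁ ⟨u, hu₁⟩) ^ ℓ = φ z) :
    ∃ hN : Algebra.norm E u ∈ VE, ρE ⟨_, hN⟩ = z * ρ₁ ⟨w u, hu₂⟩ := by
  classical
  -- the second residue map
  set V₂ : Subring F := V₁.comap w with hV₂def
  set ρ₂ : V₂ →+* L := ρ₁.comp (w.restrict V₂ V₁ (fun _ hx => hx)) with hρ₂
  have hρ₂a : ∀ (t : F) (ht : t ∈ V₂), ρ₂ ⟨t, ht⟩ = ρ₁ ⟨w t, ht⟩ := fun _ _ => rfl
  have hcongr : ∀ {t t' : F} (h : t = t') (ht : t ∈ V₁) (ht' : t' ∈ V₁),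
      ρ₁ ⟨t, ht⟩ = ρ₁ ⟨t', ht'⟩ := by
    intro t t' h ht ht'
    subst h
    rfl
  set J : L := ρE ⟨jE, hjE⟩ with hJdef
  set x : F := α jE with hx
  set y : F := β jE with hy
  obtain ⟨hx1, hρx⟩ := hα jE hjE
  obtain ⟨hy1, hρy'⟩ := hβ' jE hjE
  have hρy : ρ₁ ⟨y, hy1⟩ = J ^ ℓ := hρy'.trans hJφ.symm
  have hwx : w x = y := hwα jE
  have hwy : w y = x := hwβ jE
  -- the unit `s`
  set s : F := x ^ ℓ - y + (x - y ^ ℓ) with hs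
  have hs1 : s ∈ V₁ := add_mem (sub_mem (pow_mem hx1 ℓ) hy1) (sub_mem hx1 (pow_mem hy1 ℓ))
  have hρs : ρ₁ ⟨s, hs1⟩ = J - (J ^ ℓ) ^ ℓ := by
    have h1 : (⟨s, hs1⟩ : V₁) = ⟨x, hx1⟩ ^ ℓ - ⟨y, hy1⟩ + (⟨x, hx1⟩ - ⟨y, hy1⟩ ^ ℓ) := rfl
    rw [h1, map_add, map_sub, map_sub, map_pow, map_pow, hρx, hρy, sub_self, zero_add]
  have hρs0 : ρ₁ ⟨s, hs1⟩ ≠ 0 := by
    rw [hρs, sub_ne_zero]
    intro h
    have h2 : (J ^ ℓ) ^ ℓ = φ (φ J) := by rw [hJφ, ← map_pow, hJφ]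
    exact hJ (φ J) (h2.symm.trans h.symm)
  have hs0 : s ≠ 0 := by
    intro h0
    apply hρs0
    have : (⟨s, hs1⟩ : V₁) = 0 := Subtype.ext h0
    rw [this, map_zero]
  have hsi1 : s⁻¹ ∈ V₁ := hinv ⟨s, hs1⟩ hρs0
  set e : F := (x ^ ℓ - y) * s⁻¹ with he
  have he1 : e ∈ V₁ := mul_mem (sub_mem (pow_mem hx1 ℓ) hy1) hsi1
  have hρe : ρ₁ ⟨e, he1⟩ = 0 := by
    have h1 : (⟨e, he1⟩ : V₁) = (⟨x, hx1⟩ ^ ℓ - ⟨y, hy1⟩) * ⟨s⁻¹, hsi1⟩ := rfl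
    rw [h1, map_mul, map_sub, map_pow, hρx, hρy, sub_self, zero_mul]
  have hws : w s = -s := by
    rw [hs, map_add, map_sub, map_sub, map_pow, map_pow, hwx, hwy]
    ring
  have hwe : w e = 1 - e := by
    rw [he, map_mul, map_inv₀, hws, map_sub, map_pow, hwx, hwy]
    have h2 : x ^ ℓ - y = s - (x - y ^ ℓ) := by rw [hs]; ring
    rw [h2]
    field_simp
    ring
  have he2 : e ∈ V₂ := by
    rw [hV₂def, Subring.mem_comap, hwe]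
    exact sub_mem (one_mem _) he1
  have hρ2e : ρ₂ ⟨e, he2⟩ = 1 := by
    rw [hρ₂a]
    have h1 : ρ₁ ⟨w e, he2⟩ = ρ₁ (1 - ⟨e, he1⟩) := hcongr hwe _ (1 - (⟨e, he1⟩ : V₁)).2
    rw [h1, map_sub, map_one, hρe, sub_zero]
  -- the basis
  set b : Fin ℓ ⊕ Unit → F := Sum.elim (fun i => (1 - e) * x ^ (i : ℕ)) (fun _ => e) with hb
  have hb₁ : ∀ i, b i ∈ V₁ := by
    rintro (i | u)
    · exact mul_mem (sub_mem (one_mem _) he1) (pow_mem hx1 _)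
    · exact he1
  have hwb : ∀ i : Fin ℓ, w ((1 - e) * x ^ (i : ℕ)) = e * y ^ (i : ℕ) := by
    intro i
    rw [map_mul, map_sub, map_one, hwe, map_pow, hwx]
    ring
  have hb₂ : ∀ i, b i ∈ V₂ := by
    rintro (i | u)
    · rw [hV₂def, Subring.mem_comap]
      show w ((1 - e) * x ^ (i : ℕ)) ∈ V₁
      rw [hwb]
      exact mul_mem he1 (pow_mem hy1 _)
    · exact he2
  have hρ₁b : ∀ i, ρ₁ ⟨b i, hb₁ i⟩
      = Sum.elim (fun i : Fin ℓ => J ^ (i : ℕ)) (fun _ : Unit => 0) i := by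
    rintro (i | u)
    · have h1 : (⟨b (Sum.inl i), hb₁ (Sum.inl i)⟩ : V₁)
          = (1 - ⟨e, he1⟩) * ⟨x, hx1⟩ ^ (i : ℕ) := rfl
      rw [h1, map_mul, map_sub, map_one, hρe, sub_zero, one_mul, map_pow, hρx]
      rfl
    · exact hρe
  have hρ₂b : ∀ i, ρ₂ ⟨b i, hb₂ i⟩
      = Sum.elim (fun _ : Fin ℓ => 0) (fun _ : Unit => (1 : L)) i := by
    rintro (i | u)
    · rw [hρ₂a]
      have h1 : ρ₁ ⟨w (b (Sum.inl i)), hb₂ (Sum.inl i)⟩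
          = ρ₁ (⟨e, he1⟩ * ⟨y, hy1⟩ ^ (i : ℕ)) :=
        hcongr (hwb i) _ ((⟨e, he1⟩ : V₁) * ⟨y, hy1⟩ ^ (i : ℕ)).2
      rw [h1, map_mul, hρe, zero_mul]
      rfl
    · exact hρ2e
  have hindJ : ∀ c : Fin ℓ → L, ∑ i, φ (c i) * J ^ (i : ℕ) = 0 → ∀ i, c i = 0 :=
    fun c hc => tvf_indep ℓ φ J ⟨J, hJφ.symm⟩ hJ c hc
  have hind : ∀ c : Fin ℓ ⊕ Unit → L,
      ∑ i, φ (c i) * ρ₁ ⟨b i, hb₁ i⟩ = 0 →
      ∑ i, (RingHom.id L) (c i) * ρ₂ ⟨b i, hb₂ i⟩ = 0 → ∀ i, c i = 0 := by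
    intro c h1 h2
    simp only [hρ₁b, Fintype.sum_sum_type, Sum.elim_inl, Sum.elim_inr, mul_zero,
      Finset.sum_const_zero, add_zero] at h1
    simp only [hρ₂b, Fintype.sum_sum_type, Sum.elim_inl, Sum.elim_inr, mul_zero,
      Finset.sum_const_zero, zero_add, mul_one, RingHom.id_apply] at h2
    have hc1 := hindJ (fun i => c (Sum.inl i)) h1
    rintro (i | u)
    · exact hc1 i
    · simpa using h2
  have hcard : Fintype.card (Fin ℓ ⊕ Unit) = Module.finrank E F := by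
    rw [hdeg]
    simp
  -- membership and residues of the images of `VE`
  have hV₁ : ∀ a ∈ VE, algebraMap E F a ∈ V₁ := fun a ha => by
    rw [hβ]
    exact (hβ' a ha).1
  have hV₂ : ∀ a ∈ VE, algebraMap E F a ∈ V₂ := fun a ha => by
    rw [hβ, hV₂def, Subring.mem_comap, hwβ]
    exact (hα a ha).1
  have hρ₁E : ∀ (a : E) (ha : a ∈ VE), ρ₁ ⟨algebraMap E F a, hV₁ a ha⟩ = φ (ρE ⟨a, ha⟩) := by
    intro a ha
    obtain ⟨h, hh⟩ := hβ' a ha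
    rw [← hh]
    exact hcongr (hβ a) _ _
  have hρ₂E : ∀ (a : E) (ha : a ∈ VE),
      ρ₂ ⟨algebraMap E F a, hV₂ a ha⟩ = (RingHom.id L) (ρE ⟨a, ha⟩) := by
    intro a ha
    obtain ⟨h, hh⟩ := hα a ha
    rw [hρ₂a, RingHom.id_apply, ← hh]
    exact hcongr ((congrArg w (hβ a)).trans (hwβ a)) _ _
  have hu2 : u ∈ V₂ := hu₂
  have hρu2 : ρ₂ ⟨u, hu2⟩ = ρ₁ ⟨w u, hu₂⟩ := hρ₂a u hu2
  obtain ⟨m, hnorm, hrel₁, hrel₂⟩ := tva_main VE V₁ V₂ hV₁ hV₂ ρE ρ₁ ρ₂ φ (RingHom.id L)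
    hρ₁E hρ₂E hkerE b hb₁ hb₂ hind hcard u hu₁ hu2
  set y₁ : L := ρ₁ ⟨u, hu₁⟩ with hy₁
  set y₂ : L := ρ₁ ⟨w u, hu₂⟩ with hy₂
  rw [hρu2] at hrel₂
  set mbar : Matrix (Fin ℓ ⊕ Unit) (Fin ℓ ⊕ Unit) L := ρE.mapMatrix m with hmbar
  obtain ⟨hdet, hblk₁, hblk₂⟩ := tva_block φ (RingHom.id L)
    (fun i : Fin ℓ => J ^ (i : ℕ)) (fun _ : Unit => (1 : L))
    (fun c hc i => by simpa using hc) mbar y₁ y₂
    (fun j => by
      have h := hrel₁ j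
      simp only [hρ₁b] at h
      exact h)
    (fun j => by
      have h := hrel₂ j
      simp only [hρ₂b] at h
      exact h)
  have h22 : mbar.toBlocks₂₂.det = y₂ := by
    rw [Matrix.det_unique]
    have h := hblk₂ ()
    simp only [mul_one, Finset.univ_unique, Finset.sum_singleton, RingHom.id_apply] at h
    exact h.symm
  have h11 : mbar.toBlocks₁₁.det = z :=
    tva_frob ℓ φ (fun i : Fin ℓ => J ^ (i : ℕ)) hindJ mbar.toBlocks₁₁ y₁ z hblk₁ hz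
      (Fintype.card_fin ℓ)
  have hNmem : Algebra.norm E u ∈ VE := by
    rw [hnorm]
    exact (m.det).2
  refine ⟨hNmem, ?_⟩
  have h1 : (⟨Algebra.norm E u, hNmem⟩ : VE) = m.det := Subtype.ext hnorm
  rw [h1, RingHom.map_det, ← hmbar, hdet, h11, h22]

end NormResHecke

end Fermat.Agent.S35
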