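import Mathlib
import Fermat.Agent.S34.Val2Exh
import Fermat.Agent.S34.Val2Deg
import Fermat.Agent.S34.Val2Inst
import Fermat.Agent.S35.FrobKron
import Fermat.Agent.S35.InstUnitV
import Fermat.Agent.S35.CoreRes
import Fermat.Agent.S35.NormResHecke
import Fermat.Agent.S35.HCoreDef
import Fermat.Agent.S35.NormDescK

/-!
# S35, package CORE-RES at the `Val2Def` carrier (the hypothesis `hres` of CORE-ABS)

`K0` a field with an embedding into `ℚ̄`, `A0` a discrete valuation subring of `K0` over the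
prime `q ∤ M`, `s` a Frobenius element of `A0` at `q`, `E = K0(X₀(M))`, `F = K0(X₀(M q))`,
`V₁ = va2V1`, `V₂ = va2V2`, `Φ` = the coefficientwise action of `s` on `E`, `σ` = the
coefficientwise action of `s * s` on `F`.

* `cri19_nr_beta`, `cri19_nr_alpha`: the norm-residue formula at the carrier, element form:
  for `u ∈ V₁ ∩ V₂` with `u ≡ α a` on `V₁` and `u ≡ β b` on `V₂` (`a`, `b` Gauss-integral of
  level `M`): `N_β u ≡ Φ a · b` and `N_α u ≡ a · Φ b` modulo the maximal ideal of the Gauss ring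
  of level `M` (`nrh_main`; the `α` form from the `β` form through `cri19_norm_swap`:
  `N_α u = N_β (w u)`).
* `cri19_bridge`: `α z`, `β z` lie in the maximal ideal of `V₁` (of `V₂`) iff `z` lies in the
  maximal ideal of the Gauss ring of level `M`.
* `cri19_main`: if the two norms of `f₀ ≠ 0` are constants times `m`-th powers, then
  `(σ - 1)² f₀ = σ (σ f₀) · f₀ / (σ f₀)²` is congruent to `C₁ w₁ ^ m` modulo `𝔪_{V₁}` and to
  `C₂ w₂ ^ m` modulo `𝔪_{V₂}`, with `C₁, C₂` units of `A0` and `w₁`, `w₂` units of `V₁`, `V₂`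
  (`crs_main` applied to `u = σ f₀ / f₀`).
* `cri19_hres`: the same statement in the shape of the input `hRES` of `s35in_c_infield`.
-/

set_option autoImplicit false
set_option linter.unusedSectionVars false

noncomputable section

open ModularCurve AlgebraicCurve Polynomial
open Fermat.Agent.S18 Fermat.Agent.S37 Fermat.Agent.S34

namespace Fermat.Agent.S35

local notation "Qb" => AlgebraicClosure ℚ

section CoreResCarrier

variable (M q : ℕ) [NeZero M] [hq : Fact q.Prime] (hM : ¬ q ∣ M)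
  (K0 : Type*) [Field K0] [Algebra ℚ K0] [Algebra K0 Qb]
  (A0 : ValuationSubring K0) [IsDiscreteValuationRing ↥A0]

/-- congruent elements of `V₁` have equal Gauss residues -/
theorem cri19_rho_eq (x y : ↥(laurentBaseChange K0 (modularFunctionFieldFull (M * q))))
    (hx : x ∈ va2V1 M q K0 A0) (hy : y ∈ va2V1 M q K0 A0)
    (h : x - y ∈ (va2V1 M q K0 A0).nonunits) :
    va2xRho1 M q K0 A0 ⟨x, hx⟩ = va2xRho1 M q K0 A0 ⟨y, hy⟩ := by
  obtain ⟨h1, h2⟩ := (cinst_mem_nonunits_iff (va2V1 M q K0 A0) (fun _ => Iff.rfl) (x - y)).mp h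
  have h3 : va2xRho1 M q K0 A0 (⟨x, hx⟩ - ⟨y, hy⟩) = 0 := h2
  rw [map_sub, sub_eq_zero] at h3
  exact h3

/-- **Norm-residue formula for `N_β`** at the carrier, element form. -/
theorem cri19_nr_beta (hA0 : A0.LiesOverPrime q) {s : K0 ≃ₐ[ℚ] K0} (hs : A0.IsFrobeniusAt s q)
    (u : ↥(laurentBaseChange K0 (modularFunctionFieldFull (M * q))))
    (hu₁ : u ∈ va2V1 M q K0 A0) (hu₂ : u ∈ va2V2 M q hM K0 A0)
    (a b : ↥(laurentBaseChange K0 (modularFunctionFieldFull M)))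
    (ha : (a : LaurentSeries K0) ∈ grV A0) (hb : (b : LaurentSeries K0) ∈ grV A0)
    (hua : u - heckeAlphaBar K0 M q a ∈ (va2V1 M q K0 A0).nonunits)
    (hub : u - heckeBetaBar K0 M q b ∈ (va2V2 M q hM K0 A0).nonunits) :
    s35NormB K0 M q u - arithmeticRingAut (modularFunctionFieldFull M) s a * b
      ∈ (grO A0 hA0 M hM).nonunits := by
  let _ : Algebra ↥(laurentBaseChange K0 (modularFunctionFieldFull M))
      ↥(laurentBaseChange K0 (modularFunctionFieldFull (M * q))) :=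
    algebraAlong (heckeBetaBar K0 M q)
  have hcharA : CharP (IsLocalRing.ResidueField A0) q := grc_charP A0 q hA0
  have hchar := tvf_charP (k := IsLocalRing.ResidueField A0) q
  have hJmem : grJ K0 M ∈ grO A0 hA0 M hM := gr_jqModC_mem A0
  have hJres : grRes A0 hA0 M hM ⟨_, hJmem⟩ = jqModC (IsLocalRing.ResidueField A0) :=
    grRho_jqModC A0 _
  have hdeg : Module.finrank ↥(laurentBaseChange K0 (modularFunctionFieldFull M))
      ↥(laurentBaseChange K0 (modularFunctionFieldFull (M * q))) = q + 1 :=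
    ndk_finrank_beta K0 M q hq.out hM
  have hΦa : ((arithmeticRingAut (modularFunctionFieldFull M) s a :
      ↥(laurentBaseChange K0 (modularFunctionFieldFull M))) : LaurentSeries K0) ∈ grV A0 :=
    fkr_gauss_mem A0 _ hs.mem_decompositionSubgroup a ha
  obtain ⟨h1, e1⟩ := va2x_ha M q hM K0 A0 hA0 a ha
  obtain ⟨h2, e2⟩ := va2x_hb M q hM K0 A0 hA0
    (arithmeticRingAut (modularFunctionFieldFull M) s a) hΦa
  obtain ⟨h3, e3⟩ := va2x_ha M q hM K0 A0 hA0 b hb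
  -- the residue `z`
  have hz : (va2xRho1 M q K0 A0 ⟨u, hu₁⟩) ^ q
      = qExpand (IsLocalRing.ResidueField A0) q
          (grRes A0 hA0 M hM ⟨arithmeticRingAut (modularFunctionFieldFull M) s a, hΦa⟩) := by
    rw [← e2, cri19_rho_eq M q K0 A0 u _ hu₁ h1 hua, ← map_pow]
    exact cri19_rho_eq M q K0 A0 _ _ (pow_mem h1 q) h2 (fkr_kron1 M q K0 A0 hA0 hs a ha)
  obtain ⟨hN, hNρ⟩ := nrh_main q (heckeAlphaBar K0 M q).toRingHom
    (heckeBetaBar K0 M q).toRingHom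
    (fun _ => rfl) (va2Swap M q hq.out hM K0) (va2Swap_alpha M q hq.out hM K0)
    (va2Swap_beta M q hq.out hM K0)
    (grO A0 hA0 M hM) (grRes A0 hA0 M hM) (va2x_hkerE M q hM K0 A0 hA0)
    (va2V1 M q K0 A0).toSubring (va2xRho1 M q K0 A0) (va2x_hinv M q K0 A0)
    (qExpand (IsLocalRing.ResidueField A0) q)
    (va2x_ha M q hM K0 A0 hA0) (va2x_hb M q hM K0 A0 hA0)
    (grJ K0 M) hJmem (by rw [hJres]; exact tvf_jq_pow q) (by rw [hJres]; exact tvf_jq_not_range q)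
    hdeg u hu₁ hu₂ _ hz
  -- the residue of `w u`
  have hwu : va2Swap M q hq.out hM K0 u - heckeAlphaBar K0 M q b
      ∈ (va2V1 M q K0 A0).nonunits := by
    have h := (va2_mem_nonunits_V2 A0 M q hM _).mp hub
    rwa [map_sub, va2Swap_beta] at h
  have e4 : va2xRho1 M q K0 A0 ⟨va2Swap M q hq.out hM K0 u, hu₂⟩
      = grRes A0 hA0 M hM ⟨b, hb⟩ :=
    (cri19_rho_eq M q K0 A0 _ _ hu₂ h3 hwu).trans e3
  rw [e4] at hNρ
  have key := (gr_mem_nonunits_iff_grRes A0 hA0 M hM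
    (⟨_, hN⟩ - ⟨arithmeticRingAut (modularFunctionFieldFull M) s a, hΦa⟩ * ⟨b, hb⟩)).mpr (by
      rw [map_sub, map_mul, hNρ, sub_self])
  exact key

/-- the norm along `α` is the norm along `β` after the swap -/
theorem cri19_norm_swap (u : ↥(laurentBaseChange K0 (modularFunctionFieldFull (M * q)))) :
    s35NormA K0 M q u = s35NormB K0 M q (va2Swap M q hq.out hM K0 u) := by
  rw [s35NormA_def, s35NormB_def]
  exact @Algebra.norm_eq_of_equiv_equiv
    ↥(laurentBaseChange K0 (modularFunctionFieldFull M))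
    ↥(laurentBaseChange K0 (modularFunctionFieldFull (M * q)))
    ↥(laurentBaseChange K0 (modularFunctionFieldFull M))
    ↥(laurentBaseChange K0 (modularFunctionFieldFull (M * q))) _ _ _ _
    (algebraAlong (heckeAlphaBar K0 M q)) (algebraAlong (heckeBetaBar K0 M q))
    (RingEquiv.refl _) (va2SwapEquiv M q hq.out hM K0)
    (RingHom.ext fun x => (va2Swap_alpha M q hq.out hM K0 x).symm) u

/-- **Norm-residue formula for `N_α`** at the carrier, element form. -/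
theorem cri19_nr_alpha (hA0 : A0.LiesOverPrime q) {s : K0 ≃ₐ[ℚ] K0} (hs : A0.IsFrobeniusAt s q)
    (u : ↥(laurentBaseChange K0 (modularFunctionFieldFull (M * q))))
    (hu₁ : u ∈ va2V1 M q K0 A0) (hu₂ : u ∈ va2V2 M q hM K0 A0)
    (a b : ↥(laurentBaseChange K0 (modularFunctionFieldFull M)))
    (ha : (a : LaurentSeries K0) ∈ grV A0) (hb : (b : LaurentSeries K0) ∈ grV A0)
    (hua : u - heckeAlphaBar K0 M q a ∈ (va2V1 M q K0 A0).nonunits)
    (hub : u - heckeBetaBar K0 M q b ∈ (va2V2 M q hM K0 A0).nonunits) :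
    s35NormA K0 M q u - a * arithmeticRingAut (modularFunctionFieldFull M) s b
      ∈ (grO A0 hA0 M hM).nonunits := by
  rw [cri19_norm_swap M q hM K0 u]
  have hwu₁ : va2Swap M q hq.out hM K0 u ∈ va2V1 M q K0 A0 := hu₂
  have hwu₂ : va2Swap M q hq.out hM K0 u ∈ va2V2 M q hM K0 A0 := by
    rw [mem_va2V2, va2Swap_swap]
    exact hu₁
  have h1 : va2Swap M q hq.out hM K0 u - heckeAlphaBar K0 M q b
      ∈ (va2V1 M q K0 A0).nonunits := by
    have h := (va2_mem_nonunits_V2 A0 M q hM _).mp hub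
    rwa [map_sub, va2Swap_beta] at h
  have h2 : va2Swap M q hq.out hM K0 u - heckeBetaBar K0 M q a
      ∈ (va2V2 M q hM K0 A0).nonunits := by
    rw [va2_mem_nonunits_V2, map_sub, va2Swap_swap, va2Swap_beta]
    exact hua
  have h := cri19_nr_beta M q hM K0 A0 hA0 hs (va2Swap M q hq.out hM K0 u) hwu₁ hwu₂ b a hb ha
    h1 h2
  rw [mul_comm a]
  exact h

/-- non-units of `V₁` are the elements with Gauss residue zero -/
theorem cri19_V1_nonunits_iff (x : ↥(laurentBaseChange K0 (modularFunctionFieldFull (M * q))))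
    (hx : x ∈ va2V1 M q K0 A0) :
    x ∈ (va2V1 M q K0 A0).nonunits ↔ va2xRho1 M q K0 A0 ⟨x, hx⟩ = 0 := by
  constructor
  · intro h
    obtain ⟨h1, h2⟩ := (cinst_mem_nonunits_iff (va2V1 M q K0 A0) (fun _ => Iff.rfl) x).mp h
    exact h2
  · intro h
    exact va2x_mem_nonunits (va2V1 M q K0 A0) (va2xRho1 M q K0 A0) x hx h

/-- the four bridges between the maximal ideals of `V₁`, `V₂` and of the Gauss ring of level
`M` along `α`, `β` -/
theorem cri19_bridge (hA0 : A0.LiesOverPrime q)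
    (z : ↥(laurentBaseChange K0 (modularFunctionFieldFull M)))
    (hz : z ∈ grO A0 hA0 M hM) :
    (heckeAlphaBar K0 M q z ∈ (va2V1 M q K0 A0).nonunits ↔ z ∈ (grO A0 hA0 M hM).nonunits) ∧
    (heckeAlphaBar K0 M q z ∈ (va2V2 M q hM K0 A0).nonunits ↔
      z ∈ (grO A0 hA0 M hM).nonunits) ∧
    (heckeBetaBar K0 M q z ∈ (va2V1 M q K0 A0).nonunits ↔ z ∈ (grO A0 hA0 M hM).nonunits) ∧
    (heckeBetaBar K0 M q z ∈ (va2V2 M q hM K0 A0).nonunits ↔
      z ∈ (grO A0 hA0 M hM).nonunits) := by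
  obtain ⟨h1, e1⟩ := va2x_ha M q hM K0 A0 hA0 z hz
  obtain ⟨h2, e2⟩ := va2x_hb M q hM K0 A0 hA0 z hz
  have hE := gr_mem_nonunits_iff_grRes A0 hA0 M hM ⟨z, hz⟩
  have hα : heckeAlphaBar K0 M q z ∈ (va2V1 M q K0 A0).nonunits ↔
      z ∈ (grO A0 hA0 M hM).nonunits := by
    refine (cri19_V1_nonunits_iff M q K0 A0 _ h1).trans ?_
    rw [e1]
    exact hE.symm
  have hβ : heckeBetaBar K0 M q z ∈ (va2V1 M q K0 A0).nonunits ↔
      z ∈ (grO A0 hA0 M hM).nonunits := by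
    refine (cri19_V1_nonunits_iff M q K0 A0 _ h2).trans ?_
    rw [e2, map_eq_zero]
    exact hE.symm
  refine ⟨hα, ?_, hβ, ?_⟩
  · rw [va2_mem_nonunits_V2, va2Swap_alpha]
    exact hβ
  · rw [va2_mem_nonunits_V2, va2Swap_beta]
    exact hα

/-- `s c / c` is a unit of `A0` for `s` in the decomposition group -/
theorem cri19_const_unit (N : ℕ) [NeZero N] {s' : K0 ≃ₐ[ℚ] K0}
    (hs' : s' ∈ A0.decompositionSubgroup ℚ) (c : K0)
    (hc : c ≠ 0) : s' c * c⁻¹ ∈ A0 ∧ (s' c * c⁻¹)⁻¹ ∈ A0 := by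
  have hc' : algebraMap K0 ↥(laurentBaseChange K0 (modularFunctionFieldFull N)) c ≠ 0 := by
    rw [Ne, map_eq_zero]
    exact hc
  obtain ⟨h1, h2⟩ := s35in_u_graOf A0 N hs'
    (algebraMap K0 ↥(laurentBaseChange K0 (modularFunctionFieldFull N)) c) hc'
  rw [arithmeticRingAut_algebraMap, ← map_inv₀, ← map_mul] at h1 h2
  rw [← map_inv₀] at h2
  exact ⟨(gr_algebraMap_mem_iff A0 _).mp h1, (gr_algebraMap_mem_iff A0 _).mp h2⟩

/-- normalisation of a norm hypothesis `N f = c e ^ m`: `c ≠ 0` and `e ≠ 0` -/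
theorem cri19_norm_data
    (N : ↥(laurentBaseChange K0 (modularFunctionFieldFull (M * q))) →*
      ↥(laurentBaseChange K0 (modularFunctionFieldFull M)))
    (f : ↥(laurentBaseChange K0 (modularFunctionFieldFull (M * q)))) (hf : f ≠ 0) (m : ℕ)
    (h : ∃ (c : K0) (e : ↥(laurentBaseChange K0 (modularFunctionFieldFull M))),
      N f = algebraMap K0 ↥(laurentBaseChange K0 (modularFunctionFieldFull M)) c * e ^ m) :
    ∃ (c : K0) (e : ↥(laurentBaseChange K0 (modularFunctionFieldFull M))), c ≠ 0 ∧ e ≠ 0 ∧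
      N f = algebraMap K0 ↥(laurentBaseChange K0 (modularFunctionFieldFull M)) c * e ^ m := by
  obtain ⟨c, e, hN⟩ := h
  have hN0 : N f ≠ 0 := (IsUnit.map N (IsUnit.mk0 f hf)).ne_zero
  have hc : c ≠ 0 := by
    rintro rfl
    rw [map_zero, zero_mul] at hN
    exact hN0 hN
  by_cases he : e = 0
  · by_cases hm : m = 0
    · subst hm
      exact ⟨c, 1, hc, one_ne_zero, by rw [hN, pow_zero, pow_zero]⟩
    · exfalso
      rw [he, zero_pow hm, mul_zero] at hN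
      exact hN0 hN
  · exact ⟨c, e, hc, he, hN⟩

/-- constants of `A0` are Gauss-integral of level `M` -/
theorem cri19_const_mem (hA0 : A0.LiesOverPrime q) (d : K0) (hd : d ∈ A0) :
    algebraMap K0 ↥(laurentBaseChange K0 (modularFunctionFieldFull M)) d ∈ grO A0 hA0 M hM :=
  gr_algebraMap_mem A0 ⟨d, hd⟩

/-- `β` maps the Gauss ring of level `M` into `V₂` -/
theorem cri19_beta_mem_V2 (hA0 : A0.LiesOverPrime q)
    (z : ↥(laurentBaseChange K0 (modularFunctionFieldFull M))) (hz : z ∈ grO A0 hA0 M hM) :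
    heckeBetaBar K0 M q z ∈ va2V2 M q hM K0 A0 := by
  rw [mem_va2V2, va2Swap_beta]
  exact (va2x_ha M q hM K0 A0 hA0 z hz).1

/-- reshaping of the constant and the unit, `α` side -/
theorem cri19_reshape_alpha
    [Algebra ↥A0 ↥(laurentBaseChange K0 (modularFunctionFieldFull (M * q)))]
    [IsScalarTower ↥A0 K0 ↥(laurentBaseChange K0 (modularFunctionFieldFull (M * q)))]
    (s : K0 ≃ₐ[ℚ] K0) (d₁ d₂ : K0) (hk : s d₂ * d₁⁻¹ ∈ A0)
    (ε : ↥(laurentBaseChange K0 (modularFunctionFieldFull M))) (m : ℕ) :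
    algebraMap ↥A0 ↥(laurentBaseChange K0 (modularFunctionFieldFull (M * q))) ⟨s d₂ * d₁⁻¹, hk⟩ *
        heckeAlphaBar K0 M q ε ^ m
      = heckeAlphaBar K0 M q
          (arithmeticRingAut (modularFunctionFieldFull M) s
              (algebraMap K0 ↥(laurentBaseChange K0 (modularFunctionFieldFull M)) d₂) *
            (algebraMap K0 ↥(laurentBaseChange K0 (modularFunctionFieldFull M)) d₁)⁻¹ *
            ε ^ m) := by
  rw [map_mul, map_pow, arithmeticRingAut_algebraMap, ← map_inv₀, ← map_mul, AlgHom.commutes,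
    IsScalarTower.algebraMap_apply ↥A0 K0]
  rfl

/-- reshaping of the constant and the unit, `β` side -/
theorem cri19_reshape_beta
    [Algebra ↥A0 ↥(laurentBaseChange K0 (modularFunctionFieldFull (M * q)))]
    [IsScalarTower ↥A0 K0 ↥(laurentBaseChange K0 (modularFunctionFieldFull (M * q)))]
    (s : K0 ≃ₐ[ℚ] K0) (d₁ d₂ : K0) (hk : s d₂ * d₁⁻¹ ∈ A0)
    (ε : ↥(laurentBaseChange K0 (modularFunctionFieldFull M))) (m : ℕ) :
    algebraMap ↥A0 ↥(laurentBaseChange K0 (modularFunctionFieldFull (M * q))) ⟨s d₂ * d₁⁻¹, hk⟩ *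
        heckeBetaBar K0 M q ε ^ m
      = heckeBetaBar K0 M q
          (arithmeticRingAut (modularFunctionFieldFull M) s
              (algebraMap K0 ↥(laurentBaseChange K0 (modularFunctionFieldFull M)) d₂) *
            (algebraMap K0 ↥(laurentBaseChange K0 (modularFunctionFieldFull M)) d₁)⁻¹ *
            ε ^ m) := by
  rw [map_mul, map_pow, arithmeticRingAut_algebraMap, ← map_inv₀, ← map_mul, AlgHom.commutes,
    IsScalarTower.algebraMap_apply ↥A0 K0]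
  rfl

/-- final transport, `α` side -/
theorem cri19_final_alpha
    [Algebra ↥A0 ↥(laurentBaseChange K0 (modularFunctionFieldFull (M * q)))]
    [IsScalarTower ↥A0 K0 ↥(laurentBaseChange K0 (modularFunctionFieldFull (M * q)))]
    (s : K0 ≃ₐ[ℚ] K0) (d₁ d₂ : K0) (hk : s d₂ * d₁⁻¹ ∈ A0)
    (ε : ↥(laurentBaseChange K0 (modularFunctionFieldFull M))) (m : ℕ)
    (V : ValuationSubring ↥(laurentBaseChange K0 (modularFunctionFieldFull (M * q))))
    (W W' : ↥(laurentBaseChange K0 (modularFunctionFieldFull (M * q)))) (hW : W' = W)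
    (h : W' - heckeAlphaBar K0 M q
          (arithmeticRingAut (modularFunctionFieldFull M) s
              (algebraMap K0 ↥(laurentBaseChange K0 (modularFunctionFieldFull M)) d₂) *
            (algebraMap K0 ↥(laurentBaseChange K0 (modularFunctionFieldFull M)) d₁)⁻¹ *
            ε ^ m) ∈ V.nonunits) :
    W - algebraMap ↥A0 ↥(laurentBaseChange K0 (modularFunctionFieldFull (M * q)))
          ⟨s d₂ * d₁⁻¹, hk⟩ * heckeAlphaBar K0 M q ε ^ m ∈ V.nonunits := by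
  subst hW
  rw [cri19_reshape_alpha M q K0 A0 s d₁ d₂ hk ε m]
  exact h

/-- final transport, `β` side -/
theorem cri19_final_beta
    [Algebra ↥A0 ↥(laurentBaseChange K0 (modularFunctionFieldFull (M * q)))]
    [IsScalarTower ↥A0 K0 ↥(laurentBaseChange K0 (modularFunctionFieldFull (M * q)))]
    (s : K0 ≃ₐ[ℚ] K0) (d₁ d₂ : K0) (hk : s d₂ * d₁⁻¹ ∈ A0)
    (ε : ↥(laurentBaseChange K0 (modularFunctionFieldFull M))) (m : ℕ)
    (V : ValuationSubring ↥(laurentBaseChange K0 (modularFunctionFieldFull (M * q))))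
    (W W' : ↥(laurentBaseChange K0 (modularFunctionFieldFull (M * q)))) (hW : W' = W)
    (h : W' - heckeBetaBar K0 M q
          (arithmeticRingAut (modularFunctionFieldFull M) s
              (algebraMap K0 ↥(laurentBaseChange K0 (modularFunctionFieldFull M)) d₂) *
            (algebraMap K0 ↥(laurentBaseChange K0 (modularFunctionFieldFull M)) d₁)⁻¹ *
            ε ^ m) ∈ V.nonunits) :
    W - algebraMap ↥A0 ↥(laurentBaseChange K0 (modularFunctionFieldFull (M * q)))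
          ⟨s d₂ * d₁⁻¹, hk⟩ * heckeBetaBar K0 M q ε ^ m ∈ V.nonunits := by
  subst hW
  rw [cri19_reshape_beta M q K0 A0 s d₁ d₂ hk ε m]
  exact h

/-- **CORE-RES at the carrier**: the residues of `(σ - 1)² f₀` on the two components are
constants times `m`-th powers (`hres` of CORE-ABS), for `σ` the coefficientwise action of the
square of a Frobenius element, when the two norms of `f₀` are constants times `m`-th powers. -/
theorem cri19_main (hA0 : A0.LiesOverPrime q) {s : K0 ≃ₐ[ℚ] K0} (hs : A0.IsFrobeniusAt s q)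
    [Algebra ↥A0 ↥(laurentBaseChange K0 (modularFunctionFieldFull (M * q)))]
    [IsScalarTower ↥A0 K0 ↥(laurentBaseChange K0 (modularFunctionFieldFull (M * q)))]
    (m : ℕ) (f₀ : ↥(laurentBaseChange K0 (modularFunctionFieldFull (M * q)))) (hf₀ : f₀ ≠ 0)
    (hNa : ∃ (c : K0) (e : ↥(laurentBaseChange K0 (modularFunctionFieldFull M))),
      s35NormA K0 M q f₀ =
        algebraMap K0 ↥(laurentBaseChange K0 (modularFunctionFieldFull M)) c * e ^ m)
    (hNb : ∃ (c : K0) (e : ↥(laurentBaseChange K0 (modularFunctionFieldFull M))),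
      s35NormB K0 M q f₀ =
        algebraMap K0 ↥(laurentBaseChange K0 (modularFunctionFieldFull M)) c * e ^ m) :
    ∃ (C₁ C₂ : A0) (w₁ w₂ : ↥(laurentBaseChange K0 (modularFunctionFieldFull (M * q)))),
      IsUnit C₁ ∧ IsUnit C₂ ∧
      w₁ ∈ va2V1 M q K0 A0 ∧ w₁⁻¹ ∈ va2V1 M q K0 A0 ∧
      w₂ ∈ va2V2 M q hM K0 A0 ∧ w₂⁻¹ ∈ va2V2 M q hM K0 A0 ∧
      arithmeticRingAut (modularFunctionFieldFull (M * q)) (s * s)
            (arithmeticRingAut (modularFunctionFieldFull (M * q)) (s * s) f₀) * f₀ *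
          ((arithmeticRingAut (modularFunctionFieldFull (M * q)) (s * s) f₀)⁻¹) ^ 2 -
        algebraMap ↥A0 ↥(laurentBaseChange K0 (modularFunctionFieldFull (M * q))) C₁ * w₁ ^ m
          ∈ (va2V1 M q K0 A0).nonunits ∧
      arithmeticRingAut (modularFunctionFieldFull (M * q)) (s * s)
            (arithmeticRingAut (modularFunctionFieldFull (M * q)) (s * s) f₀) * f₀ *
          ((arithmeticRingAut (modularFunctionFieldFull (M * q)) (s * s) f₀)⁻¹) ^ 2 -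
        algebraMap ↥A0 ↥(laurentBaseChange K0 (modularFunctionFieldFull (M * q))) C₂ * w₂ ^ m
          ∈ (va2V2 M q hM K0 A0).nonunits := by
  classical
  have hs1 : s ∈ A0.decompositionSubgroup ℚ := hs.mem_decompositionSubgroup
  have hs2 : s * s ∈ A0.decompositionSubgroup ℚ := mul_mem hs1 hs1
  have hdeg := va2d_finrank K0 M hq.out hM
  obtain ⟨cα, eα, hcα, heα, hNα⟩ := cri19_norm_data M q K0 (s35NormA K0 M q) f₀ hf₀ m hNa
  obtain ⟨cβ, eβ, hcβ, heβ, hNβ⟩ := cri19_norm_data M q K0 (s35NormB K0 M q) f₀ hf₀ m hNb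
  set σ := arithmeticRingAut (modularFunctionFieldFull (M * q)) (s * s) with hσ
  set Φ := arithmeticRingAut (modularFunctionFieldFull M) s with hΦ
  set σE := arithmeticRingAut (modularFunctionFieldFull M) (s * s) with hσE
  set u := σ f₀ * f₀⁻¹ with hu
  have hu0 : u ≠ 0 := s35in_u_ne_zero (M * q) (s * s) f₀ hf₀
  obtain ⟨hu1, hu1'⟩ := s35in_u_V1 M q K0 A0 hs2 f₀ hf₀
  obtain ⟨hu2, hu2'⟩ := s35in_u_V2 M q hM K0 A0 hs2 f₀ hf₀
  set dα : K0 := (s * s) cα * cα⁻¹ with hdα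
  set dβ : K0 := (s * s) cβ * cβ⁻¹ with hdβ
  set εα := σE eα * eα⁻¹ with hεα
  set εβ := σE eβ * eβ⁻¹ with hεβ
  have hnα : s35NormA K0 M q u
      = algebraMap K0 ↥(laurentBaseChange K0 (modularFunctionFieldFull M)) dα * εα ^ m :=
    s35in_u_normA_div M q K0 (s * s) f₀ hf₀ cα eα m hNα
  have hnβ : s35NormB K0 M q u
      = algebraMap K0 ↥(laurentBaseChange K0 (modularFunctionFieldFull M)) dβ * εβ ^ m :=
    s35in_u_normB_div M q K0 (s * s) f₀ hf₀ cβ eβ m hNβ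
  obtain ⟨hdα1, hdα2⟩ := cri19_const_unit K0 A0 M hs2 cα hcα
  obtain ⟨hdβ1, hdβ2⟩ := cri19_const_unit K0 A0 M hs2 cβ hcβ
  have hdα0 : dα ≠ 0 := mul_ne_zero ((_root_.map_ne_zero _).mpr hcα) (inv_ne_zero hcα)
  have hdβ0 : dβ ≠ 0 := mul_ne_zero ((_root_.map_ne_zero _).mpr hcβ) (inv_ne_zero hcβ)
  obtain ⟨hεα1, hεα2⟩ := s35in_u_gauss A0 M (grO A0 hA0 M hM) (fun _ => Iff.rfl) hs2 eα heα
  obtain ⟨hεβ1, hεβ2⟩ := s35in_u_gauss A0 M (grO A0 hA0 M hM) (fun _ => Iff.rfl) hs2 eβ heβ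
  have hεα0 : εα ≠ 0 := s35in_u_ne_zero M (s * s) eα heα
  have hεβ0 : εβ ≠ 0 := s35in_u_ne_zero M (s * s) eβ heβ
  -- the residues of `u`
  obtain ⟨a, ha, hua⟩ := va2x_res_one M q hM K0 A0 hA0 hdeg u hu1
  obtain ⟨b, hb, hub⟩ := va2x_res_one' M q hM K0 A0 hA0 hdeg u hu2
  have hΦa : Φ a ∈ grO A0 hA0 M hM := fkr_gauss_mem A0 _ hs1 a ha
  have hΦb : Φ b ∈ grO A0 hA0 M hM := fkr_gauss_mem A0 _ hs1 b hb
  have hNRα : s35NormA K0 M q u - a * Φ b ∈ (grO A0 hA0 M hM).nonunits :=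
    cri19_nr_alpha M q hM K0 A0 hA0 hs u hu1 hu2 a b ha hb hua hub
  have hNRβ : s35NormB K0 M q u - b * Φ a ∈ (grO A0 hA0 M hM).nonunits := by
    rw [mul_comm b]
    exact cri19_nr_beta M q hM K0 A0 hA0 hs u hu1 hu2 a b ha hb hua hub
  have hαa : heckeAlphaBar K0 M q a ∈ va2V1 M q K0 A0 := (va2x_ha M q hM K0 A0 hA0 a ha).1
  have hβb : heckeBetaBar K0 M q b ∈ va2V2 M q hM K0 A0 :=
    cri19_beta_mem_V2 M q hM K0 A0 hA0 b hb
  have hxu : heckeAlphaBar K0 M q a - u ∈ (va2V1 M q K0 A0).nonunits := by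
    have h := (va2V1 M q K0 A0).nonunits.neg_mem hua
    rwa [neg_sub] at h
  have hxu' : heckeBetaBar K0 M q b - u ∈ (va2V2 M q hM K0 A0).nonunits := by
    have h := (va2V2 M q hM K0 A0).nonunits.neg_mem hub
    rwa [neg_sub] at h
  have heu : heckeAlphaBar K0 M q (Φ b) - u ^ q ∈ (va2V2 M q hM K0 A0).nonunits := by
    have h1 := crs_pow_sub (va2V2 M q hM K0 A0) hu2 hβb hub q
    have h2 := fkr_kron2 M q hM K0 A0 hA0 hs b hb
    have h3 := (va2V2 M q hM K0 A0).nonunits.neg_mem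
      ((va2V2 M q hM K0 A0).nonunits.add_mem h1 h2)
    have e : heckeAlphaBar K0 M q (Φ b) - u ^ q
        = -((u ^ q - heckeBetaBar K0 M q b ^ q)
            + (heckeBetaBar K0 M q b ^ q - heckeAlphaBar K0 M q (Φ b))) := by ring
    rw [e]
    exact h3
  have heu' : heckeBetaBar K0 M q (Φ a) - u ^ q ∈ (va2V1 M q K0 A0).nonunits := by
    have h1 := crs_pow_sub (va2V1 M q K0 A0) hu1 hαa hua q
    have h2 := fkr_kron1 M q K0 A0 hA0 hs a ha
    have h3 := (va2V1 M q K0 A0).nonunits.neg_mem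
      ((va2V1 M q K0 A0).nonunits.add_mem h1 h2)
    have e : heckeBetaBar K0 M q (Φ a) - u ^ q
        = -((u ^ q - heckeAlphaBar K0 M q a ^ q)
            + (heckeAlphaBar K0 M q a ^ q - heckeBetaBar K0 M q (Φ a))) := by ring
    rw [e]
    exact h3
  -- units of the Gauss ring of level `M`
  have hc₁0 : algebraMap K0 ↥(laurentBaseChange K0 (modularFunctionFieldFull M)) dα ≠ 0 := by
    rw [Ne, map_eq_zero]
    exact hdα0
  have hc₂0 : algebraMap K0 ↥(laurentBaseChange K0 (modularFunctionFieldFull M)) dβ ≠ 0 := by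
    rw [Ne, map_eq_zero]
    exact hdβ0
  have hc₁' : (algebraMap K0 ↥(laurentBaseChange K0 (modularFunctionFieldFull M)) dα)⁻¹
      ∈ grO A0 hA0 M hM := by
    rw [← map_inv₀]
    exact cri19_const_mem M q hM K0 A0 hA0 _ hdα2
  have hc₂' : (algebraMap K0 ↥(laurentBaseChange K0 (modularFunctionFieldFull M)) dβ)⁻¹
      ∈ grO A0 hA0 M hM := by
    rw [← map_inv₀]
    exact cri19_const_mem M q hM K0 A0 hA0 _ hdβ2
  -- (G3)
  obtain ⟨h1, h2⟩ := crs_main q m (heckeAlphaBar K0 M q).toRingHom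
    (heckeBetaBar K0 M q).toRingHom (grO A0 hA0 M hM) (va2V1 M q K0 A0) (va2V2 M q hM K0 A0)
    Φ.toRingHom σ.toRingHom
    (fun z hz => fkr_gauss_mem A0 _ hs1 z hz)
    (fun z hz => (fkr_VG_nonunits_iff A0 _ (grO A0 hA0 M hM) (fun _ => Iff.rfl) hs1 z).mpr hz)
    (fun z => by
      show σ (heckeAlphaBar K0 M q z) = heckeAlphaBar K0 M q (Φ (Φ z))
      rw [hσ, hΦ, fkr_alpha_gal, fkr_gal_mul])
    (fun z => by
      show σ (heckeBetaBar K0 M q z) = heckeBetaBar K0 M q (Φ (Φ z))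
      rw [hσ, hΦ, fkr_beta_gal, fkr_gal_mul])
    (fun x hx => (fkr_V1_nonunits_iff M q K0 A0 hs2 x).mpr hx)
    (fun x hx => (fkr_V2_nonunits_iff M q hM K0 A0 hs2 x).mpr hx)
    (fun z hz => (va2x_ha M q hM K0 A0 hA0 z hz).1)
    (fun z hz => cri19_beta_mem_V2 M q hM K0 A0 hA0 z hz)
    (fun z hz => (cri19_bridge M q hM K0 A0 hA0 z hz).1)
    (fun z hz => (cri19_bridge M q hM K0 A0 hA0 z hz).2.1)
    (fun z hz => (cri19_bridge M q hM K0 A0 hA0 z hz).2.2.1)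
    (fun z hz => (cri19_bridge M q hM K0 A0 hA0 z hz).2.2.2)
    (fun z hz => fkr_kron1 M q K0 A0 hA0 hs z hz)
    (fun z hz => fkr_kron2 M q hM K0 A0 hA0 hs z hz)
    u hu0 hu1 hu1' hu2 hu2' a b ha hb hua hub
    (s35NormA K0 M q u) (s35NormB K0 M q u)
    a (Φ b) ha hΦb hNRα hxu heu
    b (Φ a) hb hΦa hNRβ hxu' heu'
    (algebraMap K0 ↥(laurentBaseChange K0 (modularFunctionFieldFull M)) dα) εα
    (algebraMap K0 ↥(laurentBaseChange K0 (modularFunctionFieldFull M)) dβ) εβ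
    hc₁0 hc₁' hεα0 hεα2 hc₂0 hc₂' hεβ0 hεβ2 hnα hnβ
  -- the constants
  have hsdα : s dα ∈ A0 := jrg_mem_of_mem_decomp ℚ A0 ⟨s, hs1⟩ hdα1
  have hsdβ : s dβ ∈ A0 := jrg_mem_of_mem_decomp ℚ A0 ⟨s, hs1⟩ hdβ1
  have hsdα' : (s dα)⁻¹ ∈ A0 := by
    rw [← map_inv₀]
    exact jrg_mem_of_mem_decomp ℚ A0 ⟨s, hs1⟩ hdα2
  have hsdβ' : (s dβ)⁻¹ ∈ A0 := by
    rw [← map_inv₀]
    exact jrg_mem_of_mem_decomp ℚ A0 ⟨s, hs1⟩ hdβ2
  have hsdα0 : s dα ≠ 0 := (_root_.map_ne_zero _).mpr hdα0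
  have hsdβ0 : s dβ ≠ 0 := (_root_.map_ne_zero _).mpr hdβ0
  have hk₁ : s dβ * dα⁻¹ ∈ A0 := A0.mul_mem _ _ hsdβ hdα2
  have hk₂ : s dα * dβ⁻¹ ∈ A0 := A0.mul_mem _ _ hsdα hdβ2
  have hk₁' : (s dβ * dα⁻¹)⁻¹ ∈ A0 := by
    rw [mul_inv, inv_inv]
    exact A0.mul_mem _ _ hsdβ' hdα1
  have hk₂' : (s dα * dβ⁻¹)⁻¹ ∈ A0 := by
    rw [mul_inv, inv_inv]
    exact A0.mul_mem _ _ hsdα' hdβ1
  have hk₁0 : s dβ * dα⁻¹ ≠ 0 := mul_ne_zero hsdβ0 (inv_ne_zero hdα0)
  have hk₂0 : s dα * dβ⁻¹ ≠ 0 := mul_ne_zero hsdα0 (inv_ne_zero hdβ0)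
  have hC₁ : IsUnit (⟨s dβ * dα⁻¹, hk₁⟩ : A0) :=
    isUnit_iff_exists_inv.mpr ⟨⟨_, hk₁'⟩, Subtype.ext (mul_inv_cancel₀ hk₁0)⟩
  have hC₂ : IsUnit (⟨s dα * dβ⁻¹, hk₂⟩ : A0) :=
    isUnit_iff_exists_inv.mpr ⟨⟨_, hk₂'⟩, Subtype.ext (mul_inv_cancel₀ hk₂0)⟩
  -- the units `w₁`, `w₂`
  have hΦεα : Φ εα ∈ grO A0 hA0 M hM := fkr_gauss_mem A0 _ hs1 εα hεα1
  have hΦεβ : Φ εβ ∈ grO A0 hA0 M hM := fkr_gauss_mem A0 _ hs1 εβ hεβ1
  have hΦεα' : (Φ εα)⁻¹ ∈ grO A0 hA0 M hM := by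
    rw [← map_inv₀]
    exact fkr_gauss_mem A0 _ hs1 _ hεα2
  have hΦεβ' : (Φ εβ)⁻¹ ∈ grO A0 hA0 M hM := by
    rw [← map_inv₀]
    exact fkr_gauss_mem A0 _ hs1 _ hεβ2
  have hm₁ : Φ εβ * εα⁻¹ ∈ grO A0 hA0 M hM := (grO A0 hA0 M hM).mul_mem _ _ hΦεβ hεα2
  have hm₁' : (Φ εβ * εα⁻¹)⁻¹ ∈ grO A0 hA0 M hM := by
    rw [mul_inv, inv_inv]
    exact (grO A0 hA0 M hM).mul_mem _ _ hΦεβ' hεα1
  have hm₂ : Φ εα * εβ⁻¹ ∈ grO A0 hA0 M hM := (grO A0 hA0 M hM).mul_mem _ _ hΦεα hεβ2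
  have hm₂' : (Φ εα * εβ⁻¹)⁻¹ ∈ grO A0 hA0 M hM := by
    rw [mul_inv, inv_inv]
    exact (grO A0 hA0 M hM).mul_mem _ _ hΦεα' hεβ1
  have hW : σ u * u⁻¹ = σ (σ f₀) * f₀ * ((σ f₀)⁻¹) ^ 2 := by
    rw [hu, map_mul, map_inv₀, mul_inv, inv_inv]
    ring
  refine ⟨⟨s dβ * dα⁻¹, hk₁⟩, ⟨s dα * dβ⁻¹, hk₂⟩,
    heckeAlphaBar K0 M q (Φ εβ * εα⁻¹), heckeBetaBar K0 M q (Φ εα * εβ⁻¹), hC₁, hC₂,
    (va2x_ha M q hM K0 A0 hA0 _ hm₁).1, ?_, cri19_beta_mem_V2 M q hM K0 A0 hA0 _ hm₂, ?_, ?_, ?_⟩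
  · rw [← map_inv₀]
    exact (va2x_ha M q hM K0 A0 hA0 _ hm₁').1
  · rw [← map_inv₀]
    exact cri19_beta_mem_V2 M q hM K0 A0 hA0 _ hm₂'
  · exact cri19_final_alpha M q K0 A0 s dα dβ hk₁ (Φ εβ * εα⁻¹) m (va2V1 M q K0 A0) _ _ hW h1
  · exact cri19_final_beta M q K0 A0 s dβ dα hk₂ (Φ εα * εβ⁻¹) m (va2V2 M q hM K0 A0) _ _ hW h2

/-- **CORE-RES at the carrier**, in the shape consumed by CORE-INST (for every `A0`-algebra
structure on `F` compatible with the `K0`-algebra structure). -/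
theorem cri19_hres (hA0 : A0.LiesOverPrime q) {s : K0 ≃ₐ[ℚ] K0} (hs : A0.IsFrobeniusAt s q)
    (m : ℕ) :
    ∀ [Algebra ↥A0 ↥(laurentBaseChange K0 (modularFunctionFieldFull (M * q)))]
      [IsScalarTower ↥A0 K0 ↥(laurentBaseChange K0 (modularFunctionFieldFull (M * q)))]
      (f₀ : ↥(laurentBaseChange K0 (modularFunctionFieldFull (M * q)))), f₀ ≠ 0 →
      (∀ P : AlgebraicCurve.Place K0 ↥(laurentBaseChange K0 (modularFunctionFieldFull (M * q))),
        (m : ℤ) ∣ P.ord f₀) →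
      (∃ (c : K0) (e : ↥(laurentBaseChange K0 (modularFunctionFieldFull M))),
        s35NormA K0 M q f₀ =
          algebraMap K0 ↥(laurentBaseChange K0 (modularFunctionFieldFull M)) c * e ^ m) →
      (∃ (c : K0) (e : ↥(laurentBaseChange K0 (modularFunctionFieldFull M))),
        s35NormB K0 M q f₀ =
          algebraMap K0 ↥(laurentBaseChange K0 (modularFunctionFieldFull M)) c * e ^ m) →
      ∃ (C₁ C₂ : A0) (w₁ w₂ : ↥(laurentBaseChange K0 (modularFunctionFieldFull (M * q)))),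
        IsUnit C₁ ∧ IsUnit C₂ ∧
        w₁ ∈ va2V1 M q K0 A0 ∧ w₁⁻¹ ∈ va2V1 M q K0 A0 ∧
        w₂ ∈ va2V2 M q hM K0 A0 ∧ w₂⁻¹ ∈ va2V2 M q hM K0 A0 ∧
        arithmeticRingAut (modularFunctionFieldFull (M * q)) (s * s)
              (arithmeticRingAut (modularFunctionFieldFull (M * q)) (s * s) f₀) * f₀ *
            ((arithmeticRingAut (modularFunctionFieldFull (M * q)) (s * s) f₀)⁻¹) ^ 2 -
          algebraMap ↥A0 ↥(laurentBaseChange K0 (modularFunctionFieldFull (M * q))) C₁ * w₁ ^ m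
            ∈ (va2V1 M q K0 A0).nonunits ∧
        arithmeticRingAut (modularFunctionFieldFull (M * q)) (s * s)
              (arithmeticRingAut (modularFunctionFieldFull (M * q)) (s * s) f₀) * f₀ *
            ((arithmeticRingAut (modularFunctionFieldFull (M * q)) (s * s) f₀)⁻¹) ^ 2 -
          algebraMap ↥A0 ↥(laurentBaseChange K0 (modularFunctionFieldFull (M * q))) C₂ * w₂ ^ m
            ∈ (va2V2 M q hM K0 A0).nonunits :=
  fun f₀ hf₀ _ hNa hNb => cri19_main M q hM K0 A0 hA0 hs m f₀ hf₀ hNa hNb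

end CoreResCarrier

end Fermat.Agent.S35
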