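import Mathlib
import Fermat.Agent.S18.Charts
import Fermat.Agent.S34.LocRing
import Fermat.Agent.S34.NodeFin
import Fermat.Agent.S34.NodeGlueAux

/-!
# S35, CORE-FROBNODE (abstract part): the square of a Frobenius lift at a crossing point

`O ⊆ F` a chart (integral closure of `A[t]`), `𝔫` a crossing point of the two components
`O ∩ 𝔪_{V₁}`, `O ∩ 𝔪_{V₂}` of its special fibre, `Λ = ndrLoc O 𝔫` the local ring.  `ΦE`, `ΦF`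
ring automorphisms of the lower and the upper function field (a Frobenius lift acting on
coefficients), compatible with `α`.

* `fnd_main`: for every `z ∈ O`, `ΦF (ΦF z) ∈ Λ` and `ΦF (ΦF z) - z ^ (q ^ 2) ∈ 𝔪_Λ`.
* `fnd_loc`: the same for every `z ∈ Λ`.
-/

set_option autoImplicit false

namespace Fermat.Agent.S35

open IsLocalRing Polynomial
open Fermat.Agent.S18 Fermat.Agent.S34

section Gen

variable {A F : Type*} [CommRing A] [Field F] [Algebra A F]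

/-- a ring homomorphism maps `A[t]` into a subalgebra as soon as it does so for `t` and for
the constants -/
theorem fnd_adjoin_map {E' : Type*} [CommRing E'] [Algebra A E'] (ψ : E' →+* F)
    (T : Subalgebra A F) (t : E') (ht : ψ t ∈ T) (hA : ∀ a : A, ψ (algebraMap A E' a) ∈ T) :
    ∀ x ∈ Algebra.adjoin A {t}, ψ x ∈ T := by
  intro x hx
  induction hx using Algebra.adjoin_induction with
  | mem y hy =>
    rw [Set.mem_singleton_iff] at hy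
    rw [hy]; exact ht
  | algebraMap a => exact hA a
  | add y z _ _ hy hz => rw [map_add]; exact T.add_mem hy hz
  | mul y z _ _ hy hz => rw [map_mul]; exact T.mul_mem hy hz

/-- transport of integrality along a ring homomorphism -/
theorem fnd_integral_map {E' : Type*} [Field E'] [Algebra A E'] (ψ : E' →+* F)
    (S : Subalgebra A E') (T : Subalgebra A F) (hST : ∀ x ∈ S, ψ x ∈ T) (z : E')
    (hz : IsIntegral ↥S z) : IsIntegral ↥T (ψ z) := by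
  rw [cht_isIntegral_iff] at hz ⊢
  obtain ⟨p, hp, hpS, hpz⟩ := hz
  refine ⟨p.map ψ, hp.map ψ, fun i => ?_, ?_⟩
  · rw [Polynomial.coeff_map]
    exact hST _ (hpS i)
  · rw [Polynomial.eval_map, Polynomial.eval₂_at_apply, hpz, map_zero]

end Gen

section FrobNode

variable {A E F : Type*} [CommRing A] [Field E] [Field F] [Algebra A E] [Algebra A F]
  (O : Subalgebra A F) (𝔫 : Ideal ↥O) [h𝔫 : 𝔫.IsPrime]

/-- an element of the local ring with nonzero residue is invertible in the local ring -/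
theorem fnd_inv_mem (X : ↥(ndrLoc O 𝔫)) (hX : residue ↥(ndrLoc O 𝔫) X ≠ 0) :
    (X : F)⁻¹ ∈ ndrLoc O 𝔫 := by
  have hu : IsUnit X := by
    by_contra h
    exact hX ((residue_eq_zero_iff X).mpr ((mem_maximalIdeal X).mpr h))
  obtain ⟨Y, hY⟩ := hu.exists_right_inv
  have h1 : (X : F) * (Y : F) = 1 := congrArg Subtype.val hY
  rw [inv_eq_of_mul_eq_one_right h1]
  exact Y.2

/-- the residue of an element of `Λ ∩ 𝔪_V` vanishes -/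
theorem fnd_res_zero (V : ValuationSubring F) (hO : ∀ x ∈ O, x ∈ V)
    (hc : ∀ x : ↥O, (x : F) ∈ V.nonunits → x ∈ 𝔫) (X : ↥(ndrLoc O 𝔫))
    (hX : (X : F) ∈ V.nonunits) : residue ↥(ndrLoc O 𝔫) X = 0 :=
  (residue_eq_zero_iff X).mpr
    (nga_P_le O 𝔫 V hO hc ((nga_mem_P O 𝔫 V hO hc X).mpr hX))

/-- **CORE-FROBNODE, abstract.**  At a crossing point `𝔫` of the chart `O`, the square of a
Frobenius lift maps `O` into the local ring `Λ = O_𝔫` and induces the `q ^ 2`-power map on the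
residue field of `Λ`. -/
theorem fnd_main
    (hcl : ∀ x : F, IsIntegral ↥O x → x ∈ O)
    (V₁ V₂ : ValuationSubring F) (hO₁ : ∀ x ∈ O, x ∈ V₁) (hO₂ : ∀ x ∈ O, x ∈ V₂)
    (hc₁ : ∀ x : ↥O, (x : F) ∈ V₁.nonunits → x ∈ 𝔫)
    (hc₂ : ∀ x : ↥O, (x : F) ∈ V₂.nonunits → x ∈ 𝔫)
    (q : ℕ) (hq : q.Prime) (hq𝔫 : algebraMap A ↥O (q : A) ∈ 𝔫)
    (α β : E →+* F) (hαA : ∀ a : A, α (algebraMap A E a) = algebraMap A F a)
    (hβA : ∀ a : A, β (algebraMap A E a) = algebraMap A F a)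
    (ΦE : E ≃+* E) (ΦF : F ≃+* F) (hαΦ : ∀ x : E, ΦF (α x) = α (ΦE x))
    (hΦA : ∀ a : A, ∃ b : A, ΦE (algebraMap A E a) = algebraMap A E b ∧
      algebraMap A ↥O (b - a ^ q) ∈ 𝔫)
    (hΦV₁ : ∀ x ∈ V₁.nonunits, ΦF x ∈ V₁.nonunits)
    (H : E) (hΦH : ΦE H = H)
    (hh : α H ∈ ndrLoc O 𝔫) (hθ : β H ∈ ndrLoc O 𝔫)
    (hk₁ : α H ^ q - β H ∈ V₁.nonunits) (hk₂ : α H - β H ^ q ∈ V₂.nonunits)
    (c0 c1 : A) (hc : IsUnit (c1 - c0)) (hH0 : H - algebraMap A E c0 ≠ 0)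
    (tM : E) (htM : tM = (H - algebraMap A E c1) / (H - algebraMap A E c0))
    (htO : α tM ∈ O)
    (hOint : ∀ z ∈ O, IsIntegral ↥(Algebra.adjoin A {α tM}) z)
    (OM : Set E) (hOMint : ∀ z ∈ OM, IsIntegral ↥(Algebra.adjoin A {tM}) z)
    (hαOM : ∀ z ∈ OM, α z ∈ O)
    (hlift : ∀ z ∈ O, ∃ z0 ∈ OM, z - α z0 ∈ V₁.nonunits)
    (hK₁ : ∀ z ∈ OM, α z ^ q - β (ΦE z) ∈ V₁.nonunits)
    (hK₂ : ∀ z ∈ OM, β (ΦE z) ^ q - α (ΦE (ΦE z)) ∈ V₂.nonunits) :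
    ∀ z ∈ O, ∃ _ : ΦF (ΦF z) ∈ ndrLoc O 𝔫, ∃ a s : ↥O, a ∈ 𝔫 ∧ s ∉ 𝔫 ∧
      (ΦF (ΦF z) - z ^ (q ^ 2)) * (s : F) = (a : F) := by
  classical
  have : Fact q.Prime := ⟨hq⟩
  -- the residue field has characteristic `q`
  have hqk : ((q : ℕ) : ResidueField ↥(ndrLoc O 𝔫)) = 0 := by
    have h1 : algebraMap A ↥(ndrLoc O 𝔫) (q : A) ∈ maximalIdeal ↥(ndrLoc O 𝔫) :=
      ndr_tau_mem O 𝔫 (q : A) hq𝔫
    have h2 := (residue_eq_zero_iff _).mpr h1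
    rw [map_natCast, map_natCast] at h2
    exact h2
  have : CharP (ResidueField ↥(ndrLoc O 𝔫)) q := (CharP.charP_iff_prime_eq_zero hq).mpr hqk
  have hres₁ : ∀ X Y : ↥(ndrLoc O 𝔫), (X : F) - (Y : F) ∈ V₁.nonunits →
      residue ↥(ndrLoc O 𝔫) X = residue ↥(ndrLoc O 𝔫) Y := by
    intro X Y h
    have h0 := fnd_res_zero O 𝔫 V₁ hO₁ hc₁ (X - Y) h
    rwa [map_sub, sub_eq_zero] at h0
  have hres₂ : ∀ X Y : ↥(ndrLoc O 𝔫), (X : F) - (Y : F) ∈ V₂.nonunits →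
      residue ↥(ndrLoc O 𝔫) X = residue ↥(ndrLoc O 𝔫) Y := by
    intro X Y h
    have h0 := fnd_res_zero O 𝔫 V₂ hO₂ hc₂ (X - Y) h
    rwa [map_sub, sub_eq_zero] at h0
  -- the Hauptmodul and its swap at the node
  have k1 : residue ↥(ndrLoc O 𝔫) ⟨α H, hh⟩ ^ q = residue ↥(ndrLoc O 𝔫) ⟨β H, hθ⟩ := by
    have h0 := hres₁ (⟨α H, hh⟩ ^ q) ⟨β H, hθ⟩ hk₁
    rwa [map_pow] at h0
  have k2 : residue ↥(ndrLoc O 𝔫) ⟨α H, hh⟩ = residue ↥(ndrLoc O 𝔫) ⟨β H, hθ⟩ ^ q := by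
    have h0 := hres₂ ⟨α H, hh⟩ (⟨β H, hθ⟩ ^ q) hk₂
    rwa [map_pow] at h0
  have k3 : residue ↥(ndrLoc O 𝔫) ⟨α H, hh⟩ ^ (q ^ 2) = residue ↥(ndrLoc O 𝔫) ⟨α H, hh⟩ := by
    rw [pow_two, pow_mul, k1, ← k2]
  -- constants
  have hconst : ∀ a b : A, algebraMap A ↥O (b - a ^ q) ∈ 𝔫 →
      residue ↥(ndrLoc O 𝔫) (algebraMap A ↥(ndrLoc O 𝔫) b) =
        residue ↥(ndrLoc O 𝔫) (algebraMap A ↥(ndrLoc O 𝔫) a) ^ q := by
    intro a b hab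
    have h1 : algebraMap A ↥(ndrLoc O 𝔫) (b - a ^ q) ∈ maximalIdeal ↥(ndrLoc O 𝔫) :=
      ndr_tau_mem O 𝔫 _ hab
    have h2 := (residue_eq_zero_iff _).mpr h1
    rw [map_sub, map_sub, map_pow, map_pow, sub_eq_zero] at h2
    exact h2
  have hΦFA : ∀ a : A, ∃ b : A, ΦF (algebraMap A F a) = algebraMap A F b ∧
      algebraMap A ↥O (b - a ^ q) ∈ 𝔫 := by
    intro a
    obtain ⟨b, hb, hbn⟩ := hΦA a
    exact ⟨b, by rw [← hαA a, hαΦ, hb, hαA], hbn⟩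
  -- `h - c0` is a unit at the node
  have hαt : α tM = (α H - algebraMap A F c1) / (α H - algebraMap A F c0) := by
    rw [htM, map_div₀, map_sub, map_sub, hαA, hαA]
  have hαH0 : α H - algebraMap A F c0 ≠ 0 := by
    rw [← hαA c0, ← map_sub]
    exact (map_ne_zero α).mpr hH0
  obtain ⟨d, hd⟩ := hc.exists_right_inv
  have hu0 : residue ↥(ndrLoc O 𝔫) (⟨α H, hh⟩ - algebraMap A ↥(ndrLoc O 𝔫) c0) ≠ 0 := by
    intro h0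
    have hY : (1 - α tM) * algebraMap A F d ∈ ndrLoc O 𝔫 :=
      (ndrLoc O 𝔫).mul_mem ((ndrLoc O 𝔫).sub_mem (ndrLoc O 𝔫).one_mem (ndr_le O 𝔫 htO))
        ((ndrLoc O 𝔫).algebraMap_mem d)
    have hXY : (⟨α H, hh⟩ - algebraMap A ↥(ndrLoc O 𝔫) c0) *
        (⟨(1 - α tM) * algebraMap A F d, hY⟩ : ↥(ndrLoc O 𝔫)) = 1 := by
      apply Subtype.ext
      show (α H - algebraMap A F c0) * ((1 - α tM) * algebraMap A F d) = 1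
      have hd' : (algebraMap A F c1 - algebraMap A F c0) * algebraMap A F d = 1 := by
        rw [← map_sub, ← map_mul, hd, map_one]
      rw [hαt]
      field_simp
      linear_combination hd'
    have h1 := congrArg (residue ↥(ndrLoc O 𝔫)) hXY
    rw [map_mul, h0, zero_mul, map_one] at h1
    exact zero_ne_one h1
  have hu0' : residue ↥(ndrLoc O 𝔫) ⟨α H, hh⟩ -
      residue ↥(ndrLoc O 𝔫) (algebraMap A ↥(ndrLoc O 𝔫) c0) ≠ 0 := by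
    rwa [map_sub] at hu0
  -- `β (ΦE tM)` lies in the local ring
  obtain ⟨b0, hb0, hb0n⟩ := hΦA c0
  obtain ⟨b1, hb1, hb1n⟩ := hΦA c1
  have hΦt : ΦE tM = (H - algebraMap A E b1) / (H - algebraMap A E b0) := by
    rw [htM, map_div₀, map_sub, map_sub, hΦH, hb0, hb1]
  have hβt : β (ΦE tM) ∈ ndrLoc O 𝔫 := by
    have e : β (ΦE tM) = (β H - algebraMap A F b1) * (β H - algebraMap A F b0)⁻¹ := by
      rw [hΦt, map_div₀, map_sub, map_sub, hβA, hβA, div_eq_mul_inv]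
    rw [e]
    have hne : residue ↥(ndrLoc O 𝔫) (⟨β H, hθ⟩ - algebraMap A ↥(ndrLoc O 𝔫) b0) ≠ 0 := by
      rw [map_sub, hconst c0 b0 hb0n, ← k1, ← sub_pow_char]
      exact pow_ne_zero _ hu0'
    exact (ndrLoc O 𝔫).mul_mem ((ndrLoc O 𝔫).sub_mem hθ ((ndrLoc O 𝔫).algebraMap_mem b1))
      (fnd_inv_mem O 𝔫 _ hne)
  have hβadj : ∀ x ∈ Algebra.adjoin A {tM}, β (ΦE x) ∈ ndrLoc O 𝔫 :=
    fnd_adjoin_map (β.comp ΦE.toRingHom) (ndrLoc O 𝔫) tM hβt (fun a => by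
      obtain ⟨b, hb, -⟩ := hΦA a
      show β (ΦE (algebraMap A E a)) ∈ ndrLoc O 𝔫
      rw [hb, hβA]
      exact (ndrLoc O 𝔫).algebraMap_mem b)
  have hβOM : ∀ z ∈ OM, β (ΦE z) ∈ ndrLoc O 𝔫 := fun z hz =>
    ndf_closed O 𝔫 hcl (fun y => y.2) _
      (fnd_integral_map (β.comp ΦE.toRingHom) (Algebra.adjoin A {tM}) (ndrLoc O 𝔫) hβadj z
        (hOMint z hz))
  -- `ΦF (ΦF t)` lies in the local ring
  obtain ⟨b0', hb0', hb0'n⟩ := hΦA b0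
  obtain ⟨b1', hb1', hb1'n⟩ := hΦA b1
  have hσt : ΦF (ΦF (α tM)) ∈ ndrLoc O 𝔫 := by
    have e : ΦF (ΦF (α tM)) = (α H - algebraMap A F b1') * (α H - algebraMap A F b0')⁻¹ := by
      rw [hαΦ, hαΦ, hΦt, map_div₀, map_sub, map_sub, hΦH, hb0', hb1', map_div₀,
        map_sub, map_sub, hαA, hαA, div_eq_mul_inv]
    rw [e]
    have hne : residue ↥(ndrLoc O 𝔫) (⟨α H, hh⟩ - algebraMap A ↥(ndrLoc O 𝔫) b0') ≠ 0 := by
      rw [map_sub, hconst b0 b0' hb0'n, hconst c0 b0 hb0n, ← pow_mul, ← pow_two]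
      nth_rewrite 1 [← k3]
      rw [← sub_pow_char_pow]
      exact pow_ne_zero _ hu0'
    exact (ndrLoc O 𝔫).mul_mem ((ndrLoc O 𝔫).sub_mem hh ((ndrLoc O 𝔫).algebraMap_mem b1'))
      (fnd_inv_mem O 𝔫 _ hne)
  have hσadj : ∀ x ∈ Algebra.adjoin A {α tM}, ΦF (ΦF x) ∈ ndrLoc O 𝔫 :=
    fnd_adjoin_map (ΦF.toRingHom.comp ΦF.toRingHom) (ndrLoc O 𝔫) (α tM) hσt (fun a => by
      obtain ⟨b, hb, -⟩ := hΦFA a
      obtain ⟨b', hb', -⟩ := hΦFA b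
      show ΦF (ΦF (algebraMap A F a)) ∈ ndrLoc O 𝔫
      rw [hb, hb']
      exact (ndrLoc O 𝔫).algebraMap_mem b')
  have hσO : ∀ z ∈ O, ΦF (ΦF z) ∈ ndrLoc O 𝔫 := fun z hz =>
    ndf_closed O 𝔫 hcl (fun y => y.2) _
      (fnd_integral_map (ΦF.toRingHom.comp ΦF.toRingHom) (Algebra.adjoin A {α tM})
        (ndrLoc O 𝔫) hσadj z (hOint z hz))
  -- the congruence on the image of the lower chart
  have h6 : ∀ z0 (hz0 : z0 ∈ OM),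
      residue ↥(ndrLoc O 𝔫) ⟨α z0, ndr_le O 𝔫 (hαOM z0 hz0)⟩ ^ (q ^ 2) =
        residue ↥(ndrLoc O 𝔫) ⟨ΦF (ΦF (α z0)), hσO _ (hαOM z0 hz0)⟩ := by
    intro z0 hz0
    have e1 : residue ↥(ndrLoc O 𝔫) ⟨α z0, ndr_le O 𝔫 (hαOM z0 hz0)⟩ ^ q =
        residue ↥(ndrLoc O 𝔫) ⟨β (ΦE z0), hβOM z0 hz0⟩ := by
      have h0 := hres₁ (⟨α z0, ndr_le O 𝔫 (hαOM z0 hz0)⟩ ^ q) ⟨β (ΦE z0), hβOM z0 hz0⟩
        (hK₁ z0 hz0)
      rwa [map_pow] at h0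
    have e2 : residue ↥(ndrLoc O 𝔫) ⟨β (ΦE z0), hβOM z0 hz0⟩ ^ q =
        residue ↥(ndrLoc O 𝔫) ⟨ΦF (ΦF (α z0)), hσO _ (hαOM z0 hz0)⟩ := by
      have h := hK₂ z0 hz0
      rw [← hαΦ, ← hαΦ] at h
      have h0 := hres₂ (⟨β (ΦE z0), hβOM z0 hz0⟩ ^ q)
        ⟨ΦF (ΦF (α z0)), hσO _ (hαOM z0 hz0)⟩ h
      rwa [map_pow] at h0
    rw [pow_two, pow_mul, e1, e2]
  -- the general element of the chart
  intro z hz
  refine ⟨hσO z hz, ?_⟩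
  obtain ⟨z0, hz0, he⟩ := hlift z hz
  have hZ : residue ↥(ndrLoc O 𝔫) ⟨z, ndr_le O 𝔫 hz⟩ =
      residue ↥(ndrLoc O 𝔫) ⟨α z0, ndr_le O 𝔫 (hαOM z0 hz0)⟩ := hres₁ _ _ he
  have hσZ : residue ↥(ndrLoc O 𝔫) ⟨ΦF (ΦF z), hσO z hz⟩ =
      residue ↥(ndrLoc O 𝔫) ⟨ΦF (ΦF (α z0)), hσO _ (hαOM z0 hz0)⟩ := by
    apply hres₁
    show ΦF (ΦF z) - ΦF (ΦF (α z0)) ∈ V₁.nonunits
    rw [← map_sub, ← map_sub]
    exact hΦV₁ _ (hΦV₁ _ he)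
  have hfin : residue ↥(ndrLoc O 𝔫)
      ((⟨ΦF (ΦF z), hσO z hz⟩ : ↥(ndrLoc O 𝔫)) - ⟨z, ndr_le O 𝔫 hz⟩ ^ (q ^ 2)) = 0 := by
    rw [map_sub, map_pow, hσZ, hZ, h6 z0 hz0, sub_self]
  exact (ndr_mem_maximalIdeal_iff O 𝔫 _).mp ((residue_eq_zero_iff _).mp hfin)

omit [Field E] [Algebra A E] in
/-- **Extension to the local ring.**  If a ring endomorphism `σ` of `F` maps the chart `O` into
`Λ = O_𝔫` and is congruent to the `Q`-th power map modulo `𝔪_Λ` on `O`, then the same holds on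
all of `Λ`. -/
theorem fnd_loc (σ : F →+* F) (Q : ℕ)
    (hO : ∀ z ∈ O, ∃ _ : σ z ∈ ndrLoc O 𝔫, ∃ a s : ↥O, a ∈ 𝔫 ∧ s ∉ 𝔫 ∧
      (σ z - z ^ Q) * (s : F) = (a : F)) :
    ∀ z ∈ ndrLoc O 𝔫, ∃ _ : σ z ∈ ndrLoc O 𝔫, ∃ a s : ↥O, a ∈ 𝔫 ∧ s ∉ 𝔫 ∧
      (σ z - z ^ Q) * (s : F) = (a : F) := by
  have hOres : ∀ (z : F) (hz : z ∈ O) (hσz : σ z ∈ ndrLoc O 𝔫),
      residue ↥(ndrLoc O 𝔫) ⟨σ z, hσz⟩ = residue ↥(ndrLoc O 𝔫) ⟨z, ndr_le O 𝔫 hz⟩ ^ Q := by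
    intro z hz hσz
    obtain ⟨_, a, s, ha, hs, h⟩ := hO z hz
    have hm : ((⟨σ z, hσz⟩ : ↥(ndrLoc O 𝔫)) - ⟨z, ndr_le O 𝔫 hz⟩ ^ Q) ∈
        maximalIdeal ↥(ndrLoc O 𝔫) :=
      (ndr_mem_maximalIdeal_iff O 𝔫 _).mpr ⟨a, s, ha, hs, h⟩
    have h0 := (residue_eq_zero_iff _).mpr hm
    rwa [map_sub, map_pow, sub_eq_zero] at h0
  intro z hz
  obtain ⟨a, s, hs, h⟩ := hz
  have hz' : z ∈ ndrLoc O 𝔫 := ⟨a, s, hs, h⟩
  obtain ⟨hσs, -⟩ := hO s s.2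
  obtain ⟨hσa, -⟩ := hO a a.2
  have hsu : residue ↥(ndrLoc O 𝔫) (⟨(s : F), ndr_le O 𝔫 s.2⟩ : ↥(ndrLoc O 𝔫)) ≠ 0 := by
    have hu : IsUnit (algebraMap ↥O ↥(ndrLoc O 𝔫) s) := ndr_isUnit_algebraMap O 𝔫 s hs
    intro h0
    exact ((mem_maximalIdeal _).mp ((residue_eq_zero_iff _).mp h0)) hu
  have hσsne : residue ↥(ndrLoc O 𝔫) ⟨σ s, hσs⟩ ≠ 0 := by
    rw [hOres s s.2 hσs]
    exact pow_ne_zero _ hsu
  have hinv := fnd_inv_mem O 𝔫 ⟨σ s, hσs⟩ hσsne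
  have hs0 : (s : F) ≠ 0 := (nga_inv_spec O 𝔫 s hs).1
  have hσs0 : σ (s : F) ≠ 0 := (map_ne_zero σ).mpr hs0
  have hσz_eq : σ z = σ a * (σ s)⁻¹ := by
    rw [← h, map_mul, mul_assoc, mul_inv_cancel₀ hσs0, mul_one]
  have hσz : σ z ∈ ndrLoc O 𝔫 := by
    rw [hσz_eq]
    exact (ndrLoc O 𝔫).mul_mem hσa hinv
  refine ⟨hσz, ?_⟩
  have e1 : residue ↥(ndrLoc O 𝔫) ⟨σ z, hσz⟩ * residue ↥(ndrLoc O 𝔫) ⟨σ s, hσs⟩ =
      residue ↥(ndrLoc O 𝔫) ⟨σ a, hσa⟩ := by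
    rw [← map_mul]
    congr 1
    apply Subtype.ext
    show σ z * σ s = σ a
    rw [← map_mul, h]
  have e2 : residue ↥(ndrLoc O 𝔫) ⟨z, hz'⟩ *
      residue ↥(ndrLoc O 𝔫) ⟨(s : F), ndr_le O 𝔫 s.2⟩ =
      residue ↥(ndrLoc O 𝔫) ⟨(a : F), ndr_le O 𝔫 a.2⟩ := by
    rw [← map_mul]
    congr 1
    exact Subtype.ext h
  have e3 : residue ↥(ndrLoc O 𝔫) ⟨σ z, hσz⟩ = residue ↥(ndrLoc O 𝔫) ⟨z, hz'⟩ ^ Q := by
    apply mul_right_cancel₀ (pow_ne_zero Q hsu)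
    rw [← mul_pow, e2, ← hOres a a.2 hσa, ← hOres s s.2 hσs, e1]
  have hm : ((⟨σ z, hσz⟩ : ↥(ndrLoc O 𝔫)) - ⟨z, hz'⟩ ^ Q) ∈ maximalIdeal ↥(ndrLoc O 𝔫) :=
    (residue_eq_zero_iff _).mp (by rw [map_sub, map_pow, e3, sub_self])
  exact (ndr_mem_maximalIdeal_iff O 𝔫 _).mp hm

end FrobNode

end Fermat.Agent.S35
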