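import Mathlib
import Fermat.Agent.S34.NodeInstK0
import Fermat.Agent.S34.CuspNode
import Fermat.Agent.S35.FrobKron
import Fermat.Agent.S35.FrobNode

/-!
# S35, CORE-FROBNODE at the Hauptmodul charts

`K0` a field with an embedding into `ℚ̄`, `A0` a discrete valuation subring of `K0` over `q`,
`q ∤ M`, `a2 ∣ M` the level of the Hauptmodul record `H`, `t = (h - c1) / (h - c0)` the chart
coordinate of level `M q`, `𝔫` a crossing point of the chart `chtO A0 {t}`, `s` a Frobenius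
element of `A0` at `q` and `Φ = arithmeticRingAut _ s` its coefficientwise action.

* `fnd_unit`: (abstract) units of the chart at `𝔫` go to units of the local ring.
* `fnd_inst_aux`, `fnd_inst`: `Φ (Φ z) ∈ O_𝔫` and `Φ (Φ z) - z ^ (q ^ 2) ∈ 𝔪_{O_𝔫}` for `z` in the
  chart.
* `fnd_inst_O`, `fnd_inst_unit`, `fnd_inst_frob`: the same for `σ = arithmeticRingAut _ (s * s)`
  in elementwise form: `σ` maps the chart into `O_𝔫`, chart elements outside `𝔫` to units of
  `O_𝔫`, and `σ z - z ^ (q ^ 2) ∈ 𝔪_{O_𝔫}` for every `z ∈ O_𝔫`.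
-/

set_option autoImplicit false
set_option linter.unusedSectionVars false

noncomputable section

open ModularCurve AlgebraicCurve Polynomial
open Fermat.Agent.S18 Fermat.Agent.S37 Fermat.Agent.S34

namespace Fermat.Agent.S35

local notation "Qb" => AlgebraicClosure ℚ

section Abs

variable {A F : Type*} [CommRing A] [Field F] [Algebra A F]
  (O : Subalgebra A F) (𝔫 : Ideal ↥O) [h𝔫 : 𝔫.IsPrime]

/-- chart elements outside `𝔫` go to units of the local ring -/
theorem fnd_unit (σ : F →+* F) (Q : ℕ)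
    (hO : ∀ z ∈ O, ∃ _ : σ z ∈ ndrLoc O 𝔫, ∃ a s : ↥O, a ∈ 𝔫 ∧ s ∉ 𝔫 ∧
      (σ z - z ^ Q) * (s : F) = (a : F)) :
    ∀ z : ↥O, z ∉ 𝔫 → ∃ a s : ↥O, a ∉ 𝔫 ∧ s ∉ 𝔫 ∧ σ (z : F) * (s : F) = (a : F) := by
  intro z hz
  obtain ⟨hσz, a, s, ha, hs, h⟩ := hO z z.2
  obtain ⟨b, r, hr, hb⟩ := hσz
  refine ⟨b, r, fun hb𝔫 => ?_, hr, hb⟩
  have key : z ^ Q * r * s = b * s - a * r := by
    apply Subtype.ext
    push_cast
    rw [← hb, ← h]
    ring
  have hmem : z ^ Q * r * s ∈ 𝔫 := by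
    rw [key]
    exact 𝔫.sub_mem (𝔫.mul_mem_right _ hb𝔫) (𝔫.mul_mem_right _ ha)
  rcases h𝔫.mem_or_mem hmem with h1 | h1
  · rcases h𝔫.mem_or_mem h1 with h2 | h2
    · exact hz (h𝔫.mem_of_pow_mem Q h2)
    · exact hr h2
  · exact hs h1

end Abs

section Field

variable (M q : ℕ) [NeZero M] [hq : Fact q.Prime] (hM : ¬ q ∣ M)
  (K0 : Type*) [Field K0] [Algebra ℚ K0] [Algebra K0 Qb]
  (A0 : ValuationSubring K0) [IsDiscreteValuationRing ↥A0]
  {a2 : ℕ} (H : HauptRec a2 q)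

/-- **CORE-FROBNODE at the `K0` level** (given `A0`-algebra structures on both levels): the
square of the coefficientwise action of a Frobenius element maps the chart into the local ring
at a crossing point and is the `q ^ 2`-power map modulo its maximal ideal. -/
theorem fnd_inst_aux (ha2 : a2 ∣ M)
    [Algebra ↥A0 ↥(laurentBaseChange K0 (modularFunctionFieldFull M))]
    [IsScalarTower ↥A0 K0 ↥(laurentBaseChange K0 (modularFunctionFieldFull M))]
    [Algebra ↥A0 ↥(laurentBaseChange K0 (modularFunctionFieldFull (M * q)))]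
    [IsScalarTower ↥A0 K0 ↥(laurentBaseChange K0 (modularFunctionFieldFull (M * q)))]
    (hA0 : A0.LiesOverPrime q)
    (c0 c1 : A0) (hc : IsLocalRing.residue A0 c0 ≠ IsLocalRing.residue A0 c1)
    (hSM : cinstSMChart K0 A0 M H (c0 : K0) (c1 : K0))
    (t : ↥(laurentBaseChange K0 (modularFunctionFieldFull (M * q))))
    (ht : (t : LaurentSeries K0) = cinstU H K0 (c0 : K0) (c1 : K0))
    (𝔫 : Ideal ↥(chtO A0 {t})) [h𝔫 : 𝔫.IsPrime]
    (hc₁ : ∀ x : ↥(chtO A0 {t}),
      (x : ↥(laurentBaseChange K0 (modularFunctionFieldFull (M * q)))) ∈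
        (va2V1 M q K0 A0).nonunits → x ∈ 𝔫)
    (hc₂ : ∀ x : ↥(chtO A0 {t}),
      (x : ↥(laurentBaseChange K0 (modularFunctionFieldFull (M * q)))) ∈
        (va2V2 M q hM K0 A0).nonunits → x ∈ 𝔫)
    {s : K0 ≃ₐ[ℚ] K0} (hs : A0.IsFrobeniusAt s q) :
    ∀ z ∈ chtO A0 {t},
      ∃ _ : arithmeticRingAut (modularFunctionFieldFull (M * q)) s
          (arithmeticRingAut (modularFunctionFieldFull (M * q)) s z) ∈ ndrLoc (chtO A0 {t}) 𝔫,
        ∃ a b : ↥(chtO A0 {t}), a ∈ 𝔫 ∧ b ∉ 𝔫 ∧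
          (arithmeticRingAut (modularFunctionFieldFull (M * q)) s
            (arithmeticRingAut (modularFunctionFieldFull (M * q)) s z) - z ^ (q ^ 2)) *
            (b : ↥(laurentBaseChange K0 (modularFunctionFieldFull (M * q)))) =
          (a : ↥(laurentBaseChange K0 (modularFunctionFieldFull (M * q)))) := by
  classical
  have hcz : CharZero K0 := algebraRat.charZero K0
  have hsD : s ∈ A0.decompositionSubgroup ℚ := hs.mem_decompositionSubgroup
  obtain ⟨τ, hτ⟩ := IsDiscreteValuationRing.exists_irreducible ↥A0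
  -- the level-`M` chart coordinate
  obtain ⟨tM, htM⟩ : ∃ tM : ↥(laurentBaseChange K0 (modularFunctionFieldFull M)),
      (tM : LaurentSeries K0) = cinstU H K0 (c0 : K0) (c1 : K0) :=
    ⟨⟨cinstU H K0 (c0 : K0) (c1 : K0), cinstU_mem H K0 ha2 _ _⟩, rfl⟩
  have htt : heckeAlphaBar K0 M q tM = t :=
    Subtype.ext ((coe_heckeAlphaBar M q tM).trans (htM.trans ht.symm))
  -- the chart bundle of level `M`
  obtain ⟨-, -, hVM, -⟩ := ispk_chartM A0 hA0 M hM H c0 c1 hc tM htM τ hτ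
  -- the chart bundle of level `M q`
  have hVG : ∀ x : ↥(laurentBaseChange K0 (modularFunctionFieldFull (M * q))),
      x ∈ va2V1 M q K0 A0 ↔ (x : LaurentSeries K0) ∈ grV A0 := fun x => Iff.rfl
  obtain ⟨hA, hτV, hτgen, htr, htV, htV', hG, hfin, hconst⟩ :=
    c2i_hyps A0 (M * q) H (va2V1 M q K0 A0) hVG c0 c1 hc t ht τ hτ
  obtain ⟨-, h2, -, -, -, -, -, -, -, -, -, hV0, -, -, -, -, -⟩ :=
    c2i_chart A0 (M * q) H (va2V1 M q K0 A0) (va2V2 M q hM K0 A0) hVG c0 c1 hc t ht τ hτ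
      (va2_hA2 A0 M q hM) (va2_htaugen2 A0 M q hM τ hτ) (va2_htV2 A0 M q hM H ha2 c0 c1 t ht)
      (va2_htV2' A0 M q hM H ha2 c0 c1 t ht) (va2_hex A0 M q hM H ha2 hA0 c0 c1 hc t ht) 1 one_pos
  have hτ𝔫 : algebraMap ↥A0 ↥(chtO A0 {t}) τ ∈ 𝔫 := hc₁ _ hτV
  -- the maximal ideal of `A0` lies in `𝔫`
  have hmax𝔫 : ∀ x : ↥A0, x ∈ IsLocalRing.maximalIdeal ↥A0 →
      algebraMap ↥A0 ↥(chtO A0 {t}) x ∈ 𝔫 := by
    intro x hx
    rw [hτ.maximalIdeal_eq, Ideal.mem_span_singleton'] at hx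
    obtain ⟨d, rfl⟩ := hx
    rw [map_mul]
    exact 𝔫.mul_mem_left _ hτ𝔫
  have hq𝔫 : algebraMap ↥A0 ↥(chtO A0 {t}) ((q : ℕ) : ↥A0) ∈ 𝔫 := by
    apply hmax𝔫
    have hchar : CharP (IsLocalRing.ResidueField ↥A0) q := grc_charP A0 q hA0
    rw [← IsLocalRing.residue_eq_zero_iff, map_natCast]
    exact CharP.cast_eq_zero _ q
  -- the crossing point is not cuspidal, Kronecker for the Hauptmodul
  have hh := cnd_hh M q hM K0 A0 H ha2 hA0 c0 c1 hc t ht 𝔫 hc₁ hc₂
  have hθ := cnd_htheta M q hM K0 A0 H ha2 hA0 c0 c1 hc t ht 𝔫 hc₁ hc₂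
  have hk1 := cnd_hk1 M q hM K0 A0 H ha2 hA0
  have hk2 := cnd_hk2 M q hM K0 A0 H ha2 hA0
  -- the base points
  have hu : IsUnit (c1 - c0) := by
    by_contra hnu
    have h1 : c1 - c0 ∈ IsLocalRing.maximalIdeal ↥A0 := (IsLocalRing.mem_maximalIdeal _).mpr hnu
    have h3 := (IsLocalRing.residue_eq_zero_iff _).mpr h1
    rw [map_sub, sub_eq_zero] at h3
    exact hc h3.symm
  have hmapM : ∀ a : ↥A0,
      ((algebraMap ↥A0 ↥(laurentBaseChange K0 (modularFunctionFieldFull M)) a :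
        ↥(laurentBaseChange K0 (modularFunctionFieldFull M))) : LaurentSeries K0)
        = algebraMap K0 (LaurentSeries K0) (a : K0) := by
    intro a
    rw [IsScalarTower.algebraMap_apply ↥A0 K0 ↥(laurentBaseChange K0 (modularFunctionFieldFull M))]
    rfl
  have hH0 : nunH K0 M H ha2 -
      algebraMap ↥A0 ↥(laurentBaseChange K0 (modularFunctionFieldFull M)) c0 ≠ 0 := by
    intro h0
    have h1 := congrArg (fun x : ↥(laurentBaseChange K0 (modularFunctionFieldFull M)) =>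
      (x : LaurentSeries K0)) h0
    simp only [AddSubgroupClass.coe_sub, hmapM, nunH_coe, ZeroMemClass.coe_zero] at h1
    exact cinst_h_sub_ne_zero H K0 (c0 : K0) h1
  have htMeq : tM = (nunH K0 M H ha2 -
      algebraMap ↥A0 ↥(laurentBaseChange K0 (modularFunctionFieldFull M)) c1) /
      (nunH K0 M H ha2 -
        algebraMap ↥A0 ↥(laurentBaseChange K0 (modularFunctionFieldFull M)) c0) := by
    apply Subtype.ext
    rw [htM, IntermediateField.coe_div, AddSubgroupClass.coe_sub, AddSubgroupClass.coe_sub,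
      hmapM, hmapM]
    rfl
  -- the Frobenius on constants
  have hΦA : ∀ a : ↥A0, ∃ b : ↥A0,
      arithmeticRingAut (modularFunctionFieldFull M) s
          (algebraMap ↥A0 ↥(laurentBaseChange K0 (modularFunctionFieldFull M)) a)
        = algebraMap ↥A0 ↥(laurentBaseChange K0 (modularFunctionFieldFull M)) b ∧
      algebraMap ↥A0 ↥(chtO A0 {t}) (b - a ^ q) ∈ 𝔫 := by
    intro a
    have hsa : s (a : K0) ∈ A0 := jrg_mem_of_mem_decomp ℚ A0 ⟨s, hsD⟩ a.2
    refine ⟨⟨s (a : K0), hsa⟩, ?_, ?_⟩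
    · rw [IsScalarTower.algebraMap_apply ↥A0 K0
          ↥(laurentBaseChange K0 (modularFunctionFieldFull M)),
        IsScalarTower.algebraMap_apply ↥A0 K0
          ↥(laurentBaseChange K0 (modularFunctionFieldFull M)), arithmeticRingAut_algebraMap]
      rfl
    · apply hmax𝔫
      have h1 := fkr_const K0 A0 hs (a : K0) a.2
      rw [IsLocalRing.mem_maximalIdeal]
      exact (A0.coe_mem_nonunits_iff).mp h1
  have hΦH : arithmeticRingAut (modularFunctionFieldFull M) s (nunH K0 M H ha2)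
      = nunH K0 M H ha2 := by
    apply Subtype.ext
    rw [coe_arithmeticRingAut_apply, nunH_coe, H.coeffMap_h]
  subst htt
  exact fnd_main (chtO A0 {heckeAlphaBar K0 M q tM}) 𝔫
    (fun x hx => cht_integral_closed {heckeAlphaBar K0 M q tM} hx)
    (va2V1 M q K0 A0) (va2V2 M q hM K0 A0) (fun x hx => (hV0 x hx).1) (fun x hx => (hV0 x hx).2)
    hc₁ hc₂ q hq.out hq𝔫
    (heckeAlphaBar K0 M q).toRingHom (heckeBetaBar K0 M q).toRingHom
    (fun a => va2m_alpha_algebraMap M q K0 A0 a) (fun a => va2m_beta_algebraMap M q K0 A0 a)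
    (arithmeticRingAut (modularFunctionFieldFull M) s)
    (arithmeticRingAut (modularFunctionFieldFull (M * q)) s)
    (fun x => fkr_alpha_gal M q K0 s x) hΦA
    (fun x hx => (fkr_V1_nonunits_iff M q K0 A0 hsD x).mpr hx)
    (nunH K0 M H ha2) hΦH hh hθ hk1 hk2 c0 c1 hu hH0 tM htMeq h2
    (fun z hz => hz)
    (chtO A0 {tM} : Set ↥(laurentBaseChange K0 (modularFunctionFieldFull M)))
    (fun z hz => hz)
    (fun z hz => va2m_alpha_chtO M q K0 A0 tM z hz)
    (fun z hz => lfi_hlift M q hM K0 A0 hA0 H c0 c1 hc tM htM τ hτ (hSM tM htM τ hτ)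
      (heckeAlphaBar K0 M q tM) ht z hz)
    (fun z hz => fkr_kron1 M q K0 A0 hA0 hs z (hVM z hz))
    (fun z hz => fkr_kron2 M q hM K0 A0 hA0 hs
      (arithmeticRingAut (modularFunctionFieldFull M) s z)
      (fkr_gauss_mem A0 _ hsD z (hVM z hz)))

/-- **CORE-FROBNODE at the `K0` level**: `fnd_inst_aux` without an `A0`-algebra structure on the
lower level. -/
theorem fnd_inst (ha2 : a2 ∣ M)
    [Algebra ↥A0 ↥(laurentBaseChange K0 (modularFunctionFieldFull (M * q)))]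
    [IsScalarTower ↥A0 K0 ↥(laurentBaseChange K0 (modularFunctionFieldFull (M * q)))]
    (hA0 : A0.LiesOverPrime q)
    (c0 c1 : A0) (hc : IsLocalRing.residue A0 c0 ≠ IsLocalRing.residue A0 c1)
    (hSM : cinstSMChart K0 A0 M H (c0 : K0) (c1 : K0))
    (t : ↥(laurentBaseChange K0 (modularFunctionFieldFull (M * q))))
    (ht : (t : LaurentSeries K0) = cinstU H K0 (c0 : K0) (c1 : K0))
    (𝔫 : Ideal ↥(chtO A0 {t})) [h𝔫 : 𝔫.IsPrime]
    (hc₁ : ∀ x : ↥(chtO A0 {t}),
      (x : ↥(laurentBaseChange K0 (modularFunctionFieldFull (M * q)))) ∈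
        (va2V1 M q K0 A0).nonunits → x ∈ 𝔫)
    (hc₂ : ∀ x : ↥(chtO A0 {t}),
      (x : ↥(laurentBaseChange K0 (modularFunctionFieldFull (M * q)))) ∈
        (va2V2 M q hM K0 A0).nonunits → x ∈ 𝔫)
    {s : K0 ≃ₐ[ℚ] K0} (hs : A0.IsFrobeniusAt s q) :
    ∀ z ∈ chtO A0 {t},
      ∃ _ : arithmeticRingAut (modularFunctionFieldFull (M * q)) s
          (arithmeticRingAut (modularFunctionFieldFull (M * q)) s z) ∈ ndrLoc (chtO A0 {t}) 𝔫,
        ∃ a b : ↥(chtO A0 {t}), a ∈ 𝔫 ∧ b ∉ 𝔫 ∧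
          (arithmeticRingAut (modularFunctionFieldFull (M * q)) s
            (arithmeticRingAut (modularFunctionFieldFull (M * q)) s z) - z ^ (q ^ 2)) *
            (b : ↥(laurentBaseChange K0 (modularFunctionFieldFull (M * q)))) =
          (a : ↥(laurentBaseChange K0 (modularFunctionFieldFull (M * q)))) := by
  let algE : Algebra ↥A0 ↥(laurentBaseChange K0 (modularFunctionFieldFull M)) :=
    ((algebraMap K0 ↥(laurentBaseChange K0 (modularFunctionFieldFull M))).comp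
      A0.subtype).toAlgebra
  have twE : IsScalarTower ↥A0 K0 ↥(laurentBaseChange K0 (modularFunctionFieldFull M)) :=
    IsScalarTower.of_algebraMap_eq (fun _ => rfl)
  exact fnd_inst_aux M q hM K0 A0 H ha2 hA0 c0 c1 hc hSM t ht 𝔫 hc₁ hc₂ hs

/-- **CORE-FROBNODE, elementwise form for `σ = Φ_{s s}`** (`s` a Frobenius element of `A0` at
`q`): at a crossing point `𝔫` of the chart `O = chtO A0 {t}`,
(1) `σ` maps `O` into the local ring `O_𝔫`;
(2) `σ` maps `O ∖ 𝔫` to units of `O_𝔫`;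
(3) `σ` maps `O_𝔫` into itself and `σ z - z ^ (q ^ 2) ∈ 𝔪_{O_𝔫}` for every `z ∈ O_𝔫`. -/
theorem fnd_inst_sq (ha2 : a2 ∣ M)
    [Algebra ↥A0 ↥(laurentBaseChange K0 (modularFunctionFieldFull (M * q)))]
    [IsScalarTower ↥A0 K0 ↥(laurentBaseChange K0 (modularFunctionFieldFull (M * q)))]
    (hA0 : A0.LiesOverPrime q)
    (c0 c1 : A0) (hc : IsLocalRing.residue A0 c0 ≠ IsLocalRing.residue A0 c1)
    (hSM : cinstSMChart K0 A0 M H (c0 : K0) (c1 : K0))
    (t : ↥(laurentBaseChange K0 (modularFunctionFieldFull (M * q))))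
    (ht : (t : LaurentSeries K0) = cinstU H K0 (c0 : K0) (c1 : K0))
    (𝔫 : Ideal ↥(chtO A0 {t})) [h𝔫 : 𝔫.IsPrime]
    (hc₁ : ∀ x : ↥(chtO A0 {t}),
      (x : ↥(laurentBaseChange K0 (modularFunctionFieldFull (M * q)))) ∈
        (va2V1 M q K0 A0).nonunits → x ∈ 𝔫)
    (hc₂ : ∀ x : ↥(chtO A0 {t}),
      (x : ↥(laurentBaseChange K0 (modularFunctionFieldFull (M * q)))) ∈
        (va2V2 M q hM K0 A0).nonunits → x ∈ 𝔫)
    {s : K0 ≃ₐ[ℚ] K0} (hs : A0.IsFrobeniusAt s q) :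
    (∀ z : ↥(chtO A0 {t}), ∃ a b : ↥(chtO A0 {t}), b ∉ 𝔫 ∧
      arithmeticRingAut (modularFunctionFieldFull (M * q)) (s * s)
          (z : ↥(laurentBaseChange K0 (modularFunctionFieldFull (M * q)))) *
        (b : ↥(laurentBaseChange K0 (modularFunctionFieldFull (M * q)))) =
      (a : ↥(laurentBaseChange K0 (modularFunctionFieldFull (M * q))))) ∧
    (∀ z : ↥(chtO A0 {t}), z ∉ 𝔫 → ∃ a b : ↥(chtO A0 {t}), a ∉ 𝔫 ∧ b ∉ 𝔫 ∧
      arithmeticRingAut (modularFunctionFieldFull (M * q)) (s * s)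
          (z : ↥(laurentBaseChange K0 (modularFunctionFieldFull (M * q)))) *
        (b : ↥(laurentBaseChange K0 (modularFunctionFieldFull (M * q)))) =
      (a : ↥(laurentBaseChange K0 (modularFunctionFieldFull (M * q))))) ∧
    (∀ z : ↥(laurentBaseChange K0 (modularFunctionFieldFull (M * q))),
      (∃ a b : ↥(chtO A0 {t}), b ∉ 𝔫 ∧
        z * (b : ↥(laurentBaseChange K0 (modularFunctionFieldFull (M * q)))) =
          (a : ↥(laurentBaseChange K0 (modularFunctionFieldFull (M * q))))) →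
      (∃ a b : ↥(chtO A0 {t}), b ∉ 𝔫 ∧
        arithmeticRingAut (modularFunctionFieldFull (M * q)) (s * s) z *
          (b : ↥(laurentBaseChange K0 (modularFunctionFieldFull (M * q)))) =
        (a : ↥(laurentBaseChange K0 (modularFunctionFieldFull (M * q))))) ∧
      ∃ a b : ↥(chtO A0 {t}), a ∈ 𝔫 ∧ b ∉ 𝔫 ∧
        (arithmeticRingAut (modularFunctionFieldFull (M * q)) (s * s) z - z ^ (q ^ 2)) *
          (b : ↥(laurentBaseChange K0 (modularFunctionFieldFull (M * q)))) =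
        (a : ↥(laurentBaseChange K0 (modularFunctionFieldFull (M * q))))) := by
  have hO : ∀ z ∈ chtO A0 {t},
      ∃ _ : (arithmeticRingAut (modularFunctionFieldFull (M * q)) (s * s)).toRingHom z
          ∈ ndrLoc (chtO A0 {t}) 𝔫,
        ∃ a b : ↥(chtO A0 {t}), a ∈ 𝔫 ∧ b ∉ 𝔫 ∧
          ((arithmeticRingAut (modularFunctionFieldFull (M * q)) (s * s)).toRingHom z
            - z ^ (q ^ 2)) *
            (b : ↥(laurentBaseChange K0 (modularFunctionFieldFull (M * q)))) =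
          (a : ↥(laurentBaseChange K0 (modularFunctionFieldFull (M * q)))) := by
    intro z hz
    have h := fnd_inst M q hM K0 A0 H ha2 hA0 c0 c1 hc hSM t ht 𝔫 hc₁ hc₂ hs z hz
    have e : (arithmeticRingAut (modularFunctionFieldFull (M * q)) (s * s)).toRingHom z
        = arithmeticRingAut (modularFunctionFieldFull (M * q)) s
          (arithmeticRingAut (modularFunctionFieldFull (M * q)) s z) :=
      fkr_gal_mul (modularFunctionFieldFull (M * q)) s s z
    rw [e]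
    exact h
  refine ⟨fun z => ?_, fun z hz => ?_, fun z hz => ?_⟩
  · obtain ⟨h1, -⟩ := hO z z.2
    exact h1
  · exact fnd_unit (chtO A0 {t}) 𝔫 _ (q ^ 2) hO z hz
  · obtain ⟨h1, h2⟩ := fnd_loc (chtO A0 {t}) 𝔫 _ (q ^ 2) hO z hz
    exact ⟨h1, h2⟩

end Field

end Fermat.Agent.S35
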