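import Mathlib
import Fermat.Agent.S34.InstFinal
import Fermat.Agent.S34.CuspNode

/-!
# S35, leaf CORE-NODEDATA: the data of a crossing point at the carrier

`Val2Def` carrier: `F = K0(X₀(M q))`, `q ∤ M`, `A0` a discrete valuation subring of `K0` over `q`,
`V₁ = va2V1`, `V₂ = va2V2`, chart `O = chtO A0 {t}` with `t = cinstU H K0 c0 c1` (so both charts of
the cover are instances: `(c0, c1)` and `(c1, c0)`), `𝔫` a maximal ideal of `O` which is a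
crossing point (`hc₁`, `hc₂`).  With `h = α (nunH)` the Hauptmodul, `θ = β (nunH)` its swap and

  `x := h ^ q - θ`  (in `𝔪_{V₁}`, the local equation of the first component),
  `y := h - θ ^ q`  (in `𝔪_{V₂}`, the local equation of the second component),

* `s35nd_mem`   : `h`, `θ` lie in `O_𝔫` (fraction form);
* `s35nd_x`, `s35nd_y` : `x`, `y` lie in the maximal ideal `𝔫 O_𝔫` (fraction form);
* `s35nd_node`  : the two branch statements `hB₁` (with `y`), `hB₂` (with `x`) in the shapes of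
  `ngl_main`, together with the four membership statements.

The inputs are the chart packages of `s34if_branch` (S34/InstFinal.lean).
-/

set_option autoImplicit false
set_option linter.unusedSectionVars false

noncomputable section

open ModularCurve AlgebraicCurve Polynomial
open Fermat.Agent.S18 Fermat.Agent.S37 Fermat.Agent.S34

namespace Fermat.Agent.S35

local notation "Qb" => AlgebraicClosure ℚ

section NodeData

variable (M q : ℕ) [NeZero M] [hq : Fact q.Prime] (hM : ¬ q ∣ M)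
  (K0 : Type*) [Field K0] [Algebra ℚ K0] [Algebra K0 Qb]
  (A0 : ValuationSubring K0) [IsDiscreteValuationRing ↥A0]
  {a2 : ℕ} (H : HauptRec a2 q)

/-- the Hauptmodul and its swap lie in the local ring of a crossing point -/
theorem s35nd_mem (ha2 : a2 ∣ M) (hA0 : A0.LiesOverPrime q) (c0 c1 : A0)
    (hc : IsLocalRing.residue ↥A0 c0 ≠ IsLocalRing.residue ↥A0 c1)
    (t : ↥(laurentBaseChange K0 (modularFunctionFieldFull (M * q))))
    (ht : (t : LaurentSeries K0) = cinstU H K0 (c0 : K0) (c1 : K0))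
    [Algebra ↥A0 ↥(laurentBaseChange K0 (modularFunctionFieldFull (M * q)))]
    [IsScalarTower ↥A0 K0 ↥(laurentBaseChange K0 (modularFunctionFieldFull (M * q)))]
    (𝔫 : Ideal ↥(chtO A0 {t})) [𝔫.IsPrime]
    (hc₁ : ∀ x : ↥(chtO A0 {t}),
      (x : ↥(laurentBaseChange K0 (modularFunctionFieldFull (M * q)))) ∈
        (va2V1 M q K0 A0).nonunits → x ∈ 𝔫)
    (hc₂ : ∀ x : ↥(chtO A0 {t}),
      (x : ↥(laurentBaseChange K0 (modularFunctionFieldFull (M * q)))) ∈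
        (va2V2 M q hM K0 A0).nonunits → x ∈ 𝔫) :
    (∃ a s : ↥(chtO A0 {t}), s ∉ 𝔫 ∧ heckeAlphaBar K0 M q (nunH K0 M H ha2) *
      (s : ↥(laurentBaseChange K0 (modularFunctionFieldFull (M * q)))) =
        (a : ↥(laurentBaseChange K0 (modularFunctionFieldFull (M * q))))) ∧
    (∃ a s : ↥(chtO A0 {t}), s ∉ 𝔫 ∧ heckeBetaBar K0 M q (nunH K0 M H ha2) *
      (s : ↥(laurentBaseChange K0 (modularFunctionFieldFull (M * q)))) =
        (a : ↥(laurentBaseChange K0 (modularFunctionFieldFull (M * q))))) :=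
  ⟨cnd_hh M q hM K0 A0 H ha2 hA0 c0 c1 hc t ht 𝔫 hc₁ hc₂,
    cnd_htheta M q hM K0 A0 H ha2 hA0 c0 c1 hc t ht 𝔫 hc₁ hc₂⟩

/-- abstract: a polynomial expression `u ^ k - v` (resp. `u - v ^ k`) in two elements of `O_𝔫`
which is a nonunit of a valuation ring `V ⊇ O` centred inside `𝔫` lies in `𝔫 O_𝔫` -/
theorem s35nd_max_aux {A F : Type*} [CommRing A] [Field F] [Algebra A F] (O : Subalgebra A F)
    (𝔫 : Ideal ↥O) [𝔫.IsPrime] (V : ValuationSubring F) (hO : ∀ x ∈ O, x ∈ V)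
    (hcV : ∀ x : ↥O, (x : F) ∈ V.nonunits → x ∈ 𝔫) (u v : F)
    (hu : ∃ a s : ↥O, s ∉ 𝔫 ∧ u * (s : F) = (a : F))
    (hv : ∃ a s : ↥O, s ∉ 𝔫 ∧ v * (s : F) = (a : F)) (k l : ℕ)
    (hz : u ^ k - v ^ l ∈ V.nonunits) :
    ∃ a s : ↥O, a ∈ 𝔫 ∧ s ∉ 𝔫 ∧ (u ^ k - v ^ l) * (s : F) = (a : F) := by
  obtain ⟨a₁, s₁, hs₁, h₁⟩ := hu
  obtain ⟨a₂, s₂, hs₂, h₂⟩ := hv
  have hs : s₁ ^ k * s₂ ^ l ∉ 𝔫 := by
    intro hmem
    rcases Ideal.IsPrime.mem_or_mem ‹𝔫.IsPrime› hmem with h | h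
    · exact hs₁ (Ideal.IsPrime.mem_of_pow_mem ‹𝔫.IsPrime› k h)
    · exact hs₂ (Ideal.IsPrime.mem_of_pow_mem ‹𝔫.IsPrime› l h)
  have e : (u ^ k - v ^ l) * ((s₁ ^ k * s₂ ^ l : ↥O) : F) =
      ((a₁ ^ k * s₂ ^ l - a₂ ^ l * s₁ ^ k : ↥O) : F) := by
    push_cast
    rw [← h₁, ← h₂]
    ring
  refine ⟨a₁ ^ k * s₂ ^ l - a₂ ^ l * s₁ ^ k, s₁ ^ k * s₂ ^ l, hcV _ ?_, hs, e⟩
  rw [← e, ValuationSubring.mem_nonunits_iff, map_mul]
  rw [ValuationSubring.mem_nonunits_iff] at hz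
  exact mul_lt_one_of_lt_of_le hz ((V.valuation_le_one_iff _).mpr (hO _ (s₁ ^ k * s₂ ^ l).2))

/-- `x = h ^ q - θ` lies in the maximal ideal of the local ring of a crossing point -/
theorem s35nd_x (ha2 : a2 ∣ M) (hA0 : A0.LiesOverPrime q) (c0 c1 : A0)
    (hc : IsLocalRing.residue ↥A0 c0 ≠ IsLocalRing.residue ↥A0 c1)
    (t : ↥(laurentBaseChange K0 (modularFunctionFieldFull (M * q))))
    (ht : (t : LaurentSeries K0) = cinstU H K0 (c0 : K0) (c1 : K0))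
    [Algebra ↥A0 ↥(laurentBaseChange K0 (modularFunctionFieldFull (M * q)))]
    [IsScalarTower ↥A0 K0 ↥(laurentBaseChange K0 (modularFunctionFieldFull (M * q)))]
    (𝔫 : Ideal ↥(chtO A0 {t})) [𝔫.IsPrime]
    (hc₁ : ∀ x : ↥(chtO A0 {t}),
      (x : ↥(laurentBaseChange K0 (modularFunctionFieldFull (M * q)))) ∈
        (va2V1 M q K0 A0).nonunits → x ∈ 𝔫)
    (hc₂ : ∀ x : ↥(chtO A0 {t}),
      (x : ↥(laurentBaseChange K0 (modularFunctionFieldFull (M * q)))) ∈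
        (va2V2 M q hM K0 A0).nonunits → x ∈ 𝔫) :
    ∃ a s : ↥(chtO A0 {t}), a ∈ 𝔫 ∧ s ∉ 𝔫 ∧
      (heckeAlphaBar K0 M q (nunH K0 M H ha2) ^ q - heckeBetaBar K0 M q (nunH K0 M H ha2)) *
        (s : ↥(laurentBaseChange K0 (modularFunctionFieldFull (M * q)))) =
        (a : ↥(laurentBaseChange K0 (modularFunctionFieldFull (M * q)))) := by
  obtain ⟨hh, hθ⟩ := s35nd_mem M q hM K0 A0 H ha2 hA0 c0 c1 hc t ht 𝔫 hc₁ hc₂
  have hk := cnd_hk1 M q hM K0 A0 H ha2 hA0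
  have h := s35nd_max_aux (chtO A0 {t}) 𝔫 (va2V1 M q K0 A0)
    (fun x hx => nch_O1 M q K0 A0 H c0 c1 hc t ht x hx) hc₁ _ _ hh hθ q 1
    (by rw [pow_one]; exact hk)
  rwa [pow_one] at h

/-- `y = h - θ ^ q` lies in the maximal ideal of the local ring of a crossing point -/
theorem s35nd_y (ha2 : a2 ∣ M) (hA0 : A0.LiesOverPrime q) (c0 c1 : A0)
    (hc : IsLocalRing.residue ↥A0 c0 ≠ IsLocalRing.residue ↥A0 c1)
    (t : ↥(laurentBaseChange K0 (modularFunctionFieldFull (M * q))))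
    (ht : (t : LaurentSeries K0) = cinstU H K0 (c0 : K0) (c1 : K0))
    [Algebra ↥A0 ↥(laurentBaseChange K0 (modularFunctionFieldFull (M * q)))]
    [IsScalarTower ↥A0 K0 ↥(laurentBaseChange K0 (modularFunctionFieldFull (M * q)))]
    (𝔫 : Ideal ↥(chtO A0 {t})) [𝔫.IsPrime]
    (hc₁ : ∀ x : ↥(chtO A0 {t}),
      (x : ↥(laurentBaseChange K0 (modularFunctionFieldFull (M * q)))) ∈
        (va2V1 M q K0 A0).nonunits → x ∈ 𝔫)
    (hc₂ : ∀ x : ↥(chtO A0 {t}),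
      (x : ↥(laurentBaseChange K0 (modularFunctionFieldFull (M * q)))) ∈
        (va2V2 M q hM K0 A0).nonunits → x ∈ 𝔫) :
    ∃ a s : ↥(chtO A0 {t}), a ∈ 𝔫 ∧ s ∉ 𝔫 ∧
      (heckeAlphaBar K0 M q (nunH K0 M H ha2) - heckeBetaBar K0 M q (nunH K0 M H ha2) ^ q) *
        (s : ↥(laurentBaseChange K0 (modularFunctionFieldFull (M * q)))) =
        (a : ↥(laurentBaseChange K0 (modularFunctionFieldFull (M * q)))) := by
  obtain ⟨hh, hθ⟩ := s35nd_mem M q hM K0 A0 H ha2 hA0 c0 c1 hc t ht 𝔫 hc₁ hc₂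
  have hk := cnd_hk2 M q hM K0 A0 H ha2 hA0
  have h := s35nd_max_aux (chtO A0 {t}) 𝔫 (va2V2 M q hM K0 A0)
    (fun x hx => nch_O2 M q hM K0 A0 H ha2 hA0 c0 c1 hc t ht x hx) hc₂ _ _ hh hθ 1 q
    (by rw [pow_one]; exact hk)
  rwa [pow_one] at h

/-- **CORE-NODEDATA.**  At a crossing point `𝔫` of the chart `chtO A0 {t}`: the two branch
statements `hB₁` (uniformiser `y = h - θ ^ q` of the first branch), `hB₂` (uniformiser
`x = h ^ q - θ` of the second branch) in the shapes of `ngl_main`, `h, θ ∈ O_𝔫` and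
`x, y ∈ 𝔫 O_𝔫`. -/
theorem s35nd_node (ha2 : a2 ∣ M) (hA0 : A0.LiesOverPrime q) (c0 c1 : A0)
    (hc : IsLocalRing.residue ↥A0 c0 ≠ IsLocalRing.residue ↥A0 c1)
    (hQ0 : smi2U A0 (aeval (c0 : K0) H.Qrad))
    (hSM0 : cinstSMChart K0 A0 M H (c0 : K0) (c1 : K0))
    (hSM1 : cinstSMChart K0 A0 M H (c1 : K0) (c0 : K0))
    (hu0 : unrChart K0 A0 M H c0 c1) (hu1 : unrChart K0 A0 M H c1 c0)
    (t : ↥(laurentBaseChange K0 (modularFunctionFieldFull (M * q))))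
    (ht : (t : LaurentSeries K0) = cinstU H K0 (c0 : K0) (c1 : K0))
    [Algebra ↥A0 ↥(laurentBaseChange K0 (modularFunctionFieldFull (M * q)))]
    [IsScalarTower ↥A0 K0 ↥(laurentBaseChange K0 (modularFunctionFieldFull (M * q)))]
    (τ : A0) (hτ : Irreducible τ)
    (𝔫 : Ideal ↥(chtO A0 {t})) (h𝔫 : 𝔫.IsMaximal)
    (hc₁ : ∀ x : ↥(chtO A0 {t}),
      (x : ↥(laurentBaseChange K0 (modularFunctionFieldFull (M * q)))) ∈
        (va2V1 M q K0 A0).nonunits → x ∈ 𝔫)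
    (hc₂ : ∀ x : ↥(chtO A0 {t}),
      (x : ↥(laurentBaseChange K0 (modularFunctionFieldFull (M * q)))) ∈
        (va2V2 M q hM K0 A0).nonunits → x ∈ 𝔫) :
    -- hB₁
    (∀ a : ↥(chtO A0 {t}), a ∈ 𝔫 → ∃ b c : ↥(chtO A0 {t}), c ∉ 𝔫 ∧
        (a : ↥(laurentBaseChange K0 (modularFunctionFieldFull (M * q)))) *
            (c : ↥(laurentBaseChange K0 (modularFunctionFieldFull (M * q)))) -
          (heckeAlphaBar K0 M q (nunH K0 M H ha2) -
            heckeBetaBar K0 M q (nunH K0 M H ha2) ^ q) *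
            (b : ↥(laurentBaseChange K0 (modularFunctionFieldFull (M * q))))
          ∈ (va2V1 M q K0 A0).nonunits) ∧
    -- hB₂
    (∀ a : ↥(chtO A0 {t}), a ∈ 𝔫 → ∃ b c : ↥(chtO A0 {t}), c ∉ 𝔫 ∧
        (a : ↥(laurentBaseChange K0 (modularFunctionFieldFull (M * q)))) *
            (c : ↥(laurentBaseChange K0 (modularFunctionFieldFull (M * q)))) -
          (heckeAlphaBar K0 M q (nunH K0 M H ha2) ^ q -
            heckeBetaBar K0 M q (nunH K0 M H ha2)) *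
            (b : ↥(laurentBaseChange K0 (modularFunctionFieldFull (M * q))))
          ∈ (va2V2 M q hM K0 A0).nonunits) ∧
    -- `h ∈ O_𝔫`, `θ ∈ O_𝔫`
    (∃ a s : ↥(chtO A0 {t}), s ∉ 𝔫 ∧ heckeAlphaBar K0 M q (nunH K0 M H ha2) *
      (s : ↥(laurentBaseChange K0 (modularFunctionFieldFull (M * q)))) =
        (a : ↥(laurentBaseChange K0 (modularFunctionFieldFull (M * q))))) ∧
    (∃ a s : ↥(chtO A0 {t}), s ∉ 𝔫 ∧ heckeBetaBar K0 M q (nunH K0 M H ha2) *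
      (s : ↥(laurentBaseChange K0 (modularFunctionFieldFull (M * q)))) =
        (a : ↥(laurentBaseChange K0 (modularFunctionFieldFull (M * q))))) ∧
    -- `x ∈ 𝔫 O_𝔫`, `y ∈ 𝔫 O_𝔫`
    (∃ a s : ↥(chtO A0 {t}), a ∈ 𝔫 ∧ s ∉ 𝔫 ∧
      (heckeAlphaBar K0 M q (nunH K0 M H ha2) ^ q - heckeBetaBar K0 M q (nunH K0 M H ha2)) *
        (s : ↥(laurentBaseChange K0 (modularFunctionFieldFull (M * q)))) =
        (a : ↥(laurentBaseChange K0 (modularFunctionFieldFull (M * q))))) ∧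
    (∃ a s : ↥(chtO A0 {t}), a ∈ 𝔫 ∧ s ∉ 𝔫 ∧
      (heckeAlphaBar K0 M q (nunH K0 M H ha2) - heckeBetaBar K0 M q (nunH K0 M H ha2) ^ q) *
        (s : ↥(laurentBaseChange K0 (modularFunctionFieldFull (M * q)))) =
        (a : ↥(laurentBaseChange K0 (modularFunctionFieldFull (M * q))))) := by
  have := h𝔫.isPrime
  obtain ⟨hB₁, hB₂⟩ := s34if_branch M q hM K0 A0 H ha2 hA0 c0 c1 hc hQ0 hSM0 hSM1 hu0 hu1 t ht
    τ hτ 𝔫 h𝔫 hc₁ hc₂
  obtain ⟨hh, hθ⟩ := s35nd_mem M q hM K0 A0 H ha2 hA0 c0 c1 hc t ht 𝔫 hc₁ hc₂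
  exact ⟨hB₁, hB₂, hh, hθ, s35nd_x M q hM K0 A0 H ha2 hA0 c0 c1 hc t ht 𝔫 hc₁ hc₂,
    s35nd_y M q hM K0 A0 H ha2 hA0 c0 c1 hc t ht 𝔫 hc₁ hc₂⟩

end NodeData

end Fermat.Agent.S35
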