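import Mathlib
import Fermat.Agent.S35.NodeData
import Fermat.Agent.S35.FrobNodeInst

/-!
# S35, seam S35NODE: the node data of CORE-ABS at the Hauptmodul charts

At the `Val2Def` carrier (`F = K0(X₀(M q))`, `V₁ = va2V1`, `V₂ = va2V2`, chart
`O = chtO A0 {t}`, `t = cinstU H K0 c0 c1`), with `h = α (nunH)`, `θ = β (nunH)`,

  `x := h ^ q - θ`,  `y := h - θ ^ q`,  `σ := arithmeticRingAut _ (s * s)`

for a Frobenius element `s` of `A0` at `q`:

* `fns_node`: at a crossing point `𝔫` of `chtO A0 {t}`, the six statements making up the node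
  datum of CORE-ABS (`x, y ∈ O_𝔫`; the branch statements with `y` and with `x`; `σ` maps `O`
  into `O_𝔫`; `σ z - z ^ (q ^ 2) ∈ 𝔫 O_𝔫` for `z ∈ O`).
* `fns_node_inv`: the same at a crossing point of the second chart `chtO A0 {t⁻¹}`.

Inputs: `s35nd_node` (NodeData) and `fnd_inst_sq` (FrobNodeInst).
-/

set_option autoImplicit false
set_option linter.unusedSectionVars false

noncomputable section

open ModularCurve AlgebraicCurve Polynomial
open Fermat.Agent.S18 Fermat.Agent.S37 Fermat.Agent.S34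

namespace Fermat.Agent.S35

local notation "Qb" => AlgebraicClosure ℚ

section Seam

variable (M q : ℕ) [NeZero M] [hq : Fact q.Prime] (hM : ¬ q ∣ M)
  (K0 : Type*) [Field K0] [Algebra ℚ K0] [Algebra K0 Qb]
  (A0 : ValuationSubring K0) [IsDiscreteValuationRing ↥A0]
  {a2 : ℕ} (H : HauptRec a2 q)

/-- **S35NODE at a crossing point of the chart `chtO A0 {t}`.** -/
theorem fns_node (ha2 : a2 ∣ M) (hA0 : A0.LiesOverPrime q) (c0 c1 : A0)
    (hc : IsLocalRing.residue ↥A0 c0 ≠ IsLocalRing.residue ↥A0 c1)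
    (hQ0 : smi2U A0 (aeval (c0 : K0) H.Qrad))
    (hSM0 : cinstSMChart K0 A0 M H (c0 : K0) (c1 : K0))
    (hSM1 : cinstSMChart K0 A0 M H (c1 : K0) (c0 : K0))
    (hu0 : unrChart K0 A0 M H c0 c1) (hu1 : unrChart K0 A0 M H c1 c0)
    (t : ↥(laurentBaseChange K0 (modularFunctionFieldFull (M * q))))
    (ht : (t : LaurentSeries K0) = cinstU H K0 (c0 : K0) (c1 : K0))
    [Algebra ↥A0 ↥(laurentBaseChange K0 (modularFunctionFieldFull (M * q)))]
    [IsScalarTower ↥A0 K0 ↥(laurentBaseChange K0 (modularFunctionFieldFull (M * q)))]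
    (τ : A0) (hτ : Irreducible τ)
    {s : K0 ≃ₐ[ℚ] K0} (hs : A0.IsFrobeniusAt s q)
    (𝔫 : Ideal ↥(chtO A0 {t})) (h𝔫 : 𝔫.IsMaximal)
    (hc₁ : ∀ x : ↥(chtO A0 {t}),
      (x : ↥(laurentBaseChange K0 (modularFunctionFieldFull (M * q)))) ∈
        (va2V1 M q K0 A0).nonunits → x ∈ 𝔫)
    (hc₂ : ∀ x : ↥(chtO A0 {t}),
      (x : ↥(laurentBaseChange K0 (modularFunctionFieldFull (M * q)))) ∈
        (va2V2 M q hM K0 A0).nonunits → x ∈ 𝔫) :
    (∃ a b : ↥(chtO A0 {t}), b ∉ 𝔫 ∧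
      (heckeAlphaBar K0 M q (nunH K0 M H ha2) ^ q - heckeBetaBar K0 M q (nunH K0 M H ha2)) *
        (b : ↥(laurentBaseChange K0 (modularFunctionFieldFull (M * q)))) =
        (a : ↥(laurentBaseChange K0 (modularFunctionFieldFull (M * q))))) ∧
    (∃ a b : ↥(chtO A0 {t}), b ∉ 𝔫 ∧
      (heckeAlphaBar K0 M q (nunH K0 M H ha2) - heckeBetaBar K0 M q (nunH K0 M H ha2) ^ q) *
        (b : ↥(laurentBaseChange K0 (modularFunctionFieldFull (M * q)))) =
        (a : ↥(laurentBaseChange K0 (modularFunctionFieldFull (M * q))))) ∧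
    (∀ a : ↥(chtO A0 {t}), a ∈ 𝔫 → ∃ b c : ↥(chtO A0 {t}), c ∉ 𝔫 ∧
      (a : ↥(laurentBaseChange K0 (modularFunctionFieldFull (M * q)))) *
          (c : ↥(laurentBaseChange K0 (modularFunctionFieldFull (M * q)))) -
        (heckeAlphaBar K0 M q (nunH K0 M H ha2) -
          heckeBetaBar K0 M q (nunH K0 M H ha2) ^ q) *
          (b : ↥(laurentBaseChange K0 (modularFunctionFieldFull (M * q))))
        ∈ (va2V1 M q K0 A0).nonunits) ∧
    (∀ a : ↥(chtO A0 {t}), a ∈ 𝔫 → ∃ b c : ↥(chtO A0 {t}), c ∉ 𝔫 ∧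
      (a : ↥(laurentBaseChange K0 (modularFunctionFieldFull (M * q)))) *
          (c : ↥(laurentBaseChange K0 (modularFunctionFieldFull (M * q)))) -
        (heckeAlphaBar K0 M q (nunH K0 M H ha2) ^ q -
          heckeBetaBar K0 M q (nunH K0 M H ha2)) *
          (b : ↥(laurentBaseChange K0 (modularFunctionFieldFull (M * q))))
        ∈ (va2V2 M q hM K0 A0).nonunits) ∧
    (∀ z : ↥(chtO A0 {t}), ∃ a b : ↥(chtO A0 {t}), b ∉ 𝔫 ∧
      arithmeticRingAut (modularFunctionFieldFull (M * q)) (s * s)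
          (z : ↥(laurentBaseChange K0 (modularFunctionFieldFull (M * q)))) *
        (b : ↥(laurentBaseChange K0 (modularFunctionFieldFull (M * q)))) =
      (a : ↥(laurentBaseChange K0 (modularFunctionFieldFull (M * q))))) ∧
    (∀ z : ↥(chtO A0 {t}), ∃ a b : ↥(chtO A0 {t}), a ∈ 𝔫 ∧ b ∉ 𝔫 ∧
      (arithmeticRingAut (modularFunctionFieldFull (M * q)) (s * s)
          (z : ↥(laurentBaseChange K0 (modularFunctionFieldFull (M * q)))) -
        (z : ↥(laurentBaseChange K0 (modularFunctionFieldFull (M * q)))) ^ (q ^ 2)) *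
        (b : ↥(laurentBaseChange K0 (modularFunctionFieldFull (M * q)))) =
      (a : ↥(laurentBaseChange K0 (modularFunctionFieldFull (M * q))))) := by
  have h𝔫' := h𝔫.isPrime
  obtain ⟨hB₁, hB₂, -, -, ⟨a, b, -, hb, hx⟩, ⟨a', b', -, hb', hy⟩⟩ :=
    s35nd_node M q hM K0 A0 H ha2 hA0 c0 c1 hc hQ0 hSM0 hSM1 hu0 hu1 t ht τ hτ 𝔫 h𝔫 hc₁ hc₂
  obtain ⟨h1, -, h3⟩ := fnd_inst_sq M q hM K0 A0 H ha2 hA0 c0 c1 hc hSM0 t ht 𝔫 hc₁ hc₂ hs
  refine ⟨⟨a, b, hb, hx⟩, ⟨a', b', hb', hy⟩, hB₁, hB₂, h1, fun z => ?_⟩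
  refine (h3 (z : ↥(laurentBaseChange K0 (modularFunctionFieldFull (M * q))))
    ⟨z, 1, fun h => h𝔫'.ne_top ((Ideal.eq_top_iff_one 𝔫).mpr h), ?_⟩).2
  rw [Subalgebra.coe_one, mul_one]

/-- **S35NODE at a crossing point of the second chart `chtO A0 {t⁻¹}`.** -/
theorem fns_node_inv (ha2 : a2 ∣ M) (hA0 : A0.LiesOverPrime q) (c0 c1 : A0)
    (hc : IsLocalRing.residue ↥A0 c0 ≠ IsLocalRing.residue ↥A0 c1)
    (hQ1 : smi2U A0 (aeval (c1 : K0) H.Qrad))
    (hSM0 : cinstSMChart K0 A0 M H (c0 : K0) (c1 : K0))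
    (hSM1 : cinstSMChart K0 A0 M H (c1 : K0) (c0 : K0))
    (hu0 : unrChart K0 A0 M H c0 c1) (hu1 : unrChart K0 A0 M H c1 c0)
    (t : ↥(laurentBaseChange K0 (modularFunctionFieldFull (M * q))))
    (ht : (t : LaurentSeries K0) = cinstU H K0 (c0 : K0) (c1 : K0))
    [Algebra ↥A0 ↥(laurentBaseChange K0 (modularFunctionFieldFull (M * q)))]
    [IsScalarTower ↥A0 K0 ↥(laurentBaseChange K0 (modularFunctionFieldFull (M * q)))]
    (τ : A0) (hτ : Irreducible τ)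
    {s : K0 ≃ₐ[ℚ] K0} (hs : A0.IsFrobeniusAt s q)
    (𝔫 : Ideal ↥(chtO A0 {t⁻¹})) (h𝔫 : 𝔫.IsMaximal)
    (hc₁ : ∀ x : ↥(chtO A0 {t⁻¹}),
      (x : ↥(laurentBaseChange K0 (modularFunctionFieldFull (M * q)))) ∈
        (va2V1 M q K0 A0).nonunits → x ∈ 𝔫)
    (hc₂ : ∀ x : ↥(chtO A0 {t⁻¹}),
      (x : ↥(laurentBaseChange K0 (modularFunctionFieldFull (M * q)))) ∈
        (va2V2 M q hM K0 A0).nonunits → x ∈ 𝔫) :
    (∃ a b : ↥(chtO A0 {t⁻¹}), b ∉ 𝔫 ∧
      (heckeAlphaBar K0 M q (nunH K0 M H ha2) ^ q - heckeBetaBar K0 M q (nunH K0 M H ha2)) *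
        (b : ↥(laurentBaseChange K0 (modularFunctionFieldFull (M * q)))) =
        (a : ↥(laurentBaseChange K0 (modularFunctionFieldFull (M * q))))) ∧
    (∃ a b : ↥(chtO A0 {t⁻¹}), b ∉ 𝔫 ∧
      (heckeAlphaBar K0 M q (nunH K0 M H ha2) - heckeBetaBar K0 M q (nunH K0 M H ha2) ^ q) *
        (b : ↥(laurentBaseChange K0 (modularFunctionFieldFull (M * q)))) =
        (a : ↥(laurentBaseChange K0 (modularFunctionFieldFull (M * q))))) ∧
    (∀ a : ↥(chtO A0 {t⁻¹}), a ∈ 𝔫 → ∃ b c : ↥(chtO A0 {t⁻¹}), c ∉ 𝔫 ∧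
      (a : ↥(laurentBaseChange K0 (modularFunctionFieldFull (M * q)))) *
          (c : ↥(laurentBaseChange K0 (modularFunctionFieldFull (M * q)))) -
        (heckeAlphaBar K0 M q (nunH K0 M H ha2) -
          heckeBetaBar K0 M q (nunH K0 M H ha2) ^ q) *
          (b : ↥(laurentBaseChange K0 (modularFunctionFieldFull (M * q))))
        ∈ (va2V1 M q K0 A0).nonunits) ∧
    (∀ a : ↥(chtO A0 {t⁻¹}), a ∈ 𝔫 → ∃ b c : ↥(chtO A0 {t⁻¹}), c ∉ 𝔫 ∧
      (a : ↥(laurentBaseChange K0 (modularFunctionFieldFull (M * q)))) *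
          (c : ↥(laurentBaseChange K0 (modularFunctionFieldFull (M * q)))) -
        (heckeAlphaBar K0 M q (nunH K0 M H ha2) ^ q -
          heckeBetaBar K0 M q (nunH K0 M H ha2)) *
          (b : ↥(laurentBaseChange K0 (modularFunctionFieldFull (M * q))))
        ∈ (va2V2 M q hM K0 A0).nonunits) ∧
    (∀ z : ↥(chtO A0 {t⁻¹}), ∃ a b : ↥(chtO A0 {t⁻¹}), b ∉ 𝔫 ∧
      arithmeticRingAut (modularFunctionFieldFull (M * q)) (s * s)
          (z : ↥(laurentBaseChange K0 (modularFunctionFieldFull (M * q)))) *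
        (b : ↥(laurentBaseChange K0 (modularFunctionFieldFull (M * q)))) =
      (a : ↥(laurentBaseChange K0 (modularFunctionFieldFull (M * q))))) ∧
    (∀ z : ↥(chtO A0 {t⁻¹}), ∃ a b : ↥(chtO A0 {t⁻¹}), a ∈ 𝔫 ∧ b ∉ 𝔫 ∧
      (arithmeticRingAut (modularFunctionFieldFull (M * q)) (s * s)
          (z : ↥(laurentBaseChange K0 (modularFunctionFieldFull (M * q)))) -
        (z : ↥(laurentBaseChange K0 (modularFunctionFieldFull (M * q)))) ^ (q ^ 2)) *
        (b : ↥(laurentBaseChange K0 (modularFunctionFieldFull (M * q)))) =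
      (a : ↥(laurentBaseChange K0 (modularFunctionFieldFull (M * q))))) :=
  fns_node M q hM K0 A0 H ha2 hA0 c1 c0 hc.symm hQ1 hSM1 hSM0 hu1 hu0 t⁻¹
    (by rw [IntermediateField.coe_inv, ht, cinstU_inv]) τ hτ hs 𝔫 h𝔫 hc₁ hc₂

end Seam

end Fermat.Agent.S35
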