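import Mathlib
import Fermat.Agent.S34.InstMod
import Fermat.Agent.S34.CuspNode
import Fermat.Agent.S37.TwoVal

/-!
# S35, work package CORE-SEP: discreteness and separation of the two Gauss valuations

Carrier of S34 (`Val2Def`): `F = K0(X₀(M q))`, `V₁ = va2V1`, `V₂ = va2V2`, `A0` a discrete
valuation subring of `K0` with uniformizer `τ`.

* `gsp_dec_VG`, `gsp_hdec₁`, `gsp_hdec₂` : discreteness (`hdec`): every `z ≠ 0` of `F` is a
  power of `τ` times a unit of `V₁` (resp. of `V₂`);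
* `gsp_x_mem₁`, `gsp_y_mem₂`, `gsp_y_unit₁`, `gsp_x_unit₂` : the two global elements
  `x = (α h) ^ q - β h`, `y = α h - (β h) ^ q` (`h` the Hauptmodul): `x ∈ 𝔪_{V₁}`, `x` is a unit
  of `V₂`, `y ∈ 𝔪_{V₂}`, `y` is a unit of `V₁`;
* `gsp_sep_abs`, `gsp_sep` : the separating element `e = y / (x + y)`: `e - 1 ∈ 𝔪_{V₁}`,
  `e ∈ 𝔪_{V₂}`.
-/

set_option autoImplicit false
set_option linter.unusedSectionVars false

noncomputable section

open ModularCurve AlgebraicCurve Polynomial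
open Fermat.Agent.S18 Fermat.Agent.S34 Fermat.Agent.S37

namespace Fermat.Agent.S35

local notation "Qb" => AlgebraicClosure ℚ

section Abs

variable {K₀ : Type*} [Field K₀] (A₀ : ValuationSubring K₀) [IsDiscreteValuationRing ↥A₀]

omit [IsDiscreteValuationRing ↥A₀] in
theorem gsp_unit_inv (u : (↥A₀)ˣ) :
    (((u : ↥A₀) : K₀))⁻¹ = (((u⁻¹ : (↥A₀)ˣ) : ↥A₀) : K₀) := by
  apply inv_eq_of_mul_eq_one_left
  have h2 : ((u⁻¹ : (↥A₀)ˣ) : ↥A₀) * (u : ↥A₀) = 1 := Units.inv_mul u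
  rw [← MulMemClass.coe_mul, h2]
  rfl

/-- every nonzero element of the fraction field of a discrete valuation subring is a unit times
a power of the uniformizer -/
theorem gsp_const_dec (τ : A₀) (hτ : Irreducible τ) (c : K₀) (hc : c ≠ 0) :
    ∃ j : ℤ, c * (τ : K₀) ^ j ∈ A₀ ∧ (c * (τ : K₀) ^ j)⁻¹ ∈ A₀ := by
  have hτ0 : (τ : K₀) ≠ 0 := fun h => hτ.ne_zero (Subtype.ext h)
  have key : ∀ c : K₀, c ≠ 0 → c ∈ A₀ →
      ∃ (n : ℕ) (u : (↥A₀)ˣ), c = ((u : ↥A₀) : K₀) * (τ : K₀) ^ n := by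
    intro c hc hcA
    have hc' : (⟨c, hcA⟩ : ↥A₀) ≠ 0 := fun h => hc (congrArg Subtype.val h)
    obtain ⟨n, u, hu⟩ := IsDiscreteValuationRing.eq_unit_mul_pow_irreducible hc' hτ
    refine ⟨n, u, ?_⟩
    have := congrArg Subtype.val hu
    simpa using this
  rcases A₀.mem_or_inv_mem c with hcA | hcA
  · obtain ⟨n, u, hu⟩ := key c hc hcA
    refine ⟨-(n : ℤ), ?_, ?_⟩
    · rw [hu, zpow_neg, zpow_natCast, mul_assoc, mul_inv_cancel₀ (pow_ne_zero _ hτ0), mul_one]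
      exact (u : ↥A₀).2
    · rw [hu, zpow_neg, zpow_natCast, mul_assoc, mul_inv_cancel₀ (pow_ne_zero _ hτ0), mul_one]
      have h1 : (((u : ↥A₀) : K₀))⁻¹ = (((u⁻¹ : (↥A₀)ˣ) : ↥A₀) : K₀) :=
        gsp_unit_inv A₀ u
      rw [h1]
      exact ((u⁻¹ : (↥A₀)ˣ) : ↥A₀).2
  · obtain ⟨n, u, hu⟩ := key c⁻¹ (inv_ne_zero hc) hcA
    have hcu : c = (((u : ↥A₀) : K₀))⁻¹ * ((τ : K₀) ^ n)⁻¹ := by
      rw [← mul_inv, ← hu, inv_inv]
    have h1 : (((u : ↥A₀) : K₀))⁻¹ = (((u⁻¹ : (↥A₀)ˣ) : ↥A₀) : K₀) :=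
      gsp_unit_inv A₀ u
    have h3 : c * (τ : K₀) ^ (n : ℤ) = (((u : ↥A₀) : K₀))⁻¹ := by
      rw [hcu, zpow_natCast, mul_assoc, inv_mul_cancel₀ (pow_ne_zero _ hτ0), mul_one]
    refine ⟨(n : ℤ), ?_, ?_⟩
    · rw [h3, h1]
      exact ((u⁻¹ : (↥A₀)ˣ) : ↥A₀).2
    · rw [h3, inv_inv]
      exact (u : ↥A₀).2

variable [Algebra ℚ K₀] (F₀ : IntermediateField ℚ (LaurentSeries ℚ))
  (VG : ValuationSubring ↥(laurentBaseChange K₀ F₀))
  (hVG : ∀ x : ↥(laurentBaseChange K₀ F₀), x ∈ VG ↔ (x : LaurentSeries K₀) ∈ grV A₀)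

include hVG in
/-- **Discreteness of the Gauss valuation ring**: every nonzero function is a power of the
uniformizer of `A₀` times a Gauss unit. -/
theorem gsp_dec_VG (hF : ∀ x ∈ laurentBaseChange K₀ F₀, gdvProp A₀ x) (τ : A₀)
    (hτ : Irreducible τ) (z : ↥(laurentBaseChange K₀ F₀)) (hz : z ≠ 0) :
    ∃ j : ℤ, z * algebraMap K₀ ↥(laurentBaseChange K₀ F₀) (τ : K₀) ^ j ∈ VG ∧
      (z * algebraMap K₀ ↥(laurentBaseChange K₀ F₀) (τ : K₀) ^ j)⁻¹ ∈ VG := by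
  rcases hF z z.2 with h | ⟨c, hc, u, hu, hzu⟩
  · exact absurd (Subtype.ext h) hz
  · obtain ⟨j, hj1, hj2⟩ := gsp_const_dec A₀ τ hτ c hc
    have hcoe : ((z * algebraMap K₀ ↥(laurentBaseChange K₀ F₀) (τ : K₀) ^ j :
        ↥(laurentBaseChange K₀ F₀)) : LaurentSeries K₀) =
        algebraMap K₀ (LaurentSeries K₀) (c * (τ : K₀) ^ j) * u := by
      rw [← map_zpow₀, MulMemClass.coe_mul, hzu, map_mul]
      have : ((algebraMap K₀ ↥(laurentBaseChange K₀ F₀) ((τ : K₀) ^ j) :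
          ↥(laurentBaseChange K₀ F₀)) : LaurentSeries K₀) =
          algebraMap K₀ (LaurentSeries K₀) ((τ : K₀) ^ j) := rfl
      rw [this]
      ring
    refine ⟨j, ?_, ?_⟩
    · rw [hVG, hcoe]
      exact (grV A₀).mul_mem (gr_algebraMap_mem A₀ ⟨_, hj1⟩) hu.2.1
    · rw [hVG, IntermediateField.coe_inv, hcoe, mul_inv, ← map_inv₀]
      exact (grV A₀).mul_mem (gr_algebraMap_mem A₀ ⟨_, hj2⟩) hu.2.2

end Abs

section Sep

variable {F : Type*} [Field F]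

/-- a nonzero element whose inverse lies in a valuation subring is not a nonunit -/
theorem gsp_not_nonunits (V : ValuationSubring F) {x : F} (hx0 : x ≠ 0) (hx' : x⁻¹ ∈ V) :
    x ∉ V.nonunits := by
  intro h
  rcases V.mem_nonunits_iff_or.mp h with h0 | h0
  · exact hx0 h0
  · exact h0 hx'

/-- **The separating element.**  If `x ∈ 𝔪_{V₁}` is a unit of `V₂` and `y ∈ 𝔪_{V₂}` is a unit of
`V₁`, then `e = y / (x + y)` satisfies `e ≡ 1` on `V₁` and `e ≡ 0` on `V₂`. -/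
theorem gsp_sep_abs (V₁ V₂ : ValuationSubring F) (x y : F)
    (hx₁ : x ∈ V₁.nonunits) (hy₁ : y ∈ V₁) (hy₁' : y ∉ V₁.nonunits)
    (hy₂ : y ∈ V₂.nonunits) (hx₂ : x ∈ V₂) (hx₂' : x ∉ V₂.nonunits) :
    x + y ≠ 0 ∧ y / (x + y) - 1 ∈ V₁.nonunits ∧ y / (x + y) ∈ V₂.nonunits := by
  rw [ValuationSubring.mem_nonunits_iff] at hx₁ hy₁' hy₂ hx₂'
  rw [← ValuationSubring.valuation_le_one_iff] at hy₁ hx₂
  have hy1 : V₁.valuation y = 1 := le_antisymm hy₁ (not_lt.mp hy₁')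
  have hx2 : V₂.valuation x = 1 := le_antisymm hx₂ (not_lt.mp hx₂')
  have h1 : V₁.valuation (x + y) = 1 := by
    rw [Valuation.map_add_eq_of_lt_right _ (by rw [hy1]; exact hx₁), hy1]
  have h2 : V₂.valuation (x + y) = 1 := by
    rw [Valuation.map_add_eq_of_lt_left _ (by rw [hx2]; exact hy₂), hx2]
  have hne : x + y ≠ 0 := by
    intro h0
    rw [h0, map_zero] at h1
    exact zero_ne_one h1
  refine ⟨hne, ?_, ?_⟩
  · rw [ValuationSubring.mem_nonunits_iff]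
    have e : y / (x + y) - 1 = -(x / (x + y)) := by
      field_simp
      ring
    rw [e, Valuation.map_neg, map_div₀, h1, div_one]
    exact hx₁
  · rw [ValuationSubring.mem_nonunits_iff, map_div₀, h2, div_one]
    exact hy₂

end Sep

section Carrier

variable (M q : ℕ) [NeZero M] [hq : Fact q.Prime] (hM : ¬ q ∣ M)
  (K0 : Type*) [Field K0] [Algebra ℚ K0] [Algebra K0 Qb]
  (A0 : ValuationSubring K0) [IsDiscreteValuationRing ↥A0]
  {a2 : ℕ} (H : HauptRec a2 q)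

/-- **`hdec₁`**: discreteness of `V₁ = va2V1` with respect to a uniformizer `τ` of `A0`. -/
theorem gsp_hdec₁
    [Algebra A0 ↥(laurentBaseChange K0 (modularFunctionFieldFull (M * q)))]
    [IsScalarTower A0 K0 ↥(laurentBaseChange K0 (modularFunctionFieldFull (M * q)))]
    (τ : A0) (hτ : Irreducible τ) :
    ∀ z : ↥(laurentBaseChange K0 (modularFunctionFieldFull (M * q))), z ≠ 0 → ∃ j : ℤ,
      z * algebraMap A0 ↥(laurentBaseChange K0 (modularFunctionFieldFull (M * q))) τ ^ j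
        ∈ va2V1 M q K0 A0 ∧
      (z * algebraMap A0 ↥(laurentBaseChange K0 (modularFunctionFieldFull (M * q))) τ ^ j)⁻¹
        ∈ va2V1 M q K0 A0 := by
  intro z hz
  rw [IsScalarTower.algebraMap_apply A0 K0
    ↥(laurentBaseChange K0 (modularFunctionFieldFull (M * q)))]
  exact gsp_dec_VG A0 (modularFunctionFieldFull (M * q)) (va2V1 M q K0 A0) (fun _ => Iff.rfl)
    (fun x hx => gdv_full_le A0 (M * q) hx) τ hτ z hz

/-- **`hdec₂`**: discreteness of `V₂ = va2V2` with respect to a uniformizer `τ` of `A0`. -/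
theorem gsp_hdec₂
    [Algebra A0 ↥(laurentBaseChange K0 (modularFunctionFieldFull (M * q)))]
    [IsScalarTower A0 K0 ↥(laurentBaseChange K0 (modularFunctionFieldFull (M * q)))]
    (τ : A0) (hτ : Irreducible τ) :
    ∀ z : ↥(laurentBaseChange K0 (modularFunctionFieldFull (M * q))), z ≠ 0 → ∃ j : ℤ,
      z * algebraMap A0 ↥(laurentBaseChange K0 (modularFunctionFieldFull (M * q))) τ ^ j
        ∈ va2V2 M q hM K0 A0 ∧
      (z * algebraMap A0 ↥(laurentBaseChange K0 (modularFunctionFieldFull (M * q))) τ ^ j)⁻¹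
        ∈ va2V2 M q hM K0 A0 := by
  intro z hz
  have hwz : va2Swap M q hq.out hM K0 z ≠ 0 := by
    rw [Ne, map_eq_zero]
    exact hz
  obtain ⟨j, h1, h2⟩ := gsp_hdec₁ M q K0 A0 τ hτ _ hwz
  have hw : va2Swap M q hq.out hM K0
      (z * algebraMap A0 ↥(laurentBaseChange K0 (modularFunctionFieldFull (M * q))) τ ^ j) =
      va2Swap M q hq.out hM K0 z *
        algebraMap A0 ↥(laurentBaseChange K0 (modularFunctionFieldFull (M * q))) τ ^ j := by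
    rw [map_mul, map_zpow₀, IsScalarTower.algebraMap_apply A0 K0
      ↥(laurentBaseChange K0 (modularFunctionFieldFull (M * q))), va2Swap_const]
  refine ⟨j, ?_, ?_⟩
  · rw [mem_va2V2, hw]
    exact h1
  · rw [mem_va2V2, map_inv₀, hw]
    exact h2

include hM in
/-- **`x = (α h) ^ q - β h ∈ 𝔪_{V₁}`** (Kronecker; `= cnd_hk1`). -/
theorem gsp_x_mem₁ (ha2 : a2 ∣ M) (hA0 : A0.LiesOverPrime q) :
    heckeAlphaBar K0 M q (nunH K0 M H ha2) ^ q - heckeBetaBar K0 M q (nunH K0 M H ha2)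
      ∈ (va2V1 M q K0 A0).nonunits :=
  cnd_hk1 M q hM K0 A0 H ha2 hA0

/-- **`y = α h - (β h) ^ q ∈ 𝔪_{V₂}`** (Kronecker; `= cnd_hk2`). -/
theorem gsp_y_mem₂ (ha2 : a2 ∣ M) (hA0 : A0.LiesOverPrime q) :
    heckeAlphaBar K0 M q (nunH K0 M H ha2) - heckeBetaBar K0 M q (nunH K0 M H ha2) ^ q
      ∈ (va2V2 M q hM K0 A0).nonunits :=
  cnd_hk2 M q hM K0 A0 H ha2 hA0

/-- **`y = α h - (β h) ^ q` is a unit of `V₁`**: its expansion `h(t) - h(t^q)^q` has integral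
coefficients and the coefficient `1` at `t⁻¹`. -/
theorem gsp_y_unit₁ (ha2 : a2 ∣ M) :
    heckeAlphaBar K0 M q (nunH K0 M H ha2) - heckeBetaBar K0 M q (nunH K0 M H ha2) ^ q
      ∈ va2V1 M q K0 A0 ∧
    (heckeAlphaBar K0 M q (nunH K0 M H ha2) - heckeBetaBar K0 M q (nunH K0 M H ha2) ^ q)⁻¹
      ∈ va2V1 M q K0 A0 ∧
    heckeAlphaBar K0 M q (nunH K0 M H ha2) - heckeBetaBar K0 M q (nunH K0 M H ha2) ^ q ≠ 0 := by
  have hh : H.h K0 ∈ grV A0 := cinst_h_mem_grV H A0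
  have hθ : qExpand K0 q (H.h K0) ∈ grV A0 := tv_qExpand_mem A0 q hh
  have hmem : H.h K0 - qExpand K0 q (H.h K0) ^ q ∈ grV A0 :=
    (grV A0).sub_mem hh ((grV A0).pow_mem hθ q)
  have hres : grRho A0 ⟨_, hmem⟩ ≠ 0 := by
    have e : (⟨_, hmem⟩ : grV A0) = ⟨H.h K0, hh⟩ - ⟨qExpand K0 q (H.h K0), hθ⟩ ^ q := rfl
    rw [e, map_sub, map_pow, tv_grRho_qExpand A0 q hh, cinst_h_grRho]
    intro h0
    have h1 := congrArg (fun s => HahnSeries.coeff s (-1)) h0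
    simp only [HahnSeries.coeff_sub, HahnSeries.coeff_zero] at h1
    have hnd : ¬ ((q : ℕ) : ℤ) ∣ -1 := by
      intro h
      rw [dvd_neg] at h
      have h2 : ((q : ℕ) : ℤ) = 1 := Int.eq_one_of_dvd_one (Int.natCast_nonneg q) h
      have := hq.out.one_lt
      omega
    rw [H.h_coeff_neg_one, ← map_pow, qExpand_coeff_of_not_dvd q _ hnd, sub_zero] at h1
    exact one_ne_zero h1
  have hcoe : ((heckeAlphaBar K0 M q (nunH K0 M H ha2) -
      heckeBetaBar K0 M q (nunH K0 M H ha2) ^ q :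
        ↥(laurentBaseChange K0 (modularFunctionFieldFull (M * q)))) : LaurentSeries K0) =
      H.h K0 - qExpand K0 q (H.h K0) ^ q := by
    rw [AddSubgroupClass.coe_sub, SubmonoidClass.coe_pow, coe_heckeAlphaBar, coe_heckeBetaBar]
    rfl
  have hne : H.h K0 - qExpand K0 q (H.h K0) ^ q ≠ 0 := by
    intro h0
    apply hres
    have e : (⟨_, hmem⟩ : grV A0) = 0 := Subtype.ext h0
    rw [e, map_zero]
  refine ⟨?_, ?_, ?_⟩
  · rw [mem_va2V1, hcoe]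
    exact hmem
  · rw [mem_va2V1, IntermediateField.coe_inv, hcoe]
    exact gr_inv_mem A0 ⟨_, hmem⟩ hres
  · intro h0
    apply hne
    rw [← hcoe, h0]
    rfl

/-- **`x = (α h) ^ q - β h` is a unit of `V₂`** (the swap maps `x` to `-y`). -/
theorem gsp_x_unit₂ (ha2 : a2 ∣ M) :
    heckeAlphaBar K0 M q (nunH K0 M H ha2) ^ q - heckeBetaBar K0 M q (nunH K0 M H ha2)
      ∈ va2V2 M q hM K0 A0 ∧
    (heckeAlphaBar K0 M q (nunH K0 M H ha2) ^ q - heckeBetaBar K0 M q (nunH K0 M H ha2))⁻¹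
      ∈ va2V2 M q hM K0 A0 ∧
    heckeAlphaBar K0 M q (nunH K0 M H ha2) ^ q - heckeBetaBar K0 M q (nunH K0 M H ha2) ≠ 0 := by
  have hw : va2Swap M q hq.out hM K0
      (heckeAlphaBar K0 M q (nunH K0 M H ha2) ^ q - heckeBetaBar K0 M q (nunH K0 M H ha2)) =
      -(heckeAlphaBar K0 M q (nunH K0 M H ha2) - heckeBetaBar K0 M q (nunH K0 M H ha2) ^ q) := by
    rw [map_sub, map_pow, va2Swap_alpha, va2Swap_beta]
    ring
  obtain ⟨h1, h2, h3⟩ := gsp_y_unit₁ M q K0 A0 H ha2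
  refine ⟨?_, ?_, ?_⟩
  · rw [mem_va2V2, hw]
    exact neg_mem h1
  · rw [mem_va2V2, map_inv₀, hw, inv_neg]
    exact neg_mem h2
  · intro h0
    rw [h0, map_zero] at hw
    exact h3 (neg_eq_zero.mp hw.symm)

/-- **CORE-SEP, the separating element** `e = y / (x + y)`, `x = (α h) ^ q - β h`,
`y = α h - (β h) ^ q`: `x + y ≠ 0`, `e - 1 ∈ 𝔪_{V₁}`, `e ∈ 𝔪_{V₂}`. -/
theorem gsp_sep (ha2 : a2 ∣ M) (hA0 : A0.LiesOverPrime q) :
    (heckeAlphaBar K0 M q (nunH K0 M H ha2) ^ q - heckeBetaBar K0 M q (nunH K0 M H ha2)) +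
      (heckeAlphaBar K0 M q (nunH K0 M H ha2) - heckeBetaBar K0 M q (nunH K0 M H ha2) ^ q) ≠ 0 ∧
    (heckeAlphaBar K0 M q (nunH K0 M H ha2) - heckeBetaBar K0 M q (nunH K0 M H ha2) ^ q) /
      ((heckeAlphaBar K0 M q (nunH K0 M H ha2) ^ q - heckeBetaBar K0 M q (nunH K0 M H ha2)) +
        (heckeAlphaBar K0 M q (nunH K0 M H ha2) - heckeBetaBar K0 M q (nunH K0 M H ha2) ^ q)) - 1
      ∈ (va2V1 M q K0 A0).nonunits ∧
    (heckeAlphaBar K0 M q (nunH K0 M H ha2) - heckeBetaBar K0 M q (nunH K0 M H ha2) ^ q) /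
      ((heckeAlphaBar K0 M q (nunH K0 M H ha2) ^ q - heckeBetaBar K0 M q (nunH K0 M H ha2)) +
        (heckeAlphaBar K0 M q (nunH K0 M H ha2) - heckeBetaBar K0 M q (nunH K0 M H ha2) ^ q))
      ∈ (va2V2 M q hM K0 A0).nonunits := by
  obtain ⟨hy1, hy2, hy3⟩ := gsp_y_unit₁ M q K0 A0 H ha2
  obtain ⟨hx1, hx2, hx3⟩ := gsp_x_unit₂ M q hM K0 A0 H ha2
  exact gsp_sep_abs (va2V1 M q K0 A0) (va2V2 M q hM K0 A0) _ _
    (gsp_x_mem₁ M q hM K0 A0 H ha2 hA0) hy1 (gsp_not_nonunits _ hy3 hy2)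
    (gsp_y_mem₂ M q hM K0 A0 H ha2 hA0) hx1 (gsp_not_nonunits _ hx3 hx2)

end Carrier

end Fermat.Agent.S35
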