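/-
S35, leaf [ABS-NORM] (contract finding 188): weak approximation for two discrete valuation
rings of a field separated by an element `e`, and the normalisation step (G4) of the
geometric core.  Mathlib only.  Prefix `s35n_`.
-/
import Mathlib

set_option autoImplicit false
set_option linter.unusedSectionVars false

namespace Fermat.Agent.S35

section AbsNorm

variable {A F : Type*} [CommRing A] [Field F] [Algebra A F]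

/-! ### Elementary calculus of the maximal ideal of a valuation subring -/

theorem s35n_nu_mem (V : ValuationSubring F) {x : F} (hx : x ∈ V.nonunits) : x ∈ V := by
  rw [ValuationSubring.mem_nonunits_iff] at hx
  exact (V.valuation_le_one_iff x).1 hx.le

theorem s35n_nu_zero (V : ValuationSubring F) : (0 : F) ∈ V.nonunits := by
  rw [ValuationSubring.mem_nonunits_iff, map_zero]
  exact zero_lt_one

theorem s35n_nu_one (V : ValuationSubring F) : (1 : F) ∉ V.nonunits := by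
  rw [ValuationSubring.mem_nonunits_iff, map_one]
  exact lt_irrefl _

theorem s35n_nu_add (V : ValuationSubring F) {x y : F} (hx : x ∈ V.nonunits)
    (hy : y ∈ V.nonunits) : x + y ∈ V.nonunits := by
  rw [ValuationSubring.mem_nonunits_iff] at hx hy ⊢
  exact Valuation.map_add_lt _ hx hy

theorem s35n_nu_sub (V : ValuationSubring F) {x y : F} (hx : x ∈ V.nonunits)
    (hy : y ∈ V.nonunits) : x - y ∈ V.nonunits := by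
  rw [ValuationSubring.mem_nonunits_iff] at hx hy ⊢
  exact Valuation.map_sub_lt _ hx hy

theorem s35n_nu_neg (V : ValuationSubring F) {x : F} (hx : x ∈ V.nonunits) :
    -x ∈ V.nonunits := by
  rw [ValuationSubring.mem_nonunits_iff] at hx ⊢
  rwa [Valuation.map_neg]

theorem s35n_nu_mul (V : ValuationSubring F) {x y : F} (hx : x ∈ V) (hy : y ∈ V.nonunits) :
    x * y ∈ V.nonunits := by
  rw [ValuationSubring.mem_nonunits_iff] at hy ⊢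
  rw [map_mul]
  have hx' := (V.valuation_le_one_iff x).2 hx
  exact Right.mul_lt_one_of_le_of_lt hx' hy

theorem s35n_nu_mul' (V : ValuationSubring F) {x y : F} (hx : x ∈ V.nonunits) (hy : y ∈ V) :
    x * y ∈ V.nonunits := by
  rw [mul_comm]
  exact s35n_nu_mul V hy hx

/-- `e ≡ 1` implies `e ^ N ≡ 1` modulo the maximal ideal. -/
theorem s35n_pow_sub_one (V : ValuationSubring F) {e : F} (he : e - 1 ∈ V.nonunits) (N : ℕ) :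
    e ^ N - 1 ∈ V.nonunits := by
  have heV : e ∈ V := by
    have h := add_mem (s35n_nu_mem V he) V.one_mem
    simpa using h
  induction N with
  | zero =>
    rw [pow_zero, sub_self]
    exact s35n_nu_zero V
  | succ n ih =>
    have h : e ^ (n + 1) - 1 = e ^ n * (e - 1) + (e ^ n - 1) := by ring
    rw [h]
    exact s35n_nu_add V (s35n_nu_mul V (pow_mem heV n) he) ih

/-- `w ≡ w'` implies `w ^ m ≡ w' ^ m` modulo the maximal ideal. -/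
theorem s35n_pow_sub_pow (V : ValuationSubring F) {w w' : F} (hw' : w' ∈ V)
    (h : w - w' ∈ V.nonunits) (m : ℕ) : w ^ m - w' ^ m ∈ V.nonunits := by
  have hwV : w ∈ V := by
    have h' := add_mem (s35n_nu_mem V h) hw'
    simpa using h'
  induction m with
  | zero =>
    rw [pow_zero, pow_zero, sub_self]
    exact s35n_nu_zero V
  | succ n ih =>
    have h'' : w ^ (n + 1) - w' ^ (n + 1) = w * (w ^ n - w' ^ n) + (w - w') * w' ^ n := by ring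
    rw [h'']
    exact s35n_nu_add V (s35n_nu_mul V hwV ih) (s35n_nu_mul' V h (pow_mem hw' n))

/-- An element congruent to a unit of `V` modulo the maximal ideal is a unit of `V`. -/
theorem s35n_unit_of_congr (V : ValuationSubring F) {w w' : F} (hw' : w' ∈ V) (hw'i : w'⁻¹ ∈ V)
    (hw'0 : w' ≠ 0) (h : w - w' ∈ V.nonunits) : w ≠ 0 ∧ w ∈ V ∧ w⁻¹ ∈ V := by
  have hwV : w ∈ V := by
    have h' := add_mem (s35n_nu_mem V h) hw'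
    simpa using h'
  have hw : w ∉ V.nonunits := by
    intro hw
    have h1 : w' ∈ V.nonunits := by
      have h2 := s35n_nu_sub V hw h
      simpa using h2
    have h2 := s35n_nu_mul' V h1 hw'i
    rw [mul_inv_cancel₀ hw'0] at h2
    exact s35n_nu_one V h2
  rw [ValuationSubring.mem_nonunits_iff_or] at hw
  push Not at hw
  exact ⟨hw.1, hwV, hw.2⟩

/-- A high power of an element of the maximal ideal of a discrete valuation ring (uniformiser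
`τ'`) kills any pole. -/
theorem s35n_kill (τ' : F) (V : ValuationSubring F)
    (hτgen : ∀ x ∈ V.nonunits, x * τ'⁻¹ ∈ V) (hτ : τ' ∈ V.nonunits) (hτ0 : τ' ≠ 0)
    (hdec : ∀ z : F, z ≠ 0 → ∃ j : ℤ, z * τ' ^ j ∈ V ∧ (z * τ' ^ j)⁻¹ ∈ V)
    (e : F) (he : e ∈ V.nonunits) (z : F) :
    ∃ N : ℕ, ∀ n : ℕ, N ≤ n → e ^ n * z ∈ V.nonunits := by
  by_cases hz : z = 0
  · refine ⟨0, fun n _ => ?_⟩
    rw [hz, mul_zero]
    exact s35n_nu_zero V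
  · obtain ⟨j, hj, -⟩ := hdec z hz
    have he' : e * τ'⁻¹ ∈ V := hτgen e he
    refine ⟨(j + 1).toNat, fun n hn => ?_⟩
    obtain ⟨k, hk⟩ : ∃ k : ℕ, (n : ℤ) = j + 1 + k := ⟨((n : ℤ) - j - 1).toNat, by omega⟩
    have hτn : τ' ^ n = τ' ^ j * τ' * τ' ^ k := by
      have h1 : (τ' ^ n : F) = τ' ^ (n : ℤ) := (zpow_natCast τ' n).symm
      rw [h1, hk, zpow_add₀ hτ0, zpow_add₀ hτ0, zpow_one, zpow_natCast]
    have h2 : e ^ n * z = τ' * ((e * τ'⁻¹) ^ n * τ' ^ k * (z * τ' ^ j)) := by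
      have h3 : e ^ n = (e * τ'⁻¹) ^ n * τ' ^ n := by
        rw [← mul_pow, inv_mul_cancel_right₀ hτ0]
      rw [h3, hτn]
      ring
    rw [h2]
    exact s35n_nu_mul' V hτ
      (mul_mem (mul_mem (pow_mem he' n) (pow_mem (s35n_nu_mem V hτ) k)) hj)

/-! ### Weak approximation -/

/-- weak approximation for two discrete valuation rings separated by `e` -/
theorem s35n_approx (τ' : F) (V₁ V₂ : ValuationSubring F)
    (hτgen₁ : ∀ x ∈ V₁.nonunits, x * τ'⁻¹ ∈ V₁) (hτgen₂ : ∀ x ∈ V₂.nonunits, x * τ'⁻¹ ∈ V₂)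
    (hτ₁ : τ' ∈ V₁.nonunits) (hτ₂ : τ' ∈ V₂.nonunits) (hτ0 : τ' ≠ 0)
    (hdec₁ : ∀ z : F, z ≠ 0 → ∃ j : ℤ, z * τ' ^ j ∈ V₁ ∧ (z * τ' ^ j)⁻¹ ∈ V₁)
    (hdec₂ : ∀ z : F, z ≠ 0 → ∃ j : ℤ, z * τ' ^ j ∈ V₂ ∧ (z * τ' ^ j)⁻¹ ∈ V₂)
    (e : F) (he₁ : e - 1 ∈ V₁.nonunits) (he₂ : e ∈ V₂.nonunits)
    (w₁ w₂ : F) (hw₁ : w₁ ∈ V₁) (hw₂ : w₂ ∈ V₂) :
    ∃ w : F, w - w₁ ∈ V₁.nonunits ∧ w - w₂ ∈ V₂.nonunits := by
  have he₂' : (1 - e) - 1 ∈ V₂.nonunits := by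
    have h : (1 - e) - 1 = -e := by ring
    rw [h]
    exact s35n_nu_neg V₂ he₂
  have he₁' : 1 - e ∈ V₁.nonunits := by
    have h : 1 - e = -(e - 1) := by ring
    rw [h]
    exact s35n_nu_neg V₁ he₁
  obtain ⟨N₁, hN₁⟩ := s35n_kill τ' V₂ hτgen₂ hτ₂ hτ0 hdec₂ e he₂ w₁
  obtain ⟨N₂, hN₂⟩ := s35n_kill τ' V₁ hτgen₁ hτ₁ hτ0 hdec₁ (1 - e) he₁' w₂
  refine ⟨e ^ N₁ * w₁ + (1 - e) ^ N₂ * w₂, ?_, ?_⟩
  · have h : e ^ N₁ * w₁ + (1 - e) ^ N₂ * w₂ - w₁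
        = w₁ * (e ^ N₁ - 1) + (1 - e) ^ N₂ * w₂ := by ring
    rw [h]
    exact s35n_nu_add V₁ (s35n_nu_mul V₁ hw₁ (s35n_pow_sub_one V₁ he₁ N₁)) (hN₂ N₂ le_rfl)
  · have h : e ^ N₁ * w₁ + (1 - e) ^ N₂ * w₂ - w₂
        = e ^ N₁ * w₁ + w₂ * ((1 - e) ^ N₂ - 1) := by ring
    rw [h]
    exact s35n_nu_add V₂ (hN₁ N₁ le_rfl) (s35n_nu_mul V₂ hw₂ (s35n_pow_sub_one V₂ he₂' N₂))

/-! ### The normalisation step (G4) -/

/-- the image of a unit constant is a unit of any valuation ring containing the constants -/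
theorem s35n_const_unit (V : ValuationSubring F) (hA : ∀ a : A, algebraMap A F a ∈ V)
    (C : A) (hC : IsUnit C) :
    algebraMap A F C ≠ 0 ∧ (algebraMap A F C)⁻¹ ∈ V ∧
      (algebraMap A F C)⁻¹ = algebraMap A F ((hC.unit⁻¹ : Aˣ) : A) := by
  have h1 : algebraMap A F C * algebraMap A F ((hC.unit⁻¹ : Aˣ) : A) = 1 := by
    rw [← map_mul]
    have h2 : C * ((hC.unit⁻¹ : Aˣ) : A) = 1 := by
      have h3 := hC.unit.mul_inv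
      rwa [IsUnit.unit_spec] at h3
    rw [h2, map_one]
  have h0 : algebraMap A F C ≠ 0 := left_ne_zero_of_mul_eq_one h1
  have hinv : (algebraMap A F C)⁻¹ = algebraMap A F ((hC.unit⁻¹ : Aˣ) : A) :=
    inv_eq_of_mul_eq_one_right h1
  exact ⟨h0, hinv ▸ hA _, hinv⟩

/-- (G4), strong form: the approximating element `w` is a unit of both valuation rings,
congruent to `w_i` on `V_i`, and normalises `W0`. -/
theorem s35n_norm_strong (τ : A) (V₁ V₂ : ValuationSubring F)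
    (hA₁ : ∀ a : A, algebraMap A F a ∈ V₁) (hA₂ : ∀ a : A, algebraMap A F a ∈ V₂)
    (hτgen₁ : ∀ x ∈ V₁.nonunits, x * (algebraMap A F τ)⁻¹ ∈ V₁)
    (hτgen₂ : ∀ x ∈ V₂.nonunits, x * (algebraMap A F τ)⁻¹ ∈ V₂)
    (hτ₁ : algebraMap A F τ ∈ V₁.nonunits) (hτ₂ : algebraMap A F τ ∈ V₂.nonunits)
    (hτ0 : algebraMap A F τ ≠ 0)
    (hdec₁ : ∀ z : F, z ≠ 0 → ∃ j : ℤ, z * algebraMap A F τ ^ j ∈ V₁ ∧
      (z * algebraMap A F τ ^ j)⁻¹ ∈ V₁)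
    (hdec₂ : ∀ z : F, z ≠ 0 → ∃ j : ℤ, z * algebraMap A F τ ^ j ∈ V₂ ∧
      (z * algebraMap A F τ ^ j)⁻¹ ∈ V₂)
    (e : F) (he₁ : e - 1 ∈ V₁.nonunits) (he₂ : e ∈ V₂.nonunits)
    (m : ℕ) (W0 : F) (C₁ C₂ : A) (hC₁ : IsUnit C₁) (hC₂ : IsUnit C₂) (w₁ w₂ : F)
    (hw₁ : w₁ ∈ V₁) (hw₁' : w₁⁻¹ ∈ V₁) (hw₂ : w₂ ∈ V₂) (hw₂' : w₂⁻¹ ∈ V₂)
    (hw₁0 : w₁ ≠ 0) (hw₂0 : w₂ ≠ 0)
    (h₁ : W0 - algebraMap A F C₁ * w₁ ^ m ∈ V₁.nonunits)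
    (h₂ : W0 - algebraMap A F C₂ * w₂ ^ m ∈ V₂.nonunits) :
    ∃ (w : F) (C : A), w ≠ 0 ∧ IsUnit C ∧
      w ∈ V₁ ∧ w⁻¹ ∈ V₁ ∧ w ∈ V₂ ∧ w⁻¹ ∈ V₂ ∧
      w - w₁ ∈ V₁.nonunits ∧ w - w₂ ∈ V₂.nonunits ∧
      W0 * (algebraMap A F C₁ * w ^ m)⁻¹ - 1 ∈ V₁.nonunits ∧
      W0 * (algebraMap A F C₁ * w ^ m)⁻¹ - algebraMap A F C ∈ V₂.nonunits := by
  obtain ⟨w, hw1, hw2⟩ := s35n_approx (algebraMap A F τ) V₁ V₂ hτgen₁ hτgen₂ hτ₁ hτ₂ hτ0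
    hdec₁ hdec₂ e he₁ he₂ w₁ w₂ hw₁ hw₂
  obtain ⟨hw0, hwV₁, hwi₁⟩ := s35n_unit_of_congr V₁ hw₁ hw₁' hw₁0 hw1
  obtain ⟨-, hwV₂, hwi₂⟩ := s35n_unit_of_congr V₂ hw₂ hw₂' hw₂0 hw2
  have hp1 := s35n_pow_sub_pow V₁ hw₁ hw1 m
  have hp2 := s35n_pow_sub_pow V₂ hw₂ hw2 m
  obtain ⟨hC₁0, hC₁i₁, hC₁inv⟩ := s35n_const_unit V₁ hA₁ C₁ hC₁
  obtain ⟨-, hC₁i₂, -⟩ := s35n_const_unit V₂ hA₂ C₁ hC₁
  have hD0 : algebraMap A F C₁ * w ^ m ≠ 0 := mul_ne_zero hC₁0 (pow_ne_zero m hw0)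
  have hDinv : (algebraMap A F C₁ * w ^ m)⁻¹ = (algebraMap A F C₁)⁻¹ * (w⁻¹) ^ m := by
    rw [mul_inv, inv_pow]
  have hDi₁ : (algebraMap A F C₁ * w ^ m)⁻¹ ∈ V₁ := by
    rw [hDinv]
    exact mul_mem hC₁i₁ (pow_mem hwi₁ m)
  have hDi₂ : (algebraMap A F C₁ * w ^ m)⁻¹ ∈ V₂ := by
    rw [hDinv]
    exact mul_mem hC₁i₂ (pow_mem hwi₂ m)
  refine ⟨w, C₂ * ((hC₁.unit⁻¹ : Aˣ) : A), hw0, hC₂.mul (Units.isUnit _), hwV₁, hwi₁, hwV₂, hwi₂,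
    hw1, hw2, ?_, ?_⟩
  · have h : W0 * (algebraMap A F C₁ * w ^ m)⁻¹ - 1
        = (algebraMap A F C₁ * w ^ m)⁻¹ * ((W0 - algebraMap A F C₁ * w₁ ^ m)
          - algebraMap A F C₁ * (w ^ m - w₁ ^ m)) := by
      have h' : (W0 - algebraMap A F C₁ * w₁ ^ m) - algebraMap A F C₁ * (w ^ m - w₁ ^ m)
          = W0 - algebraMap A F C₁ * w ^ m := by ring
      rw [h', mul_sub, inv_mul_cancel₀ hD0, mul_comm]
    rw [h]
    exact s35n_nu_mul V₁ hDi₁ (s35n_nu_sub V₁ h₁ (s35n_nu_mul V₁ (hA₁ C₁) hp1))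
  · have h : W0 * (algebraMap A F C₁ * w ^ m)⁻¹ - algebraMap A F (C₂ * ((hC₁.unit⁻¹ : Aˣ) : A))
        = (algebraMap A F C₁ * w ^ m)⁻¹ * ((W0 - algebraMap A F C₂ * w₂ ^ m)
          - algebraMap A F C₂ * (w ^ m - w₂ ^ m)) := by
      have h' : (W0 - algebraMap A F C₂ * w₂ ^ m) - algebraMap A F C₂ * (w ^ m - w₂ ^ m)
          = W0 - algebraMap A F C₂ * w ^ m := by ring
      have h'' : (algebraMap A F C₁ * w ^ m)⁻¹ * (algebraMap A F C₂ * w ^ m)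
          = algebraMap A F (C₂ * ((hC₁.unit⁻¹ : Aˣ) : A)) := by
        rw [map_mul, ← hC₁inv, hDinv, inv_pow]
        have hwm : w ^ m ≠ 0 := pow_ne_zero m hw0
        field_simp
      rw [h', mul_sub, h'', mul_comm]
    rw [h]
    exact s35n_nu_mul V₂ hDi₂ (s35n_nu_sub V₂ h₂ (s35n_nu_mul V₂ (hA₂ C₂) hp2))

/-- (G4) normalisation: if `W0 ≡ C₁ w₁ ^ m` on `V₁` and `W0 ≡ C₂ w₂ ^ m` on `V₂`
(`C_i` unit constants, `w_i` units), then `f₂ := W0 / (C₁ Ŵ ^ m)` satisfies `f₂ ≡ 1` on `V₁` and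
`f₂ ≡ C₂ / C₁` on `V₂`.  (Contract finding 188 with the two hypotheses `w_i ≠ 0` added: without
them `w_i = 0` is allowed and the statement fails.) -/
theorem s35n_norm (τ : A) (V₁ V₂ : ValuationSubring F)
    (hA₁ : ∀ a : A, algebraMap A F a ∈ V₁) (hA₂ : ∀ a : A, algebraMap A F a ∈ V₂)
    (hτgen₁ : ∀ x ∈ V₁.nonunits, x * (algebraMap A F τ)⁻¹ ∈ V₁)
    (hτgen₂ : ∀ x ∈ V₂.nonunits, x * (algebraMap A F τ)⁻¹ ∈ V₂)
    (hτ₁ : algebraMap A F τ ∈ V₁.nonunits) (hτ₂ : algebraMap A F τ ∈ V₂.nonunits)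
    (hτ0 : algebraMap A F τ ≠ 0)
    (hdec₁ : ∀ z : F, z ≠ 0 → ∃ j : ℤ, z * algebraMap A F τ ^ j ∈ V₁ ∧
      (z * algebraMap A F τ ^ j)⁻¹ ∈ V₁)
    (hdec₂ : ∀ z : F, z ≠ 0 → ∃ j : ℤ, z * algebraMap A F τ ^ j ∈ V₂ ∧
      (z * algebraMap A F τ ^ j)⁻¹ ∈ V₂)
    (e : F) (he₁ : e - 1 ∈ V₁.nonunits) (he₂ : e ∈ V₂.nonunits)
    (m : ℕ) (W0 : F) (C₁ C₂ : A) (hC₁ : IsUnit C₁) (hC₂ : IsUnit C₂) (w₁ w₂ : F)
    (hw₁ : w₁ ∈ V₁) (hw₁' : w₁⁻¹ ∈ V₁) (hw₂ : w₂ ∈ V₂) (hw₂' : w₂⁻¹ ∈ V₂)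
    (hw₁0 : w₁ ≠ 0) (hw₂0 : w₂ ≠ 0)
    (h₁ : W0 - algebraMap A F C₁ * w₁ ^ m ∈ V₁.nonunits)
    (h₂ : W0 - algebraMap A F C₂ * w₂ ^ m ∈ V₂.nonunits) :
    ∃ (w : F) (C : A), w ≠ 0 ∧ IsUnit C ∧
      W0 * (algebraMap A F C₁ * w ^ m)⁻¹ - 1 ∈ V₁.nonunits ∧
      W0 * (algebraMap A F C₁ * w ^ m)⁻¹ - algebraMap A F C ∈ V₂.nonunits := by
  obtain ⟨w, C, hw0, hC, -, -, -, -, -, -, h1, h2⟩ := s35n_norm_strong τ V₁ V₂ hA₁ hA₂ hτgen₁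
    hτgen₂ hτ₁ hτ₂ hτ0 hdec₁ hdec₂ e he₁ he₂ m W0 C₁ C₂ hC₁ hC₂ w₁ w₂ hw₁ hw₁' hw₂ hw₂'
    hw₁0 hw₂0 h₁ h₂
  exact ⟨w, C, hw0, hC, h1, h2⟩

end AbsNorm

end Fermat.Agent.S35
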