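/-
S35, leaf [ABS-NORM2]: the glue around the normalisation step (G4) of the geometric core, in the
binder shapes of the CORE-ABS contract (finding 191): the separating element from the two local
equations, the normalisation from the residue hypothesis `hres`, the congruence
`σ f₂ / f₂ ^ Q ≡ 1` modulo `τ (V₁ ∩ V₂)`, and the unfolding of the final identity.
Mathlib + S35/AbsNorm only.  Prefix `s35n2_`.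
-/
import Mathlib
import Fermat.Agent.S35.AbsNorm

set_option autoImplicit false
set_option linter.unusedSectionVars false

namespace Fermat.Agent.S35

section AbsNorm2

variable {A F : Type*} [CommRing A] [Field F] [Algebra A F]

/-- `1 + z` is a unit of `V` for `z` in the maximal ideal. -/
theorem s35n2_one_add (V : ValuationSubring F) {z : F} (hz : z ∈ V.nonunits) :
    1 + z ≠ 0 ∧ 1 + z ∈ V ∧ (1 + z)⁻¹ ∈ V := by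
  have h1 : (1 : F)⁻¹ ∈ V := by
    rw [inv_one]
    exact V.one_mem
  have h2 : (1 + z) - 1 ∈ V.nonunits := by
    rw [add_sub_cancel_left]
    exact hz
  exact s35n_unit_of_congr V V.one_mem h1 one_ne_zero h2

/-- The separating element `e = y / (x + y)` from the local equations `x` (of the first
component) and `y` (of the second). -/
theorem s35n2_sep (V₁ V₂ : ValuationSubring F) (x y : F) (hx0 : x ≠ 0) (hy0 : y ≠ 0)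
    (hx₁ : x ∈ V₁.nonunits) (hx₂' : x⁻¹ ∈ V₂) (hy₂ : y ∈ V₂.nonunits) (hy₁' : y⁻¹ ∈ V₁) :
    ∃ e : F, e - 1 ∈ V₁.nonunits ∧ e ∈ V₂.nonunits := by
  have h1 : x * y⁻¹ ∈ V₁.nonunits := s35n_nu_mul' V₁ hx₁ hy₁'
  have h2 : y * x⁻¹ ∈ V₂.nonunits := s35n_nu_mul' V₂ hy₂ hx₂'
  obtain ⟨hu0, -, hui⟩ := s35n2_one_add V₁ h1
  obtain ⟨hv0, -, hvi⟩ := s35n2_one_add V₂ h2
  have hxy1 : 1 + x * y⁻¹ = (x + y) * y⁻¹ := by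
    rw [add_mul, mul_inv_cancel₀ hy0, add_comm]
  have hxy2 : 1 + y * x⁻¹ = (x + y) * x⁻¹ := by
    rw [add_mul, mul_inv_cancel₀ hx0]
  have hxy : x + y ≠ 0 := by
    intro h
    apply hu0
    rw [hxy1, h, zero_mul]
  have hi1 : (1 + x * y⁻¹)⁻¹ = y * (x + y)⁻¹ := by
    rw [hxy1, mul_inv, inv_inv, mul_comm]
  have hi2 : (1 + y * x⁻¹)⁻¹ = x * (x + y)⁻¹ := by
    rw [hxy2, mul_inv, inv_inv, mul_comm]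
  refine ⟨y * (x + y)⁻¹, ?_, ?_⟩
  · have h : y * (x + y)⁻¹ - 1 = -((x * y⁻¹) * (1 + x * y⁻¹)⁻¹) := by
      rw [hi1]
      have h' : x * y⁻¹ * (y * (x + y)⁻¹) = x * (x + y)⁻¹ := by
        rw [mul_assoc, ← mul_assoc y⁻¹, inv_mul_cancel₀ hy0, one_mul]
      rw [h']
      have h'' : (1 : F) = (x + y) * (x + y)⁻¹ := (mul_inv_cancel₀ hxy).symm
      nth_rewrite 1 [h'']
      ring
    rw [h]
    exact s35n_nu_neg V₁ (s35n_nu_mul' V₁ h1 hui)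
  · have h : y * (x + y)⁻¹ = (y * x⁻¹) * (1 + y * x⁻¹)⁻¹ := by
      rw [hi2, mul_assoc, ← mul_assoc x⁻¹, inv_mul_cancel₀ hx0, one_mul]
    rw [h]
    exact s35n_nu_mul' V₂ h2 hvi

/-- A ring automorphism which does not increase a valuation preserves it. -/
theorem s35n2_unit_sigma (V : ValuationSubring F) (σ : F ≃+* F)
    (hσu : ∀ g : F, g ≠ 0 → σ g * g⁻¹ ∈ V) :
    (∀ g : F, g ≠ 0 → (σ g * g⁻¹)⁻¹ ∈ V) ∧ (∀ z ∈ V.nonunits, σ z ∈ V.nonunits) ∧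
      (∀ z ∈ V, σ z ∈ V) := by
  refine ⟨fun g hg => ?_, fun z hz => ?_, fun z hz => ?_⟩
  · have h := hσu g⁻¹ (inv_ne_zero hg)
    rw [map_inv₀, inv_inv] at h
    rw [mul_inv, inv_inv]
    exact h
  · by_cases hz0 : z = 0
    · rw [hz0, map_zero]
      exact s35n_nu_zero V
    · have h : σ z = (σ z * z⁻¹) * z := by
        rw [mul_assoc, inv_mul_cancel₀ hz0, mul_one]
      rw [h]
      exact s35n_nu_mul V (hσu z hz0) hz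
  · by_cases hz0 : z = 0
    · rw [hz0, map_zero]
      exact V.zero_mem
    · have h : σ z = (σ z * z⁻¹) * z := by
        rw [mul_assoc, inv_mul_cancel₀ hz0, mul_one]
      rw [h]
      exact mul_mem (hσu z hz0) hz

/-- `W0 = (σ - 1)² f₀` (in the spelling of finding 191) is a unit of every valuation ring
preserved by `σ`. -/
theorem s35n2_W0_unit (V : ValuationSubring F) (σ : F ≃+* F)
    (hσu : ∀ g : F, g ≠ 0 → σ g * g⁻¹ ∈ V) (f₀ : F) (hf₀ : f₀ ≠ 0) :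
    σ (σ f₀) * f₀ * ((σ f₀)⁻¹) ^ 2 ≠ 0 ∧ σ (σ f₀) * f₀ * ((σ f₀)⁻¹) ^ 2 ∈ V ∧
      (σ (σ f₀) * f₀ * ((σ f₀)⁻¹) ^ 2)⁻¹ ∈ V := by
  have hσf : σ f₀ ≠ 0 := (map_ne_zero σ).2 hf₀
  have hσσf : σ (σ f₀) ≠ 0 := (map_ne_zero σ).2 hσf
  have hu0 : σ f₀ * f₀⁻¹ ≠ 0 := mul_ne_zero hσf (inv_ne_zero hf₀)
  have hW : σ (σ f₀) * f₀ * ((σ f₀)⁻¹) ^ 2 = σ (σ f₀ * f₀⁻¹) * (σ f₀ * f₀⁻¹)⁻¹ := by
    rw [map_mul, map_inv₀, mul_inv, inv_inv]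
    ring
  refine ⟨mul_ne_zero (mul_ne_zero hσσf hf₀) (pow_ne_zero 2 (inv_ne_zero hσf)), ?_, ?_⟩
  · rw [hW]
    exact hσu _ hu0
  · rw [hW]
    exact (s35n2_unit_sigma V σ hσu).1 _ hu0

/-- The `m`-th root in a residue congruence for a unit is nonzero. -/
theorem s35n2_root_ne_zero (V : ValuationSubring F) (m : ℕ) (hm : 0 < m) (W0 C w : F)
    (hW0 : W0 ≠ 0) (hW : W0⁻¹ ∈ V) (h : W0 - C * w ^ m ∈ V.nonunits) : w ≠ 0 := by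
  intro hw
  rw [hw, zero_pow hm.ne', mul_zero, sub_zero] at h
  have h1 := s35n_nu_mul' V h hW
  rw [mul_inv_cancel₀ hW0] at h1
  exact s35n_nu_one V h1

/-- (G4) normalisation from the residue hypothesis `hres` in the shape of finding 191 (no
explicit `w_i ≠ 0`: it follows from `W0` being a unit and `0 < m`). -/
theorem s35n2_norm_res (τ : A) (V₁ V₂ : ValuationSubring F)
    (hA₁ : ∀ a : A, algebraMap A F a ∈ V₁) (hA₂ : ∀ a : A, algebraMap A F a ∈ V₂)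
    (hτgen₁ : ∀ x ∈ V₁.nonunits, x * (algebraMap A F τ)⁻¹ ∈ V₁)
    (hτgen₂ : ∀ x ∈ V₂.nonunits, x * (algebraMap A F τ)⁻¹ ∈ V₂)
    (hτ₁ : algebraMap A F τ ∈ V₁.nonunits) (hτ₂ : algebraMap A F τ ∈ V₂.nonunits)
    (hτ0 : algebraMap A F τ ≠ 0)
    (hdec₁ : ∀ z : F, z ≠ 0 → ∃ j : ℤ, z * algebraMap A F τ ^ j ∈ V₁ ∧
      (z * algebraMap A F τ ^ j)⁻¹ ∈ V₁)
    (hdec₂ : ∀ z : F, z ≠ 0 → ∃ j : ℤ, z * algebraMap A F τ ^ j ∈ V₂ ∧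
      (z * algebraMap A F τ ^ j)⁻¹ ∈ V₂)
    (e : F) (he₁ : e - 1 ∈ V₁.nonunits) (he₂ : e ∈ V₂.nonunits)
    (m : ℕ) (hm : 0 < m) (W0 : F) (hW0 : W0 ≠ 0) (hW₁ : W0⁻¹ ∈ V₁) (hW₂ : W0⁻¹ ∈ V₂)
    (hres : ∃ (C₁ C₂ : A) (w₁ w₂ : F), IsUnit C₁ ∧ IsUnit C₂ ∧
      w₁ ∈ V₁ ∧ w₁⁻¹ ∈ V₁ ∧ w₂ ∈ V₂ ∧ w₂⁻¹ ∈ V₂ ∧
      W0 - algebraMap A F C₁ * w₁ ^ m ∈ V₁.nonunits ∧
      W0 - algebraMap A F C₂ * w₂ ^ m ∈ V₂.nonunits) :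
    ∃ (C₁ C : A) (w : F), IsUnit C₁ ∧ IsUnit C ∧ w ≠ 0 ∧
      w ∈ V₁ ∧ w⁻¹ ∈ V₁ ∧ w ∈ V₂ ∧ w⁻¹ ∈ V₂ ∧
      W0 * (algebraMap A F C₁ * w ^ m)⁻¹ - 1 ∈ V₁.nonunits ∧
      W0 * (algebraMap A F C₁ * w ^ m)⁻¹ - algebraMap A F C ∈ V₂.nonunits := by
  obtain ⟨C₁, C₂, w₁, w₂, hC₁, hC₂, hw₁, hw₁', hw₂, hw₂', h₁, h₂⟩ := hres
  have hw₁0 : w₁ ≠ 0 := s35n2_root_ne_zero V₁ m hm W0 _ w₁ hW0 hW₁ h₁
  have hw₂0 : w₂ ≠ 0 := s35n2_root_ne_zero V₂ m hm W0 _ w₂ hW0 hW₂ h₂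
  obtain ⟨w, C, hw0, hC, a1, a2, a3, a4, -, -, a5, a6⟩ := s35n_norm_strong τ V₁ V₂ hA₁ hA₂
    hτgen₁ hτgen₂ hτ₁ hτ₂ hτ0 hdec₁ hdec₂ e he₁ he₂ m W0 C₁ C₂ hC₁ hC₂ w₁ w₂ hw₁ hw₁' hw₂ hw₂'
    hw₁0 hw₂0 h₁ h₂
  exact ⟨C₁, C, w, hC₁, hC, hw0, a1, a2, a3, a4, a5, a6⟩

/-- (G4), end: if `f₂ ≡ 1` on `V₁` and `f₂ ≡ C` (a unit constant) on `V₂`, and `σ` is the
`Q`-th power map on the constants modulo `τ`, then `W := σ f₂ / f₂ ^ Q ≡ 1` modulo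
`τ V₁ ∩ τ V₂` (hypothesis `h7` of `s35j_main`). -/
theorem s35n2_frob (τ : A) (V₁ V₂ : ValuationSubring F)
    (hA₂ : ∀ a : A, algebraMap A F a ∈ V₂)
    (hτgen₁ : ∀ x ∈ V₁.nonunits, x * (algebraMap A F τ)⁻¹ ∈ V₁)
    (hτgen₂ : ∀ x ∈ V₂.nonunits, x * (algebraMap A F τ)⁻¹ ∈ V₂)
    (hτ₂ : algebraMap A F τ ∈ V₂.nonunits)
    (σ : F ≃+* F) (Q : ℕ)
    (hσA : ∀ a : A, ∃ a' : A, σ (algebraMap A F a) = algebraMap A F a' ∧ τ ∣ a' - a ^ Q)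
    (hσu₁ : ∀ g : F, g ≠ 0 → σ g * g⁻¹ ∈ V₁) (hσu₂ : ∀ g : F, g ≠ 0 → σ g * g⁻¹ ∈ V₂)
    (f₂ : F) (C : A) (hC : IsUnit C)
    (h₁ : f₂ - 1 ∈ V₁.nonunits) (h₂ : f₂ - algebraMap A F C ∈ V₂.nonunits) :
    (σ f₂ * (f₂ ^ Q)⁻¹ - 1) * (algebraMap A F τ)⁻¹ ∈ V₁ ∧
      (σ f₂ * (f₂ ^ Q)⁻¹ - 1) * (algebraMap A F τ)⁻¹ ∈ V₂ := by
  obtain ⟨-, hσm₁, -⟩ := s35n2_unit_sigma V₁ σ hσu₁
  obtain ⟨-, hσm₂, -⟩ := s35n2_unit_sigma V₂ σ hσu₂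
  -- the first valuation
  have hone₁ : (1 : F)⁻¹ ∈ V₁ := by
    rw [inv_one]
    exact V₁.one_mem
  obtain ⟨hf0, hfV₁, hfi₁⟩ := s35n_unit_of_congr V₁ V₁.one_mem hone₁ one_ne_zero h₁
  have hQ0 : f₂ ^ Q ≠ 0 := pow_ne_zero Q hf0
  have key : σ f₂ * (f₂ ^ Q)⁻¹ - 1 = (σ f₂ - f₂ ^ Q) * (f₂⁻¹) ^ Q := by
    rw [sub_mul, inv_pow, mul_inv_cancel₀ hQ0]
  have a1 : σ f₂ - f₂ ^ Q ∈ V₁.nonunits := by
    have h : σ f₂ - f₂ ^ Q = σ (f₂ - 1) - (f₂ ^ Q - 1) := by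
      rw [map_sub, map_one]
      ring
    rw [h]
    exact s35n_nu_sub V₁ (hσm₁ _ h₁) (s35n_pow_sub_one V₁ h₁ Q)
  -- the second valuation
  obtain ⟨hC0, hCi, -⟩ := s35n_const_unit V₂ hA₂ C hC
  obtain ⟨-, hfV₂, hfi₂⟩ := s35n_unit_of_congr V₂ (hA₂ C) hCi hC0 h₂
  obtain ⟨C', hC', k, hk⟩ := hσA C
  have a2 : σ f₂ - f₂ ^ Q ∈ V₂.nonunits := by
    have h : σ f₂ - f₂ ^ Q = σ (f₂ - algebraMap A F C)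
        + (algebraMap A F τ * algebraMap A F k - (f₂ ^ Q - algebraMap A F C ^ Q)) := by
      have h' : algebraMap A F τ * algebraMap A F k = algebraMap A F C' - algebraMap A F C ^ Q := by
        rw [← map_mul, ← hk, map_sub, map_pow]
      rw [map_sub, hC', h']
      ring
    rw [h]
    exact s35n_nu_add V₂ (hσm₂ _ h₂)
      (s35n_nu_sub V₂ (s35n_nu_mul' V₂ hτ₂ (hA₂ k)) (s35n_pow_sub_pow V₂ (hA₂ C) h₂ Q))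
  rw [key]
  exact ⟨hτgen₁ _ (s35n_nu_mul' V₁ a1 (pow_mem hfi₁ Q)),
    hτgen₂ _ (s35n_nu_mul' V₂ a2 (pow_mem hfi₂ Q))⟩

/-- **(G4) complete**, in the binder shapes of `s35c_main` (finding 191, plus `x ≠ 0`,
`y ≠ 0`): there are a unit constant `C₁` and a unit `w` of both valuation rings such that
`f₂ := W0 / (C₁ w ^ m)` satisfies `σ f₂ / f₂ ^ Q ≡ 1` modulo `τ V₁ ∩ τ V₂`. -/
theorem s35n2_g4 (τ : A) (V₁ V₂ : ValuationSubring F)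
    (hA₁ : ∀ a : A, algebraMap A F a ∈ V₁) (hA₂ : ∀ a : A, algebraMap A F a ∈ V₂)
    (hτgen₁ : ∀ x ∈ V₁.nonunits, x * (algebraMap A F τ)⁻¹ ∈ V₁)
    (hτgen₂ : ∀ x ∈ V₂.nonunits, x * (algebraMap A F τ)⁻¹ ∈ V₂)
    (hτ₁ : algebraMap A F τ ∈ V₁.nonunits) (hτ₂ : algebraMap A F τ ∈ V₂.nonunits)
    (hτ0 : algebraMap A F τ ≠ 0)
    (hdec₁ : ∀ z : F, z ≠ 0 → ∃ j : ℤ, z * algebraMap A F τ ^ j ∈ V₁ ∧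
      (z * algebraMap A F τ ^ j)⁻¹ ∈ V₁)
    (hdec₂ : ∀ z : F, z ≠ 0 → ∃ j : ℤ, z * algebraMap A F τ ^ j ∈ V₂ ∧
      (z * algebraMap A F τ ^ j)⁻¹ ∈ V₂)
    (x y : F) (hx0 : x ≠ 0) (hy0 : y ≠ 0)
    (hx₁ : x ∈ V₁.nonunits) (hx₂' : x⁻¹ ∈ V₂) (hy₂ : y ∈ V₂.nonunits) (hy₁' : y⁻¹ ∈ V₁)
    (σ : F ≃+* F) (Q : ℕ)
    (hσA : ∀ a : A, ∃ a' : A, σ (algebraMap A F a) = algebraMap A F a' ∧ τ ∣ a' - a ^ Q)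
    (hσu₁ : ∀ g : F, g ≠ 0 → σ g * g⁻¹ ∈ V₁) (hσu₂ : ∀ g : F, g ≠ 0 → σ g * g⁻¹ ∈ V₂)
    (m : ℕ) (hm : 0 < m) (f₀ : F) (hf₀ : f₀ ≠ 0)
    (hres : ∃ (C₁ C₂ : A) (w₁ w₂ : F), IsUnit C₁ ∧ IsUnit C₂ ∧
      w₁ ∈ V₁ ∧ w₁⁻¹ ∈ V₁ ∧ w₂ ∈ V₂ ∧ w₂⁻¹ ∈ V₂ ∧
      σ (σ f₀) * f₀ * ((σ f₀)⁻¹) ^ 2 - algebraMap A F C₁ * w₁ ^ m ∈ V₁.nonunits ∧
      σ (σ f₀) * f₀ * ((σ f₀)⁻¹) ^ 2 - algebraMap A F C₂ * w₂ ^ m ∈ V₂.nonunits) :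
    ∃ (C₁ : A) (w : F), IsUnit C₁ ∧ w ≠ 0 ∧ w ∈ V₁ ∧ w⁻¹ ∈ V₁ ∧ w ∈ V₂ ∧ w⁻¹ ∈ V₂ ∧
      (σ (σ (σ f₀) * f₀ * ((σ f₀)⁻¹) ^ 2 * (algebraMap A F C₁ * w ^ m)⁻¹) *
          ((σ (σ f₀) * f₀ * ((σ f₀)⁻¹) ^ 2 * (algebraMap A F C₁ * w ^ m)⁻¹) ^ Q)⁻¹ - 1) *
        (algebraMap A F τ)⁻¹ ∈ V₁ ∧
      (σ (σ (σ f₀) * f₀ * ((σ f₀)⁻¹) ^ 2 * (algebraMap A F C₁ * w ^ m)⁻¹) *
          ((σ (σ f₀) * f₀ * ((σ f₀)⁻¹) ^ 2 * (algebraMap A F C₁ * w ^ m)⁻¹) ^ Q)⁻¹ - 1) *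
        (algebraMap A F τ)⁻¹ ∈ V₂ := by
  obtain ⟨e, he₁, he₂⟩ := s35n2_sep V₁ V₂ x y hx0 hy0 hx₁ hx₂' hy₂ hy₁'
  obtain ⟨hW0, -, hW₁⟩ := s35n2_W0_unit V₁ σ hσu₁ f₀ hf₀
  obtain ⟨-, -, hW₂⟩ := s35n2_W0_unit V₂ σ hσu₂ f₀ hf₀
  obtain ⟨C₁, C, w, hC₁, hC, hw0, b1, b2, b3, b4, b5, b6⟩ := s35n2_norm_res τ V₁ V₂ hA₁ hA₂
    hτgen₁ hτgen₂ hτ₁ hτ₂ hτ0 hdec₁ hdec₂ e he₁ he₂ m hm _ hW0 hW₁ hW₂ hres
  obtain ⟨c1, c2⟩ := s35n2_frob τ V₁ V₂ hA₂ hτgen₁ hτgen₂ hτ₂ σ Q hσA hσu₁ hσu₂ _ C hC b5 b6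
  exact ⟨C₁, w, hC₁, hw0, b1, b2, b3, b4, c1, c2⟩

/-- Unfolding the normalisation: from `σ f₂ / f₂ ^ Q = c' G' ^ m` with
`f₂ = W0 / (C₁ w ^ m)` to `σ W0 = c G ^ m W0 ^ Q`. -/
theorem s35n2_finish (σ : F ≃+* F) (Q m : ℕ)
    (hσA : ∀ a : A, ∃ a' : A, σ (algebraMap A F a) = algebraMap A F a')
    (W0 : F) (hW0 : W0 ≠ 0) (C₁ : A) (hC₁ : IsUnit C₁) (w : F) (hw : w ≠ 0)
    (hmain : ∃ (c' : A) (G' : F), G' ≠ 0 ∧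
      σ (W0 * (algebraMap A F C₁ * w ^ m)⁻¹) * ((W0 * (algebraMap A F C₁ * w ^ m)⁻¹) ^ Q)⁻¹
        = algebraMap A F c' * G' ^ m) :
    ∃ (c : A) (G : F), G ≠ 0 ∧ σ W0 = algebraMap A F c * G ^ m * W0 ^ Q := by
  obtain ⟨c', G', hG', h⟩ := hmain
  obtain ⟨a', ha'⟩ := hσA C₁
  have hu : C₁ * ((hC₁.unit⁻¹ : Aˣ) : A) = 1 := by
    have h3 := hC₁.unit.mul_inv
    rwa [IsUnit.unit_spec] at h3
  have hD1 : algebraMap A F C₁ * algebraMap A F ((hC₁.unit⁻¹ : Aˣ) : A) = 1 := by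
    rw [← map_mul, hu, map_one]
  have hD0 : algebraMap A F C₁ ≠ 0 := left_ne_zero_of_mul_eq_one hD1
  have hDinv : (algebraMap A F C₁)⁻¹ = algebraMap A F ((hC₁.unit⁻¹ : Aˣ) : A) :=
    inv_eq_of_mul_eq_one_right hD1
  have hσw : σ w ≠ 0 := (map_ne_zero σ).2 hw
  have hσD : σ (algebraMap A F C₁) ≠ 0 := (map_ne_zero σ).2 hD0
  have hwm : w ^ m ≠ 0 := pow_ne_zero m hw
  have hwQ : w ^ Q ≠ 0 := pow_ne_zero Q hw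
  have hDQ : algebraMap A F C₁ ^ Q ≠ 0 := pow_ne_zero Q hD0
  have hW0Q : W0 ^ Q ≠ 0 := pow_ne_zero Q hW0
  refine ⟨c' * a' * ((hC₁.unit⁻¹ : Aˣ) : A) ^ Q, G' * σ w * (w ^ Q)⁻¹,
    mul_ne_zero (mul_ne_zero hG' hσw) (inv_ne_zero hwQ), ?_⟩
  rw [map_mul, map_mul, map_pow, ← hDinv, ← ha']
  rw [map_mul, map_inv₀, map_mul, map_pow] at h
  have h4 : σ W0 = algebraMap A F c' * G' ^ m * (σ (algebraMap A F C₁) * σ w ^ m) *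
      (W0 * (algebraMap A F C₁ * w ^ m)⁻¹) ^ Q := by
    rw [← h]
    have h5 : (W0 * (algebraMap A F C₁ * w ^ m)⁻¹) ^ Q ≠ 0 :=
      pow_ne_zero Q (mul_ne_zero hW0 (inv_ne_zero (mul_ne_zero hD0 hwm)))
    have h6 : σ (algebraMap A F C₁) * σ w ^ m ≠ 0 := mul_ne_zero hσD (pow_ne_zero m hσw)
    field_simp
  rw [h4]
  field_simp
  ring

end AbsNorm2

end Fermat.Agent.S35
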