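import Mathlib
import Fermat.Agent.S18.Core
import Fermat.Agent.S34.LocRing

/-!
# S35, package LOC-PT: the local data at the closed points (abstract)

`Λ` is a local subalgebra of the function field `F` (the local ring `O_𝔫` of a chart at a closed
point of the special fibre), `V`, `V₁`, `V₂` are valuation subrings containing it.

* `s35pt_node_loc`: at a crossing point (`𝔪_Λ = P₁ + P₂`, `m`-th roots of units of `Λ` on each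
  component are in `Λ`, `σ z ≡ z ^ Q` modulo `𝔪_Λ`): for `f₂ = U * g ^ m` (`U` a unit of `Λ`)
  with `f₂ ≡ 1` on `V₁` and `f₂ ≡ C` on `V₂`, the function `W = σ f₂ / f₂ ^ Q` is
  `U' * γ ^ m` with `γ ≡ 1` on both components.
* `s35pt_one_loc`: at a point of one component: for `W = U * g ^ m` with `W ≡ 1` on `V` there
  is `y₀ ≡ 1` on `V` with `y₀ ^ m * W ^ c ∈ Λ`.
* `s35pt_dat_of_gamma`, `s35pt_j_of_dat`, `s35pt_transfer`: conversions of the local datum.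
-/

set_option autoImplicit false
set_option linter.unusedSectionVars false

namespace Fermat.Agent.S35

open Fermat.Agent.S18 Fermat.Agent.S34

section Nonunits

variable {F : Type*} [Field F]

theorem s35pt_nu_add (V : ValuationSubring F) {x y : F} (hx : x ∈ V.nonunits)
    (hy : y ∈ V.nonunits) : x + y ∈ V.nonunits := by
  rw [V.mem_nonunits_iff] at hx hy ⊢
  exact Valuation.map_add_lt _ hx hy

theorem s35pt_nu_neg (V : ValuationSubring F) {x : F} (hx : x ∈ V.nonunits) :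
    -x ∈ V.nonunits := by
  rw [V.mem_nonunits_iff] at hx ⊢
  rwa [Valuation.map_neg]

theorem s35pt_nu_sub (V : ValuationSubring F) {x y : F} (hx : x ∈ V.nonunits)
    (hy : y ∈ V.nonunits) : x - y ∈ V.nonunits := by
  rw [sub_eq_add_neg]
  exact s35pt_nu_add V hx (s35pt_nu_neg V hy)

theorem s35pt_nu_zero (V : ValuationSubring F) : (0 : F) ∈ V.nonunits := by
  rw [V.mem_nonunits_iff, map_zero]
  exact zero_lt_one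

theorem s35pt_nu_mul (V : ValuationSubring F) {x y : F} (hx : x ∈ V.nonunits) (hy : y ∈ V) :
    x * y ∈ V.nonunits := by
  rw [V.mem_nonunits_iff] at hx ⊢
  rw [map_mul]
  exact lt_of_le_of_lt (mul_le_of_le_one_right' ((V.valuation_le_one_iff y).mpr hy)) hx

theorem s35pt_nu_mul' (V : ValuationSubring F) {x y : F} (hy : y ∈ V) (hx : x ∈ V.nonunits) :
    y * x ∈ V.nonunits := by
  rw [mul_comm]
  exact s35pt_nu_mul V hx hy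

theorem s35pt_nu_mem (V : ValuationSubring F) {x : F} (hx : x ∈ V.nonunits) : x ∈ V := by
  rw [V.mem_nonunits_iff] at hx
  exact (V.valuation_le_one_iff x).mp hx.le

theorem s35pt_inv_mem (V : ValuationSubring F) {x : F} (hx : x ∉ V.nonunits) : x⁻¹ ∈ V := by
  by_contra h
  exact hx ((ValuationSubring.mem_nonunits_iff_or V).mpr (Or.inr h))

theorem s35pt_not_nu (V : ValuationSubring F) {x : F} (hx0 : x ≠ 0) (hx : x⁻¹ ∈ V) :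
    x ∉ V.nonunits := by
  intro h
  have h1 := s35pt_nu_mul V h hx
  rw [mul_inv_cancel₀ hx0, V.mem_nonunits_iff, map_one] at h1
  exact lt_irrefl _ h1

theorem s35pt_one_not_nu (V : ValuationSubring F) : (1 : F) ∉ V.nonunits := by
  rw [V.mem_nonunits_iff, map_one]
  exact lt_irrefl _

theorem s35pt_nu_sub_pow (V : ValuationSubring F) {x y : F}
    (hx : x ∈ V) (hy : y ∈ V) (h : x - y ∈ V.nonunits) (k : ℕ) :
    x ^ k - y ^ k ∈ V.nonunits := by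
  induction k with
  | zero => simp [s35pt_nu_zero V]
  | succ k ih =>
    have h1 : x ^ (k + 1) - y ^ (k + 1) = (x - y) * x ^ k + (x ^ k - y ^ k) * y := by ring
    rw [h1]
    exact s35pt_nu_add V (s35pt_nu_mul V h (V.pow_mem hx k)) (s35pt_nu_mul V ih hy)

/-- a unit modulo the maximal ideal is a unit -/
theorem s35pt_unit_of_congr (V : ValuationSubring F) {x y : F} (h : x - y ∈ V.nonunits)
    (hy : y ∉ V.nonunits) : x ∉ V.nonunits := by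
  intro hx
  apply hy
  have : y = x - (x - y) := by ring
  rw [this]
  exact s35pt_nu_sub V hx h

end Nonunits

section Local

variable {A F : Type*} [CommRing A] [Field F] [Algebra A F]

/-- the inverse of a unit of a subalgebra, with its coercion -/
theorem s35pt_unit_inv (Λ : Subalgebra A F) (U : ↥Λ) (hU : IsUnit U) :
    ∃ U' : ↥Λ, IsUnit U' ∧ (U' : F) = (U : F)⁻¹ ∧ U * U' = 1 := by
  obtain ⟨u, rfl⟩ := hU
  refine ⟨((u⁻¹ : (↥Λ)ˣ) : ↥Λ), Units.isUnit _, ?_, Units.mul_inv u⟩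
  have h1 : ((u : ↥Λ) : F) * (((u⁻¹ : (↥Λ)ˣ) : ↥Λ) : F) = 1 := by
    rw [← Subalgebra.coe_mul, Units.mul_inv, Subalgebra.coe_one]
  exact eq_inv_of_mul_eq_one_right h1

theorem s35pt_unit_ne_zero (Λ : Subalgebra A F) (U : ↥Λ) (hU : IsUnit U) : (U : F) ≠ 0 := by
  obtain ⟨U', -, -, h⟩ := s35pt_unit_inv Λ U hU
  intro h0
  have := congrArg (fun z : ↥Λ => (z : F)) h
  simp [h0] at this

/-- in a local ring, a unit plus an element of the maximal ideal is a unit -/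
theorem s35pt_unit_add {R : Type*} [CommRing R] [IsLocalRing R] {u x : R} (hu : IsUnit u)
    (hx : x ∈ IsLocalRing.maximalIdeal R) : IsUnit (u + x) := by
  by_contra h
  have h1 : u + x ∈ IsLocalRing.maximalIdeal R := (IsLocalRing.mem_maximalIdeal _).mpr h
  have h2 : u ∈ IsLocalRing.maximalIdeal R := by
    have : u = (u + x) - x := by ring
    rw [this]
    exact Ideal.sub_mem _ h1 hx
  exact (IsLocalRing.mem_maximalIdeal _).mp h2 hu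

/-- **The crossing point.** -/
theorem s35pt_node_loc (Λ : Subalgebra A F) [IsLocalRing ↥Λ] (V₁ V₂ : ValuationSubring F)
    (hΛ₁ : ∀ x ∈ Λ, x ∈ V₁) (hΛ₂ : ∀ x ∈ Λ, x ∈ V₂)
    (hP₁ : ∀ x : ↥Λ, (x : F) ∈ V₁.nonunits → x ∈ IsLocalRing.maximalIdeal ↥Λ)
    (hP₂ : ∀ x : ↥Λ, (x : F) ∈ V₂.nonunits → x ∈ IsLocalRing.maximalIdeal ↥Λ)
    (hsum : ∀ z ∈ IsLocalRing.maximalIdeal ↥Λ, ∃ b₁ b₂ : ↥Λ, (b₁ : F) ∈ V₁.nonunits ∧
      (b₂ : F) ∈ V₂.nonunits ∧ z = b₁ + b₂)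
    (m : ℕ) (hm : 0 < m)
    (hIC₁ : ∀ z : F, (∃ U : ↥Λ, IsUnit U ∧ z ^ m - (U : F) ∈ V₁.nonunits) →
      ∃ a : ↥Λ, z - (a : F) ∈ V₁.nonunits)
    (hIC₂ : ∀ z : F, (∃ U : ↥Λ, IsUnit U ∧ z ^ m - (U : F) ∈ V₂.nonunits) →
      ∃ a : ↥Λ, z - (a : F) ∈ V₂.nonunits)
    (σ : F ≃+* F) (Q : ℕ)
    (hσV₁ : ∀ x ∈ V₁.nonunits, σ x ∈ V₁.nonunits) (hσV₂ : ∀ x ∈ V₂.nonunits, σ x ∈ V₂.nonunits)
    (hσΛ : ∀ z : ↥Λ, ∃ z' : ↥Λ, (z' : F) = σ (z : F) ∧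
      z' - z ^ Q ∈ IsLocalRing.maximalIdeal ↥Λ)
    (f₂ g : F) (hg : g ≠ 0) (U : ↥Λ) (hU : IsUnit U) (hfU : f₂ = (U : F) * g ^ m)
    (hf₁ : f₂ - 1 ∈ V₁.nonunits) (C : ↥Λ) (hC : IsUnit C) (hf₂ : f₂ - (C : F) ∈ V₂.nonunits) :
    ∃ γ : F, γ - 1 ∈ V₁.nonunits ∧ γ - 1 ∈ V₂.nonunits ∧
      ∃ U' : ↥Λ, IsUnit U' ∧ σ f₂ * (f₂ ^ Q)⁻¹ = (U' : F) * γ ^ m := by
  classical
  obtain ⟨Ui, hUi, hUic, hUUi⟩ := s35pt_unit_inv Λ U hU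
  have hU0 : (U : F) ≠ 0 := s35pt_unit_ne_zero Λ U hU
  have hgm : g ^ m = f₂ * (Ui : F) := by
    rw [hfU, hUic]; field_simp
  -- the two approximations of `g`
  have key : ∀ (V : ValuationSubring F) (hΛV : ∀ x ∈ Λ, x ∈ V)
      (hP : ∀ x : ↥Λ, (x : F) ∈ V.nonunits → x ∈ IsLocalRing.maximalIdeal ↥Λ)
      (hIC : ∀ z : F, (∃ U : ↥Λ, IsUnit U ∧ z ^ m - (U : F) ∈ V.nonunits) →
        ∃ a : ↥Λ, z - (a : F) ∈ V.nonunits)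
      (hσV : ∀ x ∈ V.nonunits, σ x ∈ V.nonunits)
      (D : ↥Λ) (hD : IsUnit D) (hfD : f₂ - (D : F) ∈ V.nonunits),
      ∃ b : ↥Λ, b - 1 ∈ IsLocalRing.maximalIdeal ↥Λ ∧
        σ g * (g ^ Q)⁻¹ - (b : F) ∈ V.nonunits := by
    intro V hΛV hP hIC hσV D hD hfD
    have h1 : g ^ m - ((D * Ui : ↥Λ) : F) ∈ V.nonunits := by
      have : g ^ m - ((D * Ui : ↥Λ) : F) = (f₂ - (D : F)) * (Ui : F) := by
        rw [hgm]; push_cast; ring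
      rw [this]
      exact s35pt_nu_mul V hfD (hΛV _ Ui.2)
    obtain ⟨a, ha⟩ := hIC g ⟨D * Ui, hD.mul hUi, h1⟩
    have haV : (a : F) ∈ V := hΛV _ a.2
    have hgV : g ∈ V := by
      have : g = (g - (a : F)) + (a : F) := by ring
      rw [this]
      exact V.add_mem _ _ (s35pt_nu_mem V ha) haV
    -- `a` is a unit of `Λ`
    have ham : a ^ m - D * Ui ∈ IsLocalRing.maximalIdeal ↥Λ := by
      apply hP
      have : ((a ^ m - D * Ui : ↥Λ) : F) =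
          (g ^ m - ((D * Ui : ↥Λ) : F)) - (g ^ m - (a : F) ^ m) := by
        push_cast; ring
      rw [this]
      exact s35pt_nu_sub V h1 (s35pt_nu_sub_pow V hgV haV ha m)
    have haU : IsUnit a := by
      have h2 : IsUnit (a ^ m) := by
        have : a ^ m = D * Ui + (a ^ m - D * Ui) := by ring
        rw [this]
        exact s35pt_unit_add (hD.mul hUi) ham
      exact (isUnit_pow_iff hm.ne').mp h2
    have haQ : IsUnit (a ^ Q) := haU.pow Q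
    obtain ⟨aQi, haQi, haQic, haQm⟩ := s35pt_unit_inv Λ (a ^ Q) haQ
    obtain ⟨a', ha'c, ha'm⟩ := hσΛ a
    have ha0 : (a : F) ≠ 0 := s35pt_unit_ne_zero Λ a haU
    have haQ0 : ((a ^ Q : ↥Λ) : F) ≠ 0 := s35pt_unit_ne_zero Λ _ haQ
    -- `g` is a unit of `V`
    have hanu : (a : F) ∉ V.nonunits := by
      obtain ⟨ai, -, haic, -⟩ := s35pt_unit_inv Λ a haU
      exact s35pt_not_nu V ha0 (by rw [← haic]; exact hΛV _ ai.2)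
    have hgnu : g ∉ V.nonunits := s35pt_unit_of_congr V ha hanu
    have hginv : g⁻¹ ∈ V := s35pt_inv_mem V hgnu
    refine ⟨a' * aQi, ?_, ?_⟩
    · have : a' * aQi - 1 = (a' - a ^ Q) * aQi := by
        rw [sub_mul, haQm]
      rw [this]
      exact Ideal.mul_mem_right _ _ ha'm
    · have e1 : ((a' * aQi : ↥Λ) : F) = σ (a : F) * ((a : F) ^ Q)⁻¹ := by
        rw [Subalgebra.coe_mul, ha'c, haQic, Subalgebra.coe_pow]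
      have e2 : (aQi : F) = ((a : F) ^ Q)⁻¹ := by
        rw [haQic, Subalgebra.coe_pow]
      have h_a : (a : F) ^ Q * ((a : F) ^ Q)⁻¹ = 1 := mul_inv_cancel₀ (pow_ne_zero Q ha0)
      have h_g : g ^ Q * (g ^ Q)⁻¹ = 1 := mul_inv_cancel₀ (pow_ne_zero Q hg)
      have e : σ g * (g ^ Q)⁻¹ - ((a' * aQi : ↥Λ) : F) =
          (σ (g - (a : F)) * (a : F) ^ Q + σ (a : F) * ((a : F) ^ Q - g ^ Q)) *
            ((g⁻¹) ^ Q * (aQi : F)) := by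
        rw [e1, e2, map_sub]
        linear_combination (-(σ g * (g ^ Q)⁻¹)) * h_a + (σ (a : F) * ((a : F) ^ Q)⁻¹) * h_g
      rw [e]
      refine s35pt_nu_mul V ?_ (V.mul_mem _ _ (V.pow_mem hginv Q) (hΛV _ aQi.2))
      refine s35pt_nu_add V (s35pt_nu_mul V (hσV _ ha) (V.pow_mem haV Q)) ?_
      refine s35pt_nu_mul' V ?_ (s35pt_nu_sub_pow V haV hgV ?_ Q)
      · rw [← ha'c]; exact hΛV _ a'.2
      · have : (a : F) - g = -(g - (a : F)) := by ring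
        rw [this]; exact s35pt_nu_neg V ha
  obtain ⟨b₁, hb₁, hb₁V⟩ := key V₁ hΛ₁ hP₁ hIC₁ hσV₁ 1 isUnit_one (by simpa using hf₁)
  obtain ⟨b₂, hb₂, hb₂V⟩ := key V₂ hΛ₂ hP₂ hIC₂ hσV₂ C hC hf₂
  -- gluing
  have hb12 : b₁ - b₂ ∈ IsLocalRing.maximalIdeal ↥Λ := by
    have : b₁ - b₂ = (b₁ - 1) - (b₂ - 1) := by ring
    rw [this]
    exact Ideal.sub_mem _ hb₁ hb₂
  obtain ⟨p₁, p₂, hp₁, hp₂, hp⟩ := hsum _ hb12
  set Γ : ↥Λ := b₁ - p₁ with hΓ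
  have hΓ2 : Γ = b₂ + p₂ := by
    rw [hΓ]
    have : b₁ = b₂ + (b₁ - b₂) := by ring
    rw [this, hp]; ring
  have hΓU : IsUnit Γ := by
    have : Γ = 1 + ((b₁ - 1) - p₁) := by rw [hΓ]; ring
    rw [this]
    exact s35pt_unit_add isUnit_one (Ideal.sub_mem _ hb₁ (hP₁ _ hp₁))
  obtain ⟨Γi, hΓi, hΓic, hΓm⟩ := s35pt_unit_inv Λ Γ hΓU
  have hΓ0 : (Γ : F) ≠ 0 := s35pt_unit_ne_zero Λ Γ hΓU
  -- the unit part
  obtain ⟨U₁, hU₁c, hU₁m⟩ := hσΛ U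
  have hUQ : IsUnit (U ^ Q) := hU.pow Q
  obtain ⟨UQi, hUQi, hUQic, hUQm⟩ := s35pt_unit_inv Λ (U ^ Q) hUQ
  have hU₁U : IsUnit U₁ := by
    have : U₁ = U ^ Q + (U₁ - U ^ Q) := by ring
    rw [this]
    exact s35pt_unit_add hUQ hU₁m
  have hσg : σ g ≠ 0 := (map_ne_zero σ).mpr hg
  refine ⟨σ g * (g ^ Q)⁻¹ * (Γi : F), ?_, ?_, U₁ * UQi * Γ ^ m, (hU₁U.mul hUQi).mul (hΓU.pow m), ?_⟩
  · have : σ g * (g ^ Q)⁻¹ * (Γi : F) - 1 =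
        ((σ g * (g ^ Q)⁻¹ - (b₁ : F)) + (p₁ : F)) * (Γi : F) := by
      have h1 : (Γ : F) = (b₁ : F) - (p₁ : F) := by rw [hΓ]; push_cast; ring
      have h2 : (Γ : F) * (Γi : F) = 1 := by rw [hΓic]; exact mul_inv_cancel₀ hΓ0
      rw [h1] at h2
      linear_combination h2
    rw [this]
    exact s35pt_nu_mul V₁ (s35pt_nu_add V₁ hb₁V hp₁) (hΛ₁ _ Γi.2)
  · have : σ g * (g ^ Q)⁻¹ * (Γi : F) - 1 =
        ((σ g * (g ^ Q)⁻¹ - (b₂ : F)) - (p₂ : F)) * (Γi : F) := by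
      have h1 : (Γ : F) = (b₂ : F) + (p₂ : F) := by rw [hΓ2]; push_cast; ring
      have h2 : (Γ : F) * (Γi : F) = 1 := by rw [hΓic]; exact mul_inv_cancel₀ hΓ0
      rw [h1] at h2
      linear_combination h2
    rw [this]
    exact s35pt_nu_mul V₂ (s35pt_nu_sub V₂ hb₂V hp₂) (hΛ₂ _ Γi.2)
  · have e1 : ((U₁ * UQi * Γ ^ m : ↥Λ) : F) = σ (U : F) * ((U : F) ^ Q)⁻¹ * (Γ : F) ^ m := by
      rw [Subalgebra.coe_mul, Subalgebra.coe_mul, hU₁c, hUQic, Subalgebra.coe_pow,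
        Subalgebra.coe_pow]
    have h2 : (Γ : F) ^ m * ((Γ : F)⁻¹) ^ m = 1 := by
      rw [← mul_pow, mul_inv_cancel₀ hΓ0, one_pow]
    rw [e1, hΓic, hfU, map_mul, map_pow]
    linear_combination (-(σ (U : F) * ((U : F) ^ Q)⁻¹ * (σ g * (g ^ Q)⁻¹) ^ m)) * h2

/-- **A point of one component** (local form). -/
theorem s35pt_one (O : Subalgebra A F) (𝔫 : Ideal ↥O) [h𝔫 : 𝔫.IsPrime] (V : ValuationSubring F)
    (hOV : ∀ x ∈ O, x ∈ V) (hp : ∀ x : ↥O, (x : F) ∈ V.nonunits → x ∈ 𝔫)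
    (m : ℕ) (hm : 0 < m)
    (hIC : ∀ z : F, (∃ a s : ↥O, a ∉ 𝔫 ∧ s ∉ 𝔫 ∧ z ^ m * (s : F) - (a : F) ∈ V.nonunits) →
      ∃ a' s' : ↥O, s' ∉ 𝔫 ∧ z * (s' : F) - (a' : F) ∈ V.nonunits)
    (W : F) (hWu : ∃ g : F, g ≠ 0 ∧ ∃ a s : ↥O, a ∉ 𝔫 ∧ s ∉ 𝔫 ∧ W * (s : F) = (a : F) * g ^ m)
    (hW1 : W - 1 ∈ V.nonunits) (c : ℕ) :
    ∃ y₀ : F, y₀ ^ m * W ^ c ∈ ndrLoc O 𝔫 ∧ y₀ - 1 ∈ V.nonunits := by
  obtain ⟨g, hg, a, s, ha, hs, hW⟩ := hWu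
  have hnu : ∀ z : ↥O, z ∉ 𝔫 → (z : F) ∉ V.nonunits := fun z hz h => hz (hp z h)
  have hne : ∀ z : ↥O, z ∉ 𝔫 → (z : F) ≠ 0 := fun z hz h0 =>
    hnu z hz (by rw [h0]; exact s35pt_nu_zero V)
  have hWV : W ∈ V := by
    have : W = (W - 1) + 1 := by ring
    rw [this]
    exact V.add_mem _ _ (s35pt_nu_mem V hW1) V.one_mem
  have h1 : g ^ m * (a : F) - (s : F) ∈ V.nonunits := by
    have : g ^ m * (a : F) - (s : F) = (W - 1) * (s : F) := by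
      rw [sub_mul, one_mul, hW]; ring
    rw [this]
    exact s35pt_nu_mul V hW1 (hOV _ s.2)
  obtain ⟨a₁, s₁, hs₁, h2⟩ := hIC g ⟨s, a, hs, ha, h1⟩
  have hgm : g ^ m ∈ V := by
    have : g ^ m = W * (s : F) * (a : F)⁻¹ := by
      rw [hW]; field_simp [hne a ha]
    rw [this]
    exact V.mul_mem _ _ (V.mul_mem _ _ hWV (hOV _ s.2)) (s35pt_inv_mem V (hnu a ha))
  have hgV : g ∈ V := core_val_root V m hm g hgm
  have hgnu : g ∉ V.nonunits := by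
    intro h
    have h3 : g ^ m * (a : F) ∈ V.nonunits := by
      obtain ⟨k, rfl⟩ : ∃ k, m = k + 1 := ⟨m - 1, by omega⟩
      have e : g ^ (k + 1) * (a : F) = g * (g ^ k * (a : F)) := by ring
      rw [e]
      exact s35pt_nu_mul V h (V.mul_mem _ _ (V.pow_mem hgV k) (hOV _ a.2))
    apply hnu s hs
    have : (s : F) = g ^ m * (a : F) - (g ^ m * (a : F) - (s : F)) := by ring
    rw [this]
    exact s35pt_nu_sub V h3 h1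
  have hginv : g⁻¹ ∈ V := s35pt_inv_mem V hgnu
  have hs₁inv : (s₁ : F)⁻¹ ∈ V := s35pt_inv_mem V (hnu s₁ hs₁)
  have hs₁0 : (s₁ : F) ≠ 0 := hne s₁ hs₁
  have hs0 : (s : F) ≠ 0 := hne s hs
  set x₀ : F := (a₁ : F) * (g * (s₁ : F))⁻¹ with hx₀
  have hx₀1 : x₀ - 1 ∈ V.nonunits := by
    have : x₀ - 1 = -(g * (s₁ : F) - (a₁ : F)) * (g⁻¹ * (s₁ : F)⁻¹) := by
      rw [hx₀]; field_simp; ring
    rw [this]
    exact s35pt_nu_mul V (s35pt_nu_neg V h2) (V.mul_mem _ _ hginv hs₁inv)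
  have hx₀V : x₀ ∈ V := by
    have : x₀ = (x₀ - 1) + 1 := by ring
    rw [this]
    exact V.add_mem _ _ (s35pt_nu_mem V hx₀1) V.one_mem
  refine ⟨x₀ ^ c, ?_, ?_⟩
  · refine ⟨(a₁ ^ m * a) ^ c, (s₁ ^ m * s) ^ c, ?_, ?_⟩
    · intro h
      have h3 := h𝔫.mem_of_pow_mem _ h
      rcases h𝔫.mem_or_mem h3 with h4 | h4
      · exact hs₁ (h𝔫.mem_of_pow_mem _ h4)
      · exact hs h4
    · have e : (x₀ ^ c) ^ m * W ^ c * (((s₁ ^ m * s) ^ c : ↥O) : F) =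
          (x₀ ^ m * (W * (s : F)) * (s₁ : F) ^ m) ^ c := by
        push_cast; ring
      rw [e, hW]
      have e2 : x₀ ^ m * ((a : F) * g ^ m) * (s₁ : F) ^ m = (a₁ : F) ^ m * (a : F) := by
        have h3 : (g * (s₁ : F))⁻¹ * (g * (s₁ : F)) = 1 :=
          inv_mul_cancel₀ (mul_ne_zero hg hs₁0)
        have h4 : ((a₁ : F) * (g * (s₁ : F))⁻¹) ^ m * ((a : F) * g ^ m) * (s₁ : F) ^ m =
            (a₁ : F) ^ m * (a : F) * ((g * (s₁ : F))⁻¹ * (g * (s₁ : F))) ^ m := by ring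
        rw [hx₀, h4, h3, one_pow, mul_one]
      rw [e2]
      push_cast
      rfl
  · have := s35pt_nu_sub_pow V hx₀V V.one_mem hx₀1 c
    rwa [one_pow] at this

/-- The local datum from the `γ`-form. -/
theorem s35pt_dat_of_gamma (O : Subalgebra A F) (𝔫 : Ideal ↥O) [h𝔫 : 𝔫.IsPrime]
    (V : ValuationSubring F) (m : ℕ) (W γ : F) (hγ : γ - 1 ∈ V.nonunits)
    (a b : ↥O) (hb : b ∉ 𝔫) (h : W * (b : F) = (a : F) * γ ^ m) (c : ℕ) :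
    ∃ y₀ : F, y₀ ^ m * W ^ c ∈ ndrLoc O 𝔫 ∧ y₀ - 1 ∈ V.nonunits := by
  have hγnu : γ ∉ V.nonunits := by
    intro h1
    apply s35pt_one_not_nu V
    have : (1 : F) = γ - (γ - 1) := by ring
    rw [this]
    exact s35pt_nu_sub V h1 hγ
  have hγ0 : γ ≠ 0 := fun h0 => hγnu (by rw [h0]; exact s35pt_nu_zero V)
  have hγinv : γ⁻¹ ∈ V := s35pt_inv_mem V hγnu
  refine ⟨γ⁻¹ ^ c, ⟨a ^ c, b ^ c, fun hh => hb (h𝔫.mem_of_pow_mem _ hh), ?_⟩, ?_⟩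
  · have e : (γ⁻¹ ^ c) ^ m * W ^ c * ((b ^ c : ↥O) : F) = ((γ⁻¹) ^ m * (W * (b : F))) ^ c := by
      push_cast; ring
    rw [e, h]
    have e2 : (γ⁻¹) ^ m * ((a : F) * γ ^ m) = (a : F) := by
      rw [mul_comm (a : F), ← mul_assoc, ← mul_pow, inv_mul_cancel₀ hγ0, one_pow, one_mul]
    rw [e2]
    push_cast
    rfl
  · have h1 : γ⁻¹ - 1 ∈ V.nonunits := by
      have : γ⁻¹ - 1 = -(γ - 1) * γ⁻¹ := by field_simp; ring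
      rw [this]
      exact s35pt_nu_mul V (s35pt_nu_neg V hγ) hγinv
    have := s35pt_nu_sub_pow V hγinv V.one_mem h1 c
    rwa [one_pow] at this

/-- The local datum in ideal form from a one-sided local datum, at a closed point lying off the
component `Vo` (`X ∈ 𝔪_{Vo} ∖ 𝔫`): the congruence on `Vo` is free. -/
theorem s35pt_j_of_dat (τ : A) (O : Subalgebra A F) (𝔫 : Ideal ↥O) [h𝔫 : 𝔫.IsPrime]
    (V Vo : ValuationSubring F) (hOV : ∀ x ∈ O, x ∈ V) (hOVo : ∀ x ∈ O, x ∈ Vo)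
    (hτgen : ∀ x ∈ V.nonunits, x * (algebraMap A F τ)⁻¹ ∈ V)
    (hτgeno : ∀ x ∈ Vo.nonunits, x * (algebraMap A F τ)⁻¹ ∈ Vo)
    (X : ↥O) (hX : (X : F) ∈ Vo.nonunits) (hX𝔫 : X ∉ 𝔫)
    (m : ℕ) (hm : 0 < m) (W : F) (hW0 : W ≠ 0) (hWo : W⁻¹ ∈ Vo) (c : ℕ)
    (y₀ : F) (hy₀ : y₀ ^ m * W ^ c ∈ ndrLoc O 𝔫) (hy₀1 : y₀ - 1 ∈ V.nonunits) :
    ∃ x : ↥O, x ∉ 𝔫 ∧ ∃ y : F, y ^ m * W ^ c ∈ O ∧
      (y - (x : F)) * (algebraMap A F τ)⁻¹ ∈ V ∧ (y - (x : F)) * (algebraMap A F τ)⁻¹ ∈ Vo := by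
  obtain ⟨a, s, hs, h⟩ := hy₀
  obtain ⟨k, rfl⟩ : ∃ k, m = k + 1 := ⟨m - 1, by omega⟩
  have hkey : ((s : F) * y₀) ^ (k + 1) * W ^ c = (s : F) ^ k * (a : F) := by
    rw [← h]; ring
  refine ⟨X * s, fun hh => (h𝔫.mem_or_mem hh).elim hX𝔫 hs, (X : F) * ((s : F) * y₀), ?_, ?_, ?_⟩
  · have e : ((X : F) * ((s : F) * y₀)) ^ (k + 1) * W ^ c =
        (X : F) ^ (k + 1) * (((s : F) * y₀) ^ (k + 1) * W ^ c) := by ring
    rw [e, hkey]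
    exact O.mul_mem (O.pow_mem X.2 _) (O.mul_mem (O.pow_mem s.2 _) a.2)
  · have e : ((X : F) * ((s : F) * y₀) - ((X * s : ↥O) : F)) * (algebraMap A F τ)⁻¹ =
        (X : F) * (s : F) * ((y₀ - 1) * (algebraMap A F τ)⁻¹) := by
      push_cast; ring
    rw [e]
    exact V.mul_mem _ _ (V.mul_mem _ _ (hOV _ X.2) (hOV _ s.2)) (hτgen _ hy₀1)
  · have hy' : (s : F) * y₀ ∈ Vo := by
      apply core_val_root Vo (k + 1) (Nat.succ_pos k)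
      have e : ((s : F) * y₀) ^ (k + 1) = (s : F) ^ k * (a : F) * (W⁻¹) ^ c := by
        rw [← hkey]
        have : W ^ c * W⁻¹ ^ c = 1 := by rw [← mul_pow, mul_inv_cancel₀ hW0, one_pow]
        rw [mul_assoc, this, mul_one]
      rw [e]
      exact Vo.mul_mem _ _ (Vo.mul_mem _ _ (Vo.pow_mem (hOVo _ s.2) _) (hOVo _ a.2))
        (Vo.pow_mem hWo _)
    have e : ((X : F) * ((s : F) * y₀) - ((X * s : ↥O) : F)) * (algebraMap A F τ)⁻¹ =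
        (X : F) * (algebraMap A F τ)⁻¹ * ((s : F) * y₀ - (s : F)) := by
      push_cast; ring
    rw [e]
    exact Vo.mul_mem _ _ (hτgeno _ hX) (sub_mem hy' (hOVo _ s.2))

/-- Transfer of the local datum along an automorphism `w` mapping the chart `O'` into the local
ring of `O` at `𝔫`, the elements outside `𝔫'` going to units. -/
theorem s35pt_transfer (O O' : Subalgebra A F) (w : F ≃+* F)
    (𝔫 : Ideal ↥O) [h𝔫 : 𝔫.IsPrime] (𝔫' : Ideal ↥O') [h𝔫' : 𝔫'.IsPrime]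
    (hdom : ∀ x : ↥O', ∃ a s : ↥O, s ∉ 𝔫 ∧ w (x : F) * (s : F) = a)
    (hunit : ∀ x : ↥O', x ∉ 𝔫' → ∃ a s : ↥O, a ∉ 𝔫 ∧ s ∉ 𝔫 ∧ w (x : F) * (s : F) = a)
    (V V' : ValuationSubring F) (hwV : ∀ z ∈ V'.nonunits, w z ∈ V.nonunits)
    (m c : ℕ) (W' y₀' : F) (h : y₀' ^ m * W' ^ c ∈ ndrLoc O' 𝔫')
    (h1 : y₀' - 1 ∈ V'.nonunits) :
    (w y₀') ^ m * (w W') ^ c ∈ ndrLoc O 𝔫 ∧ w y₀' - 1 ∈ V.nonunits := by
  obtain ⟨a', s', hs', e⟩ := h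
  obtain ⟨a₂, s₂, ha₂, hs₂, e₂⟩ := hunit s' hs'
  obtain ⟨a₁, s₁, hs₁, e₁⟩ := hdom a'
  constructor
  · refine ⟨a₁ * s₂, s₁ * a₂, fun hh => (h𝔫.mem_or_mem hh).elim hs₁ ha₂, ?_⟩
    have e' := congrArg w e
    simp only [map_mul, map_pow] at e'
    push_cast
    rw [← e₁, ← e₂, ← e']
    ring
  · have := hwV _ h1
    rwa [map_sub, map_one] at this

end Local

section Chart

variable {A F : Type*} [CommRing A] [Field F] [Algebra A F]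
  (O : Subalgebra A F) (𝔫 : Ideal ↥O) [h𝔫 : 𝔫.IsPrime]

theorem s35pt_ne_zero (s : ↥O) (hs : s ∉ 𝔫) : (s : F) ≠ 0 := by
  intro h
  have : s = 0 := Subtype.ext h
  exact hs (this ▸ 𝔫.zero_mem)

/-- the local ring of the chart lies in every valuation ring through the point -/
theorem s35pt_loc_le (V : ValuationSubring F) (hOV : ∀ x ∈ O, x ∈ V)
    (hp : ∀ x : ↥O, (x : F) ∈ V.nonunits → x ∈ 𝔫) : ∀ x ∈ ndrLoc O 𝔫, x ∈ V := by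
  rintro x ⟨a, s, hs, h⟩
  have hs0 := s35pt_ne_zero O 𝔫 s hs
  have : x = (a : F) * (s : F)⁻¹ := by rw [← h]; field_simp
  rw [this]
  exact V.mul_mem _ _ (hOV _ a.2) (s35pt_inv_mem V (fun hh => hs (hp s hh)))

theorem s35pt_loc_P (V : ValuationSubring F) (hOV : ∀ x ∈ O, x ∈ V)
    (hp : ∀ x : ↥O, (x : F) ∈ V.nonunits → x ∈ 𝔫) (x : ↥(ndrLoc O 𝔫))
    (hx : (x : F) ∈ V.nonunits) : x ∈ IsLocalRing.maximalIdeal ↥(ndrLoc O 𝔫) := by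
  obtain ⟨a, s, hs, h⟩ := x.2
  refine (ndr_mem_maximalIdeal_iff O 𝔫 x).mpr ⟨a, s, hp a ?_, hs, h⟩
  rw [← h]
  exact s35pt_nu_mul V hx (hOV _ s.2)

theorem s35pt_loc_unit_iff (U : ↥(ndrLoc O 𝔫)) :
    IsUnit U ↔ ∃ a s : ↥O, a ∉ 𝔫 ∧ s ∉ 𝔫 ∧ (U : F) * (s : F) = (a : F) := by
  constructor
  · intro hU
    obtain ⟨a, s, hs, h⟩ := U.2
    refine ⟨a, s, fun ha => ?_, hs, h⟩
    have : U ∈ IsLocalRing.maximalIdeal ↥(ndrLoc O 𝔫) :=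
      (ndr_mem_maximalIdeal_iff O 𝔫 U).mpr ⟨a, s, ha, hs, h⟩
    exact (IsLocalRing.mem_maximalIdeal _).mp this hU
  · rintro ⟨a, s, ha, hs, h⟩
    by_contra hU
    have : U ∈ IsLocalRing.maximalIdeal ↥(ndrLoc O 𝔫) := (IsLocalRing.mem_maximalIdeal _).mpr hU
    obtain ⟨a', s', ha', hs', h'⟩ := (ndr_mem_maximalIdeal_iff O 𝔫 U).mp this
    have e : a * s' = a' * s := by
      apply Subtype.ext
      push_cast
      rw [← h, ← h']; ring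
    have h1 : a * s' ∈ 𝔫 := by rw [e]; exact 𝔫.mul_mem_right _ ha'
    exact (h𝔫.mem_or_mem h1).elim ha hs'

/-- fractions with denominator outside `𝔫` -/
theorem s35pt_loc_mk (a s : ↥O) (hs : s ∉ 𝔫) : (a : F) * (s : F)⁻¹ ∈ ndrLoc O 𝔫 :=
  ⟨a, s, hs, by have := s35pt_ne_zero O 𝔫 s hs; field_simp⟩

/-- **The crossing point**, chart form.  `y` is the local equation of the second component
(`y ∈ 𝔪_{V₂}`) and `hB` the corresponding branch statement. -/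
theorem s35pt_node (V₁ V₂ : ValuationSubring F)
    (hOV₁ : ∀ x ∈ O, x ∈ V₁) (hOV₂ : ∀ x ∈ O, x ∈ V₂)
    (hp₁ : ∀ x : ↥O, (x : F) ∈ V₁.nonunits → x ∈ 𝔫)
    (hp₂ : ∀ x : ↥O, (x : F) ∈ V₂.nonunits → x ∈ 𝔫)
    (y : F) (hy₂ : y ∈ V₂.nonunits) (hyΛ : ∃ a s : ↥O, s ∉ 𝔫 ∧ y * (s : F) = (a : F))
    (hB : ∀ a : ↥O, a ∈ 𝔫 → ∃ b c : ↥O, c ∉ 𝔫 ∧ (a : F) * (c : F) - y * (b : F) ∈ V₁.nonunits)
    (m : ℕ) (hm : 0 < m)
    (hIC₁ : ∀ z : F, (∃ a s : ↥O, a ∉ 𝔫 ∧ s ∉ 𝔫 ∧ z ^ m * (s : F) - (a : F) ∈ V₁.nonunits) →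
      ∃ a' s' : ↥O, s' ∉ 𝔫 ∧ z * (s' : F) - (a' : F) ∈ V₁.nonunits)
    (hIC₂ : ∀ z : F, (∃ a s : ↥O, a ∉ 𝔫 ∧ s ∉ 𝔫 ∧ z ^ m * (s : F) - (a : F) ∈ V₂.nonunits) →
      ∃ a' s' : ↥O, s' ∉ 𝔫 ∧ z * (s' : F) - (a' : F) ∈ V₂.nonunits)
    (σ : F ≃+* F) (Q : ℕ)
    (hσV₁ : ∀ z ∈ V₁.nonunits, σ z ∈ V₁.nonunits) (hσV₂ : ∀ z ∈ V₂.nonunits, σ z ∈ V₂.nonunits)
    (hσO : ∀ z : ↥O, ∃ a s : ↥O, s ∉ 𝔫 ∧ σ (z : F) * (s : F) = (a : F))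
    (hσQ : ∀ z : ↥O, ∃ a s : ↥O, a ∈ 𝔫 ∧ s ∉ 𝔫 ∧ (σ (z : F) - (z : F) ^ Q) * (s : F) = (a : F))
    (f₂ : F)
    (hf₂u : ∃ g : F, g ≠ 0 ∧ ∃ a s : ↥O, a ∉ 𝔫 ∧ s ∉ 𝔫 ∧ f₂ * (s : F) = (a : F) * g ^ m)
    (hf₁ : f₂ - 1 ∈ V₁.nonunits) (C : ↥O) (hC : C ∉ 𝔫) (hf₂ : f₂ - (C : F) ∈ V₂.nonunits) :
    ∃ γ : F, γ - 1 ∈ V₁.nonunits ∧ γ - 1 ∈ V₂.nonunits ∧
      ∃ a b : ↥O, a ∉ 𝔫 ∧ b ∉ 𝔫 ∧ σ f₂ * (f₂ ^ Q)⁻¹ * (b : F) = (a : F) * γ ^ m := by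
  classical
  have hΛ₁ := s35pt_loc_le O 𝔫 V₁ hOV₁ hp₁
  have hΛ₂ := s35pt_loc_le O 𝔫 V₂ hOV₂ hp₂
  -- the images of chart elements
  let ι : ↥O → ↥(ndrLoc O 𝔫) := fun z => ⟨(z : F), ndr_le O 𝔫 z.2⟩
  have hιU : ∀ z : ↥O, z ∉ 𝔫 → IsUnit (ι z) := fun z hz =>
    (s35pt_loc_unit_iff O 𝔫 (ι z)).mpr ⟨z, 1, hz,
      fun h => h𝔫.ne_top ((Ideal.eq_top_iff_one 𝔫).mpr h), by simp [ι]⟩
  have hιm : ∀ z : ↥O, z ∈ 𝔫 → ι z ∈ IsLocalRing.maximalIdeal ↥(ndrLoc O 𝔫) := fun z hz =>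
    (ndr_mem_maximalIdeal_iff O 𝔫 (ι z)).mpr ⟨z, 1, hz,
      fun h => h𝔫.ne_top ((Ideal.eq_top_iff_one 𝔫).mpr h), by simp [ι]⟩
  -- `𝔪_Λ = P₁ + P₂`
  have hsum : ∀ z ∈ IsLocalRing.maximalIdeal ↥(ndrLoc O 𝔫), ∃ b₁ b₂ : ↥(ndrLoc O 𝔫),
      (b₁ : F) ∈ V₁.nonunits ∧ (b₂ : F) ∈ V₂.nonunits ∧ z = b₁ + b₂ := by
    intro z hz
    obtain ⟨a, s, ha, hs, h⟩ := (ndr_mem_maximalIdeal_iff O 𝔫 z).mp hz
    obtain ⟨b, c, hc, hbc⟩ := hB a ha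
    have hsc : s * c ∉ 𝔫 := fun hh => (h𝔫.mem_or_mem hh).elim hs hc
    have hsc0 : ((s * c : ↥O) : F) ≠ 0 := s35pt_ne_zero O 𝔫 _ hsc
    have hinv : (((s * c : ↥O) : F))⁻¹ ∈ ndrLoc O 𝔫 := ndr_inv_mem O 𝔫 _ hsc
    have hyL : y ∈ ndrLoc O 𝔫 := hyΛ
    have hb₂ : y * (b : F) * (((s * c : ↥O) : F))⁻¹ ∈ ndrLoc O 𝔫 :=
      (ndrLoc O 𝔫).mul_mem ((ndrLoc O 𝔫).mul_mem hyL (ndr_le O 𝔫 b.2)) hinv
    have hb₁ : ((a : F) * (c : F) - y * (b : F)) * (((s * c : ↥O) : F))⁻¹ ∈ ndrLoc O 𝔫 :=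
      (ndrLoc O 𝔫).mul_mem ((ndrLoc O 𝔫).sub_mem
        ((ndrLoc O 𝔫).mul_mem (ndr_le O 𝔫 a.2) (ndr_le O 𝔫 c.2))
        ((ndrLoc O 𝔫).mul_mem hyL (ndr_le O 𝔫 b.2))) hinv
    refine ⟨⟨_, hb₁⟩, ⟨_, hb₂⟩, ?_, ?_, ?_⟩
    · exact s35pt_nu_mul V₁ hbc (hΛ₁ _ hinv)
    · have h3 : y * (b : F) * (((s * c : ↥O) : F))⁻¹ ∈ V₂.nonunits := by
        have : y * (b : F) * (((s * c : ↥O) : F))⁻¹ =
            y * ((b : F) * (((s * c : ↥O) : F))⁻¹) := by ring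
        rw [this]
        exact s35pt_nu_mul V₂ hy₂ (hΛ₂ _ ((ndrLoc O 𝔫).mul_mem (ndr_le O 𝔫 b.2) hinv))
      exact h3
    · apply Subtype.ext
      have hs0 := s35pt_ne_zero O 𝔫 s hs
      have hc0 := s35pt_ne_zero O 𝔫 c hc
      have hz : (z : F) = (a : F) * (s : F)⁻¹ := by rw [← h]; field_simp
      push_cast
      rw [hz]
      field_simp
      ring
  -- the integral closedness statements
  have hIC : ∀ (V : ValuationSubring F) (hΛV : ∀ x ∈ ndrLoc O 𝔫, x ∈ V)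
      (_ : ∀ z : F, (∃ a s : ↥O, a ∉ 𝔫 ∧ s ∉ 𝔫 ∧ z ^ m * (s : F) - (a : F) ∈ V.nonunits) →
        ∃ a' s' : ↥O, s' ∉ 𝔫 ∧ z * (s' : F) - (a' : F) ∈ V.nonunits),
      ∀ z : F, (∃ U : ↥(ndrLoc O 𝔫), IsUnit U ∧ z ^ m - (U : F) ∈ V.nonunits) →
        ∃ a : ↥(ndrLoc O 𝔫), z - (a : F) ∈ V.nonunits := by
    intro V hΛV hICV z ⟨U, hU, hzU⟩
    obtain ⟨a, s, ha, hs, h⟩ := (s35pt_loc_unit_iff O 𝔫 U).mp hU
    have h1 : z ^ m * (s : F) - (a : F) ∈ V.nonunits := by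
      have : z ^ m * (s : F) - (a : F) = (z ^ m - (U : F)) * (s : F) := by rw [sub_mul, h]
      rw [this]
      exact s35pt_nu_mul V hzU (hΛV _ (ndr_le O 𝔫 s.2))
    obtain ⟨a', s', hs', h2⟩ := hICV z ⟨a, s, ha, hs, h1⟩
    have hs'0 := s35pt_ne_zero O 𝔫 s' hs'
    refine ⟨⟨_, s35pt_loc_mk O 𝔫 a' s' hs'⟩, ?_⟩
    have : z - (a' : F) * (s' : F)⁻¹ = (z * (s' : F) - (a' : F)) * (s' : F)⁻¹ := by
      field_simp
    rw [this]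
    exact s35pt_nu_mul V h2 (hΛV _ (ndr_inv_mem O 𝔫 s' hs'))
  -- `σ` on the local ring
  have hσι : ∀ z : ↥O, ∃ z' : ↥(ndrLoc O 𝔫), (z' : F) = σ (z : F) ∧
      z' - ι z ^ Q ∈ IsLocalRing.maximalIdeal ↥(ndrLoc O 𝔫) := by
    intro z
    have hz' : σ (z : F) ∈ ndrLoc O 𝔫 := hσO z
    refine ⟨⟨_, hz'⟩, rfl, ?_⟩
    obtain ⟨a, s, ha, hs, h⟩ := hσQ z
    exact (ndr_mem_maximalIdeal_iff O 𝔫 _).mpr ⟨a, s, ha, hs, by
      rw [← h]; simp [ι]⟩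
  have hσΛ : ∀ z : ↥(ndrLoc O 𝔫), ∃ z' : ↥(ndrLoc O 𝔫), (z' : F) = σ (z : F) ∧
      z' - z ^ Q ∈ IsLocalRing.maximalIdeal ↥(ndrLoc O 𝔫) := by
    intro z
    obtain ⟨a, s, hs, h⟩ := z.2
    obtain ⟨A', hA'c, hA'm⟩ := hσι a
    obtain ⟨S', hS'c, hS'm⟩ := hσι s
    have hsU : IsUnit (ι s) := hιU s hs
    have hS'U : IsUnit S' := by
      have : S' = ι s ^ Q + (S' - ι s ^ Q) := by ring
      rw [this]
      exact s35pt_unit_add (hsU.pow Q) hS'm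
    obtain ⟨S'i, hS'i, hS'ic, hS'im⟩ := s35pt_unit_inv (ndrLoc O 𝔫) S' hS'U
    have hs0 := s35pt_ne_zero O 𝔫 s hs
    have hzs : z * ι s = ι a := Subtype.ext h
    refine ⟨A' * S'i, ?_, ?_⟩
    · have hz : (z : F) = (a : F) * (s : F)⁻¹ := by rw [← h]; field_simp
      rw [Subalgebra.coe_mul, hA'c, hS'ic, hS'c, hz, map_mul, map_inv₀]
    · have hunit : IsUnit (S' * ι s ^ Q) := hS'U.mul (hsU.pow Q)
      rw [← Ideal.mul_unit_mem_iff_mem _ hunit]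
      have e : (A' * S'i - z ^ Q) * (S' * ι s ^ Q) =
          (A' - ι a ^ Q) * ι s ^ Q - ι a ^ Q * (S' - ι s ^ Q) := by
        rw [← hzs]
        have h3 : S'i * S' = 1 := by rw [mul_comm]; exact hS'im
        linear_combination (A' * ι s ^ Q) * h3
      rw [e]
      exact Ideal.sub_mem _ (Ideal.mul_mem_right _ _ hA'm) (Ideal.mul_mem_left _ _ hS'm)
  -- the unit form of `f₂`
  obtain ⟨g, hg, a, s, ha, hs, hf⟩ := hf₂u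
  have hs0 := s35pt_ne_zero O 𝔫 s hs
  have hUmem : (a : F) * (s : F)⁻¹ ∈ ndrLoc O 𝔫 := s35pt_loc_mk O 𝔫 a s hs
  have hUU : IsUnit (⟨_, hUmem⟩ : ↥(ndrLoc O 𝔫)) :=
    (s35pt_loc_unit_iff O 𝔫 _).mpr ⟨a, s, ha, hs, by field_simp⟩
  have hfU : f₂ = ((⟨_, hUmem⟩ : ↥(ndrLoc O 𝔫)) : F) * g ^ m := by
    show f₂ = (a : F) * (s : F)⁻¹ * g ^ m
    have : f₂ = f₂ * (s : F) * (s : F)⁻¹ := by field_simp
    rw [this, hf]; ring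
  obtain ⟨γ, hγ₁, hγ₂, U', hU', hW⟩ := s35pt_node_loc (ndrLoc O 𝔫) V₁ V₂ hΛ₁ hΛ₂
    (s35pt_loc_P O 𝔫 V₁ hOV₁ hp₁) (s35pt_loc_P O 𝔫 V₂ hOV₂ hp₂) hsum m hm
    (hIC V₁ hΛ₁ hIC₁) (hIC V₂ hΛ₂ hIC₂) σ Q hσV₁ hσV₂ hσΛ f₂ g hg _ hUU hfU hf₁
    (ι C) (hιU C hC) hf₂
  obtain ⟨a', b', ha', hb', h'⟩ := (s35pt_loc_unit_iff O 𝔫 U').mp hU'
  exact ⟨γ, hγ₁, hγ₂, a', b', ha', hb', by rw [hW, ← h']; ring⟩

end Chart

end Fermat.Agent.S35
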