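import Mathlib
import Fermat.Agent.S34.CompLoc

/-!
# S35, leaf LOC-IC: integral closedness of the local ring of a component at a closed point

Let `O` be a chart (a subalgebra of the field `F`), `V` a valuation subring of `F` containing
`O` (the local ring of the surface at the generic point of a component of the special fibre)
and `𝔫` a closed point of `O` on that component.

* `S35IC m O 𝔫 V`: an `m`-th root, modulo `𝔪_V`, of a unit of `O_𝔫` is a function of `O_𝔫`
  modulo `𝔪_V`.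
* `s35i_frac` (FRAC): `V` is the local ring of the chart at the generic point of its component.
* `s35i_ic_ded`: `S35IC` when the coordinate ring `O ⧸ 𝔭` of the component is Dedekind.
* `s35i_ic_principal`: `S35IC` when the maximal ideal of `O_𝔫` is principal modulo the
  component (the branch hypothesis at a crossing point).

Abstract helpers: `s35i_ic_of_total` (roots in a domain which is a valuation ring at a prime,
elementwise form), `s35i_total_principal` (a noetherian local domain with principal maximal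
ideal is a valuation ring, elementwise form before localising), `s35i_ic_of_quot` (the glue).
-/

set_option autoImplicit false

namespace Fermat.Agent.S35

open Fermat.Agent.S34

/-- In a domain `D` which is "a valuation ring at the prime `P`" (elementwise form), an `m`-th
root `a₀ / s₀` of a unit `a / s` at `P` is a fraction with denominator outside `P`. -/
theorem s35i_ic_of_total {D : Type*} [CommRing D] [IsDomain D] (P : Ideal D) [hP : P.IsPrime]
    (htot : ∀ β₁ β₂ : D, ∃ σ, σ ∉ P ∧ ∃ γ, β₁ * γ = σ * β₂ ∨ β₂ * γ = σ * β₁)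
    (m : ℕ) (hm : 0 < m) (a₀ s₀ a s : D) (hs₀ : s₀ ≠ 0) (hs : s ∉ P)
    (h : a₀ ^ m * s = a * s₀ ^ m) :
    ∃ a' s' : D, s' ∉ P ∧ a₀ * s' = a' * s₀ := by
  obtain ⟨σ, hσ, γ, hγ⟩ := htot s₀ a₀
  rcases hγ with hγ | hγ
  · exact ⟨γ, σ, hσ, by linear_combination -hγ⟩
  · have h0 : (a₀ * γ) ^ m = (σ * s₀) ^ m := by rw [hγ]
    rw [mul_pow, mul_pow] at h0
    have h1 : s₀ ^ m * (σ ^ m * s) = s₀ ^ m * (γ ^ m * a) := by
      linear_combination (-s) * h0 + γ ^ m * h
    have h2 : σ ^ m * s = γ ^ m * a := mul_left_cancel₀ (pow_ne_zero m hs₀) h1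
    have hγP : γ ∉ P := by
      intro hγP
      have h3 : σ ^ m * s ∈ P := by
        rw [h2]
        exact P.mul_mem_right _ (Ideal.pow_mem_of_mem P hγP m hm)
      rcases hP.mem_or_mem h3 with h4 | h4
      · exact hσ (hP.mem_of_pow_mem m h4)
      · exact hs h4
    exact ⟨σ, γ, hγP, hγ⟩

/-- A noetherian domain whose localisation at the prime `P` has principal maximal ideal
(elementwise form: `P` is generated by `ϖ` up to factors outside `P`) is "a valuation ring at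
`P`": any two elements are comparable for divisibility up to a factor outside `P`. -/
theorem s35i_total_principal {D : Type*} [CommRing D] [IsDomain D] [IsNoetherianRing D]
    (P : Ideal D) [hP : P.IsPrime] (ϖ : D) (hϖ : ϖ ∈ P)
    (hgen : ∀ x ∈ P, ∃ b c : D, c ∉ P ∧ x * c = ϖ * b)
    (β₁ β₂ : D) : ∃ σ, σ ∉ P ∧ ∃ γ, β₁ * γ = σ * β₂ ∨ β₂ * γ = σ * β₁ := by
  classical
  have hnoeth : IsNoetherianRing (Localization.AtPrime P) :=
    IsLocalization.isNoetherianRing P.primeCompl _ inferInstance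
  have hinj : Function.Injective (algebraMap D (Localization.AtPrime P)) :=
    IsLocalization.injective _ P.primeCompl_le_nonZeroDivisors
  have hval : ∀ x y : Localization.AtPrime P, ∃ c, x * c = y ∨ y * c = x := by
    by_cases hf : IsField (Localization.AtPrime P)
    · intro x y
      by_cases hx : x = 0
      · exact ⟨0, Or.inr (by simp [hx])⟩
      · obtain ⟨x', hx'⟩ := hf.mul_inv_cancel hx
        exact ⟨x' * y, Or.inl (by rw [← mul_assoc, hx', one_mul])⟩
    · have hprinc : (IsLocalRing.maximalIdeal (Localization.AtPrime P)).IsPrincipal := by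
        refine ⟨⟨algebraMap D (Localization.AtPrime P) ϖ, ?_⟩⟩
        apply le_antisymm
        · intro x hx
          obtain ⟨a, t, rfl⟩ := IsLocalization.exists_mk'_eq P.primeCompl x
          have ha : a ∈ P :=
            (IsLocalization.AtPrime.mk'_mem_maximal_iff (Localization.AtPrime P) P a t).mp hx
          obtain ⟨b, c, hc, hbc⟩ := hgen a ha
          rw [Ideal.submodule_span_eq, Ideal.mem_span_singleton']
          refine ⟨IsLocalization.mk' (Localization.AtPrime P) b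
            ((⟨c, hc⟩ : P.primeCompl) * t), ?_⟩
          rw [mul_comm, IsLocalization.mul_mk'_eq_mk'_of_mul, IsLocalization.mk'_eq_iff_eq]
          congr 1
          simp only [Submonoid.coe_mul]
          linear_combination (-(t : D)) * hbc
        · rw [Ideal.submodule_span_eq, Ideal.span_singleton_le_iff_mem]
          exact (IsLocalization.AtPrime.to_map_mem_maximal_iff (Localization.AtPrime P) P ϖ).mpr hϖ
      have hvr : ValuationRing (Localization.AtPrime P) :=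
        ((IsDiscreteValuationRing.TFAE (Localization.AtPrime P) hf).out 4 1).mp hprinc
      exact fun x y => ValuationRing.cond x y
  obtain ⟨c, hc⟩ := hval (algebraMap D (Localization.AtPrime P) β₁)
    (algebraMap D (Localization.AtPrime P) β₂)
  obtain ⟨γ, s, rfl⟩ := IsLocalization.exists_mk'_eq P.primeCompl c
  rcases hc with hc | hc
  · refine ⟨s, s.2, γ, Or.inl (hinj ?_)⟩
    have h2 := congrArg (fun z => z * algebraMap D (Localization.AtPrime P) (s : D)) hc
    simp only [mul_assoc, IsLocalization.mk'_spec] at h2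
    rw [map_mul, map_mul, h2, mul_comm]
  · refine ⟨s, s.2, γ, Or.inr (hinj ?_)⟩
    have h2 := congrArg (fun z => z * algebraMap D (Localization.AtPrime P) (s : D)) hc
    simp only [mul_assoc, IsLocalization.mk'_spec] at h2
    rw [map_mul, map_mul, h2, mul_comm]

section Contract

variable {A F : Type*} [CommRing A] [Field F] [Algebra A F]

/-- "`m`-th roots, on the component `V`, of units of `O_𝔫` are functions of `O_𝔫`":
the local ring of the component at `𝔫` is integrally closed in the residue field of `V`. -/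
def S35IC (m : ℕ) (O : Subalgebra A F) (𝔫 : Ideal ↥O) (V : ValuationSubring F) : Prop :=
  ∀ z : F, (∃ a s : ↥O, a ∉ 𝔫 ∧ s ∉ 𝔫 ∧ z ^ m * (s : F) - (a : F) ∈ V.nonunits) →
    ∃ a' s' : ↥O, s' ∉ 𝔫 ∧ z * (s' : F) - (a' : F) ∈ V.nonunits

/-- A nonzero element of `F` whose inverse lies in `V` is not in `𝔪_V`. -/
theorem s35i_not_nu_of_inv (V : ValuationSubring F) {x : F} (hx0 : x ≠ 0) (hx' : x⁻¹ ∈ V) :
    x ∉ V.nonunits := by
  intro hx
  rcases (ValuationSubring.mem_nonunits_iff_or V).mp hx with h | h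
  · exact hx0 h
  · exact h hx'

/-- An element of `V` outside `𝔪_V` has its inverse in `V`. -/
theorem s35i_inv_mem (V : ValuationSubring F) {x : F} (hx' : x ∉ V.nonunits) :
    x⁻¹ ∈ V := by
  by_contra h
  exact hx' ((ValuationSubring.mem_nonunits_iff_or V).mpr (Or.inr h))

/-- `𝔪_V ∩ O` is a prime ideal of `O`. -/
theorem s35i_prime (O : Subalgebra A F) (V : ValuationSubring F) (hOV : ∀ x ∈ O, x ∈ V)
    (p : Ideal ↥O) (hp : ∀ x : ↥O, x ∈ p ↔ (x : F) ∈ V.nonunits) : p.IsPrime := by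
  refine ⟨?_, ?_⟩
  · intro h
    have h1 : (1 : ↥O) ∈ p := by rw [h]; trivial
    have h2 := (hp 1).mp h1
    rw [ValuationSubring.mem_nonunits_iff] at h2
    simp at h2
  · intro x y hxy
    by_contra hcon
    obtain ⟨hx, hy⟩ := not_or.mp hcon
    have hx' : (x : F) ∉ V.nonunits := fun h => hx ((hp x).mpr h)
    have hy' : (y : F) ∉ V.nonunits := fun h => hy ((hp y).mpr h)
    have hxy' : ((x * y : ↥O) : F) ∈ V.nonunits := (hp _).mp hxy
    rw [ValuationSubring.mem_nonunits_iff] at hx' hy' hxy'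
    have hxV := (V.valuation_le_one_iff _).mpr (hOV _ x.2)
    have hyV := (V.valuation_le_one_iff _).mpr (hOV _ y.2)
    have hx1 : V.valuation (x : F) = 1 := le_antisymm hxV (not_lt.mp hx')
    have hy1 : V.valuation (y : F) = 1 := le_antisymm hyV (not_lt.mp hy')
    push_cast at hxy'
    rw [map_mul, hx1, hy1, one_mul] at hxy'
    exact lt_irrefl _ hxy'

/-- (FRAC) `V` is the local ring of the chart at the generic point of its component:
every `z ∈ V` is `a / s` with `a, s ∈ O`, `s` a unit of `V`.  [`z = a/b`; while `b ∈ 𝔪_V`: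
`r a, r b ∈ 𝔪_V ∩ 𝔪_{Vo} ∩ O = τ O`, divide by `τ`; terminates by `hdec`.] -/
theorem s35i_frac (τ : A) (hτ0 : algebraMap A F τ ≠ 0) (O : Subalgebra A F)
    (V Vo : ValuationSubring F) (hOV : ∀ x ∈ O, x ∈ V) (hOVo : ∀ x ∈ O, x ∈ Vo)
    (hfrac : ∀ x : F, ∃ a ∈ O, ∃ s ∈ O, s ≠ 0 ∧ x * s = a)
    (hτV : algebraMap A F τ ∈ V.nonunits)
    (hτgen : ∀ x ∈ V.nonunits, x * (algebraMap A F τ)⁻¹ ∈ V)
    (hdec : ∀ z : F, z ≠ 0 → ∃ j : ℤ, z * algebraMap A F τ ^ j ∈ V ∧
      (z * algebraMap A F τ ^ j)⁻¹ ∈ V)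
    (hred : ∀ x ∈ O, x ∈ V.nonunits → x ∈ Vo.nonunits → ∃ y ∈ O, x = algebraMap A F τ * y)
    (r : ↥O) (hr₂ : (r : F) ∈ Vo.nonunits) (hr₁ : (r : F) ∉ V.nonunits)
    (z : F) (hz : z ∈ V) :
    ∃ a s : ↥O, (s : F) ∉ V.nonunits ∧ z * (s : F) = (a : F) := by
  have _hτgen := hτgen
  have hrV : (r : F) ∈ V := hOV _ r.2
  have hr0 : (r : F) ≠ 0 := fun h => hr₁ (by rw [h]; exact V.nonunits.zero_mem)
  have hrinv : (r : F)⁻¹ ∈ V := s35i_inv_mem V hr₁
  have hτpow : ∀ n : ℕ, algebraMap A F τ ^ (n + 1) ∈ V.nonunits := by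
    intro n
    rw [pow_succ']
    exact cpl_nu_mul V hτV (V.pow_mem (ValuationSubring.nonunits_subset hτV) n)
  -- the descent
  have key : ∀ n : ℕ, ∀ a b : F, a ∈ O → b ∈ O → z * b = a → b ≠ 0 →
      b * (algebraMap A F τ ^ n)⁻¹ ∈ V → (b * (algebraMap A F τ ^ n)⁻¹)⁻¹ ∈ V →
      ∃ a s : ↥O, (s : F) ∉ V.nonunits ∧ z * (s : F) = (a : F) := by
    intro n
    induction n with
    | zero =>
      intro a b ha hb hzb hb0 _ hu'
      rw [pow_zero, inv_one, mul_one] at hu'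
      exact ⟨⟨a, ha⟩, ⟨b, hb⟩, s35i_not_nu_of_inv V hb0 hu', hzb⟩
    | succ n ih =>
      intro a b ha hb hzb hb0 hu hu'
      have hτn0 : algebraMap A F τ ^ (n + 1) ≠ 0 := pow_ne_zero _ hτ0
      have hτn0' : algebraMap A F τ ^ n ≠ 0 := pow_ne_zero _ hτ0
      have hbnu : b ∈ V.nonunits := by
        have h1 : b = algebraMap A F τ ^ (n + 1) * (b * (algebraMap A F τ ^ (n + 1))⁻¹) := by
          field_simp
        rw [h1]
        exact cpl_nu_mul V (hτpow n) hu
      have hanu : a ∈ V.nonunits := by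
        rw [← hzb, mul_comm]
        exact cpl_nu_mul V hbnu hz
      have hra : (r : F) * a ∈ O := O.mul_mem r.2 ha
      have hrb : (r : F) * b ∈ O := O.mul_mem r.2 hb
      have hra1 : (r : F) * a ∈ V.nonunits := by
        rw [mul_comm]; exact cpl_nu_mul V hanu hrV
      have hrb1 : (r : F) * b ∈ V.nonunits := by
        rw [mul_comm]; exact cpl_nu_mul V hbnu hrV
      have hra2 : (r : F) * a ∈ Vo.nonunits := cpl_nu_mul Vo hr₂ (hOVo _ ha)
      have hrb2 : (r : F) * b ∈ Vo.nonunits := cpl_nu_mul Vo hr₂ (hOVo _ hb)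
      obtain ⟨a₁, ha₁, hraeq⟩ := hred _ hra hra1 hra2
      obtain ⟨b₁, hb₁, hrbeq⟩ := hred _ hrb hrb1 hrb2
      have hzb₁ : z * b₁ = a₁ := by
        apply mul_left_cancel₀ hτ0
        rw [← hraeq, ← hzb]
        calc algebraMap A F τ * (z * b₁) = z * (algebraMap A F τ * b₁) := by ring
          _ = z * ((r : F) * b) := by rw [← hrbeq]
          _ = (r : F) * (z * b) := by ring
      have hb₁0 : b₁ ≠ 0 := by
        intro h
        rw [h, mul_zero] at hrbeq
        exact (mul_ne_zero hr0 hb0) hrbeq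
      have hb₁eq : b₁ * (algebraMap A F τ ^ n)⁻¹ =
          (r : F) * (b * (algebraMap A F τ ^ (n + 1))⁻¹) := by
        have h1 : b₁ = (r : F) * b * (algebraMap A F τ)⁻¹ := by
          rw [hrbeq]; field_simp
        rw [h1, pow_succ]
        field_simp
      refine ih a₁ b₁ ha₁ hb₁ hzb₁ hb₁0 ?_ ?_
      · rw [hb₁eq]; exact V.mul_mem _ _ hrV hu
      · rw [hb₁eq, mul_inv]; exact V.mul_mem _ _ hrinv hu'
  obtain ⟨a, ha, b, hb, hb0, hzb⟩ := hfrac z
  obtain ⟨j, hj, hj'⟩ := hdec b hb0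
  have hjle : j ≤ 0 := by
    by_contra hcon
    have hcon' : 0 < j := not_le.mp hcon
    obtain ⟨k, hk⟩ : ∃ k : ℕ, j = (k : ℤ) + 1 := ⟨(j - 1).toNat, by omega⟩
    have h1 : b * algebraMap A F τ ^ j ∈ V.nonunits := by
      rw [hk, zpow_add_one₀ hτ0, zpow_natCast, ← pow_succ, mul_comm]
      exact cpl_nu_mul V (hτpow k) (hOV _ hb)
    exact s35i_not_nu_of_inv V (mul_ne_zero hb0 (zpow_ne_zero _ hτ0)) hj' h1
  obtain ⟨n, hn⟩ : ∃ n : ℕ, j = -(n : ℤ) := ⟨(-j).toNat, by omega⟩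
  rw [hn, zpow_neg, zpow_natCast] at hj hj'
  exact key n a b ha hb hzb hb0 hj hj'

/-- The glue: `S35IC` from "the coordinate ring `O ⧸ 𝔭` of the component is a valuation ring at
the image of `𝔫`" (elementwise form) and (FRAC). -/
theorem s35i_ic_of_quot (O : Subalgebra A F) (𝔫 : Ideal ↥O) [h𝔫 : 𝔫.IsPrime]
    (V : ValuationSubring F) (hOV : ∀ x ∈ O, x ∈ V)
    (p : Ideal ↥O) (hp : ∀ x : ↥O, x ∈ p ↔ (x : F) ∈ V.nonunits)
    (hp𝔫 : p ≤ 𝔫)
    (hFRAC : ∀ z ∈ V, ∃ a s : ↥O, (s : F) ∉ V.nonunits ∧ z * (s : F) = (a : F))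
    (htot : ∀ β₁ β₂ : ↥O ⧸ p, ∃ σ, σ ∉ 𝔫.map (Ideal.Quotient.mk p) ∧
      ∃ γ, β₁ * γ = σ * β₂ ∨ β₂ * γ = σ * β₁)
    (m : ℕ) (hm : 0 < m) : S35IC m O 𝔫 V := by
  classical
  have hpprime : p.IsPrime := s35i_prime O V hOV p hp
  have hPprime : (𝔫.map (Ideal.Quotient.mk p)).IsPrime :=
    Ideal.map_isPrime_of_surjective Ideal.Quotient.mk_surjective (by rw [Ideal.mk_ker]; exact hp𝔫)
  intro z hzex
  obtain ⟨a, s, ha, hs, hzas⟩ := hzex
  have hsV : (s : F) ∈ V := hOV _ s.2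
  have haV : (a : F) ∈ V := hOV _ a.2
  have hsnu : (s : F) ∉ V.nonunits := fun h => hs (hp𝔫 ((hp s).mpr h))
  have hs1 : V.valuation (s : F) = 1 := by
    rw [ValuationSubring.mem_nonunits_iff] at hsnu
    exact le_antisymm ((V.valuation_le_one_iff _).mpr hsV) (not_lt.mp hsnu)
  have hzmV : z ^ m * (s : F) ∈ V := by
    have h1 : z ^ m * (s : F) = (z ^ m * (s : F) - (a : F)) + (a : F) := by ring
    rw [h1]
    exact V.add_mem _ _ (ValuationSubring.nonunits_subset hzas) haV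
  have hzV : z ∈ V := by
    rw [← ValuationSubring.valuation_le_one_iff] at hzmV ⊢
    rw [map_mul, map_pow, hs1, mul_one] at hzmV
    exact (pow_le_one_iff hm.ne').mp hzmV
  obtain ⟨a₀, s₀, hs₀nu, hz0⟩ := hFRAC z hzV
  have hs₀V : (s₀ : F) ∈ V := hOV _ s₀.2
  -- the relation in `O ⧸ p`
  have hrel : ((a₀ ^ m * s - a * s₀ ^ m : ↥O) : F) ∈ V.nonunits := by
    have h1 : ((a₀ ^ m * s - a * s₀ ^ m : ↥O) : F) =
        (z ^ m * (s : F) - (a : F)) * (s₀ : F) ^ m := by
      push_cast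
      rw [← hz0]
      ring
    rw [h1]
    exact cpl_nu_mul V hzas (V.pow_mem hs₀V m)
  have hrelD : (Ideal.Quotient.mk p a₀) ^ m * Ideal.Quotient.mk p s =
      Ideal.Quotient.mk p a * (Ideal.Quotient.mk p s₀) ^ m := by
    rw [← map_pow, ← map_pow, ← map_mul, ← map_mul, Ideal.Quotient.eq]
    exact (hp _).mpr hrel
  have hs₀D : Ideal.Quotient.mk p s₀ ≠ 0 := by
    rw [Ne, Ideal.Quotient.eq_zero_iff_mem]
    exact fun h => hs₀nu ((hp s₀).mp h)
  have hsD : Ideal.Quotient.mk p s ∉ 𝔫.map (Ideal.Quotient.mk p) := by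
    rw [Ideal.mem_quotient_iff_mem hp𝔫]; exact hs
  obtain ⟨a', s', hs', hfin⟩ := s35i_ic_of_total (𝔫.map (Ideal.Quotient.mk p)) htot m hm
    _ _ _ _ hs₀D hsD hrelD
  obtain ⟨a', rfl⟩ := Ideal.Quotient.mk_surjective a'
  obtain ⟨s', rfl⟩ := Ideal.Quotient.mk_surjective s'
  rw [Ideal.mem_quotient_iff_mem hp𝔫] at hs'
  refine ⟨a', s', hs', ?_⟩
  rw [← map_mul, ← map_mul, Ideal.Quotient.eq] at hfin
  have h1 : ((a₀ * s' - a' * s₀ : ↥O) : F) ∈ V.nonunits := (hp _).mp hfin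
  have h2 : (z * (s' : F) - (a' : F)) * (s₀ : F) = ((a₀ * s' - a' * s₀ : ↥O) : F) := by
    push_cast
    rw [← hz0]
    ring
  rw [← h2] at h1
  exact cpl_nu_cancel V hs₀V hs₀nu h1

/-- (IC) from a Dedekind (integrally closed suffices) coordinate ring of the component. -/
theorem s35i_ic_ded (O : Subalgebra A F) (𝔫 : Ideal ↥O) [𝔫.IsPrime]
    (V : ValuationSubring F) (hOV : ∀ x ∈ O, x ∈ V)
    (p : Ideal ↥O) (hp : ∀ x : ↥O, x ∈ p ↔ (x : F) ∈ V.nonunits) [IsDedekindDomain (↥O ⧸ p)]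
    (hp𝔫 : p ≤ 𝔫)
    (hFRAC : ∀ z ∈ V, ∃ a s : ↥O, (s : F) ∉ V.nonunits ∧ z * (s : F) = (a : F))
    (m : ℕ) (hm : 0 < m) : S35IC m O 𝔫 V := by
  have hPprime : (𝔫.map (Ideal.Quotient.mk p)).IsPrime :=
    Ideal.map_isPrime_of_surjective Ideal.Quotient.mk_surjective (by rw [Ideal.mk_ker]; exact hp𝔫)
  exact s35i_ic_of_quot O 𝔫 V hOV p hp hp𝔫 hFRAC
    (fun β₁ β₂ => cpl_ded_total (𝔫.map (Ideal.Quotient.mk p)) β₁ β₂) m hm

/-- (IC) from a principal maximal ideal modulo the component (`hB` = the branch hypothesis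
`hB₁` / `hB₂` of `ngl_main`) + Krull's intersection theorem. -/
theorem s35i_ic_principal (O : Subalgebra A F) [IsNoetherianRing ↥O] (𝔫 : Ideal ↥O) [𝔫.IsPrime]
    (V : ValuationSubring F) (hOV : ∀ x ∈ O, x ∈ V)
    (hp : ∀ x : ↥O, (x : F) ∈ V.nonunits → x ∈ 𝔫)
    (hFRAC : ∀ z ∈ V, ∃ a s : ↥O, (s : F) ∉ V.nonunits ∧ z * (s : F) = (a : F))
    (π : F) (hπ : ∃ a s : ↥O, a ∈ 𝔫 ∧ s ∉ 𝔫 ∧ π * (s : F) = (a : F))
    (hB : ∀ a : ↥O, a ∈ 𝔫 → ∃ b c : ↥O, c ∉ 𝔫 ∧ (a : F) * (c : F) - π * (b : F) ∈ V.nonunits)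
    (m : ℕ) (hm : 0 < m) : S35IC m O 𝔫 V := by
  classical
  have h𝔫 : 𝔫.IsPrime := inferInstance
  -- the component `p = 𝔪_V ∩ O`
  let p : Ideal ↥O :=
    { carrier := {x : ↥O | (x : F) ∈ V.nonunits}
      add_mem' := by
        intro x y hx hy
        show ((x + y : ↥O) : F) ∈ V.nonunits
        push_cast
        exact V.nonunits.add_mem hx hy
      zero_mem' := by
        show ((0 : ↥O) : F) ∈ V.nonunits
        push_cast
        exact V.nonunits.zero_mem
      smul_mem' := by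
        intro c x hx
        show ((c • x : ↥O) : F) ∈ V.nonunits
        rw [smul_eq_mul]
        push_cast
        rw [mul_comm]
        exact cpl_nu_mul V hx (hOV _ c.2) }
  have hpmem : ∀ x : ↥O, x ∈ p ↔ (x : F) ∈ V.nonunits := fun x => Iff.rfl
  have hp𝔫 : p ≤ 𝔫 := fun x hx => hp x ((hpmem x).mp hx)
  have hpprime : p.IsPrime := s35i_prime O V hOV p hpmem
  have hPprime : (𝔫.map (Ideal.Quotient.mk p)).IsPrime :=
    Ideal.map_isPrime_of_surjective Ideal.Quotient.mk_surjective (by rw [Ideal.mk_ker]; exact hp𝔫)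
  obtain ⟨a₁, s₁, ha₁, hs₁, hπeq⟩ := hπ
  have hs₁V : (s₁ : F) ∈ V := hOV _ s₁.2
  have hϖ : Ideal.Quotient.mk p a₁ ∈ 𝔫.map (Ideal.Quotient.mk p) := by
    rw [Ideal.mem_quotient_iff_mem hp𝔫]; exact ha₁
  have hgen : ∀ x ∈ 𝔫.map (Ideal.Quotient.mk p), ∃ b c : ↥O ⧸ p,
      c ∉ 𝔫.map (Ideal.Quotient.mk p) ∧ x * c = Ideal.Quotient.mk p a₁ * b := by
    intro x hx
    obtain ⟨x, rfl⟩ := Ideal.Quotient.mk_surjective x
    rw [Ideal.mem_quotient_iff_mem hp𝔫] at hx
    obtain ⟨b, c, hc, hbc⟩ := hB x hx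
    refine ⟨Ideal.Quotient.mk p b, Ideal.Quotient.mk p (c * s₁), ?_, ?_⟩
    · rw [Ideal.mem_quotient_iff_mem hp𝔫]
      intro h
      rcases h𝔫.mem_or_mem h with h | h
      · exact hc h
      · exact hs₁ h
    · rw [← map_mul, ← map_mul, Ideal.Quotient.eq, hpmem]
      have h1 : ((x * (c * s₁) - a₁ * b : ↥O) : F) =
          ((x : F) * (c : F) - π * (b : F)) * (s₁ : F) := by
        push_cast
        rw [← hπeq]
        ring
      rw [h1]
      exact cpl_nu_mul V hbc hs₁V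
  exact s35i_ic_of_quot O 𝔫 V hOV p hpmem hp𝔫 hFRAC
    (fun β₁ β₂ => s35i_total_principal (𝔫.map (Ideal.Quotient.mk p)) (Ideal.Quotient.mk p a₁)
      hϖ hgen β₁ β₂) m hm

end Contract

end Fermat.Agent.S35
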