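import Mathlib
import Fermat.Agent.S34.CompLoc
import Fermat.Agent.S35.LocIC

/-!
# S35, LOC-IC at the points of a chart: `S35IC` ready-made for CORE-ABS

The witness `r ∈ O ∩ 𝔪_{Vo}`, `r ∉ 𝔪_V` of `s35i_frac` (FRAC) is free at every closed point
where `S35IC` is needed:

* at a point `𝔫` lying on the component `V` only, the element `X ∈ 𝔪_{Vo} ∖ 𝔫` is a witness
  (`s35ip_one`: `S35IC` from a Dedekind coordinate ring of the component);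
* at a crossing point, the numerator `a` of the local equation `y = a / s` of the other
  component (`y ∈ 𝔪_{V₂}`, `y` a unit of `V₁`, `s ∉ 𝔫`) is a witness
  (`s35ip_node`: `S35IC` from the branch statement `hB`).
-/

set_option autoImplicit false

namespace Fermat.Agent.S35

open Fermat.Agent.S34

section LocICPt

variable {A F : Type*} [CommRing A] [Field F] [Algebra A F]

/-- The component `O ∩ 𝔪_V` as an ideal of the chart. -/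
theorem s35ip_exists_p (O : Subalgebra A F) (V : ValuationSubring F) (hOV : ∀ x ∈ O, x ∈ V) :
    ∃ p : Ideal ↥O, ∀ x : ↥O, x ∈ p ↔ (x : F) ∈ V.nonunits := by
  refine ⟨{ carrier := {x : ↥O | (x : F) ∈ V.nonunits}
            add_mem' := ?_
            zero_mem' := ?_
            smul_mem' := ?_ }, fun x => Iff.rfl⟩
  · intro x y hx hy
    show ((x + y : ↥O) : F) ∈ V.nonunits
    push_cast
    exact V.nonunits.add_mem hx hy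
  · show ((0 : ↥O) : F) ∈ V.nonunits
    push_cast
    exact V.nonunits.zero_mem
  · intro c x hx
    show ((c • x : ↥O) : F) ∈ V.nonunits
    rw [smul_eq_mul]
    push_cast
    rw [mul_comm]
    exact cpl_nu_mul V hx (hOV _ c.2)

/-- (FRAC) at a point lying on the component `V` only. -/
theorem s35ip_frac_one (τ : A) (hτ0 : algebraMap A F τ ≠ 0) (O : Subalgebra A F)
    (𝔫 : Ideal ↥O)
    (V Vo : ValuationSubring F) (hOV : ∀ x ∈ O, x ∈ V) (hOVo : ∀ x ∈ O, x ∈ Vo)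
    (hfrac : ∀ x : F, ∃ a ∈ O, ∃ s ∈ O, s ≠ 0 ∧ x * s = a)
    (hτV : algebraMap A F τ ∈ V.nonunits)
    (hτgen : ∀ x ∈ V.nonunits, x * (algebraMap A F τ)⁻¹ ∈ V)
    (hdec : ∀ z : F, z ≠ 0 → ∃ j : ℤ, z * algebraMap A F τ ^ j ∈ V ∧
      (z * algebraMap A F τ ^ j)⁻¹ ∈ V)
    (hred : ∀ x ∈ O, x ∈ V.nonunits → x ∈ Vo.nonunits → ∃ y ∈ O, x = algebraMap A F τ * y)
    (hp : ∀ x : ↥O, (x : F) ∈ V.nonunits → x ∈ 𝔫)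
    (X : ↥O) (hX : (X : F) ∈ Vo.nonunits) (hX𝔫 : X ∉ 𝔫) :
    ∀ z ∈ V, ∃ a s : ↥O, (s : F) ∉ V.nonunits ∧ z * (s : F) = (a : F) :=
  fun z hz => s35i_frac τ hτ0 O V Vo hOV hOVo hfrac hτV hτgen hdec hred X hX
    (fun h => hX𝔫 (hp X h)) z hz

/-- (FRAC) for `V₁` at a crossing point, from the local equation `y` of the other component. -/
theorem s35ip_frac_node (τ : A) (hτ0 : algebraMap A F τ ≠ 0) (O : Subalgebra A F)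
    (𝔫 : Ideal ↥O)
    (V₁ V₂ : ValuationSubring F) (hOV₁ : ∀ x ∈ O, x ∈ V₁) (hOV₂ : ∀ x ∈ O, x ∈ V₂)
    (hfrac : ∀ x : F, ∃ a ∈ O, ∃ s ∈ O, s ≠ 0 ∧ x * s = a)
    (hτV₁ : algebraMap A F τ ∈ V₁.nonunits)
    (hτgen₁ : ∀ x ∈ V₁.nonunits, x * (algebraMap A F τ)⁻¹ ∈ V₁)
    (hdec₁ : ∀ z : F, z ≠ 0 → ∃ j : ℤ, z * algebraMap A F τ ^ j ∈ V₁ ∧
      (z * algebraMap A F τ ^ j)⁻¹ ∈ V₁)
    (hred : ∀ x ∈ O, x ∈ V₁.nonunits → x ∈ V₂.nonunits → ∃ y ∈ O, x = algebraMap A F τ * y)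
    (hp₁ : ∀ x : ↥O, (x : F) ∈ V₁.nonunits → x ∈ 𝔫)
    (y : F) (hy₂ : y ∈ V₂.nonunits) (hy₁' : y⁻¹ ∈ V₁) (hy0 : y ≠ 0)
    (hyΛ : ∃ a s : ↥O, s ∉ 𝔫 ∧ y * (s : F) = (a : F)) :
    ∀ z ∈ V₁, ∃ a s : ↥O, (s : F) ∉ V₁.nonunits ∧ z * (s : F) = (a : F) := by
  obtain ⟨a, s, hs, hys⟩ := hyΛ
  have ha₂ : (a : F) ∈ V₂.nonunits := by
    rw [← hys]; exact cpl_nu_mul V₂ hy₂ (hOV₂ _ s.2)
  have hsnu : (s : F) ∉ V₁.nonunits := fun h => hs (hp₁ s h)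
  have ha₁ : (a : F) ∉ V₁.nonunits := by
    intro h
    rw [← hys] at h
    exact s35i_not_nu_of_inv V₁ hy0 hy₁' (cpl_nu_cancel V₁ (hOV₁ _ s.2) hsnu h)
  exact fun z hz => s35i_frac τ hτ0 O V₁ V₂ hOV₁ hOV₂ hfrac hτV₁ hτgen₁ hdec₁ hred a ha₂ ha₁ z hz

/-- `S35IC` at a closed point lying on the component `V` only, when the coordinate ring of the
component is a Dedekind domain (`hD` = the hypotheses `hD₀` / `hD₁` of `s35c_main`). -/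
theorem s35ip_one (τ : A) (hτ0 : algebraMap A F τ ≠ 0) (O : Subalgebra A F)
    (𝔫 : Ideal ↥O) [𝔫.IsPrime]
    (V Vo : ValuationSubring F) (hOV : ∀ x ∈ O, x ∈ V) (hOVo : ∀ x ∈ O, x ∈ Vo)
    (hfrac : ∀ x : F, ∃ a ∈ O, ∃ s ∈ O, s ≠ 0 ∧ x * s = a)
    (hτV : algebraMap A F τ ∈ V.nonunits)
    (hτgen : ∀ x ∈ V.nonunits, x * (algebraMap A F τ)⁻¹ ∈ V)
    (hdec : ∀ z : F, z ≠ 0 → ∃ j : ℤ, z * algebraMap A F τ ^ j ∈ V ∧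
      (z * algebraMap A F τ ^ j)⁻¹ ∈ V)
    (hred : ∀ x ∈ O, x ∈ V.nonunits → x ∈ Vo.nonunits → ∃ y ∈ O, x = algebraMap A F τ * y)
    (hp : ∀ x : ↥O, (x : F) ∈ V.nonunits → x ∈ 𝔫)
    (X : ↥O) (hX : (X : F) ∈ Vo.nonunits) (hX𝔫 : X ∉ 𝔫)
    (hD : ∀ 𝔭 : Ideal ↥O, (∀ x : ↥O, x ∈ 𝔭 ↔ (x : F) ∈ V.nonunits) →
      IsDedekindDomain (↥O ⧸ 𝔭))
    (m : ℕ) (hm : 0 < m) : S35IC m O 𝔫 V := by
  obtain ⟨p, hpmem⟩ := s35ip_exists_p O V hOV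
  have hded : IsDedekindDomain (↥O ⧸ p) := hD p hpmem
  have hp𝔫 : p ≤ 𝔫 := fun x hx => hp x ((hpmem x).mp hx)
  exact s35i_ic_ded O 𝔫 V hOV p hpmem hp𝔫
    (s35ip_frac_one τ hτ0 O 𝔫 V Vo hOV hOVo hfrac hτV hτgen hdec hred hp X hX hX𝔫) m hm

/-- `S35IC` for the component `V₁` at a crossing point `𝔫`, from the local equation `y` of the
other component (`y ∈ 𝔪_{V₂}`, `y` a unit of `V₁`, `y ∈ O_𝔫`) and the branch statement `hB`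
(the third clause of `S35Node`; for `V₂` use `x` and the fourth clause, with `hred` flipped). -/
theorem s35ip_node (τ : A) (hτ0 : algebraMap A F τ ≠ 0) (O : Subalgebra A F)
    [IsNoetherianRing ↥O] (𝔫 : Ideal ↥O) [𝔫.IsPrime]
    (V₁ V₂ : ValuationSubring F) (hOV₁ : ∀ x ∈ O, x ∈ V₁) (hOV₂ : ∀ x ∈ O, x ∈ V₂)
    (hfrac : ∀ x : F, ∃ a ∈ O, ∃ s ∈ O, s ≠ 0 ∧ x * s = a)
    (hτV₁ : algebraMap A F τ ∈ V₁.nonunits)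
    (hτgen₁ : ∀ x ∈ V₁.nonunits, x * (algebraMap A F τ)⁻¹ ∈ V₁)
    (hdec₁ : ∀ z : F, z ≠ 0 → ∃ j : ℤ, z * algebraMap A F τ ^ j ∈ V₁ ∧
      (z * algebraMap A F τ ^ j)⁻¹ ∈ V₁)
    (hred : ∀ x ∈ O, x ∈ V₁.nonunits → x ∈ V₂.nonunits → ∃ y ∈ O, x = algebraMap A F τ * y)
    (hp₁ : ∀ x : ↥O, (x : F) ∈ V₁.nonunits → x ∈ 𝔫)
    (hp₂ : ∀ x : ↥O, (x : F) ∈ V₂.nonunits → x ∈ 𝔫)
    (y : F) (hy₂ : y ∈ V₂.nonunits) (hy₁' : y⁻¹ ∈ V₁) (hy0 : y ≠ 0)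
    (hyΛ : ∃ a s : ↥O, s ∉ 𝔫 ∧ y * (s : F) = (a : F))
    (hB : ∀ a : ↥O, a ∈ 𝔫 → ∃ b c : ↥O, c ∉ 𝔫 ∧ (a : F) * (c : F) - y * (b : F) ∈ V₁.nonunits)
    (m : ℕ) (hm : 0 < m) : S35IC m O 𝔫 V₁ := by
  have hFRAC := s35ip_frac_node τ hτ0 O 𝔫 V₁ V₂ hOV₁ hOV₂ hfrac hτV₁ hτgen₁ hdec₁ hred hp₁
    y hy₂ hy₁' hy0 hyΛ
  obtain ⟨a, s, hs, hys⟩ := hyΛ
  have ha₂ : (a : F) ∈ V₂.nonunits := by
    rw [← hys]; exact cpl_nu_mul V₂ hy₂ (hOV₂ _ s.2)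
  exact s35i_ic_principal O 𝔫 V₁ hOV₁ hp₁ hFRAC y ⟨a, s, hp₂ a ha₂, hs, hys⟩ hB m hm

end LocICPt

end Fermat.Agent.S35
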