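import Mathlib
import Fermat.Agent.S34.InstAbs
import Fermat.Agent.S34.LocRing

/-!
# S35, package LOC-UNIT: "unit of the local ring times an `m`-th power"

`A` a ring, `F` a field over `A`, `O` a chart (a subalgebra of `F`), `𝔫` a prime ideal of `O`.

* `S35Unit m O 𝔫 u`: `u = (a / s) * g ^ m` with `a, s ∈ O ∖ 𝔫` and `g ≠ 0`, that is, `u` is a
  unit of the local ring `O_𝔫` times an `m`-th power.
* `s35u_mul`, `s35u_inv`, `s35u_pow`, `s35u_mpow`, `s35u_elem`, `s35u_map`: closure properties.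
* `s35u_one_point`: at a closed point lying on one component only, two functions with the
  local statement (LOC) of S34 whose quotient is a unit of the valuation ring of that component
  have a quotient of this form.
* `s35u_node_point`: (LOC) for `f` at a point `𝔫`, a field automorphism `σ` mapping `O` into
  `O_𝔫`, units to units, and preserving two valuation rings `V₁`, `V₂` with
  `O ∩ τ V₁ ∩ τ V₂ = τ O`: the quotient `σ f / f` is of this form.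
-/

set_option autoImplicit false
set_option linter.unusedSectionVars false
set_option linter.unusedVariables false

namespace Fermat.Agent.S35

open Fermat.Agent.S18 Fermat.Agent.S34

section LocUnit

variable {A F : Type*} [CommRing A] [Field F] [Algebra A F]

/-- `u` is an `m`-th power times a unit of the local ring `O_𝔫`. -/
def S35Unit (m : ℕ) (O : Subalgebra A F) (𝔫 : Ideal ↥O) (u : F) : Prop :=
  ∃ g : F, g ≠ 0 ∧ ∃ a s : ↥O, a ∉ 𝔫 ∧ s ∉ 𝔫 ∧ u * (s : F) = (a : F) * g ^ m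

/-- An element of `O` outside a proper ideal is nonzero in `F`. -/
theorem s35u_coe_ne_zero (O : Subalgebra A F) (𝔫 : Ideal ↥O) {a : ↥O} (ha : a ∉ 𝔫) :
    (a : F) ≠ 0 := by
  intro h
  apply ha
  have h0 : a = 0 := Subtype.ext h
  rw [h0]
  exact 𝔫.zero_mem

/-- `1` is outside a prime ideal. -/
theorem s35u_one_not_mem (O : Subalgebra A F) (𝔫 : Ideal ↥O) [h𝔫 : 𝔫.IsPrime] :
    (1 : ↥O) ∉ 𝔫 :=
  (Ideal.ne_top_iff_one 𝔫).mp h𝔫.ne_top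

/-- The image of a unit of `A` is outside a prime ideal. -/
theorem s35u_unit_not_mem (O : Subalgebra A F) (𝔫 : Ideal ↥O) [h𝔫 : 𝔫.IsPrime] {ε : A}
    (hε : IsUnit ε) : algebraMap A ↥O ε ∉ 𝔫 := fun h =>
  h𝔫.ne_top (Ideal.eq_top_of_isUnit_mem 𝔫 h (hε.map (algebraMap A ↥O)))

/-- In a linearly ordered group with zero: `x ≤ 1`, `y < 1` imply `x * y < 1`. -/
theorem s35u_mul_lt_one {Γ : Type*} [LinearOrderedCommGroupWithZero Γ] {x y : Γ}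
    (hx : x ≤ 1) (hy : y < 1) : x * y < 1 :=
  lt_of_le_of_lt (mul_le_mul' hx le_rfl) (by rwa [one_mul])

theorem s35u_mul (m : ℕ) (O : Subalgebra A F) (𝔫 : Ideal ↥O) [𝔫.IsPrime] {u u' : F}
    (h : S35Unit m O 𝔫 u) (h' : S35Unit m O 𝔫 u') : S35Unit m O 𝔫 (u * u') := by
  obtain ⟨g, hg, a, s, ha, hs, e⟩ := h
  obtain ⟨g', hg', a', s', ha', hs', e'⟩ := h'
  refine ⟨g * g', mul_ne_zero hg hg', a * a', s * s', ?_, ?_, ?_⟩
  · exact fun hh => (Ideal.IsPrime.mem_or_mem ‹_› hh).elim ha ha'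
  · exact fun hh => (Ideal.IsPrime.mem_or_mem ‹_› hh).elim hs hs'
  · push_cast
    calc u * u' * ((s : F) * (s' : F)) = (u * (s : F)) * (u' * (s' : F)) := by ring
      _ = (a : F) * (a' : F) * (g * g') ^ m := by rw [e, e']; ring

theorem s35u_inv (m : ℕ) (O : Subalgebra A F) (𝔫 : Ideal ↥O) [𝔫.IsPrime] {u : F}
    (h : S35Unit m O 𝔫 u) : S35Unit m O 𝔫 u⁻¹ := by
  obtain ⟨g, hg, a, s, ha, hs, e⟩ := h
  have ha0 := s35u_coe_ne_zero O 𝔫 ha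
  have hu0 : u ≠ 0 := by
    intro h0
    rw [h0, zero_mul] at e
    exact mul_ne_zero ha0 (pow_ne_zero m hg) e.symm
  refine ⟨g⁻¹, inv_ne_zero hg, s, a, hs, ha, ?_⟩
  rw [inv_pow, eq_mul_inv_iff_mul_eq₀ (pow_ne_zero m hg), mul_assoc, ← e,
    inv_mul_cancel_left₀ hu0]

theorem s35u_pow (m : ℕ) (O : Subalgebra A F) (𝔫 : Ideal ↥O) [𝔫.IsPrime] {u : F}
    (h : S35Unit m O 𝔫 u) (k : ℕ) : S35Unit m O 𝔫 (u ^ k) := by
  obtain ⟨g, hg, a, s, ha, hs, e⟩ := h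
  refine ⟨g ^ k, pow_ne_zero k hg, a ^ k, s ^ k,
    fun hh => ha (Ideal.IsPrime.mem_of_pow_mem ‹_› k hh),
    fun hh => hs (Ideal.IsPrime.mem_of_pow_mem ‹_› k hh), ?_⟩
  push_cast
  rw [← mul_pow, e, mul_pow, ← pow_mul, ← pow_mul, mul_comm k m]

theorem s35u_mpow (m : ℕ) (O : Subalgebra A F) (𝔫 : Ideal ↥O) [𝔫.IsPrime] (G : F) (hG : G ≠ 0) :
    S35Unit m O 𝔫 (G ^ m) :=
  ⟨G, hG, 1, 1, s35u_one_not_mem O 𝔫, s35u_one_not_mem O 𝔫, by simp⟩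

theorem s35u_elem (m : ℕ) (O : Subalgebra A F) (𝔫 : Ideal ↥O) [𝔫.IsPrime] (a : ↥O) (ha : a ∉ 𝔫) :
    S35Unit m O 𝔫 (a : F) :=
  ⟨1, one_ne_zero, a, 1, ha, s35u_one_not_mem O 𝔫, by simp⟩

/-- stability under an automorphism mapping `O ∖ 𝔫` to units of `O_𝔫` -/
theorem s35u_map (m : ℕ) (O : Subalgebra A F) (𝔫 : Ideal ↥O) [𝔫.IsPrime] (σ : F ≃+* F)
    (hσu : ∀ z : ↥O, z ∉ 𝔫 → ∃ a s : ↥O, a ∉ 𝔫 ∧ s ∉ 𝔫 ∧ σ (z : F) * (s : F) = (a : F))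
    {u : F} (h : S35Unit m O 𝔫 u) : S35Unit m O 𝔫 (σ u) := by
  obtain ⟨g, hg, a, s, ha, hs, e⟩ := h
  obtain ⟨a₁, c, ha₁, hc, e₁⟩ := hσu s hs
  obtain ⟨a₂, c', ha₂, hc', e₂⟩ := hσu a ha
  have e' : σ u * σ (s : F) = σ (a : F) * (σ g) ^ m := by
    rw [← map_mul, e, map_mul, map_pow]
  refine ⟨σ g, σ.map_ne_zero_iff.mpr hg, a₂ * c, a₁ * c', ?_, ?_, ?_⟩
  · exact fun hh => (Ideal.IsPrime.mem_or_mem ‹_› hh).elim ha₂ hc
  · exact fun hh => (Ideal.IsPrime.mem_or_mem ‹_› hh).elim ha₁ hc'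
  · push_cast
    calc σ u * ((a₁ : F) * (c' : F)) = (σ u * σ (s : F)) * (c : F) * (c' : F) := by
          rw [← e₁]; ring
      _ = (σ (a : F) * (c' : F)) * (c : F) * (σ g) ^ m := by rw [e']; ring
      _ = (a₂ : F) * (c : F) * (σ g) ^ m := by rw [e₂]

/-- At a point off the component `Vo` (`X ∈ 𝔪_{Vo} ∖ 𝔫`), `τ` is a prime element of `O_𝔫`:
a factor `a` of `S * τ ^ K` with `S ∉ 𝔫` is a unit of `O_𝔫` times a power of `τ`. -/
theorem s35u_factor (τ : A) (hτ0 : algebraMap A F τ ≠ 0) (O : Subalgebra A F)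
    (𝔫 : Ideal ↥O) [𝔫.IsPrime]
    (V Vo : ValuationSubring F) (hOV : ∀ x ∈ O, x ∈ V) (hOVo : ∀ x ∈ O, x ∈ Vo)
    (hτV : algebraMap A F τ ∈ V.nonunits)
    (X : ↥O) (hX : (X : F) ∈ Vo.nonunits) (hX𝔫 : X ∉ 𝔫)
    (hred : ∀ x ∈ O, x ∈ V.nonunits → x ∈ Vo.nonunits → ∃ y ∈ O, x = algebraMap A F τ * y)
    (K : ℕ) : ∀ a b S : ↥O, S ∉ 𝔫 → (a : F) * (b : F) = (S : F) * algebraMap A F τ ^ K →
      ∃ (i : ℕ) (a₁ S₁ : ↥O), a₁ ∉ 𝔫 ∧ S₁ ∉ 𝔫 ∧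
        (a : F) * (S₁ : F) = algebraMap A F τ ^ i * (a₁ : F) := by
  have hmemV : ∀ x : F, x ∈ V ↔ V.valuation x ≤ 1 := fun x => (V.valuation_le_one_iff x).symm
  have hmemVo : ∀ x : F, x ∈ Vo ↔ Vo.valuation x ≤ 1 :=
    fun x => (Vo.valuation_le_one_iff x).symm
  -- multiplying a function vanishing on `V` by `X` makes it divisible by `τ`
  have hdivτ : ∀ x : ↥O, V.valuation (x : F) < 1 →
      ∃ y : ↥O, (X : F) * (x : F) = algebraMap A F τ * (y : F) := by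
    intro x hx
    have h1 : (X : F) * (x : F) ∈ V.nonunits := by
      show V.valuation ((X : F) * (x : F)) < 1
      rw [map_mul]
      exact s35u_mul_lt_one ((hmemV _).mp (hOV _ X.2)) hx
    have h2 : (X : F) * (x : F) ∈ Vo.nonunits := by
      show Vo.valuation ((X : F) * (x : F)) < 1
      rw [map_mul, mul_comm]
      exact s35u_mul_lt_one ((hmemVo _).mp (hOVo _ x.2)) hX
    obtain ⟨y, hy, e⟩ := hred _ (O.mul_mem X.2 x.2) h1 h2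
    exact ⟨⟨y, hy⟩, e⟩
  induction K with
  | zero =>
    intro a b S hS e
    rw [pow_zero, mul_one] at e
    have hab : a * b = S := Subtype.ext (by push_cast; exact e)
    refine ⟨0, a, 1, ?_, s35u_one_not_mem O 𝔫, by simp⟩
    intro ha
    apply hS
    rw [← hab]
    exact 𝔫.mul_mem_right b ha
  | succ K ih =>
    intro a b S hS e
    have hXS : X * S ∉ 𝔫 := fun hh => (Ideal.IsPrime.mem_or_mem ‹_› hh).elim hX𝔫 hS
    have hlt : V.valuation (a : F) * V.valuation (b : F) < 1 := by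
      rw [← map_mul, e, map_mul, map_pow, pow_succ, ← mul_assoc]
      exact s35u_mul_lt_one (mul_le_one' ((hmemV _).mp (hOV _ S.2))
        (pow_le_one' ((hmemV _).mp (hOV _ (O.algebraMap_mem τ))) K)) hτV
    have hcases : V.valuation (a : F) < 1 ∨ V.valuation (b : F) < 1 := by
      by_contra hcon
      obtain ⟨hcon1, hcon2⟩ := not_or.mp hcon
      have ha1 : V.valuation (a : F) = 1 :=
        le_antisymm ((hmemV _).mp (hOV _ a.2)) (not_lt.mp hcon1)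
      have hb1 : V.valuation (b : F) = 1 :=
        le_antisymm ((hmemV _).mp (hOV _ b.2)) (not_lt.mp hcon2)
      rw [ha1, hb1, one_mul] at hlt
      exact lt_irrefl _ hlt
    rcases hcases with ha | hb
    · obtain ⟨a', ea'⟩ := hdivτ a ha
      have e' : (a' : F) * (b : F) = ((X * S : ↥O) : F) * algebraMap A F τ ^ K := by
        apply mul_left_cancel₀ hτ0
        push_cast
        calc algebraMap A F τ * ((a' : F) * (b : F))
            = (algebraMap A F τ * (a' : F)) * (b : F) := by ring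
          _ = (X : F) * ((a : F) * (b : F)) := by rw [← ea']; ring
          _ = algebraMap A F τ * ((X : F) * (S : F) * algebraMap A F τ ^ K) := by
            rw [e, pow_succ]; ring
      obtain ⟨i, a₁, S₁, ha₁, hS₁, e₁⟩ := ih a' b (X * S) hXS e'
      refine ⟨i + 1, a₁, X * S₁,
        ha₁, fun hh => (Ideal.IsPrime.mem_or_mem ‹_› hh).elim hX𝔫 hS₁, ?_⟩
      push_cast
      calc (a : F) * ((X : F) * (S₁ : F)) = ((X : F) * (a : F)) * (S₁ : F) := by ring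
        _ = algebraMap A F τ * ((a' : F) * (S₁ : F)) := by rw [ea']; ring
        _ = algebraMap A F τ ^ (i + 1) * (a₁ : F) := by rw [e₁, pow_succ]; ring
    · obtain ⟨b', eb'⟩ := hdivτ b hb
      have e' : (a : F) * (b' : F) = ((X * S : ↥O) : F) * algebraMap A F τ ^ K := by
        apply mul_left_cancel₀ hτ0
        push_cast
        calc algebraMap A F τ * ((a : F) * (b' : F))
            = (a : F) * (algebraMap A F τ * (b' : F)) := by ring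
          _ = (X : F) * ((a : F) * (b : F)) := by rw [← eb']; ring
          _ = algebraMap A F τ * ((X : F) * (S : F) * algebraMap A F τ ^ K) := by
            rw [e, pow_succ]; ring
      exact ih a b' (X * S) hXS e'

/-- The first equation of (LOC) with the `τ`-part of the numerator split off. -/
theorem s35u_loc_split (τ : A) (hτ0 : algebraMap A F τ ≠ 0) (O : Subalgebra A F)
    (𝔫 : Ideal ↥O) [𝔫.IsPrime]
    (V Vo : ValuationSubring F) (hOV : ∀ x ∈ O, x ∈ V) (hOVo : ∀ x ∈ O, x ∈ Vo)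
    (hτV : algebraMap A F τ ∈ V.nonunits)
    (X : ↥O) (hX : (X : F) ∈ Vo.nonunits) (hX𝔫 : X ∉ 𝔫)
    (hred : ∀ x ∈ O, x ∈ V.nonunits → x ∈ Vo.nonunits → ∃ y ∈ O, x = algebraMap A F τ * y)
    (m : ℕ) (f : F) (hf0 : f ≠ 0) (hf : S34Loc τ m O f 𝔫) :
    ∃ g : F, g ≠ 0 ∧ ∃ (a s : ↥O) (k i : ℕ), a ∉ 𝔫 ∧ s ∉ 𝔫 ∧
      f * (s : F) * algebraMap A F τ ^ k = algebraMap A F τ ^ i * (a : F) * g ^ m := by
  obtain ⟨g, hg, a, b, s, s', k, l, hs, hs', e1, e2⟩ := hf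
  have hgm : g ^ m ≠ 0 := pow_ne_zero m hg
  have hab : (a : F) * (b : F) = ((s * s' : ↥O) : F) * algebraMap A F τ ^ (k + l) := by
    apply mul_left_cancel₀ (mul_ne_zero hf0 hgm)
    push_cast
    calc f * g ^ m * ((a : F) * (b : F)) = ((a : F) * g ^ m) * ((b : F) * f) := by ring
      _ = (f * (s : F) * algebraMap A F τ ^ k) * (g ^ m * (s' : F) * algebraMap A F τ ^ l) := by
        rw [e1, e2]
      _ = f * g ^ m * ((s : F) * (s' : F) * algebraMap A F τ ^ (k + l)) := by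
        rw [pow_add]; ring
  obtain ⟨i, a₁, S₁, ha₁, hS₁, e⟩ := s35u_factor τ hτ0 O 𝔫 V Vo hOV hOVo hτV X hX hX𝔫 hred
    (k + l) a b (s * s') (fun hh => (Ideal.IsPrime.mem_or_mem ‹_› hh).elim hs hs') hab
  refine ⟨g, hg, a₁, s * S₁, k, i, ha₁,
    fun hh => (Ideal.IsPrime.mem_or_mem ‹_› hh).elim hs hS₁, ?_⟩
  push_cast
  calc f * ((s : F) * (S₁ : F)) * algebraMap A F τ ^ k
      = (f * (s : F) * algebraMap A F τ ^ k) * (S₁ : F) := by ring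
    _ = ((a : F) * (S₁ : F)) * g ^ m := by rw [e1]; ring
    _ = algebraMap A F τ ^ i * (a₁ : F) * g ^ m := by rw [e]

/-- (U1) At a closed point `𝔫` lying on the component `V` only (`X ∈ 𝔪_{Vo} ∖ 𝔫`): two functions
with (LOC) at `𝔫` whose quotient is a unit of `V` have quotient `= unit of O_𝔫 * m-th power`.
[`τ` is a prime element of `O_𝔫`; the `τ`-exponents cancel by `hdec`.] -/
theorem s35u_one_point (τ : A) (hτ0 : algebraMap A F τ ≠ 0) (O : Subalgebra A F)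
    (𝔫 : Ideal ↥O) [𝔫.IsPrime]
    (V Vo : ValuationSubring F) (hOV : ∀ x ∈ O, x ∈ V) (hOVo : ∀ x ∈ O, x ∈ Vo)
    (hτV : algebraMap A F τ ∈ V.nonunits)
    (hp : ∀ x : ↥O, (x : F) ∈ V.nonunits → x ∈ 𝔫)
    (X : ↥O) (hX : (X : F) ∈ Vo.nonunits) (hX𝔫 : X ∉ 𝔫)
    (hred : ∀ x ∈ O, x ∈ V.nonunits → x ∈ Vo.nonunits → ∃ y ∈ O, x = algebraMap A F τ * y)
    (hdec : ∀ z : F, z ≠ 0 → ∃ j : ℤ, z * algebraMap A F τ ^ j ∈ V ∧
      (z * algebraMap A F τ ^ j)⁻¹ ∈ V)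
    (m : ℕ) (hm : 0 < m) (f f' : F) (hf0 : f ≠ 0) (hf'0 : f' ≠ 0)
    (hf : S34Loc τ m O f 𝔫) (hf' : S34Loc τ m O f' 𝔫)
    (hu : f' * f⁻¹ ∈ V) (hu' : f * f'⁻¹ ∈ V) :
    S35Unit m O 𝔫 (f' * f⁻¹) := by
  set τ' := algebraMap A F τ with hτ'
  have hmemV : ∀ x : F, x ∈ V ↔ V.valuation x ≤ 1 :=
    fun x => (V.valuation_le_one_iff x).symm
  -- elements of `O ∖ 𝔫` are units of `V`
  have hunit : ∀ x : ↥O, x ∉ 𝔫 → V.valuation (x : F) = 1 := by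
    intro x hx
    refine le_antisymm ((hmemV _).mp (hOV _ x.2)) ?_
    by_contra hcon
    exact hx (hp x (not_le.mp hcon))
  have hinvV : ∀ x : ↥O, x ∉ 𝔫 → (x : F)⁻¹ ∈ V := by
    intro x hx
    rw [hmemV, map_inv₀, hunit x hx, inv_one]
  have hmul : ∀ {x y : ↥O}, x ∉ 𝔫 → y ∉ 𝔫 → x * y ∉ 𝔫 :=
    fun hx hy hh => (Ideal.IsPrime.mem_or_mem ‹_› hh).elim hx hy
  obtain ⟨g, hg, a, s, k, i, ha, hs, e⟩ :=
    s35u_loc_split τ hτ0 O 𝔫 V Vo hOV hOVo hτV X hX hX𝔫 hred m f hf0 hf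
  obtain ⟨g', hg', a', s', k', i', ha', hs', e'⟩ :=
    s35u_loc_split τ hτ0 O 𝔫 V Vo hOV hOVo hτV X hX hX𝔫 hred m f' hf'0 hf'
  have hgm : g ^ m ≠ 0 := pow_ne_zero m hg
  have hB : s' * a ∉ 𝔫 := hmul hs' ha
  have hA : a' * s ∉ 𝔫 := hmul ha' hs
  have hB0 : ((s' * a : ↥O) : F) ≠ 0 := s35u_coe_ne_zero O 𝔫 hB
  -- the cross-multiplied identity
  have key : f' * ((s' * a : ↥O) : F) * τ' ^ (k' + i) * g ^ m =
      ((a' * s : ↥O) : F) * g' ^ m * τ' ^ (i' + k) * f := by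
    push_cast
    rw [pow_add, pow_add]
    linear_combination ((a : F) * τ' ^ i * g ^ m) * e' - ((a' : F) * g' ^ m * τ' ^ i') * e
  obtain ⟨j, hj1, hj2⟩ := hdec (g' * g⁻¹) (mul_ne_zero hg' (inv_ne_zero hg))
  have hZ0 : g' * g⁻¹ * τ' ^ j ≠ 0 :=
    mul_ne_zero (mul_ne_zero hg' (inv_ne_zero hg)) (zpow_ne_zero j hτ0)
  -- the power of `τ` relating the two sides is a unit of `V`
  have hτik : τ' ^ (i' + k) ≠ 0 := pow_ne_zero _ hτ0
  have hU : τ' ^ (((k' + i : ℕ) : ℤ) + j * (m : ℤ) - ((i' + k : ℕ) : ℤ)) =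
      ((a' * s : ↥O) : F) * ((s' * a : ↥O) : F)⁻¹ * (f * f'⁻¹) * (g' * g⁻¹ * τ' ^ j) ^ m := by
    have h1 : τ' ^ (((k' + i : ℕ) : ℤ) + j * (m : ℤ) - ((i' + k : ℕ) : ℤ)) =
        τ' ^ (k' + i) * (τ' ^ j) ^ m * (τ' ^ (i' + k))⁻¹ := by
      rw [zpow_sub₀ hτ0, zpow_add₀ hτ0, zpow_mul, zpow_natCast, zpow_natCast, zpow_natCast,
        div_eq_mul_inv]
    rw [h1]
    generalize τ' ^ j = T
    apply mul_right_cancel₀
      (mul_ne_zero (mul_ne_zero (mul_ne_zero hτik hB0) hf'0) hgm)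
    calc τ' ^ (k' + i) * T ^ m * (τ' ^ (i' + k))⁻¹ *
          (τ' ^ (i' + k) * ((s' * a : ↥O) : F) * f' * g ^ m)
        = (f' * ((s' * a : ↥O) : F) * τ' ^ (k' + i) * g ^ m) * T ^ m *
            ((τ' ^ (i' + k))⁻¹ * τ' ^ (i' + k)) := by ring
      _ = (((a' * s : ↥O) : F) * g' ^ m * τ' ^ (i' + k) * f) * T ^ m := by
          rw [inv_mul_cancel₀ hτik, mul_one, key]
      _ = (((a' * s : ↥O) : F) * g' ^ m * τ' ^ (i' + k) * f) * T ^ m *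
            ((((s' * a : ↥O) : F)⁻¹ * ((s' * a : ↥O) : F)) * (f'⁻¹ * f') *
              (g⁻¹ * g) ^ m) := by
          rw [inv_mul_cancel₀ hB0, inv_mul_cancel₀ hf'0, inv_mul_cancel₀ hg, one_pow, mul_one,
            mul_one, mul_one]
      _ = ((a' * s : ↥O) : F) * ((s' * a : ↥O) : F)⁻¹ * (f * f'⁻¹) * (g' * g⁻¹ * T) ^ m *
            (τ' ^ (i' + k) * ((s' * a : ↥O) : F) * f' * g ^ m) := by ring
  have hUV : τ' ^ (((k' + i : ℕ) : ℤ) + j * (m : ℤ) - ((i' + k : ℕ) : ℤ)) ∈ V := by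
    rw [hU]
    exact mul_mem (mul_mem (mul_mem (hOV _ (a' * s).2) (hinvV _ hB)) hu')
      (pow_mem hj1 m)
  have hUV' : (τ' ^ (((k' + i : ℕ) : ℤ) + j * (m : ℤ) - ((i' + k : ℕ) : ℤ)))⁻¹ ∈ V := by
    have h2 : (τ' ^ (((k' + i : ℕ) : ℤ) + j * (m : ℤ) - ((i' + k : ℕ) : ℤ)))⁻¹ =
        ((s' * a : ↥O) : F) * ((a' * s : ↥O) : F)⁻¹ * (f' * f⁻¹) *
          ((g' * g⁻¹ * τ' ^ j)⁻¹) ^ m := by
      rw [hU]
      generalize g' * g⁻¹ * τ' ^ j = Z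
      rw [mul_inv, mul_inv, mul_inv, mul_inv, inv_inv, inv_inv, inv_pow]
      ring
    rw [h2]
    exact mul_mem (mul_mem (mul_mem (hOV _ (s' * a).2) (hinvV _ hA)) hu)
      (pow_mem hj2 m)
  have hvτ0 : V.valuation τ' ≠ 0 := (map_ne_zero V.valuation).mpr hτ0
  have hvτ1 : V.valuation τ' < 1 := hτV
  have hn0 : ((k' + i : ℕ) : ℤ) + j * (m : ℤ) - ((i' + k : ℕ) : ℤ) = 0 := by
    have h1 := (hmemV _).mp hUV
    have h2 := (hmemV _).mp hUV'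
    rw [map_inv₀, map_zpow₀] at h2
    rw [map_zpow₀] at h1
    have hpos : 0 < V.valuation τ' ^ (((k' + i : ℕ) : ℤ) + j * (m : ℤ) - ((i' + k : ℕ) : ℤ)) :=
      zero_lt_iff.mpr (zpow_ne_zero _ hvτ0)
    rw [inv_le_one₀ hpos] at h2
    exact (zpow_eq_one_iff_right₀ zero_le hvτ1.ne).mp (le_antisymm h1 h2)
  rw [hn0, zpow_zero] at hU
  refine ⟨g' * g⁻¹ * τ' ^ j, hZ0, a' * s, s' * a, hA, hB, ?_⟩
  generalize g' * g⁻¹ * τ' ^ j = Z at hU ⊢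
  calc f' * f⁻¹ * ((s' * a : ↥O) : F) = (f' * f⁻¹ * ((s' * a : ↥O) : F)) * 1 := (mul_one _).symm
    _ = (f' * f⁻¹ * ((s' * a : ↥O) : F)) *
          (((a' * s : ↥O) : F) * ((s' * a : ↥O) : F)⁻¹ * (f * f'⁻¹) * Z ^ m) := by rw [← hU]
    _ = ((a' * s : ↥O) : F) * Z ^ m * (((s' * a : ↥O) : F) * ((s' * a : ↥O) : F)⁻¹) *
          (f * f⁻¹) * (f' * f'⁻¹) := by ring
    _ = ((a' * s : ↥O) : F) * Z ^ m := by
        rw [mul_inv_cancel₀ hB0, mul_inv_cancel₀ hf0, mul_inv_cancel₀ hf'0, mul_one, mul_one,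
          mul_one]

/-- Iterated form of `O ∩ τ V₁ ∩ τ V₂ = τ O`. -/
theorem s35u_div_pow (τ : A) (hτ0 : algebraMap A F τ ≠ 0) (O : Subalgebra A F)
    (V₁ V₂ : ValuationSubring F) (hOV₁ : ∀ x ∈ O, x ∈ V₁) (hOV₂ : ∀ x ∈ O, x ∈ V₂)
    (hdiv : ∀ x ∈ O, x * (algebraMap A F τ)⁻¹ ∈ V₁ → x * (algebraMap A F τ)⁻¹ ∈ V₂ →
      x * (algebraMap A F τ)⁻¹ ∈ O)
    (n : ℕ) : ∀ x ∈ O, x * (algebraMap A F τ)⁻¹ ^ n ∈ V₁ → x * (algebraMap A F τ)⁻¹ ^ n ∈ V₂ →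
      x * (algebraMap A F τ)⁻¹ ^ n ∈ O := by
  induction n with
  | zero =>
    intro x hx _ _
    simpa using hx
  | succ n ih =>
    intro x hx h1 h2
    have hτ1 : algebraMap A F τ ∈ V₁ := hOV₁ _ (O.algebraMap_mem τ)
    have hτ2 : algebraMap A F τ ∈ V₂ := hOV₂ _ (O.algebraMap_mem τ)
    have e : x * (algebraMap A F τ)⁻¹ =
        (x * (algebraMap A F τ)⁻¹ ^ (n + 1)) * algebraMap A F τ ^ n := by
      rw [pow_succ, inv_pow]
      field_simp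
    have e2 : x * (algebraMap A F τ)⁻¹ ^ (n + 1) =
        (x * (algebraMap A F τ)⁻¹) * (algebraMap A F τ)⁻¹ ^ n := by
      rw [pow_succ]; ring
    have hx1 : x * (algebraMap A F τ)⁻¹ ∈ O :=
      hdiv x hx (by rw [e]; exact mul_mem h1 (pow_mem hτ1 n))
        (by rw [e]; exact mul_mem h2 (pow_mem hτ2 n))
    rw [e2]
    exact ih _ hx1 (by rw [← e2]; exact h1) (by rw [← e2]; exact h2)

/-- (U2) At a crossing point: (LOC) for `f` ONCE, transported by `σ` (`σ(O) ⊆ O_𝔫`, units to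
units, `σ` preserves both valuations): `σ f / f = unit of O_𝔫 * m-th power`.
[`O_𝔫[1/τ] ∩ V₁ ∩ V₂ = O_𝔫` by `hdiv`.] -/
theorem s35u_node_point (τ ε : A) (hε : IsUnit ε) (hτ0 : algebraMap A F τ ≠ 0)
    (O : Subalgebra A F) (𝔫 : Ideal ↥O) [𝔫.IsPrime]
    (V₁ V₂ : ValuationSubring F) (hOV₁ : ∀ x ∈ O, x ∈ V₁) (hOV₂ : ∀ x ∈ O, x ∈ V₂)
    (hdiv : ∀ x ∈ O, x * (algebraMap A F τ)⁻¹ ∈ V₁ → x * (algebraMap A F τ)⁻¹ ∈ V₂ →
      x * (algebraMap A F τ)⁻¹ ∈ O)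
    (σ : F ≃+* F) (hστ : σ (algebraMap A F τ) = algebraMap A F ε * algebraMap A F τ)
    (hσO : ∀ z : ↥O, ∃ a s : ↥O, s ∉ 𝔫 ∧ σ (z : F) * (s : F) = (a : F))
    (hσu : ∀ z : ↥O, z ∉ 𝔫 → ∃ a s : ↥O, a ∉ 𝔫 ∧ s ∉ 𝔫 ∧ σ (z : F) * (s : F) = (a : F))
    (hσV₁ : ∀ g : F, g ≠ 0 → σ g * g⁻¹ ∈ V₁) (hσV₂ : ∀ g : F, g ≠ 0 → σ g * g⁻¹ ∈ V₂)
    (m : ℕ) (f : F) (hf0 : f ≠ 0) (hf : S34Loc τ m O f 𝔫) :
    S35Unit m O 𝔫 (σ f * f⁻¹) := by
  set τ' := algebraMap A F τ with hτ'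
  set ε' := algebraMap A F ε with hε'
  obtain ⟨g, hg, a, b, s, s', k, l, hs, hs', e1, e2⟩ := hf
  have hgm : g ^ m ≠ 0 := pow_ne_zero m hg
  have hs0 : (s : F) ≠ 0 := s35u_coe_ne_zero O 𝔫 hs
  have hs'0 : (s' : F) ≠ 0 := s35u_coe_ne_zero O 𝔫 hs'
  have hε0 : ε' ≠ 0 := by
    obtain ⟨δ, hδ⟩ := hε.exists_right_inv
    intro h0
    have h1 : ε' * algebraMap A F δ = 1 := by rw [hε', ← map_mul, hδ, map_one]
    rw [h0, zero_mul] at h1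
    exact zero_ne_one h1
  have hτn : ∀ n : ℕ, τ' ^ n ≠ 0 := fun n => pow_ne_zero n hτ0
  have hσ0 : ∀ x : F, x ≠ 0 → σ x ≠ 0 := fun x hx => σ.map_ne_zero_iff.mpr hx
  have hab : (a : F) * (b : F) = (s : F) * (s' : F) * τ' ^ (k + l) := by
    apply mul_left_cancel₀ (mul_ne_zero hf0 hgm)
    calc f * g ^ m * ((a : F) * (b : F)) = ((a : F) * g ^ m) * ((b : F) * f) := by ring
      _ = (f * (s : F) * τ' ^ k) * (g ^ m * (s' : F) * τ' ^ l) := by rw [e1, e2]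
      _ = f * g ^ m * ((s : F) * (s' : F) * τ' ^ (k + l)) := by rw [pow_add]; ring
  have ha0 : (a : F) ≠ 0 := by
    intro h0
    rw [h0, zero_mul] at hab
    exact mul_ne_zero (mul_ne_zero hs0 hs'0) (hτn _) hab.symm
  have hb0 : (b : F) ≠ 0 := by
    intro h0
    rw [h0, mul_zero] at hab
    exact mul_ne_zero (mul_ne_zero hs0 hs'0) (hτn _) hab.symm
  -- the images under `σ`
  obtain ⟨a', c, hc, ea⟩ := hσO a
  obtain ⟨b', c', hc', eb⟩ := hσO b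
  obtain ⟨a₁, c₁, ha₁, hc₁, es⟩ := hσu s hs
  obtain ⟨a₂, c₂, ha₂, hc₂, es'⟩ := hσu s' hs'
  have hσab : σ (a : F) * σ (b : F) = σ (s : F) * σ (s' : F) * (ε' * τ') ^ (k + l) := by
    rw [← map_mul, hab, map_mul, map_mul, map_pow, hστ]
  have hσa0 : σ (a : F) ≠ 0 := hσ0 _ ha0
  have hσs0 : σ (s : F) ≠ 0 := hσ0 _ hs0
  have hσs'0 : σ (s' : F) ≠ 0 := hσ0 _ hs'0
  -- `σ a / a ∈ O_𝔫`
  have hA1 : σ (a : F) * (a : F)⁻¹ * ((c : F) * (s : F) * (s' : F)) =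
      ((a' : F) * (b : F)) * τ'⁻¹ ^ (k + l) := by
    rw [inv_pow]
    apply mul_right_cancel₀ (mul_ne_zero ha0 (hτn (k + l)))
    calc σ (a : F) * (a : F)⁻¹ * ((c : F) * (s : F) * (s' : F)) * ((a : F) * τ' ^ (k + l))
        = (σ (a : F) * (c : F)) * ((s : F) * (s' : F) * τ' ^ (k + l)) * ((a : F)⁻¹ * (a : F)) := by
          ring
      _ = (a' : F) * ((a : F) * (b : F)) := by
          rw [ea, ← hab, inv_mul_cancel₀ ha0, mul_one]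
      _ = (a' : F) * (b : F) * (τ' ^ (k + l))⁻¹ * ((a : F) * τ' ^ (k + l)) := by
          field_simp
  have hcss1 : (c : F) * (s : F) * (s' : F) ∈ V₁ :=
    hOV₁ _ (O.mul_mem (O.mul_mem c.2 s.2) s'.2)
  have hcss2 : (c : F) * (s : F) * (s' : F) ∈ V₂ :=
    hOV₂ _ (O.mul_mem (O.mul_mem c.2 s.2) s'.2)
  have hd : ((a' : F) * (b : F)) * τ'⁻¹ ^ (k + l) ∈ O :=
    s35u_div_pow τ hτ0 O V₁ V₂ hOV₁ hOV₂ hdiv (k + l) _ (O.mul_mem a'.2 b.2)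
      (by rw [← hA1]; exact mul_mem (hσV₁ _ ha0) hcss1)
      (by rw [← hA1]; exact mul_mem (hσV₂ _ ha0) hcss2)
  -- `a / σ a ∈ O_𝔫`
  have hA2 : (a : F) * (σ (a : F))⁻¹ *
      ((c' : F) * (a₁ : F) * (a₂ : F) * ε' ^ (k + l)) =
      ((a : F) * (b' : F) * (c₁ : F) * (c₂ : F)) * τ'⁻¹ ^ (k + l) := by
    rw [inv_pow]
    apply mul_right_cancel₀ (mul_ne_zero (mul_ne_zero hσa0 (mul_ne_zero hσs0 hσs'0))
      (hτn (k + l)))
    calc (a : F) * (σ (a : F))⁻¹ * ((c' : F) * (a₁ : F) * (a₂ : F) * ε' ^ (k + l)) *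
          (σ (a : F) * (σ (s : F) * σ (s' : F)) * τ' ^ (k + l))
        = (a : F) * (c' : F) * (a₁ : F) * (a₂ : F) *
            (σ (s : F) * σ (s' : F) * (ε' * τ') ^ (k + l)) * ((σ (a : F))⁻¹ * σ (a : F)) := by
          rw [mul_pow]; ring
      _ = (a : F) * (σ (b : F) * (c' : F)) * (a₁ : F) * (a₂ : F) * σ (a : F) := by
          rw [← hσab, inv_mul_cancel₀ hσa0]; ring
      _ = (a : F) * (b' : F) * (σ (s : F) * (c₁ : F)) * (σ (s' : F) * (c₂ : F)) * σ (a : F) := by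
          rw [eb, es, es']
      _ = (a : F) * (b' : F) * (c₁ : F) * (c₂ : F) * (τ' ^ (k + l))⁻¹ *
            (σ (a : F) * (σ (s : F) * σ (s' : F)) * τ' ^ (k + l)) := by
          field_simp
  have hεO : ε' ∈ O := O.algebraMap_mem ε
  have hS'1 : (c' : F) * (a₁ : F) * (a₂ : F) * ε' ^ (k + l) ∈ V₁ :=
    hOV₁ _ (O.mul_mem (O.mul_mem (O.mul_mem c'.2 a₁.2) a₂.2) (O.pow_mem hεO _))
  have hS'2 : (c' : F) * (a₁ : F) * (a₂ : F) * ε' ^ (k + l) ∈ V₂ :=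
    hOV₂ _ (O.mul_mem (O.mul_mem (O.mul_mem c'.2 a₁.2) a₂.2) (O.pow_mem hεO _))
  have hinv : ∀ x : F, x ≠ 0 → x * (σ x)⁻¹ = σ x⁻¹ * (x⁻¹)⁻¹ := by
    intro x hx
    rw [map_inv₀, inv_inv, mul_comm]
  have hd' : ((a : F) * (b' : F) * (c₁ : F) * (c₂ : F)) * τ'⁻¹ ^ (k + l) ∈ O :=
    s35u_div_pow τ hτ0 O V₁ V₂ hOV₁ hOV₂ hdiv (k + l) _
      (O.mul_mem (O.mul_mem (O.mul_mem a.2 b'.2) c₁.2) c₂.2)
      (by rw [← hA2, hinv _ ha0]; exact mul_mem (hσV₁ _ (inv_ne_zero ha0)) hS'1)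
      (by rw [← hA2, hinv _ ha0]; exact mul_mem (hσV₂ _ (inv_ne_zero ha0)) hS'2)
  -- the two elements of `O`
  set d : ↥O := ⟨_, hd⟩ with hd_def
  set d' : ↥O := ⟨_, hd'⟩ with hd'_def
  have hεn : algebraMap A ↥O ε ∉ 𝔫 := s35u_unit_not_mem O 𝔫 hε
  have hmul : ∀ {x y : ↥O}, x ∉ 𝔫 → y ∉ 𝔫 → x * y ∉ 𝔫 :=
    fun hx hy hh => (Ideal.IsPrime.mem_or_mem ‹_› hh).elim hx hy
  have hεk : ∀ n : ℕ, algebraMap A ↥O ε ^ n ∉ 𝔫 :=
    fun n hh => hεn (Ideal.IsPrime.mem_of_pow_mem ‹_› n hh)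
  have hdd' : d * d' = (c * s * s') * (c' * a₁ * a₂ * algebraMap A ↥O ε ^ (k + l)) := by
    apply Subtype.ext
    push_cast
    show ((a' : F) * (b : F)) * τ'⁻¹ ^ (k + l) *
        (((a : F) * (b' : F) * (c₁ : F) * (c₂ : F)) * τ'⁻¹ ^ (k + l)) =
      (c : F) * (s : F) * (s' : F) * ((c' : F) * (a₁ : F) * (a₂ : F) * ε' ^ (k + l))
    rw [← hA1, ← hA2]
    field_simp
  have hdn : d ∉ 𝔫 := by
    intro hh
    have h1 : d * d' ∈ 𝔫 := 𝔫.mul_mem_right d' hh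
    rw [hdd'] at h1
    exact hmul (hmul (hmul hc hs) hs') (hmul (hmul (hmul hc' ha₁) ha₂) (hεk _)) h1
  -- conclusion
  have e1σ : σ f * σ (s : F) * (ε' * τ') ^ k = σ (a : F) * (σ g) ^ m := by
    rw [← hστ, ← map_pow, ← map_mul, ← map_mul, e1, map_mul, map_pow]
  refine ⟨σ g * g⁻¹, mul_ne_zero (hσ0 _ hg) (inv_ne_zero hg), d * c₁ * s,
    a₁ * algebraMap A ↥O ε ^ k * c * s * s', hmul (hmul hdn hc₁) hs,
    hmul (hmul (hmul (hmul ha₁ (hεk _)) hc) hs) hs', ?_⟩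
  push_cast
  show σ f * f⁻¹ * ((a₁ : F) * ε' ^ k * (c : F) * (s : F) * (s' : F)) =
    ((a' : F) * (b : F)) * τ'⁻¹ ^ (k + l) * (c₁ : F) * (s : F) * (σ g * g⁻¹) ^ m
  rw [← hA1]
  apply mul_right_cancel₀ (mul_ne_zero (mul_ne_zero (mul_ne_zero hf0 (hτn k)) ha0) hgm)
  calc σ f * f⁻¹ * ((a₁ : F) * ε' ^ k * (c : F) * (s : F) * (s' : F)) *
        (f * τ' ^ k * (a : F) * g ^ m)
      = (σ f * (σ (s : F) * (c₁ : F)) * (ε' * τ') ^ k) * ((a : F) * g ^ m) *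
          ((c : F) * (s : F) * (s' : F)) * (f⁻¹ * f) := by
        rw [es, mul_pow]; ring
    _ = (σ f * σ (s : F) * (ε' * τ') ^ k) * (f * (s : F) * τ' ^ k) *
          ((c₁ : F) * (c : F) * (s : F) * (s' : F)) := by
        rw [inv_mul_cancel₀ hf0, e1]; ring
    _ = σ (a : F) * (σ g) ^ m * (f * (s : F) * τ' ^ k) *
          ((c₁ : F) * (c : F) * (s : F) * (s' : F)) := by rw [e1σ]
    _ = σ (a : F) * (a : F)⁻¹ * ((c : F) * (s : F) * (s' : F)) * (c₁ : F) * (s : F) *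
          (σ g * g⁻¹) ^ m * (f * τ' ^ k * (a : F) * g ^ m) := by
        rw [mul_pow, inv_pow]
        field_simp

end LocUnit

end Fermat.Agent.S35
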