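/-
S35, CORE-ABS split (contract finding 212 (a)): the crossing point.  For an ordered pair of
components `(Va, Vb)` through a closed point `𝔫` of the chart `O`: (LOC) for `f` at `𝔫`, the node
data and the residues of the normalised function
`F₂ = σ (σ f) * f * (σ f)⁻¹ ^ 2 * (C₁ * ω ^ m)⁻¹` give the `γ`-form of the local datum for
`σ F₂ / F₂ ^ Q`.  Prefix `s35cc_`.
-/
import Mathlib
import Fermat.Agent.S34.InstAbs2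
import Fermat.Agent.S35.CorePt
import Fermat.Agent.S35.LocUnit
import Fermat.Agent.S35.LocIC
import Fermat.Agent.S35.LocICPt
import Fermat.Agent.S35.AbsNorm2

set_option autoImplicit false
set_option linter.unusedSectionVars false
set_option linter.unusedVariables false

namespace Fermat.Agent.S35

open Fermat.Agent.S18 Fermat.Agent.S34

section CorePoints

variable {A F : Type*} [CommRing A] [Field F] [Algebra A F]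

/-- `σ` maps `O ∖ 𝔫` to units of `O_𝔫` (from clause 6 of `S35Node`). -/
theorem s35cc_sigma_unit (O : Subalgebra A F) (𝔫 : Ideal ↥O) [h𝔫 : 𝔫.IsPrime] (σ : F ≃+* F)
    (Q : ℕ)
    (hσQ : ∀ z : ↥O, ∃ a s : ↥O, a ∈ 𝔫 ∧ s ∉ 𝔫 ∧ (σ (z : F) - (z : F) ^ Q) * (s : F) = (a : F))
    (z : ↥O) (hz : z ∉ 𝔫) : ∃ a s : ↥O, a ∉ 𝔫 ∧ s ∉ 𝔫 ∧ σ (z : F) * (s : F) = (a : F) := by
  obtain ⟨a, s, ha, hs, e⟩ := hσQ z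
  refine ⟨a + z ^ Q * s, s, ?_, hs, ?_⟩
  · intro h
    have h1 : z ^ Q * s ∈ 𝔫 := by
      have h2 := 𝔫.sub_mem h ha
      rwa [add_sub_cancel_left] at h2
    rcases h𝔫.mem_or_mem h1 with h3 | h3
    · exact hz (h𝔫.mem_of_pow_mem Q h3)
    · exact hs h3
  · push_cast
    rw [← e]
    ring

/-- **The crossing point** (file `S35/CoreCross.lean`, prefix `s35cc_`).  Ordered pair of
components `(Va, Vb)`; `xa` = local equation of `Va` (unit of `Vb`), `xb` = local equation of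
`Vb` (unit of `Va`).  The normalised function
`F₂ = σ (σ f) * f * (σ f)⁻¹ ^ 2 * (C₁ * ω ^ m)⁻¹` is `≡ 1` on `Va` and `≡ C` on `Vb`. -/
theorem s35cc_cross (τ ε : A) (hε : IsUnit ε) (hτ0 : algebraMap A F τ ≠ 0)
    (O : Subalgebra A F) [IsNoetherianRing ↥O] (𝔫 : Ideal ↥O) [𝔫.IsPrime]
    (Va Vb : ValuationSubring F) (hOVa : ∀ x ∈ O, x ∈ Va) (hOVb : ∀ x ∈ O, x ∈ Vb)
    (hfrac : ∀ x : F, ∃ a ∈ O, ∃ s ∈ O, s ≠ 0 ∧ x * s = a)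
    (hτVa : algebraMap A F τ ∈ Va.nonunits) (hτVb : algebraMap A F τ ∈ Vb.nonunits)
    (hτgena : ∀ x ∈ Va.nonunits, x * (algebraMap A F τ)⁻¹ ∈ Va)
    (hτgenb : ∀ x ∈ Vb.nonunits, x * (algebraMap A F τ)⁻¹ ∈ Vb)
    (hdeca : ∀ z : F, z ≠ 0 → ∃ j : ℤ, z * algebraMap A F τ ^ j ∈ Va ∧
      (z * algebraMap A F τ ^ j)⁻¹ ∈ Va)
    (hdecb : ∀ z : F, z ≠ 0 → ∃ j : ℤ, z * algebraMap A F τ ^ j ∈ Vb ∧
      (z * algebraMap A F τ ^ j)⁻¹ ∈ Vb)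
    (hred : ∀ x ∈ O, x ∈ Va.nonunits → x ∈ Vb.nonunits → ∃ y ∈ O, x = algebraMap A F τ * y)
    (hdiv : ∀ x ∈ O, x * (algebraMap A F τ)⁻¹ ∈ Va → x * (algebraMap A F τ)⁻¹ ∈ Vb →
      x * (algebraMap A F τ)⁻¹ ∈ O)
    (hpa : ∀ x : ↥O, (x : F) ∈ Va.nonunits → x ∈ 𝔫)
    (hpb : ∀ x : ↥O, (x : F) ∈ Vb.nonunits → x ∈ 𝔫)
    (xa xb : F) (hxa0 : xa ≠ 0) (hxb0 : xb ≠ 0)
    (hxa : xa ∈ Va.nonunits) (hxa' : xa⁻¹ ∈ Vb) (hxb : xb ∈ Vb.nonunits) (hxb' : xb⁻¹ ∈ Va)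
    (hΛa : ∃ a s : ↥O, s ∉ 𝔫 ∧ xa * (s : F) = (a : F))
    (hΛb : ∃ a s : ↥O, s ∉ 𝔫 ∧ xb * (s : F) = (a : F))
    (hBa : ∀ a : ↥O, a ∈ 𝔫 → ∃ b c : ↥O, c ∉ 𝔫 ∧ (a : F) * (c : F) - xb * (b : F) ∈ Va.nonunits)
    (hBb : ∀ a : ↥O, a ∈ 𝔫 → ∃ b c : ↥O, c ∉ 𝔫 ∧ (a : F) * (c : F) - xa * (b : F) ∈ Vb.nonunits)
    (σ : F ≃+* F) (Q : ℕ)
    (hστ : σ (algebraMap A F τ) = algebraMap A F ε * algebraMap A F τ)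
    (hσua : ∀ g : F, g ≠ 0 → σ g * g⁻¹ ∈ Va) (hσub : ∀ g : F, g ≠ 0 → σ g * g⁻¹ ∈ Vb)
    (hσO : ∀ z : ↥O, ∃ a s : ↥O, s ∉ 𝔫 ∧ σ (z : F) * (s : F) = (a : F))
    (hσQ : ∀ z : ↥O, ∃ a s : ↥O, a ∈ 𝔫 ∧ s ∉ 𝔫 ∧ (σ (z : F) - (z : F) ^ Q) * (s : F) = (a : F))
    (m : ℕ) (hm : 0 < m) (f : F) (hf : f ≠ 0) (hloc : S34Loc τ m O f 𝔫)
    (C₁ : A) (hC₁ : IsUnit C₁) (ω : F) (hω : ω ≠ 0)
    (hfa : σ (σ f) * f * ((σ f)⁻¹) ^ 2 * (algebraMap A F C₁ * ω ^ m)⁻¹ - 1 ∈ Va.nonunits)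
    (C : A) (hC : IsUnit C)
    (hfb : σ (σ f) * f * ((σ f)⁻¹) ^ 2 * (algebraMap A F C₁ * ω ^ m)⁻¹ - algebraMap A F C
      ∈ Vb.nonunits) :
    ∃ γ : F, γ - 1 ∈ Va.nonunits ∧ γ - 1 ∈ Vb.nonunits ∧
      ∃ a b : ↥O, a ∉ 𝔫 ∧ b ∉ 𝔫 ∧
        σ (σ (σ f) * f * ((σ f)⁻¹) ^ 2 * (algebraMap A F C₁ * ω ^ m)⁻¹) *
          ((σ (σ f) * f * ((σ f)⁻¹) ^ 2 * (algebraMap A F C₁ * ω ^ m)⁻¹) ^ Q)⁻¹ * (b : F) =
        (a : F) * γ ^ m := by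
  have hσunit : ∀ z : ↥O, z ∉ 𝔫 →
      ∃ a s : ↥O, a ∉ 𝔫 ∧ s ∉ 𝔫 ∧ σ (z : F) * (s : F) = (a : F) :=
    fun z hz => s35cc_sigma_unit O 𝔫 σ Q hσQ z hz
  -- the unit form of `F₂`
  have hu := s35u_node_point τ ε hε hτ0 O 𝔫 Va Vb hOVa hOVb hdiv σ hστ hσO hσunit hσua hσub m f
    hf hloc
  have hσu' := s35u_map m O 𝔫 σ hσunit hu
  rw [map_mul, map_inv₀] at hσu'
  have hW0 : S35Unit m O 𝔫 (σ (σ f) * f * ((σ f)⁻¹) ^ 2) := by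
    have e : σ (σ f) * f * ((σ f)⁻¹) ^ 2 = (σ (σ f) * (σ f)⁻¹) * (σ f * f⁻¹)⁻¹ := by
      rw [mul_inv, inv_inv]
      ring
    rw [e]
    exact s35u_mul m O 𝔫 hσu' (s35u_inv m O 𝔫 hu)
  have hC₁u : S35Unit m O 𝔫 (algebraMap A F C₁) := by
    have h2 := s35u_elem m O 𝔫 (algebraMap A ↥O C₁) (s35u_unit_not_mem O 𝔫 hC₁)
    rwa [Subalgebra.coe_algebraMap] at h2
  have hF₂u : S35Unit m O 𝔫
      (σ (σ f) * f * ((σ f)⁻¹) ^ 2 * (algebraMap A F C₁ * ω ^ m)⁻¹) :=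
    s35u_mul m O 𝔫 hW0 (s35u_inv m O 𝔫 (s35u_mul m O 𝔫 hC₁u (s35u_mpow m O 𝔫 ω hω)))
  -- integral closedness on the two branches
  have hICa : S35IC m O 𝔫 Va := s35ip_node τ hτ0 O 𝔫 Va Vb hOVa hOVb hfrac hτVa hτgena hdeca
    hred hpa hpb xb hxb hxb' hxb0 hΛb hBa m hm
  have hICb : S35IC m O 𝔫 Vb := s35ip_node τ hτ0 O 𝔫 Vb Va hOVb hOVa hfrac hτVb hτgenb hdecb
    (fun z hz h2 h1 => hred z hz h1 h2) hpb hpa xa hxa hxa' hxa0 hΛa hBb m hm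
  have hσVa := (s35n2_unit_sigma Va σ hσua).2.1
  have hσVb := (s35n2_unit_sigma Vb σ hσub).2.1
  have hfb' : σ (σ f) * f * ((σ f)⁻¹) ^ 2 * (algebraMap A F C₁ * ω ^ m)⁻¹
      - ((algebraMap A ↥O C : ↥O) : F) ∈ Vb.nonunits := by
    rw [Subalgebra.coe_algebraMap]
    exact hfb
  exact s35pt_node O 𝔫 Va Vb hOVa hOVb hpa hpb xb hxb hΛb hBa m hm hICa hICb σ Q hσVa hσVb hσO
    hσQ _ hF₂u hfa (algebraMap A ↥O C) (s35u_unit_not_mem O 𝔫 hC) hfb'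

end CorePoints

end Fermat.Agent.S35
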