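import Mathlib
import Fermat.Agent.S18.Core
import Fermat.Agent.S18.CoreWrap
import Fermat.Agent.S34.UnipLoc

/-!
# S35, package ABS-J: the abstract gluing core with local data in ideal form

Setting of `S34/UnipLoc.lean` (`ulo_main_aux`), without any automorphism.  `W` is a function
with `W ≡ 1` modulo `τ V'`.  The local datum at a closed point `𝔫` of the special fibre of a
chart `O`, for an exponent `c`, is a pair `x ∈ O ∖ 𝔫`, `y ∈ F` with `y ^ m * W ^ c ∈ O` and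
`y ≡ x` modulo `τ V'` ("the ideal `J_c` of `ulo_exists_y` is not contained in `𝔫`").

* `s35j_exists_y`: the sections `y_c ≡ 1` exist as soon as the local data exist at every closed
  point of the special fibre.
* `s35j_of_gamma`: the local datum from the `γ`-form `W * b = a * γ ^ m`, `γ ≡ 1`.
* `s35j_main`: consequently `W = w * G ^ m` with `w ∈ A` (`corew_main_aux_y`).
-/

set_option autoImplicit false
set_option linter.unusedSectionVars false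

open Polynomial

namespace Fermat.Agent.S35

open Fermat.Agent.S18 Fermat.Agent.S34

section JForm

variable {A F : Type*} [CommRing A] [Field F] [Algebra A F]

/-- Existence of `y ∈ I_c(O)` with `y ≡ 1` modulo `τ V'` from local data in ideal form. -/
theorem s35j_exists_y (m : ℕ) (hm : 0 < m) (f : F) (O V' : Subalgebra A F) (τ : A)
    (hOV : O ≤ V') (hroot : ∀ x : F, x ^ m ∈ O → x ∈ O)
    (hτinv : (algebraMap A F τ)⁻¹ ∉ V') (c : ℕ)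
    (hloc : ∀ 𝔫 : Ideal ↥O, 𝔫.IsMaximal → algebraMap A ↥O τ ∈ 𝔫 →
      ∃ x : ↥O, x ∉ 𝔫 ∧ ∃ y : F, y ^ m * f ^ c ∈ O ∧
        (y - (x : F)) * (algebraMap A F τ)⁻¹ ∈ V') :
    ∃ y : F, y ^ m * f ^ c ∈ O ∧ (y - 1) * (algebraMap A F τ)⁻¹ ∈ V' := by
  classical
  set τ' := algebraMap A F τ with hτ'
  have hτ0 : τ' ≠ 0 := fun h => hτinv (by rw [h, inv_zero]; exact V'.zero_mem)
  let J : Ideal ↥O :=
    { carrier := {x | ∃ y : F, y ^ m * f ^ c ∈ O ∧ (y - (x : F)) * τ'⁻¹ ∈ V'}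
      zero_mem' := ⟨0, by rw [zero_pow hm.ne', zero_mul]; exact O.zero_mem, by
        simp [V'.zero_mem]⟩
      add_mem' := by
        rintro x x' ⟨y, hy, hyx⟩ ⟨y', hy', hyx'⟩
        refine ⟨y + y', core_I_add m f O hroot c y y' hy hy', ?_⟩
        have : (y + y' - ((x + x' : ↥O) : F)) * τ'⁻¹ =
            (y - x) * τ'⁻¹ + (y' - x') * τ'⁻¹ := by push_cast; ring
        rw [this]; exact V'.add_mem hyx hyx'
      smul_mem' := by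
        rintro r x ⟨y, hy, hyx⟩
        refine ⟨r * y, ?_, ?_⟩
        · have : ((r : F) * y) ^ m * f ^ c = (r : F) ^ m * (y ^ m * f ^ c) := by ring
          rw [this]; exact O.mul_mem (O.pow_mem r.2 m) hy
        · have : ((r : F) * y - ((r • x : ↥O) : F)) * τ'⁻¹ = r * ((y - x) * τ'⁻¹) := by
            rw [smul_eq_mul]; push_cast; ring
          rw [this]; exact V'.mul_mem (hOV r.2) hyx }
  by_cases hJ : J = ⊤
  · have h1 : (1 : ↥O) ∈ J := by rw [hJ]; trivial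
    obtain ⟨y, hy, hy1⟩ := h1
    exact ⟨y, hy, by simpa using hy1⟩
  · exfalso
    obtain ⟨𝔫, h𝔫, hJ𝔫⟩ := Ideal.exists_le_maximal J hJ
    have hτ𝔫 : algebraMap A ↥O τ ∈ 𝔫 := by
      apply hJ𝔫
      refine ⟨0, by rw [zero_pow hm.ne', zero_mul]; exact O.zero_mem, ?_⟩
      have : ((0 : F) - ((algebraMap A ↥O τ : ↥O) : F)) * τ'⁻¹ = -1 := by
        rw [Subalgebra.coe_algebraMap, zero_sub, neg_mul, mul_inv_cancel₀ hτ0]
      rw [this]; exact V'.neg_mem V'.one_mem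
    obtain ⟨x, hx, y, hy, hyx⟩ := hloc 𝔫 h𝔫 hτ𝔫
    exact hx (hJ𝔫 ⟨y, hy, hyx⟩)

/-- The local datum in ideal form from the `γ`-form. -/
theorem s35j_of_gamma (m : ℕ) (f : F) (O V' : Subalgebra A F) (τ : A)
    (hOV : O ≤ V') (hτinv : (algebraMap A F τ)⁻¹ ∉ V')
    (hVunit : ∀ z : F, z * (algebraMap A F τ)⁻¹ ∈ V' → (1 + z)⁻¹ ∈ V')
    (𝔫 : Ideal ↥O) (γ : F) (hγ : (γ - 1) * (algebraMap A F τ)⁻¹ ∈ V')
    (a b : ↥O) (hb : b ∉ 𝔫) (hfab : f * (b : F) = (a : F) * γ ^ m) (c : ℕ) (hc : c ≤ m) :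
    ∃ x : ↥O, x ∉ 𝔫 ∧ ∃ y : F, y ^ m * f ^ c ∈ O ∧
      (y - (x : F)) * (algebraMap A F τ)⁻¹ ∈ V' := by
  set τ' := algebraMap A F τ with hτ'
  have hτV : τ' ∈ V' := V'.algebraMap_mem τ
  obtain ⟨-, -, -, hγinv, hγ0, hγinvT⟩ := core_f_facts γ V' τ' hτV hτinv hVunit hγ
  have hb0 : (b : F) ≠ 0 := by
    intro h
    apply hb
    have : b = 0 := Subtype.ext h
    rw [this]; exact 𝔫.zero_mem
  refine ⟨b, hb, (b : F) * γ⁻¹ ^ c, ?_, ?_⟩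
  · have hpp : (γ⁻¹ ^ c) ^ m * (γ ^ m) ^ c = 1 := by
      rw [← pow_mul, ← pow_mul, mul_comm c m, ← mul_pow, inv_mul_cancel₀ hγ0, one_pow]
    have hbc : (b : F) ^ c ≠ 0 := pow_ne_zero c hb0
    have key : ((b : F) * γ⁻¹ ^ c) ^ m * f ^ c = (b : F) ^ (m - c) * (a : F) ^ c := by
      apply mul_right_cancel₀ hbc
      calc ((b : F) * γ⁻¹ ^ c) ^ m * f ^ c * (b : F) ^ c
          = (b : F) ^ m * ((γ⁻¹ ^ c) ^ m * (f * b) ^ c) := by ring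
        _ = (b : F) ^ m * (a : F) ^ c * ((γ⁻¹ ^ c) ^ m * (γ ^ m) ^ c) := by rw [hfab]; ring
        _ = (b : F) ^ m * (a : F) ^ c := by rw [hpp, mul_one]
        _ = (b : F) ^ (m - c) * (a : F) ^ c * (b : F) ^ c := by
          rw [mul_right_comm, ← pow_add, Nat.sub_add_cancel hc]
    rw [key]
    exact O.mul_mem (O.pow_mem b.2 _) (O.pow_mem a.2 _)
  · have : ((b : F) * γ⁻¹ ^ c - (b : F)) * τ'⁻¹ = b * ((γ⁻¹ ^ c - 1 ^ c) * τ'⁻¹) := by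
      rw [one_pow]; ring
    rw [this]
    exact V'.mul_mem (hOV b.2) (core_T_pow_sub_pow V' τ' _ _ hγinv V'.one_mem hγinvT c)

end JForm

section JMain

variable {A F : Type*} [CommRing A] [IsNoetherianRing A] [IsLocalRing A] [Field F] [Algebra A F]

/-- **Abstract gluing core, ideal form.**  If `W ≡ 1` modulo `τ V'` and at every closed point
`𝔫` of the special fibre of both charts and for every `c < m` there are `x ∈ O ∖ 𝔫` and `y` with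
`y ^ m * W ^ c ∈ O`, `y ≡ x` modulo `τ V'`, then `W` is a constant times an `m`-th power. -/
theorem s35j_main (τ : A) (hτ : τ ∈ IsLocalRing.maximalIdeal A) (m : ℕ) (hm2 : 2 ≤ m)
    (hmu : IsUnit (m : A)) (t : F) (ht : t ≠ 0) (O₀ O₁ V' : Subalgebra A F)
    (ht₀ : t ∈ O₀) (ht₁ : t⁻¹ ∈ O₁)
    (h01 : ∀ x ∈ O₀, ∃ n : ℕ, x * t⁻¹ ^ n ∈ O₁) (h10 : ∀ x ∈ O₁, ∃ n : ℕ, x * t ^ n ∈ O₀)
    (hroot₀ : ∀ x : F, x ^ m ∈ O₀ → x ∈ O₀) (hroot₁ : ∀ x : F, x ^ m ∈ O₁ → x ∈ O₁)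
    [IsNoetherianRing ↥O₀]
    (hfin : ∃ b₀ : Finset F, (∀ β ∈ b₀, β ∈ O₀) ∧ ∀ x ∈ O₀, x ∈ Submodule.span A
      (Set.image2 (fun (k : ℕ) (β : F) => t ^ k * β) Set.univ (b₀ : Set F)))
    (hfrac : ∀ x : F, ∃ ψ ∈ O₀, ψ ≠ 0 ∧ ψ * x ∈ O₀)
    (hV₀ : O₀ ≤ V') (hV₁ : O₁ ≤ V') (hrootV : ∀ x : F, x ^ m ∈ V' → x ∈ V')
    (hτinv : (algebraMap A F τ)⁻¹ ∉ V')
    (hVunit : ∀ z : F, z * (algebraMap A F τ)⁻¹ ∈ V' → (1 + z)⁻¹ ∈ V')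
    (hdiv₀ : ∀ x ∈ O₀, x * (algebraMap A F τ)⁻¹ ∈ V' → x * (algebraMap A F τ)⁻¹ ∈ O₀)
    (hdiv₁ : ∀ x ∈ O₁, x * (algebraMap A F τ)⁻¹ ∈ V' → x * (algebraMap A F τ)⁻¹ ∈ O₁)
    (h8 : ∀ x : F, x ∈ O₀ → x ∈ O₁ → x ∈ Set.range (algebraMap A F))
    (W : F) (h7 : (W - 1) * (algebraMap A F τ)⁻¹ ∈ V')
    (hloc₀ : ∀ 𝔫 : Ideal ↥O₀, 𝔫.IsMaximal → algebraMap A ↥O₀ τ ∈ 𝔫 → ∀ c, c < m →
      ∃ x : ↥O₀, x ∉ 𝔫 ∧ ∃ y : F, y ^ m * W ^ c ∈ O₀ ∧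
        (y - (x : F)) * (algebraMap A F τ)⁻¹ ∈ V')
    (hloc₁ : ∀ 𝔫 : Ideal ↥O₁, 𝔫.IsMaximal → algebraMap A ↥O₁ τ ∈ 𝔫 → ∀ c, c < m →
      ∃ x : ↥O₁, x ∉ 𝔫 ∧ ∃ y : F, y ^ m * W ^ c ∈ O₁ ∧
        (y - (x : F)) * (algebraMap A F τ)⁻¹ ∈ V') :
    ∃ w : A, ∃ G : F, G ≠ 0 ∧ W = algebraMap A F w * G ^ m := by
  have hm : 0 < m := by omega
  obtain ⟨b₀, hb₀, hspan⟩ := hfin
  obtain ⟨ν, hν⟩ := hmu.exists_left_inv
  obtain ⟨ψ, hψ, hψ0, hψf⟩ := hfrac W⁻¹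
  have hg : (AdjoinRoot.root (X ^ m - C W : F[X])) ^ m =
      algebraMap F (AdjoinRoot (X ^ m - C W : F[X])) W := by
    have h := AdjoinRoot.mk_self (f := (X ^ m - C W : F[X]))
    rw [map_sub, map_pow, AdjoinRoot.mk_X, AdjoinRoot.mk_C, sub_eq_zero] at h
    rw [h, AdjoinRoot.algebraMap_eq]
  exact corew_main_aux_y (E := AdjoinRoot (X ^ m - C W : F[X])) τ hτ m hm2
    ν hν W (AdjoinRoot.root (X ^ m - C W : F[X])) hg (core_adjoinRoot_li m hm W) t ht O₀ O₁ V'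
    ht₀ ht₁ h01 h10 hroot₀ hroot₁ b₀ hb₀ hspan ψ hψ hψ0 hψf hV₀ hV₁
    hrootV hτinv hVunit hdiv₀ hdiv₁
    (fun c hc => s35j_exists_y m hm W O₀ V' τ hV₀ hroot₀ hτinv c
      (fun 𝔫 h𝔫 hτ𝔫 => hloc₀ 𝔫 h𝔫 hτ𝔫 c hc))
    (fun c hc => s35j_exists_y m hm W O₁ V' τ hV₁ hroot₁ hτinv c
      (fun 𝔫 h𝔫 hτ𝔫 => hloc₁ 𝔫 h𝔫 hτ𝔫 c hc))
    h7 h8

end JMain

end Fermat.Agent.S35
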