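import Mathlib
import Fermat.Agent.S35.LocUnit

/-!
# S35: the function `σ W0 / W0 ^ Q` is a unit of the local ring times an `m`-th power

`W0 = σ (σ f₀) * f₀ * (σ f₀)⁻¹ ^ 2` is the second difference of `f₀` along the automorphism `σ`
(the spelling of the statement of CORE-ABS).  Consumers of `LocUnit.lean`:

* `s35uw_core`: `S35Unit` for the three quotients `σ^(i+1) f₀ / σ^i f₀` gives `S35Unit` for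
  `σ W0 / W0 ^ Q`.
* `s35uw_one`: at a closed point of one component, from (LOC) for `f₀, σ f₀, σ² f₀, σ³ f₀`.
* `s35uw_hσu`: `σ` maps `O ∖ 𝔫` to units of `O_𝔫` when it is the `Q`-th power map modulo the
  maximal ideal of `O_𝔫`.
* `s35uw_node`: at a crossing point, from (LOC) for `f₀` only.
* `s35uw_norm`: passage from `W0` to the normalised function `f₂ = W0 / (C * w ^ m)`.
-/

set_option autoImplicit false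
set_option linter.unusedSectionVars false
set_option linter.unusedVariables false

namespace Fermat.Agent.S35

open Fermat.Agent.S18 Fermat.Agent.S34

section UnitW

variable {A F : Type*} [CommRing A] [Field F] [Algebra A F]

/-- From the three first differences to `σ W0 / W0 ^ Q`. -/
theorem s35uw_core (m : ℕ) (O : Subalgebra A F) (𝔫 : Ideal ↥O) [𝔫.IsPrime] (σ : F ≃+* F)
    (f₀ : F) (Q : ℕ)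
    (hu0 : S35Unit m O 𝔫 (σ f₀ * f₀⁻¹)) (hu1 : S35Unit m O 𝔫 (σ (σ f₀) * (σ f₀)⁻¹))
    (hu2 : S35Unit m O 𝔫 (σ (σ (σ f₀)) * (σ (σ f₀))⁻¹)) :
    S35Unit m O 𝔫 (σ (σ (σ f₀) * f₀ * ((σ f₀)⁻¹) ^ 2) *
      ((σ (σ f₀) * f₀ * ((σ f₀)⁻¹) ^ 2) ^ Q)⁻¹) := by
  have h := s35u_mul m O 𝔫 (s35u_mul m O 𝔫 hu2 (s35u_inv m O 𝔫 hu1))
    (s35u_inv m O 𝔫 (s35u_pow m O 𝔫 (s35u_mul m O 𝔫 hu1 (s35u_inv m O 𝔫 hu0)) Q))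
  have e : σ (σ (σ f₀) * f₀ * ((σ f₀)⁻¹) ^ 2) * ((σ (σ f₀) * f₀ * ((σ f₀)⁻¹) ^ 2) ^ Q)⁻¹ =
      σ (σ (σ f₀)) * (σ (σ f₀))⁻¹ * (σ (σ f₀) * (σ f₀)⁻¹)⁻¹ *
        ((σ (σ f₀) * (σ f₀)⁻¹ * (σ f₀ * f₀⁻¹)⁻¹) ^ Q)⁻¹ := by
    simp only [map_mul, map_pow, map_inv₀, mul_inv, mul_pow, ← inv_pow, inv_inv]
    ring
  rw [e]
  exact h

/-- At a closed point `𝔫` lying on the component `V` only: (LOC) for `f₀`, `σ f₀`, `σ² f₀`,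
`σ³ f₀` gives `S35Unit` for `σ W0 / W0 ^ Q`. -/
theorem s35uw_one (τ : A) (hτ0 : algebraMap A F τ ≠ 0) (O : Subalgebra A F)
    (𝔫 : Ideal ↥O) [𝔫.IsPrime]
    (V Vo : ValuationSubring F) (hOV : ∀ x ∈ O, x ∈ V) (hOVo : ∀ x ∈ O, x ∈ Vo)
    (hτV : algebraMap A F τ ∈ V.nonunits)
    (hp : ∀ x : ↥O, (x : F) ∈ V.nonunits → x ∈ 𝔫)
    (X : ↥O) (hX : (X : F) ∈ Vo.nonunits) (hX𝔫 : X ∉ 𝔫)
    (hred : ∀ x ∈ O, x ∈ V.nonunits → x ∈ Vo.nonunits → ∃ y ∈ O, x = algebraMap A F τ * y)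
    (hdec : ∀ z : F, z ≠ 0 → ∃ j : ℤ, z * algebraMap A F τ ^ j ∈ V ∧
      (z * algebraMap A F τ ^ j)⁻¹ ∈ V)
    (m : ℕ) (hm : 0 < m) (σ : F ≃+* F) (hσV : ∀ g : F, g ≠ 0 → σ g * g⁻¹ ∈ V)
    (f₀ : F) (hf₀ : f₀ ≠ 0)
    (h0 : S34Loc τ m O f₀ 𝔫) (h1 : S34Loc τ m O (σ f₀) 𝔫)
    (h2 : S34Loc τ m O (σ (σ f₀)) 𝔫) (h3 : S34Loc τ m O (σ (σ (σ f₀))) 𝔫) (Q : ℕ) :
    S35Unit m O 𝔫 (σ (σ (σ f₀) * f₀ * ((σ f₀)⁻¹) ^ 2) *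
      ((σ (σ f₀) * f₀ * ((σ f₀)⁻¹) ^ 2) ^ Q)⁻¹) := by
  have hσ0 : ∀ x : F, x ≠ 0 → σ x ≠ 0 := fun x hx => σ.map_ne_zero_iff.mpr hx
  have hinv : ∀ g : F, g ≠ 0 → g * (σ g)⁻¹ ∈ V := by
    intro g hg
    have h := hσV g⁻¹ (inv_ne_zero hg)
    rwa [map_inv₀, inv_inv, mul_comm] at h
  have step : ∀ f : F, f ≠ 0 → S34Loc τ m O f 𝔫 → S34Loc τ m O (σ f) 𝔫 →
      S35Unit m O 𝔫 (σ f * f⁻¹) := fun f hf hl hl' =>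
    s35u_one_point τ hτ0 O 𝔫 V Vo hOV hOVo hτV hp X hX hX𝔫 hred hdec m hm f (σ f) hf
      (hσ0 f hf) hl hl' (hσV f hf) (hinv f hf)
  exact s35uw_core m O 𝔫 σ f₀ Q (step f₀ hf₀ h0 h1) (step (σ f₀) (hσ0 _ hf₀) h1 h2)
    (step (σ (σ f₀)) (hσ0 _ (hσ0 _ hf₀)) h2 h3)

/-- If `σ` maps `O` into `O_𝔫` and is the `Q`-th power map modulo the maximal ideal of `O_𝔫`
(the two last clauses of `S35Node`), then `σ` maps `O ∖ 𝔫` to units of `O_𝔫`. -/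
theorem s35uw_hσu (O : Subalgebra A F) (𝔫 : Ideal ↥O) [𝔫.IsPrime] (σ : F ≃+* F) (Q : ℕ)
    (hσO : ∀ z : ↥O, ∃ a s : ↥O, s ∉ 𝔫 ∧ σ (z : F) * (s : F) = (a : F))
    (hσQ : ∀ z : ↥O, ∃ a s : ↥O, a ∈ 𝔫 ∧ s ∉ 𝔫 ∧
      (σ (z : F) - (z : F) ^ Q) * (s : F) = (a : F)) :
    ∀ z : ↥O, z ∉ 𝔫 → ∃ a s : ↥O, a ∉ 𝔫 ∧ s ∉ 𝔫 ∧ σ (z : F) * (s : F) = (a : F) := by
  intro z hz
  obtain ⟨a₁, s₁, hs₁, e₁⟩ := hσO z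
  obtain ⟨a₂, s₂, ha₂, hs₂, e₂⟩ := hσQ z
  refine ⟨a₁, s₁, ?_, hs₁, e₁⟩
  intro ha₁
  have hmul : ∀ {x y : ↥O}, x ∉ 𝔫 → y ∉ 𝔫 → x * y ∉ 𝔫 :=
    fun hx hy hh => (Ideal.IsPrime.mem_or_mem ‹_› hh).elim hx hy
  have key : z ^ Q * (s₁ * s₂) = a₁ * s₂ - a₂ * s₁ := by
    apply Subtype.ext
    push_cast
    rw [← e₁, ← e₂]
    ring
  have hmem : z ^ Q * (s₁ * s₂) ∈ 𝔫 := by
    rw [key]
    exact 𝔫.sub_mem (𝔫.mul_mem_right _ ha₁) (𝔫.mul_mem_right _ ha₂)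
  exact hmul (fun hh => hz (Ideal.IsPrime.mem_of_pow_mem ‹_› Q hh)) (hmul hs₁ hs₂) hmem

/-- At a crossing point: (LOC) for `f₀` only gives `S35Unit` for `σ W0 / W0 ^ Q`. -/
theorem s35uw_node (τ ε : A) (hε : IsUnit ε) (hτ0 : algebraMap A F τ ≠ 0)
    (O : Subalgebra A F) (𝔫 : Ideal ↥O) [𝔫.IsPrime]
    (V₁ V₂ : ValuationSubring F) (hOV₁ : ∀ x ∈ O, x ∈ V₁) (hOV₂ : ∀ x ∈ O, x ∈ V₂)
    (hdiv : ∀ x ∈ O, x * (algebraMap A F τ)⁻¹ ∈ V₁ → x * (algebraMap A F τ)⁻¹ ∈ V₂ →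
      x * (algebraMap A F τ)⁻¹ ∈ O)
    (σ : F ≃+* F) (hστ : σ (algebraMap A F τ) = algebraMap A F ε * algebraMap A F τ)
    (hσO : ∀ z : ↥O, ∃ a s : ↥O, s ∉ 𝔫 ∧ σ (z : F) * (s : F) = (a : F))
    (hσu : ∀ z : ↥O, z ∉ 𝔫 → ∃ a s : ↥O, a ∉ 𝔫 ∧ s ∉ 𝔫 ∧ σ (z : F) * (s : F) = (a : F))
    (hσV₁ : ∀ g : F, g ≠ 0 → σ g * g⁻¹ ∈ V₁) (hσV₂ : ∀ g : F, g ≠ 0 → σ g * g⁻¹ ∈ V₂)
    (m : ℕ) (f₀ : F) (hf₀ : f₀ ≠ 0) (hf : S34Loc τ m O f₀ 𝔫) (Q : ℕ) :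
    S35Unit m O 𝔫 (σ (σ (σ f₀) * f₀ * ((σ f₀)⁻¹) ^ 2) *
      ((σ (σ f₀) * f₀ * ((σ f₀)⁻¹) ^ 2) ^ Q)⁻¹) := by
  have hu0 : S35Unit m O 𝔫 (σ f₀ * f₀⁻¹) :=
    s35u_node_point τ ε hε hτ0 O 𝔫 V₁ V₂ hOV₁ hOV₂ hdiv σ hστ hσO hσu hσV₁ hσV₂ m f₀ hf₀ hf
  have hu1 : S35Unit m O 𝔫 (σ (σ f₀) * (σ f₀)⁻¹) := by
    have h := s35u_map m O 𝔫 σ hσu hu0
    rwa [map_mul, map_inv₀] at h
  have hu2 : S35Unit m O 𝔫 (σ (σ (σ f₀)) * (σ (σ f₀))⁻¹) := by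
    have h := s35u_map m O 𝔫 σ hσu hu1
    rwa [map_mul, map_inv₀] at h
  exact s35uw_core m O 𝔫 σ f₀ Q hu0 hu1 hu2

/-- Normalisation: dividing `W0` by a unit constant times an `m`-th power does not change the
property for `σ W / W ^ Q`. -/
theorem s35uw_norm (m : ℕ) (O : Subalgebra A F) (𝔫 : Ideal ↥O) [𝔫.IsPrime] (σ : F ≃+* F)
    (Q : ℕ) (W0 : F) (C C' : A) (hC : IsUnit C) (hC' : IsUnit C')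
    (hσC : σ (algebraMap A F C) = algebraMap A F C') (w : F) (hw : w ≠ 0)
    (h : S35Unit m O 𝔫 (σ W0 * (W0 ^ Q)⁻¹)) :
    S35Unit m O 𝔫 (σ (W0 * (algebraMap A F C * w ^ m)⁻¹) *
      ((W0 * (algebraMap A F C * w ^ m)⁻¹) ^ Q)⁻¹) := by
  have hcu : S35Unit m O 𝔫 (algebraMap A F C) :=
    s35u_elem m O 𝔫 (algebraMap A ↥O C) (s35u_unit_not_mem O 𝔫 hC)
  have hcu' : S35Unit m O 𝔫 (algebraMap A F C') :=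
    s35u_elem m O 𝔫 (algebraMap A ↥O C') (s35u_unit_not_mem O 𝔫 hC')
  have hG : w ^ Q * (σ w)⁻¹ ≠ 0 :=
    mul_ne_zero (pow_ne_zero Q hw) (inv_ne_zero (σ.map_ne_zero_iff.mpr hw))
  have h1 := s35u_mul m O 𝔫 (s35u_mul m O 𝔫 h
    (s35u_mul m O 𝔫 (s35u_pow m O 𝔫 hcu Q) (s35u_inv m O 𝔫 hcu')))
    (s35u_mpow m O 𝔫 _ hG)
  have e : σ (W0 * (algebraMap A F C * w ^ m)⁻¹) * ((W0 * (algebraMap A F C * w ^ m)⁻¹) ^ Q)⁻¹ =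
      σ W0 * (W0 ^ Q)⁻¹ * (algebraMap A F C ^ Q * (algebraMap A F C')⁻¹) *
        (w ^ Q * (σ w)⁻¹) ^ m := by
    simp only [map_mul, map_pow, map_inv₀, hσC, mul_inv, mul_pow, ← inv_pow, inv_inv]
    ring
  rw [e]
  exact h1

end UnitW

end Fermat.Agent.S35
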