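import Mathlib
import Fermat.Agent.S34.InstAbs2
import Fermat.Agent.S35.CorePt
import Fermat.Agent.S35.LocUnit
import Fermat.Agent.S35.LocIC
import Fermat.Agent.S35.AbsNorm2
import Fermat.Agent.S35.LocICPt
import Fermat.Agent.S35.UnitW

/-!
# S35, CORE-ABS: the local datum at a closed point of one component

`s35co_onept`: at a closed point `𝔫` of a chart `O` lying on the component `V` only
(`X ∈ 𝔪_{Vo} ∖ 𝔫`), the one-sided local datum for `W = σ F₂ / F₂ ^ Q`,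
`F₂ = σ (σ f) * f * (σ f)⁻¹ ^ 2 * (C₁ * ω ^ m)⁻¹`, from the local statement (LOC) of S34 for
the four functions `f`, `σ f`, `σ² f`, `σ³ f`.

Proof: `s35uw_one` and `s35uw_norm` (`UnitW.lean`) show that `W` is a unit of `O_𝔫` times an
`m`-th power; `s35ip_one` (`LocICPt.lean`) gives the integral closedness of the local ring of
the component; `s35pt_one` (`CorePt.lean`) concludes.
-/

set_option autoImplicit false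
set_option linter.unusedSectionVars false
set_option linter.unusedVariables false

namespace Fermat.Agent.S35

open Fermat.Agent.S18 Fermat.Agent.S34

section CoreOne

variable {A F : Type*} [CommRing A] [Field F] [Algebra A F]

/-- **A point of one component** `V` only (`X ∈ 𝔪_{Vo} ∖ 𝔫`) (file `S35/CoreOne.lean`, prefix
`s35co_`): the local datum for `W = σ F₂ / F₂ ^ Q`,
`F₂ = σ (σ f) * f * (σ f)⁻¹ ^ 2 * (C₁ * ω ^ m)⁻¹`, from (LOC) for `f, σ f, σ² f, σ³ f`. -/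
theorem s35co_onept (τ : A) (hτ0 : algebraMap A F τ ≠ 0) (O : Subalgebra A F)
    (𝔫 : Ideal ↥O) [𝔫.IsPrime]
    (V Vo : ValuationSubring F) (hOV : ∀ x ∈ O, x ∈ V) (hOVo : ∀ x ∈ O, x ∈ Vo)
    (hfrac : ∀ x : F, ∃ a ∈ O, ∃ s ∈ O, s ≠ 0 ∧ x * s = a)
    (hτV : algebraMap A F τ ∈ V.nonunits)
    (hτgen : ∀ x ∈ V.nonunits, x * (algebraMap A F τ)⁻¹ ∈ V)
    (hdec : ∀ z : F, z ≠ 0 → ∃ j : ℤ, z * algebraMap A F τ ^ j ∈ V ∧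
      (z * algebraMap A F τ ^ j)⁻¹ ∈ V)
    (hred : ∀ x ∈ O, x ∈ V.nonunits → x ∈ Vo.nonunits → ∃ y ∈ O, x = algebraMap A F τ * y)
    (hp : ∀ x : ↥O, (x : F) ∈ V.nonunits → x ∈ 𝔫)
    (X : ↥O) (hX : (X : F) ∈ Vo.nonunits) (hX𝔫 : X ∉ 𝔫)
    (hD : ∀ 𝔭 : Ideal ↥O, (∀ x : ↥O, x ∈ 𝔭 ↔ (x : F) ∈ V.nonunits) →
      IsDedekindDomain (↥O ⧸ 𝔭))
    (m : ℕ) (hm : 0 < m)
    (σ : F ≃+* F) (Q : ℕ) (hσu : ∀ g : F, g ≠ 0 → σ g * g⁻¹ ∈ V)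
    (f : F) (hf : f ≠ 0)
    (h0 : S34Loc τ m O f 𝔫) (h1 : S34Loc τ m O (σ f) 𝔫) (h2 : S34Loc τ m O (σ (σ f)) 𝔫)
    (h3 : S34Loc τ m O (σ (σ (σ f))) 𝔫)
    (C₁ C₁' : A) (hC₁ : IsUnit C₁) (hC₁' : IsUnit C₁')
    (hσC : σ (algebraMap A F C₁) = algebraMap A F C₁')
    (ω : F) (hω : ω ≠ 0)
    (hW1 : σ (σ (σ f) * f * ((σ f)⁻¹) ^ 2 * (algebraMap A F C₁ * ω ^ m)⁻¹) *
          ((σ (σ f) * f * ((σ f)⁻¹) ^ 2 * (algebraMap A F C₁ * ω ^ m)⁻¹) ^ Q)⁻¹ - 1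
        ∈ V.nonunits)
    (c : ℕ) :
    ∃ y₀ : F, y₀ ^ m * (σ (σ (σ f) * f * ((σ f)⁻¹) ^ 2 * (algebraMap A F C₁ * ω ^ m)⁻¹) *
          ((σ (σ f) * f * ((σ f)⁻¹) ^ 2 * (algebraMap A F C₁ * ω ^ m)⁻¹) ^ Q)⁻¹) ^ c
        ∈ ndrLoc O 𝔫 ∧ y₀ - 1 ∈ V.nonunits := by
  have hU0 : S35Unit m O 𝔫 (σ (σ (σ f) * f * ((σ f)⁻¹) ^ 2) *
      ((σ (σ f) * f * ((σ f)⁻¹) ^ 2) ^ Q)⁻¹) :=
    s35uw_one τ hτ0 O 𝔫 V Vo hOV hOVo hτV hp X hX hX𝔫 hred hdec m hm σ hσu f hf h0 h1 h2 h3 Q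
  have hU : S35Unit m O 𝔫
      (σ (σ (σ f) * f * ((σ f)⁻¹) ^ 2 * (algebraMap A F C₁ * ω ^ m)⁻¹) *
        ((σ (σ f) * f * ((σ f)⁻¹) ^ 2 * (algebraMap A F C₁ * ω ^ m)⁻¹) ^ Q)⁻¹) :=
    s35uw_norm m O 𝔫 σ Q _ C₁ C₁' hC₁ hC₁' hσC ω hω hU0
  have hIC : S35IC m O 𝔫 V :=
    s35ip_one τ hτ0 O 𝔫 V Vo hOV hOVo hfrac hτV hτgen hdec hred hp X hX hX𝔫 hD m hm
  exact s35pt_one O 𝔫 V hOV hp m hm hIC _ hU hW1 c

end CoreOne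

end Fermat.Agent.S35
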