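import Mathlib
import Fermat.Agent.S34.InstAbs2
import Fermat.Agent.S35.CoreJ
import Fermat.Agent.S35.CorePt
import Fermat.Agent.S35.LocUnit
import Fermat.Agent.S35.LocIC
import Fermat.Agent.S35.AbsNorm2
import Fermat.Agent.S35.CoreCross
import Fermat.Agent.S35.CoreOne

/-!
# S35, package CORE-ABS: the abstract geometric core

`s35c_main` is the analogue of `s34ib_main` for the function `W0 = (σ - 1)² f₀`: under the chart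
hypotheses of S34 (two charts `chtO A0 {t}`, `chtO A0 {t⁻¹}`, reduced special fibre with the two
components `V₁`, `V₂`), with `σ` a lift of the `Q`-th power Frobenius, the swap `w`, the node
data `S35Node` at the crossing points and the residue hypothesis `hres`, one has
`σ W0 = c * G ^ m * W0 ^ Q` for a constant `c` and a function `G ≠ 0`.

Structure of the proof:
* normalisation (`s35n2_norm_res`, `s35n2_frob`): `F₂ = W0 / (C₁ ω ^ m)` is `≡ 1` on `V₁` and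
  `≡ C` on `V₂`, hence `W = σ F₂ / F₂ ^ Q ≡ 1` modulo `τ (V₁ ∩ V₂)`;
* the local datum in ideal form for `W` at every closed point of the special fibre of both
  charts: crossing points (`s35cc_cross`), points of the first component only
  (`s35co_onept`), points off the first component (transfer along the swap, `s35c_j_off`);
* the gluing core `s35j_main`, and the unfolding `s35n2_finish`.
-/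

set_option autoImplicit false
set_option linter.unusedSectionVars false
set_option linter.unusedVariables false

open Polynomial

namespace Fermat.Agent.S35

open Fermat.Agent.S18 Fermat.Agent.S34

/-- The data at a crossing point `𝔫` of the chart `O` consumed by CORE-ABS: the two local
equations `x` (of the first component: `x ∈ 𝔪_{V₁}`) and `y` (of the second) lie in `O_𝔫`; the
two branch statements (`hB₁`, `hB₂` of `ngl_main`); `σ` maps `O` into `O_𝔫` and is the `Q`-th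
power map modulo the maximal ideal of `O_𝔫`. -/
def S35Node {A F : Type*} [CommRing A] [Field F] [Algebra A F] (O : Subalgebra A F)
    (𝔫 : Ideal ↥O) (V₁ V₂ : ValuationSubring F) (x y : F) (σ : F ≃+* F) (Q : ℕ) : Prop :=
  (∃ a s : ↥O, s ∉ 𝔫 ∧ x * (s : F) = (a : F)) ∧
  (∃ a s : ↥O, s ∉ 𝔫 ∧ y * (s : F) = (a : F)) ∧
  (∀ a : ↥O, a ∈ 𝔫 → ∃ b c : ↥O, c ∉ 𝔫 ∧ (a : F) * (c : F) - y * (b : F) ∈ V₁.nonunits) ∧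
  (∀ a : ↥O, a ∈ 𝔫 → ∃ b c : ↥O, c ∉ 𝔫 ∧ (a : F) * (c : F) - x * (b : F) ∈ V₂.nonunits) ∧
  (∀ z : ↥O, ∃ a s : ↥O, s ∉ 𝔫 ∧ σ (z : F) * (s : F) = (a : F)) ∧
  (∀ z : ↥O, ∃ a s : ↥O, a ∈ 𝔫 ∧ s ∉ 𝔫 ∧ (σ (z : F) - (z : F) ^ Q) * (s : F) = (a : F))

section Abs

variable {A F : Type*} [CommRing A] [Field F] [Algebra A F]

/-- `W ≡ 1` modulo `𝔪_V` implies that `W` is a unit of `V`. -/
theorem s35c_unit_of_sub_one (V : ValuationSubring F) {W : F} (h : W - 1 ∈ V.nonunits) :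
    W ≠ 0 ∧ W⁻¹ ∈ V := by
  obtain ⟨a, -, b⟩ := s35n2_one_add V h
  rw [add_sub_cancel] at a b
  exact ⟨a, b⟩

/-- Transport of the hypothesis `hord` along a ring automorphism mapping constants to constants
and `τ` to a unit multiple of `τ`. -/
theorem s35c_hord_gal (τ ε : A) (hε : IsUnit ε) (m : ℕ) (f : F) (φ : F ≃+* F)
    (hφA : ∀ a : A, ∃ a' : A, φ (algebraMap A F a) = algebraMap A F a')
    (hφτ : φ (algebraMap A F τ) = algebraMap A F ε * algebraMap A F τ)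
    (hord : ∀ V : ValuationSubring F, (∀ a : A, algebraMap A F a ∈ V) →
      (algebraMap A F τ)⁻¹ ∈ V → IsPrincipalIdealRing V →
      ∃ u : F, u ≠ 0 ∧ f * u ^ m ∈ V ∧ (f * u ^ m)⁻¹ ∈ V) :
    ∀ V : ValuationSubring F, (∀ a : A, algebraMap A F a ∈ V) →
      (algebraMap A F τ)⁻¹ ∈ V → IsPrincipalIdealRing V →
      ∃ u : F, u ≠ 0 ∧ φ f * u ^ m ∈ V ∧ (φ f * u ^ m)⁻¹ ∈ V := by
  intro V hAV hτV hV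
  obtain ⟨ε', hε'⟩ := hε.exists_left_inv
  obtain ⟨u, hu0, h1, h2⟩ := hord (V.comap (φ : F →+* F))
    (fun a => by
      rw [ValuationSubring.mem_comap]
      show φ (algebraMap A F a) ∈ V
      obtain ⟨a', ha'⟩ := hφA a
      rw [ha']; exact hAV a')
    (by
      rw [ValuationSubring.mem_comap]
      show φ (algebraMap A F τ)⁻¹ ∈ V
      have h0 : algebraMap A F ε' * algebraMap A F ε = 1 := by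
        rw [← map_mul, hε', map_one]
      have h3 : (algebraMap A F ε * algebraMap A F τ)⁻¹ =
          algebraMap A F ε' * (algebraMap A F τ)⁻¹ := by
        rw [mul_inv, inv_eq_of_mul_eq_one_left h0]
      rw [map_inv₀, hφτ, h3]
      exact V.mul_mem _ _ (hAV ε') hτV)
    (lni_pir_comap V φ hV)
  refine ⟨φ u, (map_ne_zero φ).mpr hu0, ?_, ?_⟩
  · have h3 : φ (f * u ^ m) ∈ V := h1
    rwa [map_mul, map_pow] at h3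
  · have h3 : φ (f * u ^ m)⁻¹ ∈ V := h2
    rwa [map_inv₀, map_mul, map_pow] at h3

/-- (LOC) at a closed point lying on the first component only (the second branch of
`s34ib_loc_on`, for an arbitrary function with `hord`). -/
theorem s35c_loc_one (τ : A) (hτ0 : algebraMap A F τ ≠ 0) (O : Subalgebra A F)
    [IsNoetherianRing ↥O] (hfrac : ∀ x : F, ∃ a ∈ O, ∃ s ∈ O, s ≠ 0 ∧ x * s = a)
    (V₁ V₂ : ValuationSubring F) (hOV : ∀ x ∈ O, x ∈ V₁ ∧ x ∈ V₂)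
    (hτV₁ : algebraMap A F τ ∈ V₁.nonunits)
    (hVτ : ∀ x ∈ O, x ∈ V₁.nonunits → x ∈ V₂.nonunits → ∃ y ∈ O, x = algebraMap A F τ * y)
    (hD : ∀ 𝔭 : Ideal ↥O, (∀ x : ↥O, x ∈ 𝔭 ↔ (x : F) ∈ V₁.nonunits) →
      IsDedekindDomain (↥O ⧸ 𝔭))
    (m : ℕ) (hm : 0 < m)
    (𝔫 : Ideal ↥O) (h𝔫 : 𝔫.IsMaximal)
    (h1 : ∀ x : ↥O, (x : F) ∈ V₁.nonunits → x ∈ 𝔫)
    (r : ↥O) (hr : (r : F) ∈ V₂.nonunits) (hr𝔫 : r ∉ 𝔫)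
    (f : F) (hf : f ≠ 0)
    (hord : ∀ V : ValuationSubring F, (∀ a : A, algebraMap A F a ∈ V) →
        (algebraMap A F τ)⁻¹ ∈ V → IsPrincipalIdealRing V →
        ∃ u : F, u ≠ 0 ∧ f * u ^ m ∈ V ∧ (f * u ^ m)⁻¹ ∈ V) :
    S34Loc τ m O f 𝔫 := by
  classical
  let φ₁ : ↥O →+* ↥V₁ :=
    { toFun := fun x => ⟨(x : F), (hOV x x.2).1⟩
      map_one' := rfl
      map_mul' := fun _ _ => rfl
      map_zero' := rfl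
      map_add' := fun _ _ => rfl }
  let p₁ : Ideal ↥O := Ideal.comap φ₁ (IsLocalRing.maximalIdeal ↥V₁)
  have hp₁ : ∀ x : ↥O, x ∈ p₁ ↔ (x : F) ∈ V₁.nonunits := by
    intro x
    rw [ValuationSubring.mem_nonunits_iff_exists_mem_maximalIdeal]
    constructor
    · intro hx
      exact ⟨(hOV x x.2).1, hx⟩
    · rintro ⟨_, hx⟩
      exact hx
  have hDp₁ : IsDedekindDomain (↥O ⧸ p₁) := hD p₁ hp₁
  have hprime₁ : p₁.IsPrime := (Ideal.Quotient.isDomain_iff_prime p₁).mp inferInstance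
  refine s34ia_loc_one τ hτ0 O hfrac 𝔫 p₁ (fun x hx => h1 x ((hp₁ x).mp hx))
    ((hp₁ _).mpr hτV₁) (fun y hy => ⟨r, hr𝔫, ?_⟩) m hm f hf hord
  obtain ⟨z, hz, hzy⟩ := hVτ ((r : F) * (y : F)) (O.mul_mem r.2 y.2)
    (by rw [mul_comm]; exact cz_nonunits_mul V₁ ((hp₁ y).mp hy) (hOV r r.2).1)
    (cz_nonunits_mul V₂ hr (hOV y y.2).2)
  exact ⟨⟨z, hz⟩, Subtype.ext hzy⟩

/-- The local datum (for the first component) at a closed point on the first component only. -/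
theorem s35c_dat_one (τ ε : A) (hε : IsUnit ε) (hτ0 : algebraMap A F τ ≠ 0)
    (O : Subalgebra A F) [IsNoetherianRing ↥O]
    (hfrac : ∀ x : F, ∃ a ∈ O, ∃ s ∈ O, s ≠ 0 ∧ x * s = a)
    (V₁ V₂ : ValuationSubring F) (hOV : ∀ x ∈ O, x ∈ V₁ ∧ x ∈ V₂)
    (hτV₁ : algebraMap A F τ ∈ V₁.nonunits)
    (hτgen₁ : ∀ x ∈ V₁.nonunits, x * (algebraMap A F τ)⁻¹ ∈ V₁)
    (hdec₁ : ∀ z : F, z ≠ 0 → ∃ j : ℤ, z * algebraMap A F τ ^ j ∈ V₁ ∧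
      (z * algebraMap A F τ ^ j)⁻¹ ∈ V₁)
    (hVτ : ∀ x ∈ O, x ∈ V₁.nonunits → x ∈ V₂.nonunits → ∃ y ∈ O, x = algebraMap A F τ * y)
    (hD : ∀ 𝔭 : Ideal ↥O, (∀ x : ↥O, x ∈ 𝔭 ↔ (x : F) ∈ V₁.nonunits) →
      IsDedekindDomain (↥O ⧸ 𝔭))
    (m : ℕ) (hm : 0 < m) (σ : F ≃+* F) (Q : ℕ)
    (hστ : σ (algebraMap A F τ) = algebraMap A F ε * algebraMap A F τ)
    (hσA : ∀ a : A, ∃ a' : A, σ (algebraMap A F a) = algebraMap A F a')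
    (hσu₁ : ∀ g : F, g ≠ 0 → σ g * g⁻¹ ∈ V₁)
    (𝔫 : Ideal ↥O) (h𝔫 : 𝔫.IsMaximal)
    (h1 : ∀ x : ↥O, (x : F) ∈ V₁.nonunits → x ∈ 𝔫)
    (r : ↥O) (hr : (r : F) ∈ V₂.nonunits) (hr𝔫 : r ∉ 𝔫)
    (g : F) (hg : g ≠ 0)
    (hord : ∀ V : ValuationSubring F, (∀ a : A, algebraMap A F a ∈ V) →
      (algebraMap A F τ)⁻¹ ∈ V → IsPrincipalIdealRing V →
      ∃ u : F, u ≠ 0 ∧ g * u ^ m ∈ V ∧ (g * u ^ m)⁻¹ ∈ V)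
    (C₁ C₁' : A) (hC₁ : IsUnit C₁) (hC₁' : IsUnit C₁')
    (hσC : σ (algebraMap A F C₁) = algebraMap A F C₁')
    (ω : F) (hω : ω ≠ 0)
    (hW1 : σ (σ (σ g) * g * ((σ g)⁻¹) ^ 2 * (algebraMap A F C₁ * ω ^ m)⁻¹) *
          ((σ (σ g) * g * ((σ g)⁻¹) ^ 2 * (algebraMap A F C₁ * ω ^ m)⁻¹) ^ Q)⁻¹ - 1
        ∈ V₁.nonunits)
    (c : ℕ) :
    ∃ y₀ : F, y₀ ^ m * (σ (σ (σ g) * g * ((σ g)⁻¹) ^ 2 * (algebraMap A F C₁ * ω ^ m)⁻¹) *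
          ((σ (σ g) * g * ((σ g)⁻¹) ^ 2 * (algebraMap A F C₁ * ω ^ m)⁻¹) ^ Q)⁻¹) ^ c
        ∈ ndrLoc O 𝔫 ∧ y₀ - 1 ∈ V₁.nonunits := by
  have hprime : 𝔫.IsPrime := h𝔫.isPrime
  have ho1 := s35c_hord_gal τ ε hε m g σ hσA hστ hord
  have ho2 := s35c_hord_gal τ ε hε m (σ g) σ hσA hστ ho1
  have ho3 := s35c_hord_gal τ ε hε m (σ (σ g)) σ hσA hστ ho2
  have hg1 : σ g ≠ 0 := (map_ne_zero σ).mpr hg
  have hg2 : σ (σ g) ≠ 0 := (map_ne_zero σ).mpr hg1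
  have hg3 : σ (σ (σ g)) ≠ 0 := (map_ne_zero σ).mpr hg2
  have L : ∀ f : F, f ≠ 0 → (∀ V : ValuationSubring F, (∀ a : A, algebraMap A F a ∈ V) →
      (algebraMap A F τ)⁻¹ ∈ V → IsPrincipalIdealRing V →
      ∃ u : F, u ≠ 0 ∧ f * u ^ m ∈ V ∧ (f * u ^ m)⁻¹ ∈ V) → S34Loc τ m O f 𝔫 :=
    fun f hf ho => s35c_loc_one τ hτ0 O hfrac V₁ V₂ hOV hτV₁ hVτ hD m hm 𝔫 h𝔫 h1 r hr hr𝔫 f hf ho
  exact s35co_onept τ hτ0 O 𝔫 V₁ V₂ (fun x hx => (hOV x hx).1) (fun x hx => (hOV x hx).2)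
    hfrac hτV₁ hτgen₁ hdec₁ hVτ h1 r hr hr𝔫 hD m hm σ Q hσu₁ g hg (L g hg hord)
    (L _ hg1 ho1) (L _ hg2 ho2) (L _ hg3 ho3) C₁ C₁' hC₁ hC₁' hσC ω hω hW1 c

/-- The local datum (for the first component) at a closed point of the first component, for a
function `g` whose normalisation is `≡ 1` on the SECOND component and `≡ C` on the first (the
swapped function `w f₀`). -/
theorem s35c_dat_w (τ ε : A) (hε : IsUnit ε) (hτ0 : algebraMap A F τ ≠ 0)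
    (O : Subalgebra A F) [IsNoetherianRing ↥O]
    (hfrac : ∀ x : F, ∃ a ∈ O, ∃ s ∈ O, s ≠ 0 ∧ x * s = a)
    (V₁ V₂ : ValuationSubring F) (hOV : ∀ x ∈ O, x ∈ V₁ ∧ x ∈ V₂)
    (hτV₁ : algebraMap A F τ ∈ V₁.nonunits) (hτV₂ : algebraMap A F τ ∈ V₂.nonunits)
    (hτgen₁ : ∀ x ∈ V₁.nonunits, x * (algebraMap A F τ)⁻¹ ∈ V₁)
    (hτgen₂ : ∀ x ∈ V₂.nonunits, x * (algebraMap A F τ)⁻¹ ∈ V₂)
    (hdec₁ : ∀ z : F, z ≠ 0 → ∃ j : ℤ, z * algebraMap A F τ ^ j ∈ V₁ ∧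
      (z * algebraMap A F τ ^ j)⁻¹ ∈ V₁)
    (hdec₂ : ∀ z : F, z ≠ 0 → ∃ j : ℤ, z * algebraMap A F τ ^ j ∈ V₂ ∧
      (z * algebraMap A F τ ^ j)⁻¹ ∈ V₂)
    (hVτ : ∀ x ∈ O, x ∈ V₁.nonunits → x ∈ V₂.nonunits → ∃ y ∈ O, x = algebraMap A F τ * y)
    (hdiv : ∀ x ∈ O, x * (algebraMap A F τ)⁻¹ ∈ V₁ → x * (algebraMap A F τ)⁻¹ ∈ V₂ →
      x * (algebraMap A F τ)⁻¹ ∈ O)
    (hD : ∀ 𝔭 : Ideal ↥O, (∀ x : ↥O, x ∈ 𝔭 ↔ (x : F) ∈ V₁.nonunits) →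
      IsDedekindDomain (↥O ⧸ 𝔭))
    (m : ℕ) (hm : 0 < m)
    (x y : F) (hx0 : x ≠ 0) (hy0 : y ≠ 0) (hx₁ : x ∈ V₁.nonunits) (hx₂' : x⁻¹ ∈ V₂)
    (hy₂ : y ∈ V₂.nonunits) (hy₁' : y⁻¹ ∈ V₁)
    (σ : F ≃+* F) (Q : ℕ)
    (hστ : σ (algebraMap A F τ) = algebraMap A F ε * algebraMap A F τ)
    (hσA : ∀ a : A, ∃ a' : A, σ (algebraMap A F a) = algebraMap A F a')
    (hσu₁ : ∀ g : F, g ≠ 0 → σ g * g⁻¹ ∈ V₁) (hσu₂ : ∀ g : F, g ≠ 0 → σ g * g⁻¹ ∈ V₂)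
    (𝔫 : Ideal ↥O) (h𝔫 : 𝔫.IsMaximal)
    (h1 : ∀ x : ↥O, (x : F) ∈ V₁.nonunits → x ∈ 𝔫)
    (hN : (∀ x : ↥O, (x : F) ∈ V₂.nonunits → x ∈ 𝔫) → S35Node O 𝔫 V₁ V₂ x y σ Q)
    (g : F) (hg : g ≠ 0)
    (hord : ∀ V : ValuationSubring F, (∀ a : A, algebraMap A F a ∈ V) →
      (algebraMap A F τ)⁻¹ ∈ V → IsPrincipalIdealRing V →
      ∃ u : F, u ≠ 0 ∧ g * u ^ m ∈ V ∧ (g * u ^ m)⁻¹ ∈ V)
    (hnode : (∀ x : ↥O, (x : F) ∈ V₂.nonunits → x ∈ 𝔫) → S34Loc τ m O g 𝔫)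
    (C₁ C₁' : A) (hC₁ : IsUnit C₁) (hC₁' : IsUnit C₁')
    (hσC : σ (algebraMap A F C₁) = algebraMap A F C₁')
    (ω : F) (hω : ω ≠ 0) (C : A) (hC : IsUnit C)
    (hF1 : σ (σ g) * g * ((σ g)⁻¹) ^ 2 * (algebraMap A F C₁ * ω ^ m)⁻¹ - 1 ∈ V₂.nonunits)
    (hFC : σ (σ g) * g * ((σ g)⁻¹) ^ 2 * (algebraMap A F C₁ * ω ^ m)⁻¹ - algebraMap A F C
      ∈ V₁.nonunits)
    (hW1 : σ (σ (σ g) * g * ((σ g)⁻¹) ^ 2 * (algebraMap A F C₁ * ω ^ m)⁻¹) *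
          ((σ (σ g) * g * ((σ g)⁻¹) ^ 2 * (algebraMap A F C₁ * ω ^ m)⁻¹) ^ Q)⁻¹ - 1
        ∈ V₁.nonunits)
    (c : ℕ) :
    ∃ y₀ : F, y₀ ^ m * (σ (σ (σ g) * g * ((σ g)⁻¹) ^ 2 * (algebraMap A F C₁ * ω ^ m)⁻¹) *
          ((σ (σ g) * g * ((σ g)⁻¹) ^ 2 * (algebraMap A F C₁ * ω ^ m)⁻¹) ^ Q)⁻¹) ^ c
        ∈ ndrLoc O 𝔫 ∧ y₀ - 1 ∈ V₁.nonunits := by
  classical
  have hprime : 𝔫.IsPrime := h𝔫.isPrime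
  by_cases h2 : ∀ x : ↥O, (x : F) ∈ V₂.nonunits → x ∈ 𝔫
  · obtain ⟨n1, n2, n3, n4, n5, n6⟩ := hN h2
    obtain ⟨γ, -, hγ1, a, b, ha, hb, e⟩ := s35cc_cross τ ε hε hτ0 O 𝔫 V₂ V₁
      (fun z hz => (hOV z hz).2) (fun z hz => (hOV z hz).1) hfrac hτV₂ hτV₁ hτgen₂ hτgen₁
      hdec₂ hdec₁ (fun z hz ha hb => hVτ z hz hb ha) (fun z hz ha hb => hdiv z hz hb ha)
      h2 h1 y x hy0 hx0 hy₂ hy₁' hx₁ hx₂' n2 n1 n4 n3 σ Q hστ hσu₂ hσu₁ n5 n6 m hm g hg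
      (hnode h2) C₁ hC₁ ω hω hF1 C hC hFC
    exact s35pt_dat_of_gamma O 𝔫 V₁ m _ γ hγ1 a b hb e c
  · push Not at h2
    obtain ⟨r, hr, hr𝔫⟩ := h2
    exact s35c_dat_one τ ε hε hτ0 O hfrac V₁ V₂ hOV hτV₁ hτgen₁ hdec₁ hVτ hD m hm σ Q hστ hσA
      hσu₁ 𝔫 h𝔫 h1 r hr hr𝔫 g hg hord C₁ C₁' hC₁ hC₁' hσC ω hω hW1 c

/-- The local datum in ideal form at a closed point of the first component, for a function `g`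
whose normalisation is `≡ 1` on the first component and `≡ C` on the second. -/
theorem s35c_j_on (τ ε : A) (hε : IsUnit ε) (hτ0 : algebraMap A F τ ≠ 0)
    (O : Subalgebra A F) [IsNoetherianRing ↥O]
    (hfrac : ∀ x : F, ∃ a ∈ O, ∃ s ∈ O, s ≠ 0 ∧ x * s = a)
    (V₁ V₂ : ValuationSubring F) (hOV : ∀ x ∈ O, x ∈ V₁ ∧ x ∈ V₂)
    (hτV₁ : algebraMap A F τ ∈ V₁.nonunits) (hτV₂ : algebraMap A F τ ∈ V₂.nonunits)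
    (hτgen₁ : ∀ x ∈ V₁.nonunits, x * (algebraMap A F τ)⁻¹ ∈ V₁)
    (hτgen₂ : ∀ x ∈ V₂.nonunits, x * (algebraMap A F τ)⁻¹ ∈ V₂)
    (hdec₁ : ∀ z : F, z ≠ 0 → ∃ j : ℤ, z * algebraMap A F τ ^ j ∈ V₁ ∧
      (z * algebraMap A F τ ^ j)⁻¹ ∈ V₁)
    (hdec₂ : ∀ z : F, z ≠ 0 → ∃ j : ℤ, z * algebraMap A F τ ^ j ∈ V₂ ∧
      (z * algebraMap A F τ ^ j)⁻¹ ∈ V₂)
    (hVτ : ∀ x ∈ O, x ∈ V₁.nonunits → x ∈ V₂.nonunits → ∃ y ∈ O, x = algebraMap A F τ * y)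
    (hdiv : ∀ x ∈ O, x * (algebraMap A F τ)⁻¹ ∈ V₁ → x * (algebraMap A F τ)⁻¹ ∈ V₂ →
      x * (algebraMap A F τ)⁻¹ ∈ O)
    (hD : ∀ 𝔭 : Ideal ↥O, (∀ x : ↥O, x ∈ 𝔭 ↔ (x : F) ∈ V₁.nonunits) →
      IsDedekindDomain (↥O ⧸ 𝔭))
    (V' : Subalgebra A F) (hmem : ∀ z : F, z ∈ V' ↔ z ∈ V₁ ∧ z ∈ V₂)
    (hVunit : ∀ z : F, z * (algebraMap A F τ)⁻¹ ∈ V' → (1 + z)⁻¹ ∈ V')
    (m : ℕ) (hm : 0 < m)
    (x y : F) (hx0 : x ≠ 0) (hy0 : y ≠ 0) (hx₁ : x ∈ V₁.nonunits) (hx₂' : x⁻¹ ∈ V₂)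
    (hy₂ : y ∈ V₂.nonunits) (hy₁' : y⁻¹ ∈ V₁)
    (σ : F ≃+* F) (Q : ℕ)
    (hστ : σ (algebraMap A F τ) = algebraMap A F ε * algebraMap A F τ)
    (hσA : ∀ a : A, ∃ a' : A, σ (algebraMap A F a) = algebraMap A F a')
    (hσu₁ : ∀ g : F, g ≠ 0 → σ g * g⁻¹ ∈ V₁) (hσu₂ : ∀ g : F, g ≠ 0 → σ g * g⁻¹ ∈ V₂)
    (𝔫 : Ideal ↥O) (h𝔫 : 𝔫.IsMaximal)
    (h1 : ∀ x : ↥O, (x : F) ∈ V₁.nonunits → x ∈ 𝔫)
    (hN : (∀ x : ↥O, (x : F) ∈ V₂.nonunits → x ∈ 𝔫) → S35Node O 𝔫 V₁ V₂ x y σ Q)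
    (g : F) (hg : g ≠ 0)
    (hord : ∀ V : ValuationSubring F, (∀ a : A, algebraMap A F a ∈ V) →
      (algebraMap A F τ)⁻¹ ∈ V → IsPrincipalIdealRing V →
      ∃ u : F, u ≠ 0 ∧ g * u ^ m ∈ V ∧ (g * u ^ m)⁻¹ ∈ V)
    (hnode : (∀ x : ↥O, (x : F) ∈ V₂.nonunits → x ∈ 𝔫) → S34Loc τ m O g 𝔫)
    (C₁ C₁' : A) (hC₁ : IsUnit C₁) (hC₁' : IsUnit C₁')
    (hσC : σ (algebraMap A F C₁) = algebraMap A F C₁')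
    (ω : F) (hω : ω ≠ 0) (C : A) (hC : IsUnit C)
    (hF1 : σ (σ g) * g * ((σ g)⁻¹) ^ 2 * (algebraMap A F C₁ * ω ^ m)⁻¹ - 1 ∈ V₁.nonunits)
    (hFC : σ (σ g) * g * ((σ g)⁻¹) ^ 2 * (algebraMap A F C₁ * ω ^ m)⁻¹ - algebraMap A F C
      ∈ V₂.nonunits)
    (hW1 : σ (σ (σ g) * g * ((σ g)⁻¹) ^ 2 * (algebraMap A F C₁ * ω ^ m)⁻¹) *
          ((σ (σ g) * g * ((σ g)⁻¹) ^ 2 * (algebraMap A F C₁ * ω ^ m)⁻¹) ^ Q)⁻¹ - 1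
        ∈ V₁.nonunits)
    (hW2 : σ (σ (σ g) * g * ((σ g)⁻¹) ^ 2 * (algebraMap A F C₁ * ω ^ m)⁻¹) *
          ((σ (σ g) * g * ((σ g)⁻¹) ^ 2 * (algebraMap A F C₁ * ω ^ m)⁻¹) ^ Q)⁻¹ - 1
        ∈ V₂.nonunits)
    (c : ℕ) (hc : c ≤ m) :
    ∃ x' : ↥O, x' ∉ 𝔫 ∧ ∃ y' : F,
      y' ^ m * (σ (σ (σ g) * g * ((σ g)⁻¹) ^ 2 * (algebraMap A F C₁ * ω ^ m)⁻¹) *
          ((σ (σ g) * g * ((σ g)⁻¹) ^ 2 * (algebraMap A F C₁ * ω ^ m)⁻¹) ^ Q)⁻¹) ^ c ∈ O ∧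
      (y' - (x' : F)) * (algebraMap A F τ)⁻¹ ∈ V' := by
  classical
  have hprime : 𝔫.IsPrime := h𝔫.isPrime
  by_cases h2 : ∀ x : ↥O, (x : F) ∈ V₂.nonunits → x ∈ 𝔫
  · obtain ⟨n1, n2, n3, n4, n5, n6⟩ := hN h2
    obtain ⟨γ, hγ1, hγ2, a, b, ha, hb, e⟩ := s35cc_cross τ ε hε hτ0 O 𝔫 V₁ V₂
      (fun z hz => (hOV z hz).1) (fun z hz => (hOV z hz).2) hfrac hτV₁ hτV₂ hτgen₁ hτgen₂
      hdec₁ hdec₂ hVτ hdiv h1 h2 x y hx0 hy0 hx₁ hx₂' hy₂ hy₁' n1 n2 n3 n4 σ Q hστ hσu₁ hσu₂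
      n5 n6 m hm g hg (hnode h2) C₁ hC₁ ω hω hF1 C hC hFC
    have hτinv : (algebraMap A F τ)⁻¹ ∉ V' := by
      intro h
      have h3 := s35pt_nu_mul V₁ hτV₁ ((hmem _).mp h).1
      rw [mul_inv_cancel₀ hτ0] at h3
      exact s35pt_one_not_nu V₁ h3
    exact s35j_of_gamma m _ O V' τ (fun z hz => (hmem z).mpr (hOV z hz)) hτinv hVunit 𝔫 γ
      ((hmem _).mpr ⟨hτgen₁ _ hγ1, hτgen₂ _ hγ2⟩) a b hb e c hc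
  · push Not at h2
    obtain ⟨r, hr, hr𝔫⟩ := h2
    obtain ⟨y₀, hy₀, hy₀1⟩ := s35c_dat_one τ ε hε hτ0 O hfrac V₁ V₂ hOV hτV₁ hτgen₁ hdec₁ hVτ
      hD m hm σ Q hστ hσA hσu₁ 𝔫 h𝔫 h1 r hr hr𝔫 g hg hord C₁ C₁' hC₁ hC₁' hσC ω hω hW1 c
    obtain ⟨hW0, hWi⟩ := s35c_unit_of_sub_one V₂ hW2
    obtain ⟨x', hx', y', hy', j1, j2⟩ := s35pt_j_of_dat τ O 𝔫 V₁ V₂
      (fun z hz => (hOV z hz).1) (fun z hz => (hOV z hz).2) hτgen₁ hτgen₂ r hr hr𝔫 m hm _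
      hW0 hWi c y₀ hy₀ hy₀1
    exact ⟨x', hx', y', hy', (hmem _).mpr ⟨j1, j2⟩⟩

/-- The local datum in ideal form at a closed point OFF the first component, by transfer along
the swap from a chart `O'` mapped into the local ring. -/
theorem s35c_j_off (τ : A) (O O' : Subalgebra A F) (w : F ≃+* F)
    (hwA : ∀ a : A, w (algebraMap A F a) = algebraMap A F a)
    (V₁ V₂ : ValuationSubring F) (hOV : ∀ x ∈ O, x ∈ V₁ ∧ x ∈ V₂)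
    (hτgen₁ : ∀ x ∈ V₁.nonunits, x * (algebraMap A F τ)⁻¹ ∈ V₁)
    (hτgen₂ : ∀ x ∈ V₂.nonunits, x * (algebraMap A F τ)⁻¹ ∈ V₂)
    (hVτ : ∀ x ∈ O, x ∈ V₁.nonunits → x ∈ V₂.nonunits → ∃ y ∈ O, x = algebraMap A F τ * y)
    (hwV : ∀ x ∈ V₁.nonunits, w x ∈ V₂.nonunits) (m : ℕ) (hm : 0 < m) (W W' : F)
    (hwW : w W' = W) (hW0 : W ≠ 0) (hW₁ : W⁻¹ ∈ V₁) (c : ℕ)
    (hdat' : ∀ (𝔫' : Ideal ↥O') (h𝔫' : 𝔫'.IsMaximal),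
      (∀ x : ↥O', (x : F) ∈ V₁.nonunits → x ∈ 𝔫') →
      ∃ y₀ : F, y₀ ^ m * W' ^ c ∈ ndrLoc O' 𝔫' ∧ y₀ - 1 ∈ V₁.nonunits)
    (𝔫 : Ideal ↥O) (h𝔫 : 𝔫.IsMaximal) (hτ𝔫 : algebraMap A ↥O τ ∈ 𝔫)
    (hoff : ∃ r : ↥O, (r : F) ∈ V₁.nonunits ∧ r ∉ 𝔫)
    (hdom : ∀ x : ↥O', ∃ a s : ↥O, s ∉ 𝔫 ∧ w (x : F) * (s : F) = a) :
    ∃ x' : ↥O, x' ∉ 𝔫 ∧ ∃ y' : F, y' ^ m * W ^ c ∈ O ∧
      (y' - (x' : F)) * (algebraMap A F τ)⁻¹ ∈ V₁ ∧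
      (y' - (x' : F)) * (algebraMap A F τ)⁻¹ ∈ V₂ := by
  have hprime : 𝔫.IsPrime := h𝔫.isPrime
  obtain ⟨r, hr, hr𝔫⟩ := hoff
  have hp₂ : ∀ y : ↥O, (y : F) ∈ V₂.nonunits → y ∈ 𝔫 := by
    intro y hy
    obtain ⟨z, hz, hzy⟩ := hVτ ((r : F) * (y : F)) (O.mul_mem r.2 y.2)
      (cz_nonunits_mul V₁ hr (hOV y y.2).1)
      (by rw [mul_comm]; exact cz_nonunits_mul V₂ hy (hOV r r.2).2)
    have hry : r * y ∈ 𝔫 := by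
      have : r * y = algebraMap A ↥O τ * ⟨z, hz⟩ := Subtype.ext hzy
      rw [this]
      exact 𝔫.mul_mem_right _ hτ𝔫
    exact (hprime.mem_or_mem hry).resolve_left hr𝔫
  obtain ⟨𝔫', htop, -, hp₁', hunit⟩ := s34ib_centre τ O O' w hwA V₁ V₂
    (fun x hx => (hOV x hx).2) hwV 𝔫 hτ𝔫 hp₂ hdom
  obtain ⟨𝔫'', hmax, hle⟩ := Ideal.exists_le_maximal 𝔫' htop
  have hprime'' : 𝔫''.IsPrime := hmax.isPrime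
  obtain ⟨y₀', hy₀', hy₀1'⟩ := hdat' 𝔫'' hmax (fun x hx => hle (hp₁' x hx))
  obtain ⟨t1, t2⟩ := s35pt_transfer O O' w 𝔫 𝔫'' hdom
    (fun x hx => hunit x (fun hx' => hx (hle hx'))) V₂ V₁ hwV m c W' y₀' hy₀' hy₀1'
  rw [hwW] at t1
  obtain ⟨x', hx', y', hy', j2, j1⟩ := s35pt_j_of_dat τ O 𝔫 V₂ V₁
    (fun z hz => (hOV z hz).2) (fun z hz => (hOV z hz).1) hτgen₂ hτgen₁ r hr hr𝔫 m hm W
    hW0 hW₁ c (w y₀') t1 t2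
  exact ⟨x', hx', y', hy', j1, j2⟩

end Abs

section Main

variable {A0 K0 F : Type*} [CommRing A0] [IsDomain A0] [IsDiscreteValuationRing A0]
  [Field K0] [Algebra A0 K0] [IsFractionRing A0 K0] [CharZero K0]
  [Field F] [Algebra A0 F] [Algebra K0 F] [IsScalarTower A0 K0 F]

/-- **CORE-ABS.**  The abstract geometric core of S35 (the analogue of `s34ib_main`).
First block of binders = `s34ib_main` verbatim (through `hmA`). -/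
theorem s35c_main (V₁ V₂ : ValuationSubring F)
    (hA : ∀ a : A0, algebraMap A0 F a ∈ V₁) (hA₂ : ∀ a : A0, algebraMap A0 F a ∈ V₂)
    {τ : A0} (hτ : Irreducible τ) (hτV : algebraMap A0 F τ ∈ V₁.nonunits)
    (hτV₂ : algebraMap A0 F τ ∈ V₂.nonunits)
    (hτgen₁ : ∀ x ∈ V₁.nonunits, x * (algebraMap A0 F τ)⁻¹ ∈ V₁)
    (hτgen₂ : ∀ x ∈ V₂.nonunits, x * (algebraMap A0 F τ)⁻¹ ∈ V₂) (t : F)
    (ht : Transcendental K0 t) (htV : t ∈ V₁) (htV' : t⁻¹ ∈ V₁)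
    (htV₂ : t ∈ V₂) (htV₂' : t⁻¹ ∈ V₂)
    (hG : ∀ p : A0[X], (∃ i, ¬ τ ∣ p.coeff i) → aeval t p ∉ V₁.nonunits)
    (hfin : ∃ (n : ℕ) (β : Fin n → F), ∀ x : F, ∃ (a : Fin n → A0[X]) (d : A0[X]),
      aeval t d ≠ 0 ∧ aeval t d * x = ∑ i, aeval t (a i) * β i)
    (hex : ∀ O' : ValuationSubring F, ChtSame K0 V₁ t O' → O' = V₁ ∨ O' = V₂)
    (hconst : ∀ x : F, IsAlgebraic K0 x → ∃ c : K0, algebraMap K0 F c = x)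
    (m : ℕ) (hm2 : 2 ≤ m) (hmA : IsUnit (m : A0))
    -- NEW: both valuations are discrete with uniformiser `τ`
    (hdec₁ : ∀ z : F, z ≠ 0 → ∃ j : ℤ, z * algebraMap A0 F τ ^ j ∈ V₁ ∧
      (z * algebraMap A0 F τ ^ j)⁻¹ ∈ V₁)
    (hdec₂ : ∀ z : F, z ≠ 0 → ∃ j : ℤ, z * algebraMap A0 F τ ^ j ∈ V₂ ∧
      (z * algebraMap A0 F τ ^ j)⁻¹ ∈ V₂)
    -- NEW: local equations of the two components (`x = h^q - θ`, `y = h - θ^q`)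
    (x y : F) (hx₁ : x ∈ V₁.nonunits) (hx₂ : x ∈ V₂) (hx₂' : x⁻¹ ∈ V₂)
    (hy₂ : y ∈ V₂.nonunits) (hy₁ : y ∈ V₁) (hy₁' : y⁻¹ ∈ V₁)
    (hx0 : x ≠ 0) (hy0 : y ≠ 0)
    -- the automorphism `σ` (square of a Frobenius lift; `Q = q ^ 2`)
    (σ : F ≃+* F) (Q : ℕ) (ε : A0) (hε : IsUnit ε)
    (hστ : σ (algebraMap A0 F τ) = algebraMap A0 F ε * algebraMap A0 F τ)
    (hσA : ∀ a : A0, ∃ a' : A0, σ (algebraMap A0 F a) = algebraMap A0 F a' ∧ τ ∣ a' - a ^ Q)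
    (hσu₁ : ∀ g : F, g ≠ 0 → σ g * g⁻¹ ∈ V₁) (hσu₂ : ∀ g : F, g ≠ 0 → σ g * g⁻¹ ∈ V₂)
    -- the swap (an involution exchanging the two valuations, commuting with `σ`)
    (w : F ≃+* F) (hwA : ∀ a : A0, w (algebraMap A0 F a) = algebraMap A0 F a)
    (hww : ∀ z : F, w (w z) = z)
    (hwV : ∀ z ∈ V₁.nonunits, w z ∈ V₂.nonunits) (hwV' : ∀ z ∈ V₂.nonunits, w z ∈ V₁.nonunits)
    (hwσ : ∀ z : F, w (σ z) = σ (w z))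
    -- the FIRST component of the special fibre of each chart has a Dedekind coordinate ring
    (hD₀ : ∀ 𝔭 : Ideal ↥(chtO A0 {t}),
      (∀ x : ↥(chtO A0 {t}), x ∈ 𝔭 ↔ (x : F) ∈ V₁.nonunits) →
      IsDedekindDomain (↥(chtO A0 {t}) ⧸ 𝔭))
    (hD₁ : ∀ 𝔭 : Ideal ↥(chtO A0 {t⁻¹}),
      (∀ x : ↥(chtO A0 {t⁻¹}), x ∈ 𝔭 ↔ (x : F) ∈ V₁.nonunits) →
      IsDedekindDomain (↥(chtO A0 {t⁻¹}) ⧸ 𝔭))
    -- domination: at a closed point off the first component, `w t` or `w t⁻¹` is regular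
    (hdom₀ : ∀ 𝔫 : Ideal ↥(chtO A0 {t}), 𝔫.IsMaximal →
      algebraMap A0 ↥(chtO A0 {t}) τ ∈ 𝔫 →
      (∃ r : ↥(chtO A0 {t}), (r : F) ∈ V₁.nonunits ∧ r ∉ 𝔫) →
      (∃ a s : ↥(chtO A0 {t}), s ∉ 𝔫 ∧ w t * (s : F) = a) ∨
      (∃ a s : ↥(chtO A0 {t}), s ∉ 𝔫 ∧ w t⁻¹ * (s : F) = a))
    (hdom₁ : ∀ 𝔫 : Ideal ↥(chtO A0 {t⁻¹}), 𝔫.IsMaximal →
      algebraMap A0 ↥(chtO A0 {t⁻¹}) τ ∈ 𝔫 →
      (∃ r : ↥(chtO A0 {t⁻¹}), (r : F) ∈ V₁.nonunits ∧ r ∉ 𝔫) →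
      (∃ a s : ↥(chtO A0 {t⁻¹}), s ∉ 𝔫 ∧ w t * (s : F) = a) ∨
      (∃ a s : ↥(chtO A0 {t⁻¹}), s ∉ 𝔫 ∧ w t⁻¹ * (s : F) = a))
    -- the function
    (f₀ : F) (hf₀ : f₀ ≠ 0)
    (hdiv : ∀ P : AlgebraicCurve.Place K0 F, (m : ℤ) ∣ P.ord f₀)
    -- (LOC) at the crossing points of the two charts, for `f₀` and `w f₀` (as in `s34ib_main`)
    (hnode₀ : ∀ f : F, f = f₀ ∨ f = w f₀ →
      ∀ 𝔫 : Ideal ↥(chtO A0 {t}), 𝔫.IsMaximal →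
      (∀ x : ↥(chtO A0 {t}), (x : F) ∈ V₁.nonunits → x ∈ 𝔫) →
      (∀ x : ↥(chtO A0 {t}), (x : F) ∈ V₂.nonunits → x ∈ 𝔫) →
      S34Loc τ m (chtO A0 {t}) f 𝔫)
    (hnode₁ : ∀ f : F, f = f₀ ∨ f = w f₀ →
      ∀ 𝔫 : Ideal ↥(chtO A0 {t⁻¹}), 𝔫.IsMaximal →
      (∀ x : ↥(chtO A0 {t⁻¹}), (x : F) ∈ V₁.nonunits → x ∈ 𝔫) →
      (∀ x : ↥(chtO A0 {t⁻¹}), (x : F) ∈ V₂.nonunits → x ∈ 𝔫) →
      S34Loc τ m (chtO A0 {t⁻¹}) f 𝔫)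
    -- NEW: the node data at the crossing points of the two charts
    (hN₀ : ∀ 𝔫 : Ideal ↥(chtO A0 {t}), 𝔫.IsMaximal →
      (∀ x : ↥(chtO A0 {t}), (x : F) ∈ V₁.nonunits → x ∈ 𝔫) →
      (∀ x : ↥(chtO A0 {t}), (x : F) ∈ V₂.nonunits → x ∈ 𝔫) →
      S35Node (chtO A0 {t}) 𝔫 V₁ V₂ x y σ Q)
    (hN₁ : ∀ 𝔫 : Ideal ↥(chtO A0 {t⁻¹}), 𝔫.IsMaximal →
      (∀ x : ↥(chtO A0 {t⁻¹}), (x : F) ∈ V₁.nonunits → x ∈ 𝔫) →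
      (∀ x : ↥(chtO A0 {t⁻¹}), (x : F) ∈ V₂.nonunits → x ∈ 𝔫) →
      S35Node (chtO A0 {t⁻¹}) 𝔫 V₁ V₂ x y σ Q)
    -- NEW: the residues of `W0 = (σ - 1)² f₀` on the two components are constants times
    -- `m`-th powers (output of CORE-RES: norm-residue formula + twisted Kronecker)
    (hres : ∃ (C₁ C₂ : A0) (w₁ w₂ : F), IsUnit C₁ ∧ IsUnit C₂ ∧
      w₁ ∈ V₁ ∧ w₁⁻¹ ∈ V₁ ∧ w₂ ∈ V₂ ∧ w₂⁻¹ ∈ V₂ ∧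
      σ (σ f₀) * f₀ * ((σ f₀)⁻¹) ^ 2 - algebraMap A0 F C₁ * w₁ ^ m ∈ V₁.nonunits ∧
      σ (σ f₀) * f₀ * ((σ f₀)⁻¹) ^ 2 - algebraMap A0 F C₂ * w₂ ^ m ∈ V₂.nonunits) :
    ∃ (c : K0) (G : F), G ≠ 0 ∧
      σ (σ (σ f₀) * f₀ * ((σ f₀)⁻¹) ^ 2) =
        algebraMap K0 F c * G ^ m * (σ (σ f₀) * f₀ * ((σ f₀)⁻¹) ^ 2) ^ Q := by
  classical
  have hm : 0 < m := by omega
  obtain ⟨h1, h2, h3, ⟨b0, hb0, hspan0⟩, ⟨b1, hb1, hspan1⟩, h01, h10, hfrac0, hroot0, hroot1,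
    hcap, hV0, hV1, hdiv0, hdiv1, hVτ0, hVτ1⟩ :=
    cht2_all (K0 := K0) V₁ V₂ hA hA₂ hτ hτV hτgen₁ hτgen₂ t ht htV htV' htV₂ htV₂' hG hfin hex
      hconst m hm
  have ht0 : t ≠ 0 := left_ne_zero_of_mul_eq_one h1
  have hτmax : τ ∈ IsLocalRing.maximalIdeal A0 := by
    rw [IsLocalRing.mem_maximalIdeal, mem_nonunits_iff]
    exact hτ.not_isUnit
  have hτ0 : algebraMap A0 F τ ≠ 0 := by
    rw [IsScalarTower.algebraMap_apply A0 K0 F, Ne, map_eq_zero,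
      map_eq_zero_iff _ (IsFractionRing.injective A0 K0)]
    exact hτ.ne_zero
  have hτinv₁ : (algebraMap A0 F τ)⁻¹ ∉ V₁ := fun h =>
    cz_one_not_mem_nonunits V₁ (by
      have := cz_nonunits_mul V₁ hτV h
      rwa [mul_inv_cancel₀ hτ0] at this)
  have hτinv₂ : (algebraMap A0 F τ)⁻¹ ∉ V₂ := fun h =>
    cz_one_not_mem_nonunits V₂ (by
      have := cz_nonunits_mul V₂ hτV₂ h
      rwa [mul_inv_cancel₀ hτ0] at this)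
  have hNoe0 : IsNoetherianRing ↥(chtO A0 {t}) := cz_noeth t _ h2 b0 hb0 hspan0
  have hNoe1 : IsNoetherianRing ↥(chtO A0 {t⁻¹}) := cz_noeth t⁻¹ _ h3 b1 hb1 hspan1
  have hfrac1 : ∀ x : F, ∃ a ∈ chtO A0 {t⁻¹}, ∃ s ∈ chtO A0 {t⁻¹}, s ≠ 0 ∧ x * s = a := by
    have ht' : Transcendental K0 t⁻¹ := fun h => ht (IsAlgebraic.inv_iff.mp h)
    have htA' : Transcendental A0 t⁻¹ := fun h =>
      ht' (h.extendScalars (IsFractionRing.injective A0 K0))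
    exact cht_hfrac t⁻¹ htA' (cht_hfin_inv (R := A0) t ht0 hfin)
  -- the valuation-subring form of `m ∣ ord`, for `f₀` and `w f₀`
  have hord := cinst_hord (K := K0) τ hτ m f₀ hdiv
  have hwA' : ∀ a : A0, w.symm (algebraMap A0 F a) = algebraMap A0 F a := fun a => by
    rw [RingEquiv.symm_apply_eq, hwA]
  have hordw : ∀ V : ValuationSubring F, (∀ a : A0, algebraMap A0 F a ∈ V) →
      (algebraMap A0 F τ)⁻¹ ∈ V → IsPrincipalIdealRing V →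
      ∃ u : F, u ≠ 0 ∧ w f₀ * u ^ m ∈ V ∧ (w f₀ * u ^ m)⁻¹ ∈ V :=
    s34ib_hord_symm τ w.symm hwA' m f₀ hord
  have hfw : w f₀ ≠ 0 := (map_ne_zero w).mpr hf₀
  have hσA' : ∀ a : A0, ∃ a' : A0, σ (algebraMap A0 F a) = algebraMap A0 F a' :=
    fun a => (hσA a).imp fun _ h => h.1
  -- (G4) the normalisation
  obtain ⟨e, he₁, he₂⟩ := s35n2_sep V₁ V₂ x y hx0 hy0 hx₁ hx₂' hy₂ hy₁'
  obtain ⟨hW00, -, hW0i₁⟩ := s35n2_W0_unit V₁ σ hσu₁ f₀ hf₀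
  obtain ⟨-, -, hW0i₂⟩ := s35n2_W0_unit V₂ σ hσu₂ f₀ hf₀
  obtain ⟨C₁, C, ω, hC₁, hC, hω0, -, -, -, -, hF1, hFC⟩ := s35n2_norm_res τ V₁ V₂ hA hA₂
    hτgen₁ hτgen₂ hτV hτV₂ hτ0 hdec₁ hdec₂ e he₁ he₂ m hm _ hW00 hW0i₁ hW0i₂ hres
  obtain ⟨h7₁, h7₂⟩ := s35n2_frob τ V₁ V₂ hA₂ hτgen₁ hτgen₂ hτV₂ σ Q hσA hσu₁ hσu₂ _ C hC
    hF1 hFC
  obtain ⟨C₁', hσC, k, hk⟩ := hσA C₁
  have hC₁' : IsUnit C₁' := by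
    have h : C₁' = C₁ ^ Q + τ * k := by rw [← hk]; ring
    rw [h]
    exact s35pt_unit_add (hC₁.pow Q) (Ideal.mul_mem_right _ _ hτmax)
  set F₂ : F := σ (σ f₀) * f₀ * ((σ f₀)⁻¹) ^ 2 * (algebraMap A0 F C₁ * ω ^ m)⁻¹ with hF₂
  set W : F := σ F₂ * (F₂ ^ Q)⁻¹ with hW
  have hW1 : W - 1 ∈ V₁.nonunits := by
    have h : W - 1 = algebraMap A0 F τ * ((W - 1) * (algebraMap A0 F τ)⁻¹) := by
      rw [mul_comm (algebraMap A0 F τ), mul_assoc, inv_mul_cancel₀ hτ0, mul_one]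
    rw [h]
    exact s35pt_nu_mul V₁ hτV h7₁
  have hW2 : W - 1 ∈ V₂.nonunits := by
    have h : W - 1 = algebraMap A0 F τ * ((W - 1) * (algebraMap A0 F τ)⁻¹) := by
      rw [mul_comm (algebraMap A0 F τ), mul_assoc, inv_mul_cancel₀ hτ0, mul_one]
    rw [h]
    exact s35pt_nu_mul V₂ hτV₂ h7₂
  obtain ⟨hW0, hWi₁⟩ := s35c_unit_of_sub_one V₁ hW1
  -- the swapped function
  have hwω0 : w ω ≠ 0 := (map_ne_zero w).mpr hω0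
  set G₂ : F := σ (σ (w f₀)) * w f₀ * ((σ (w f₀))⁻¹) ^ 2 * (algebraMap A0 F C₁ * (w ω) ^ m)⁻¹
    with hG₂
  have hwF : G₂ = w F₂ := by
    rw [hG₂, hF₂]
    simp only [map_mul, map_inv₀, map_pow, hwσ, hwA]
  set W' : F := σ G₂ * (G₂ ^ Q)⁻¹ with hW'
  have hW'eq : W' = w W := by
    rw [hW', hW, hwF]
    simp only [map_mul, map_inv₀, map_pow, hwσ]
  have hwW : w W' = W := by rw [hW'eq, hww]
  have hF1' : G₂ - 1 ∈ V₂.nonunits := by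
    have h := hwV _ hF1
    rwa [map_sub, map_one, ← hwF] at h
  have hFC' : G₂ - algebraMap A0 F C ∈ V₁.nonunits := by
    have h := hwV' _ hFC
    rwa [map_sub, hwA, ← hwF] at h
  have hW1' : W' - 1 ∈ V₁.nonunits := by
    have h := hwV' _ hW2
    rwa [map_sub, map_one, ← hW'eq] at h
  -- the subalgebra `V₁ ∩ V₂`
  let V' : Subalgebra A0 F :=
    { (V₁.toSubring ⊓ V₂.toSubring).toSubsemiring with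
      algebraMap_mem' := fun a => And.intro (hA a) (hA₂ a) }
  have hmem : ∀ z : F, z ∈ V' ↔ z ∈ V₁ ∧ z ∈ V₂ := fun z => Iff.rfl
  have hVunit : ∀ z : F, z * (algebraMap A0 F τ)⁻¹ ∈ V' → (1 + z)⁻¹ ∈ V' :=
    fun z hz => (hmem _).mpr ⟨core_val_unit V₁ _ z hτinv₁ ((hmem _).mp hz).1,
      core_val_unit V₂ _ z hτinv₂ ((hmem _).mp hz).2⟩
  -- the local datum for the swapped function at the closed points of the first component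
  have hdatw : ∀ (O : Subalgebra A0 F) [IsNoetherianRing ↥O]
      (_ : ∀ z : F, ∃ a ∈ O, ∃ b ∈ O, b ≠ 0 ∧ z * b = a)
      (_ : ∀ z ∈ O, z ∈ V₁ ∧ z ∈ V₂)
      (_ : ∀ z ∈ O, z ∈ V₁.nonunits → z ∈ V₂.nonunits → ∃ y' ∈ O, z = algebraMap A0 F τ * y')
      (_ : ∀ z ∈ O, z * (algebraMap A0 F τ)⁻¹ ∈ V₁ → z * (algebraMap A0 F τ)⁻¹ ∈ V₂ →
        z * (algebraMap A0 F τ)⁻¹ ∈ O)
      (_ : ∀ 𝔭 : Ideal ↥O, (∀ z : ↥O, z ∈ 𝔭 ↔ (z : F) ∈ V₁.nonunits) →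
        IsDedekindDomain (↥O ⧸ 𝔭))
      (_ : ∀ f : F, f = f₀ ∨ f = w f₀ → ∀ 𝔫 : Ideal ↥O, 𝔫.IsMaximal →
        (∀ z : ↥O, (z : F) ∈ V₁.nonunits → z ∈ 𝔫) →
        (∀ z : ↥O, (z : F) ∈ V₂.nonunits → z ∈ 𝔫) → S34Loc τ m O f 𝔫)
      (_ : ∀ 𝔫 : Ideal ↥O, 𝔫.IsMaximal →
        (∀ z : ↥O, (z : F) ∈ V₁.nonunits → z ∈ 𝔫) →
        (∀ z : ↥O, (z : F) ∈ V₂.nonunits → z ∈ 𝔫) → S35Node O 𝔫 V₁ V₂ x y σ Q)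
      (c : ℕ) (𝔫' : Ideal ↥O) (h𝔫' : 𝔫'.IsMaximal),
      (∀ z : ↥O, (z : F) ∈ V₁.nonunits → z ∈ 𝔫') →
      ∃ y₀ : F, y₀ ^ m * W' ^ c ∈ ndrLoc O 𝔫' ∧ y₀ - 1 ∈ V₁.nonunits := by
    intro O _ hfracO hOV hVτO hdivO hDO hnodeO hNO c 𝔫' h𝔫' h1'
    exact s35c_dat_w τ ε hε hτ0 O hfracO V₁ V₂ hOV hτV hτV₂ hτgen₁ hτgen₂ hdec₁ hdec₂
      hVτO hdivO hDO m hm x y hx0 hy0 hx₁ hx₂' hy₂ hy₁' σ Q hστ hσA' hσu₁ hσu₂ 𝔫' h𝔫' h1'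
      (fun h2' => hNO 𝔫' h𝔫' h1' h2') (w f₀) hfw hordw
      (fun h2' => hnodeO _ (Or.inr rfl) 𝔫' h𝔫' h1' h2')
      C₁ C₁' hC₁ hC₁' hσC (w ω) hwω0 C hC hF1' hFC' hW1' c
  have hdatw0 := hdatw (chtO A0 {t}) hfrac0 hV0 hVτ0 hdiv0 hD₀ hnode₀ hN₀
  have hdatw1 := hdatw (chtO A0 {t⁻¹}) hfrac1 hV1 hVτ1 hdiv1 hD₁ hnode₁ hN₁
  -- the local datum in ideal form at every closed point of the special fibre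
  have hJ : ∀ (s : Set F) [IsNoetherianRing ↥(chtO A0 s)]
      (_ : ∀ z : F, ∃ a ∈ chtO A0 s, ∃ b ∈ chtO A0 s, b ≠ 0 ∧ z * b = a)
      (_ : ∀ z ∈ chtO A0 s, z ∈ V₁ ∧ z ∈ V₂)
      (_ : ∀ z ∈ chtO A0 s, z ∈ V₁.nonunits → z ∈ V₂.nonunits →
        ∃ y' ∈ chtO A0 s, z = algebraMap A0 F τ * y')
      (_ : ∀ z ∈ chtO A0 s, z * (algebraMap A0 F τ)⁻¹ ∈ V₁ → z * (algebraMap A0 F τ)⁻¹ ∈ V₂ →
        z * (algebraMap A0 F τ)⁻¹ ∈ chtO A0 s)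
      (_ : ∀ 𝔭 : Ideal ↥(chtO A0 s), (∀ z : ↥(chtO A0 s), z ∈ 𝔭 ↔ (z : F) ∈ V₁.nonunits) →
        IsDedekindDomain (↥(chtO A0 s) ⧸ 𝔭))
      (_ : ∀ f : F, f = f₀ ∨ f = w f₀ → ∀ 𝔫 : Ideal ↥(chtO A0 s), 𝔫.IsMaximal →
        (∀ z : ↥(chtO A0 s), (z : F) ∈ V₁.nonunits → z ∈ 𝔫) →
        (∀ z : ↥(chtO A0 s), (z : F) ∈ V₂.nonunits → z ∈ 𝔫) → S34Loc τ m (chtO A0 s) f 𝔫)
      (_ : ∀ 𝔫 : Ideal ↥(chtO A0 s), 𝔫.IsMaximal →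
        (∀ z : ↥(chtO A0 s), (z : F) ∈ V₁.nonunits → z ∈ 𝔫) →
        (∀ z : ↥(chtO A0 s), (z : F) ∈ V₂.nonunits → z ∈ 𝔫) →
        S35Node (chtO A0 s) 𝔫 V₁ V₂ x y σ Q)
      (_ : ∀ 𝔫 : Ideal ↥(chtO A0 s), 𝔫.IsMaximal → algebraMap A0 ↥(chtO A0 s) τ ∈ 𝔫 →
        (∃ r : ↥(chtO A0 s), (r : F) ∈ V₁.nonunits ∧ r ∉ 𝔫) →
        (∃ a s' : ↥(chtO A0 s), s' ∉ 𝔫 ∧ w t * (s' : F) = a) ∨
        (∃ a s' : ↥(chtO A0 s), s' ∉ 𝔫 ∧ w t⁻¹ * (s' : F) = a)),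
      ∀ 𝔫 : Ideal ↥(chtO A0 s), 𝔫.IsMaximal → algebraMap A0 ↥(chtO A0 s) τ ∈ 𝔫 →
        ∀ c, c < m → ∃ x' : ↥(chtO A0 s), x' ∉ 𝔫 ∧ ∃ y' : F, y' ^ m * W ^ c ∈ chtO A0 s ∧
          (y' - (x' : F)) * (algebraMap A0 F τ)⁻¹ ∈ V' := by
    intro s _ hfracO hOV hVτO hdivO hDO hnodeO hNO hdomO 𝔫 h𝔫 hτ𝔫 c hc
    by_cases h1' : ∀ z : ↥(chtO A0 s), (z : F) ∈ V₁.nonunits → z ∈ 𝔫
    · exact s35c_j_on τ ε hε hτ0 (chtO A0 s) hfracO V₁ V₂ hOV hτV hτV₂ hτgen₁ hτgen₂ hdec₁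
        hdec₂ hVτO hdivO hDO V' hmem hVunit m hm x y hx0 hy0 hx₁ hx₂' hy₂ hy₁' σ Q hστ hσA'
        hσu₁ hσu₂ 𝔫 h𝔫 h1' (fun h2' => hNO 𝔫 h𝔫 h1' h2') f₀ hf₀ hord
        (fun h2' => hnodeO _ (Or.inl rfl) 𝔫 h𝔫 h1' h2')
        C₁ C₁' hC₁ hC₁' hσC ω hω0 C hC hF1 hFC hW1 hW2 c hc.le
    · push Not at h1'
      have hprime : 𝔫.IsPrime := h𝔫.isPrime
      have hcl : ∀ z : F, IsIntegral ↥(chtO A0 s) z → z ∈ chtO A0 s :=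
        fun z hz => cht_integral_closed s hz
      have fin : ∀ (O' : Subalgebra A0 F),
          (∀ (𝔫' : Ideal ↥O') (h𝔫' : 𝔫'.IsMaximal),
            (∀ z : ↥O', (z : F) ∈ V₁.nonunits → z ∈ 𝔫') →
            ∃ y₀ : F, y₀ ^ m * W' ^ c ∈ ndrLoc O' 𝔫' ∧ y₀ - 1 ∈ V₁.nonunits) →
          (∀ z : ↥O', ∃ a b : ↥(chtO A0 s), b ∉ 𝔫 ∧ w (z : F) * (b : F) = a) →
          ∃ x' : ↥(chtO A0 s), x' ∉ 𝔫 ∧ ∃ y' : F, y' ^ m * W ^ c ∈ chtO A0 s ∧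
            (y' - (x' : F)) * (algebraMap A0 F τ)⁻¹ ∈ V' := by
        intro O' hd hdm
        obtain ⟨x', hx', y', hy', j1, j2⟩ := s35c_j_off τ (chtO A0 s) O' w hwA V₁ V₂ hOV
          hτgen₁ hτgen₂ hVτO hwV m hm W W' hwW hW0 hWi₁ c hd 𝔫 h𝔫 hτ𝔫 h1' hdm
        exact ⟨x', hx', y', hy', (hmem _).mpr ⟨j1, j2⟩⟩
      rcases hdomO 𝔫 h𝔫 hτ𝔫 h1' with hd | hd
      · exact fin (chtO A0 {t}) (hdatw0 c) (s34ib_dom (chtO A0 s) hcl t w hwA 𝔫 hd)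
      · exact fin (chtO A0 {t⁻¹}) (hdatw1 c) (s34ib_dom (chtO A0 s) hcl t⁻¹ w hwA 𝔫 hd)
  have hloc₀ := hJ {t} hfrac0 hV0 hVτ0 hdiv0 hD₀ hnode₀ hN₀ hdom₀
  have hloc₁ := hJ {t⁻¹} hfrac1 hV1 hVτ1 hdiv1 hD₁ hnode₁ hN₁ hdom₁
  obtain ⟨c', G', hG', hWG⟩ := s35j_main (A := A0) (F := F) τ hτmax m hm2 hmA t ht0
    (chtO A0 {t}) (chtO A0 {t⁻¹}) V' h2 h3 h01 h10 hroot0 hroot1 ⟨b0, hb0, hspan0⟩
    (fun z => by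
      obtain ⟨a, ha, s, hs, hs0, h⟩ := hfrac0 z
      exact ⟨s, hs, hs0, by rw [mul_comm, h]; exact ha⟩)
    (fun z hz => (hmem z).mpr (hV0 z hz)) (fun z hz => (hmem z).mpr (hV1 z hz))
    (fun z hz => (hmem z).mpr ⟨core_val_root V₁ m hm z ((hmem _).mp hz).1,
      core_val_root V₂ m hm z ((hmem _).mp hz).2⟩)
    (fun h => hτinv₁ ((hmem _).mp h).1)
    hVunit
    (fun z hz h => hdiv0 z hz ((hmem _).mp h).1 ((hmem _).mp h).2)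
    (fun z hz h => hdiv1 z hz ((hmem _).mp h).1 ((hmem _).mp h).2)
    hcap W ((hmem _).mpr ⟨h7₁, h7₂⟩) hloc₀ hloc₁
  obtain ⟨c, G, hG0, hfin'⟩ := s35n2_finish σ Q m hσA' _ hW00 C₁ hC₁ ω hω0
    ⟨c', G', hG', hWG⟩
  exact ⟨algebraMap A0 K0 c, G, hG0, by rw [hfin', IsScalarTower.algebraMap_apply A0 K0 F]⟩

end Main

end Fermat.Agent.S35
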