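import Mathlib

/-!
# S35, package CORE-INST: the two forms of the core relation

For a ring endomorphism `σ` of a field `F`, `f ≠ 0` and `W0 = σ (σ f) * f * (σ f)⁻¹ ^ 2`
(multiplicatively `(σ - 1)² f`), the relation

  `σ W0 = c * G ^ m * W0 ^ Q`                                   (conclusion of CORE-ABS)

is equivalent to the inverse-free relation

  `σ (σ (σ f)) * (σ f) ^ (1 + 2 * Q) = c * G ^ m * (σ (σ f)) ^ (2 + Q) * f ^ Q`   (`S35hCore`).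

* `s35in_a_iff`: the equivalence;
* `s35in_a_rewrite`, `s35in_a_rewrite'`: its two directions.
-/

set_option autoImplicit false

namespace Fermat.Agent.S35

variable {F : Type*} [Field F]

/-- the two forms of the core relation are equivalent -/
theorem s35in_a_iff (σ : F →+* F) (f : F) (hf : f ≠ 0) (c G : F) (m Q : ℕ) :
    σ (σ (σ f) * f * ((σ f)⁻¹) ^ 2) = c * G ^ m * (σ (σ f) * f * ((σ f)⁻¹) ^ 2) ^ Q ↔
      σ (σ (σ f)) * (σ f) ^ (1 + 2 * Q) = c * G ^ m * (σ (σ f)) ^ (2 + Q) * f ^ Q := by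
  have hb : σ f ≠ 0 := (map_ne_zero σ).mpr hf
  have hd : σ (σ f) ≠ 0 := (map_ne_zero σ).mpr hb
  rw [map_mul, map_mul, map_pow, map_inv₀]
  generalize σ (σ (σ f)) = e
  generalize hdd : σ (σ f) = d at hd ⊢
  generalize hbb : σ f = b at hb ⊢
  have h1 : (d⁻¹) ^ 2 * d ^ 2 = 1 := by rw [← mul_pow, inv_mul_cancel₀ hd, one_pow]
  have h2 : ((b⁻¹) ^ 2) ^ Q * b ^ (2 * Q) = 1 := by
    rw [← pow_mul, ← mul_pow, inv_mul_cancel₀ hb, one_pow]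
  have hu : d ^ 2 * b ^ (2 * Q) ≠ 0 := mul_ne_zero (pow_ne_zero _ hd) (pow_ne_zero _ hb)
  have e1 : e * b ^ (1 + 2 * Q) = e * b * (d⁻¹) ^ 2 * (d ^ 2 * b ^ (2 * Q)) := by
    calc e * b ^ (1 + 2 * Q) = e * b * b ^ (2 * Q) * 1 := by rw [mul_one, pow_add, pow_one, mul_assoc]
      _ = e * b * b ^ (2 * Q) * ((d⁻¹) ^ 2 * d ^ 2) := by rw [h1]
      _ = e * b * (d⁻¹) ^ 2 * (d ^ 2 * b ^ (2 * Q)) := by ring
  have e2 : c * G ^ m * d ^ (2 + Q) * f ^ Q =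
      c * G ^ m * (d * f * (b⁻¹) ^ 2) ^ Q * (d ^ 2 * b ^ (2 * Q)) := by
    calc c * G ^ m * d ^ (2 + Q) * f ^ Q = c * G ^ m * d ^ (2 + Q) * f ^ Q * 1 := by rw [mul_one]
      _ = c * G ^ m * d ^ (2 + Q) * f ^ Q * (((b⁻¹) ^ 2) ^ Q * b ^ (2 * Q)) := by rw [h2]
      _ = c * G ^ m * (d * f * (b⁻¹) ^ 2) ^ Q * (d ^ 2 * b ^ (2 * Q)) := by
        rw [mul_pow, mul_pow, pow_add]
        ring
  rw [e1, e2]
  exact ⟨fun h => by rw [h], fun h => mul_right_cancel₀ hu h⟩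

/-- from the conclusion of CORE-ABS to the inverse-free form -/
theorem s35in_a_rewrite (σ : F →+* F) (f : F) (hf : f ≠ 0) (c G : F) (m Q : ℕ)
    (h : σ (σ (σ f) * f * ((σ f)⁻¹) ^ 2) = c * G ^ m * (σ (σ f) * f * ((σ f)⁻¹) ^ 2) ^ Q) :
    σ (σ (σ f)) * (σ f) ^ (1 + 2 * Q) = c * G ^ m * (σ (σ f)) ^ (2 + Q) * f ^ Q :=
  (s35in_a_iff σ f hf c G m Q).mp h

/-- from the inverse-free form to the conclusion of CORE-ABS -/
theorem s35in_a_rewrite' (σ : F →+* F) (f : F) (hf : f ≠ 0) (c G : F) (m Q : ℕ)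
    (h : σ (σ (σ f)) * (σ f) ^ (1 + 2 * Q) = c * G ^ m * (σ (σ f)) ^ (2 + Q) * f ^ Q) :
    σ (σ (σ f) * f * ((σ f)⁻¹) ^ 2) = c * G ^ m * (σ (σ f) * f * ((σ f)⁻¹) ^ 2) ^ Q :=
  (s35in_a_iff σ f hf c G m Q).mpr h

end Fermat.Agent.S35
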