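import Mathlib
import Fermat.Agent.S35.HCoreDef
import Fermat.Agent.S35.FrobKron
import Fermat.Agent.S34.InstInputs
import Fermat.Agent.S34.InstChoice
import Fermat.Agent.S34.SigmaInst

/-!
# S35, package CORE-INST, layer 3 (InstReduce): reduction to a statement over a generic field

* `S35inField M q m K0 s`: the Kummer form of the geometric core of S35 over a field `K0`, for
  the coefficientwise action `Φ` of `s * s` on the level-`M q` function field over `K0`:
  a nonzero function `f₀`, all of whose orders are divisible by `m`, whose zeros and poles are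
  `K0`-rational, and whose two norms to the level `M` are constants times `m`-th powers,
  satisfies `Φ³ f₀ · (Φ f₀) ^ (1 + 2 q²) = w · G ^ m · (Φ² f₀) ^ (2 + q²) · f₀ ^ (q²)`.
* `s35in_one`: the statement for `m = 1`.
* `s35in_reduce`: if `S35inField M q m K0 s` holds for every GENERIC field of definition `K0`
  with a discrete valuation subring `A0` over `q`, a Frobenius element `s` of `A0` at `q` and
  base points `c0, c1 ∈ A0` satisfying the hypotheses which `s34if_inputs` provides over number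
  fields, then `S35hCore K1 (φ * φ) M q m` holds for all number fields `K1` containing a finite
  set, for every Frobenius element `φ` at `q`.
-/

set_option autoImplicit false
set_option linter.unusedSectionVars false

noncomputable section

open ModularCurve AlgebraicCurve Polynomial
open Fermat.Agent.S18 Fermat.Agent.S37 Fermat.Agent.S34

namespace Fermat.Agent.S35

local notation "Qb" => AlgebraicClosure ℚ

/-- **The core statement of S35 over a field of definition `K0`**, for the coefficientwise action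
of `s * s` on the level-`M q` function field over `K0`. -/
def S35inField (M q m : ℕ) [NeZero M] [NeZero q] (K0 : Type*) [Field K0] [Algebra ℚ K0]
    (s : K0 ≃ₐ[ℚ] K0) : Prop :=
  ∀ f0 : ↥(laurentBaseChange K0 (modularFunctionFieldFull (M * q))), f0 ≠ 0 →
    (∀ Q : Place K0 ↥(laurentBaseChange K0 (modularFunctionFieldFull (M * q))),
      (m : ℤ) ∣ Q.ord f0) →
    (∀ Q : Place K0 ↥(laurentBaseChange K0 (modularFunctionFieldFull (M * q))), Q.ord f0 ≠ 0 →
      Q.deg = 1 ∧ ∀ y ∈ Q.toValuationSubring, ∃ c : K0,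
        y - algebraMap K0 ↥(laurentBaseChange K0 (modularFunctionFieldFull (M * q))) c ∈
          Q.toValuationSubring.nonunits) →
    (∃ (c : K0) (e : ↥(laurentBaseChange K0 (modularFunctionFieldFull M))),
      s35NormA K0 M q f0 =
        algebraMap K0 ↥(laurentBaseChange K0 (modularFunctionFieldFull M)) c * e ^ m) →
    (∃ (c : K0) (e : ↥(laurentBaseChange K0 (modularFunctionFieldFull M))),
      s35NormB K0 M q f0 =
        algebraMap K0 ↥(laurentBaseChange K0 (modularFunctionFieldFull M)) c * e ^ m) →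
    ∃ (w : K0) (G : ↥(laurentBaseChange K0 (modularFunctionFieldFull (M * q)))), G ≠ 0 ∧
      arithmeticRingAut (modularFunctionFieldFull (M * q)) (s * s)
          (arithmeticRingAut (modularFunctionFieldFull (M * q)) (s * s)
            (arithmeticRingAut (modularFunctionFieldFull (M * q)) (s * s) f0)) *
        arithmeticRingAut (modularFunctionFieldFull (M * q)) (s * s) f0 ^ (1 + 2 * q ^ 2) =
      algebraMap K0 ↥(laurentBaseChange K0 (modularFunctionFieldFull (M * q))) w * G ^ m *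
        arithmeticRingAut (modularFunctionFieldFull (M * q)) (s * s)
          (arithmeticRingAut (modularFunctionFieldFull (M * q)) (s * s) f0) ^ (2 + q ^ 2) *
        f0 ^ (q ^ 2)

/-- the case `m = 1` -/
theorem s35in_one (M q : ℕ) [NeZero M] [NeZero q] (K0 : Type*) [Field K0] [Algebra ℚ K0]
    (s : K0 ≃ₐ[ℚ] K0) : S35inField M q 1 K0 s := by
  intro f0 hf0 _ _ _ _
  set Φ := arithmeticRingAut (modularFunctionFieldFull (M * q)) (s * s) with hΦ
  have h1 : Φ f0 ≠ 0 := (_root_.map_ne_zero _).mpr hf0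
  have h2 : Φ (Φ f0) ≠ 0 := (_root_.map_ne_zero _).mpr h1
  have h3 : Φ (Φ (Φ f0)) ≠ 0 := (_root_.map_ne_zero _).mpr h2
  have hd : Φ (Φ f0) ^ (2 + q ^ 2) * f0 ^ (q ^ 2) ≠ 0 :=
    mul_ne_zero (pow_ne_zero _ h2) (pow_ne_zero _ hf0)
  refine ⟨1, Φ (Φ (Φ f0)) * Φ f0 ^ (1 + 2 * q ^ 2) / (Φ (Φ f0) ^ (2 + q ^ 2) * f0 ^ (q ^ 2)),
    div_ne_zero (mul_ne_zero h3 (pow_ne_zero _ h1)) hd, ?_⟩
  rw [map_one, one_mul, pow_one, mul_assoc, div_mul_cancel₀ _ hd]

/-- **CORE-INST, reduction to the generic-field form.** -/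
theorem s35in_reduce (M q : ℕ) [NeZero M] [hq : Fact q.Prime] (hM : ¬ q ∣ M) {a2 : ℕ}
    (H : HauptRec a2 q) (ha2 : a2 ∣ M) (A : ValuationSubring Qb) (hA : A.LiesOverPrime q)
    (φ : Qb ≃ₐ[ℚ] Qb) (hφ : A.IsFrobeniusAt φ q) (m : ℕ) (hm : m ≠ 0)
    (hfield : ∀ (K0 : Type) [Field K0] [Algebra ℚ K0] [Algebra K0 Qb]
      (A0 : ValuationSubring K0) [IsDiscreteValuationRing ↥A0]
      [Finite (IsLocalRing.ResidueField ↥A0)],
      A0.LiesOverPrime q → ∀ s : K0 ≃ₐ[ℚ] K0, A0.IsFrobeniusAt s q → ∀ c0 c1 : A0,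
      IsLocalRing.residue ↥A0 c0 ≠ IsLocalRing.residue ↥A0 c1 →
      smi2U A0 (aeval (c0 : K0) H.Qrad) → smi2U A0 (aeval (c1 : K0) H.Qrad) →
      cinstSMChart K0 A0 M H (c0 : K0) (c1 : K0) →
      cinstSMChart K0 A0 M H (c1 : K0) (c0 : K0) →
      unrChart K0 A0 M H c0 c1 → unrChart K0 A0 M H c1 c0 →
      2 ≤ m → S35inField M q m K0 s) :
    ∃ T : Finset Qb, ∀ (K1 : IntermediateField ℚ Qb) [FiniteDimensional ℚ K1] [Normal ℚ K1],
      (∀ c ∈ T, c ∈ K1) → S35hCore K1 (φ * φ) M q m := by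
  classical
  obtain ⟨c0, c1, hc0, hc1, h01, hQ0, hQ1, -, -⟩ := s34ic_choice hq.out H A hA
  obtain ⟨T, hT⟩ := s34if_inputs M q hM H ha2 A hA c0 c1 hc0 hc1 h01 hQ0 hQ1
  refine ⟨T ∪ {c0, c1}, fun K1 _ _ hTK => ?_⟩
  have h0 : c0 ∈ K1 := hTK c0 (by simp)
  have h1 : c1 ∈ K1 := hTK c1 (by simp)
  have hdvr := (dvd_isDVR_comap q hq.out.ne_zero A hA K1).1
  obtain ⟨hA0, hfin, hc, hQ0', hQ1', hSM0, hSM1, hu0, hu1⟩ :=
    hT K1 (fun c hc => hTK c (Finset.mem_union_left _ hc)) h0 h1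
  have hs : (A.comap (algebraMap ↥K1 Qb)).IsFrobeniusAt (φ.restrictNormal ↥K1) q :=
    @fkr_frobenius_restrict ℚ Qb _ _ _ A K1 ‹_› φ q hφ
  have hmul : (φ * φ).restrictNormal ↥K1 = φ.restrictNormal ↥K1 * φ.restrictNormal ↥K1 :=
    map_mul (AlgEquiv.restrictNormalHom (F := ℚ) (K₁ := Qb) ↥K1) φ φ
  have key : S35inField M q m ↥K1 (φ.restrictNormal ↥K1) := by
    by_cases hm1 : m = 1
    · subst hm1
      exact s35in_one M q ↥K1 _
    · exact hfield ↥K1 (A.comap (algebraMap ↥K1 Qb)) hA0 (φ.restrictNormal ↥K1) hs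
        ⟨⟨c0, h0⟩, ValuationSubring.mem_comap.mpr hc0⟩
        ⟨⟨c1, h1⟩, ValuationSubring.mem_comap.mpr hc1⟩ hc hQ0' hQ1' hSM0 hSM1 hu0 hu1
        (by omega)
  intro f0 hf0 hdiv hrat hNa hNb
  obtain ⟨w, G, hG, hrel⟩ := key f0 hf0 hdiv
    (fun Q hQ => ⟨(hrat Q hQ).1, (hrat Q hQ).2.2⟩) hNa hNb
  refine ⟨w, G, hG, ?_⟩
  simp only [sgi_smul]
  rw [hmul]
  exact hrel

end Fermat.Agent.S35
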