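import Mathlib
import Fermat.Agent.S34.InstAbs2
import Fermat.Agent.S34.InstFinal

/-!
# S35, leaf CORE-LOCALL: the local statement (LOC) at every closed point of both charts

`S34Loc τ m O f 𝔫` (file `S34/InstAbs.lean`) says that, for some `g ≠ 0`, the quotient
`f / g ^ m` is a unit of `O_𝔫[1/τ]`.  Inside `s34ib_main` it is established at every closed
point of the special fibre of the two charts; here this is exported for an ARBITRARY function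
whose divisor is divisible by `m` and has rational support (valuation-subring forms `hord`,
`hrat` of these two hypotheses, which are stable under all automorphisms preserving the
constants).

* `s35la_hord_gal`, `s35la_hrat_gal`: transport of `hord`, `hrat` along a ring automorphism of
  `F` which maps constants to constants and `τ` to a unit multiple of `τ` (the coefficientwise
  action of a Galois automorphism of the base field; the pointwise-fixing case is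
  `lni_hord_comap`, `lni_hrat_comap`).
* `s35la_abs`: the abstract form (binders of `s34ib_main` without the automorphism `σ`).
* `s35la_field`: the level-`M q` modular function field over a field of definition `K0`: (LOC)
  at every closed point of the special fibres of the two Hauptmodul charts `chtO A0 {t}`,
  `chtO A0 {t⁻¹}`, for every function with `hord` and `hrat`.
* `s35la_place`: the same from the `Place` forms of the two hypotheses.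
-/

set_option autoImplicit false
set_option linter.unusedSectionVars false

noncomputable section

open ModularCurve AlgebraicCurve Polynomial
open Fermat.Agent.S18 Fermat.Agent.S37 Fermat.Agent.S34

namespace Fermat.Agent.S35

local notation "Qb" => AlgebraicClosure ℚ

/-! ### Transport along a semilinear automorphism -/

section Transport

variable {A F : Type*} [CommRing A] [Field F] [Algebra A F]

/-- Transport of the hypothesis `hord` along a ring automorphism mapping constants to constants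
and `τ` to a unit multiple of `τ`. -/
theorem s35la_hord_gal (τ ε : A) (hε : IsUnit ε) (m : ℕ) (f : F) (φ : F ≃+* F)
    (hφA : ∀ a : A, ∃ a' : A, φ (algebraMap A F a) = algebraMap A F a')
    (hφτ : φ (algebraMap A F τ) = algebraMap A F ε * algebraMap A F τ)
    (hord : ∀ V : ValuationSubring F, (∀ a : A, algebraMap A F a ∈ V) →
      (algebraMap A F τ)⁻¹ ∈ V → IsPrincipalIdealRing V →
      ∃ w : F, w ≠ 0 ∧ f * w ^ m ∈ V ∧ (f * w ^ m)⁻¹ ∈ V) :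
    ∀ V : ValuationSubring F, (∀ a : A, algebraMap A F a ∈ V) →
      (algebraMap A F τ)⁻¹ ∈ V → IsPrincipalIdealRing V →
      ∃ w : F, w ≠ 0 ∧ φ f * w ^ m ∈ V ∧ (φ f * w ^ m)⁻¹ ∈ V := by
  intro V hAV hτV hV
  obtain ⟨ε', hε'⟩ := hε.exists_left_inv
  obtain ⟨w, hw0, h1, h2⟩ := hord (V.comap (φ : F →+* F))
    (fun a => by
      rw [ValuationSubring.mem_comap]
      show φ (algebraMap A F a) ∈ V
      obtain ⟨a', ha'⟩ := hφA a
      rw [ha']; exact hAV a')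
    (by
      rw [ValuationSubring.mem_comap]
      show φ (algebraMap A F τ)⁻¹ ∈ V
      have h0 : algebraMap A F ε' * algebraMap A F ε = 1 := by
        rw [← map_mul, hε', map_one]
      have h3 : (algebraMap A F ε * algebraMap A F τ)⁻¹ =
          algebraMap A F ε' * (algebraMap A F τ)⁻¹ := by
        rw [mul_inv, inv_eq_of_mul_eq_one_left h0]
      rw [map_inv₀, hφτ, h3]
      exact V.mul_mem _ _ (hAV ε') hτV)
    (lni_pir_comap V φ hV)
  refine ⟨φ w, (map_ne_zero φ).mpr hw0, ?_, ?_⟩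
  · have h3 : φ (f * w ^ m) ∈ V := h1
    rwa [map_mul, map_pow] at h3
  · have h3 : φ (f * w ^ m)⁻¹ ∈ V := h2
    rwa [map_inv₀, map_mul, map_pow] at h3

/-- Transport of the hypothesis `hrat` along a ring automorphism mapping constants to constants
and `τ` to a unit multiple of `τ`. -/
theorem s35la_hrat_gal (hinj : Function.Injective (algebraMap A F)) (τ ε : A) (hε : IsUnit ε)
    (f : F) (φ : F ≃+* F)
    (hφA : ∀ a : A, ∃ a' : A, φ (algebraMap A F a) = algebraMap A F a')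
    (hφτ : φ (algebraMap A F τ) = algebraMap A F ε * algebraMap A F τ)
    (hrat : ∀ V : ValuationSubring F, (∀ a : A, algebraMap A F a ∈ V) →
      (algebraMap A F τ)⁻¹ ∈ V → IsPrincipalIdealRing V → V ≠ ⊤ → (f ∉ V ∨ f⁻¹ ∉ V) →
      ∀ y ∈ V, ∃ a b : A, b ≠ 0 ∧ algebraMap A F b * y - algebraMap A F a ∈ V.nonunits) :
    ∀ V : ValuationSubring F, (∀ a : A, algebraMap A F a ∈ V) →
      (algebraMap A F τ)⁻¹ ∈ V → IsPrincipalIdealRing V → V ≠ ⊤ → (φ f ∉ V ∨ (φ f)⁻¹ ∉ V) →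
      ∀ y ∈ V, ∃ a b : A, b ≠ 0 ∧ algebraMap A F b * y - algebraMap A F a ∈ V.nonunits := by
  intro V hAV hτV hV hVtop hfV y hy
  obtain ⟨ε', hε'⟩ := hε.exists_left_inv
  have hmem : ∀ x : F, x ∈ V.comap (φ : F →+* F) ↔ φ x ∈ V := fun x => Iff.rfl
  have hV'top : V.comap (φ : F →+* F) ≠ ⊤ := by
    intro h
    apply hVtop
    refine SetLike.ext fun x => ⟨fun _ => ValuationSubring.mem_top x, fun _ => ?_⟩
    have h1 : φ.symm x ∈ V.comap (φ : F →+* F) := by rw [h]; exact ValuationSubring.mem_top _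
    rw [hmem, RingEquiv.apply_symm_apply] at h1
    exact h1
  have hfV' : f ∉ V.comap (φ : F →+* F) ∨ f⁻¹ ∉ V.comap (φ : F →+* F) := by
    rcases hfV with h | h
    · exact Or.inl fun h' => h ((hmem f).mp h')
    · refine Or.inr fun h' => h ?_
      have h1 := (hmem f⁻¹).mp h'
      rwa [map_inv₀] at h1
  obtain ⟨a, b, hb, hab⟩ := hrat (V.comap (φ : F →+* F))
    (fun a => by
      rw [hmem]
      obtain ⟨a', ha'⟩ := hφA a
      rw [ha']; exact hAV a')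
    (by
      have h0 : algebraMap A F ε' * algebraMap A F ε = 1 := by
        rw [← map_mul, hε', map_one]
      have h3 : (algebraMap A F ε * algebraMap A F τ)⁻¹ =
          algebraMap A F ε' * (algebraMap A F τ)⁻¹ := by
        rw [mul_inv, inv_eq_of_mul_eq_one_left h0]
      rw [hmem, map_inv₀, hφτ, h3]
      exact V.mul_mem _ _ (hAV ε') hτV)
    (lni_pir_comap V φ hV) hV'top hfV' (φ.symm y)
    (by rw [hmem, RingEquiv.apply_symm_apply]; exact hy)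
  obtain ⟨a', ha'⟩ := hφA a
  obtain ⟨b', hb'⟩ := hφA b
  refine ⟨a', b', ?_, ?_⟩
  · rintro rfl
    rw [map_zero] at hb'
    have h4 : algebraMap A F b = 0 := (map_eq_zero φ).mp hb'
    exact hb (hinj (by rw [h4, map_zero]))
  · have h1 := (lni_nonunits_comap V φ _).mp hab
    rwa [map_sub, map_mul, ha', hb', RingEquiv.apply_symm_apply] at h1

end Transport

/-! ### The abstract form -/

section Abs

variable {A0 K0 F : Type*} [CommRing A0] [IsDomain A0] [IsDiscreteValuationRing A0]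
  [Field K0] [Algebra A0 K0] [IsFractionRing A0 K0] [CharZero K0]
  [Field F] [Algebra A0 F] [Algebra K0 F] [IsScalarTower A0 K0 F]

/-- **(LOC) at every closed point of both charts, abstract form.**  Binders of `s34ib_main`
without the automorphism `σ`; the divisibility hypothesis is taken in its valuation-subring
form `hord`. -/
theorem s35la_abs (V₁ V₂ : ValuationSubring F)
    (hA : ∀ a : A0, algebraMap A0 F a ∈ V₁) (hA₂ : ∀ a : A0, algebraMap A0 F a ∈ V₂)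
    {τ : A0} (hτ : Irreducible τ) (hτV : algebraMap A0 F τ ∈ V₁.nonunits)
    (hτgen₁ : ∀ x ∈ V₁.nonunits, x * (algebraMap A0 F τ)⁻¹ ∈ V₁)
    (hτgen₂ : ∀ x ∈ V₂.nonunits, x * (algebraMap A0 F τ)⁻¹ ∈ V₂) (t : F)
    (ht : Transcendental K0 t) (htV : t ∈ V₁) (htV' : t⁻¹ ∈ V₁)
    (htV₂ : t ∈ V₂) (htV₂' : t⁻¹ ∈ V₂)
    (hG : ∀ p : A0[X], (∃ i, ¬ τ ∣ p.coeff i) → aeval t p ∉ V₁.nonunits)
    (hfin : ∃ (n : ℕ) (β : Fin n → F), ∀ x : F, ∃ (a : Fin n → A0[X]) (d : A0[X]),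
      aeval t d ≠ 0 ∧ aeval t d * x = ∑ i, aeval t (a i) * β i)
    (hex : ∀ O' : ValuationSubring F, ChtSame K0 V₁ t O' → O' = V₁ ∨ O' = V₂)
    (hconst : ∀ x : F, IsAlgebraic K0 x → ∃ c : K0, algebraMap K0 F c = x)
    (m : ℕ) (hm : 0 < m)
    -- the swap
    (w : F ≃+* F) (hwA : ∀ a : A0, w (algebraMap A0 F a) = algebraMap A0 F a)
    (hwV : ∀ x ∈ V₁.nonunits, w x ∈ V₂.nonunits)
    -- the FIRST component of the special fibre of each chart has a Dedekind coordinate ring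
    (hD₀ : ∀ 𝔭 : Ideal ↥(chtO A0 {t}),
      (∀ x : ↥(chtO A0 {t}), x ∈ 𝔭 ↔ (x : F) ∈ V₁.nonunits) →
      IsDedekindDomain (↥(chtO A0 {t}) ⧸ 𝔭))
    (hD₁ : ∀ 𝔭 : Ideal ↥(chtO A0 {t⁻¹}),
      (∀ x : ↥(chtO A0 {t⁻¹}), x ∈ 𝔭 ↔ (x : F) ∈ V₁.nonunits) →
      IsDedekindDomain (↥(chtO A0 {t⁻¹}) ⧸ 𝔭))
    -- domination: at a closed point off the first component, `w t` or `w t⁻¹` is regular
    (hdom₀ : ∀ 𝔫 : Ideal ↥(chtO A0 {t}), 𝔫.IsMaximal →
      algebraMap A0 ↥(chtO A0 {t}) τ ∈ 𝔫 →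
      (∃ r : ↥(chtO A0 {t}), (r : F) ∈ V₁.nonunits ∧ r ∉ 𝔫) →
      (∃ a s : ↥(chtO A0 {t}), s ∉ 𝔫 ∧ w t * (s : F) = a) ∨
      (∃ a s : ↥(chtO A0 {t}), s ∉ 𝔫 ∧ w t⁻¹ * (s : F) = a))
    (hdom₁ : ∀ 𝔫 : Ideal ↥(chtO A0 {t⁻¹}), 𝔫.IsMaximal →
      algebraMap A0 ↥(chtO A0 {t⁻¹}) τ ∈ 𝔫 →
      (∃ r : ↥(chtO A0 {t⁻¹}), (r : F) ∈ V₁.nonunits ∧ r ∉ 𝔫) →
      (∃ a s : ↥(chtO A0 {t⁻¹}), s ∉ 𝔫 ∧ w t * (s : F) = a) ∨
      (∃ a s : ↥(chtO A0 {t⁻¹}), s ∉ 𝔫 ∧ w t⁻¹ * (s : F) = a))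
    (f₀ : F) (hf₀ : f₀ ≠ 0)
    (hord : ∀ V : ValuationSubring F, (∀ a : A0, algebraMap A0 F a ∈ V) →
      (algebraMap A0 F τ)⁻¹ ∈ V → IsPrincipalIdealRing V →
      ∃ u : F, u ≠ 0 ∧ f₀ * u ^ m ∈ V ∧ (f₀ * u ^ m)⁻¹ ∈ V)
    -- (LOC) at the crossing points of the two charts, for `f₀` and `w⁻¹ f₀`
    (hnode₀ : ∀ f : F, f = f₀ ∨ f = w.symm f₀ →
      ∀ 𝔫 : Ideal ↥(chtO A0 {t}), 𝔫.IsMaximal →
      (∀ x : ↥(chtO A0 {t}), (x : F) ∈ V₁.nonunits → x ∈ 𝔫) →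
      (∀ x : ↥(chtO A0 {t}), (x : F) ∈ V₂.nonunits → x ∈ 𝔫) →
      S34Loc τ m (chtO A0 {t}) f 𝔫)
    (hnode₁ : ∀ f : F, f = f₀ ∨ f = w.symm f₀ →
      ∀ 𝔫 : Ideal ↥(chtO A0 {t⁻¹}), 𝔫.IsMaximal →
      (∀ x : ↥(chtO A0 {t⁻¹}), (x : F) ∈ V₁.nonunits → x ∈ 𝔫) →
      (∀ x : ↥(chtO A0 {t⁻¹}), (x : F) ∈ V₂.nonunits → x ∈ 𝔫) →
      S34Loc τ m (chtO A0 {t⁻¹}) f 𝔫) :
    (∀ 𝔫 : Ideal ↥(chtO A0 {t}), 𝔫.IsMaximal → algebraMap A0 ↥(chtO A0 {t}) τ ∈ 𝔫 →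
      S34Loc τ m (chtO A0 {t}) f₀ 𝔫) ∧
    (∀ 𝔫 : Ideal ↥(chtO A0 {t⁻¹}), 𝔫.IsMaximal → algebraMap A0 ↥(chtO A0 {t⁻¹}) τ ∈ 𝔫 →
      S34Loc τ m (chtO A0 {t⁻¹}) f₀ 𝔫) := by
  classical
  obtain ⟨h1, h2, h3, ⟨b0, hb0, hspan0⟩, ⟨b1, hb1, hspan1⟩, h01, h10, hfrac0, hroot0, hroot1,
    hcap, hV0, hV1, hdiv0, hdiv1, hVτ0, hVτ1⟩ :=
    cht2_all (K0 := K0) V₁ V₂ hA hA₂ hτ hτV hτgen₁ hτgen₂ t ht htV htV' htV₂ htV₂' hG hfin hex
      hconst m hm
  have ht0 : t ≠ 0 := left_ne_zero_of_mul_eq_one h1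
  have hτ0 : algebraMap A0 F τ ≠ 0 := by
    rw [IsScalarTower.algebraMap_apply A0 K0 F, Ne, map_eq_zero,
      map_eq_zero_iff _ (IsFractionRing.injective A0 K0)]
    exact hτ.ne_zero
  have hN0 : IsNoetherianRing ↥(chtO A0 {t}) := cz_noeth t _ h2 b0 hb0 hspan0
  have hN1 : IsNoetherianRing ↥(chtO A0 {t⁻¹}) := cz_noeth t⁻¹ _ h3 b1 hb1 hspan1
  have hfrac1 : ∀ x : F, ∃ a ∈ chtO A0 {t⁻¹}, ∃ s ∈ chtO A0 {t⁻¹}, s ≠ 0 ∧ x * s = a := by
    have ht' : Transcendental K0 t⁻¹ := fun h => ht (IsAlgebraic.inv_iff.mp h)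
    have htA' : Transcendental A0 t⁻¹ := fun h =>
      ht' (h.extendScalars (IsFractionRing.injective A0 K0))
    exact cht_hfrac t⁻¹ htA' (cht_hfin_inv (R := A0) t ht0 hfin)
  have hordw := s34ib_hord_symm τ w hwA m f₀ hord
  have hfw : w.symm f₀ ≠ 0 := by simpa using hf₀
  -- (LOC) at the closed points on the first component, for both functions
  have hon : ∀ (O : Subalgebra A0 F) [IsNoetherianRing ↥O]
      (_ : ∀ x : F, ∃ a ∈ O, ∃ s ∈ O, s ≠ 0 ∧ x * s = a)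
      (_ : ∀ x ∈ O, x ∈ V₁ ∧ x ∈ V₂)
      (_ : ∀ x ∈ O, x ∈ V₁.nonunits → x ∈ V₂.nonunits → ∃ y ∈ O, x = algebraMap A0 F τ * y)
      (_ : ∀ 𝔭 : Ideal ↥O, (∀ x : ↥O, x ∈ 𝔭 ↔ (x : F) ∈ V₁.nonunits) →
        IsDedekindDomain (↥O ⧸ 𝔭))
      (_ : ∀ f : F, f = f₀ ∨ f = w.symm f₀ → ∀ 𝔫 : Ideal ↥O, 𝔫.IsMaximal →
        (∀ x : ↥O, (x : F) ∈ V₁.nonunits → x ∈ 𝔫) →
        (∀ x : ↥O, (x : F) ∈ V₂.nonunits → x ∈ 𝔫) → S34Loc τ m O f 𝔫),
      ∀ f : F, f = f₀ ∨ f = w.symm f₀ → ∀ 𝔫 : Ideal ↥O, 𝔫.IsMaximal →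
        (∀ x : ↥O, (x : F) ∈ V₁.nonunits → x ∈ 𝔫) → S34Loc τ m O f 𝔫 := by
    intro O _ hfracO hOV hVτO hDO hnodeO f hf 𝔫 h𝔫 h1
    rcases hf with rfl | rfl
    · exact s34ib_loc_on τ hτ0 O hfracO V₁ V₂ hOV hτV hVτO hDO m hm _ hf₀ hord
        (hnodeO _ (Or.inl rfl)) 𝔫 h𝔫 h1
    · exact s34ib_loc_on τ hτ0 O hfracO V₁ V₂ hOV hτV hVτO hDO m hm _ hfw hordw
        (hnodeO _ (Or.inr rfl)) 𝔫 h𝔫 h1
  have hon0 := hon (chtO A0 {t}) hfrac0 hV0 hVτ0 hD₀ hnode₀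
  have hon1 := hon (chtO A0 {t⁻¹}) hfrac1 hV1 hVτ1 hD₁ hnode₁
  -- (LOC) at every closed point
  have key : ∀ (s : Set F)
      (_ : ∀ x ∈ chtO A0 s, x ∈ V₁ ∧ x ∈ V₂)
      (_ : ∀ x ∈ chtO A0 s, x ∈ V₁.nonunits → x ∈ V₂.nonunits →
        ∃ y ∈ chtO A0 s, x = algebraMap A0 F τ * y)
      (_ : ∀ f : F, f = f₀ ∨ f = w.symm f₀ → ∀ 𝔫 : Ideal ↥(chtO A0 s), 𝔫.IsMaximal →
        (∀ x : ↥(chtO A0 s), (x : F) ∈ V₁.nonunits → x ∈ 𝔫) → S34Loc τ m (chtO A0 s) f 𝔫)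
      (_ : ∀ 𝔫 : Ideal ↥(chtO A0 s), 𝔫.IsMaximal → algebraMap A0 ↥(chtO A0 s) τ ∈ 𝔫 →
        (∃ r : ↥(chtO A0 s), (r : F) ∈ V₁.nonunits ∧ r ∉ 𝔫) →
        (∃ a s' : ↥(chtO A0 s), s' ∉ 𝔫 ∧ w t * (s' : F) = a) ∨
        (∃ a s' : ↥(chtO A0 s), s' ∉ 𝔫 ∧ w t⁻¹ * (s' : F) = a)),
      ∀ 𝔫 : Ideal ↥(chtO A0 s), 𝔫.IsMaximal → algebraMap A0 ↥(chtO A0 s) τ ∈ 𝔫 →
        S34Loc τ m (chtO A0 s) f₀ 𝔫 := by
    intro s hOV hVτO honO hdomO 𝔫 h𝔫 hτ𝔫
    by_cases h1 : ∀ x : ↥(chtO A0 s), (x : F) ∈ V₁.nonunits → x ∈ 𝔫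
    · exact honO f₀ (Or.inl rfl) 𝔫 h𝔫 h1
    · push Not at h1
      have : 𝔫.IsPrime := h𝔫.isPrime
      have hcl : ∀ x : F, IsIntegral ↥(chtO A0 s) x → x ∈ chtO A0 s :=
        fun x hx => cht_integral_closed s hx
      rcases hdomO 𝔫 h𝔫 hτ𝔫 h1 with hd | hd
      · exact s34ib_loc_off τ (chtO A0 s) (chtO A0 {t}) w hwA V₁ V₂ hOV hVτO hwV m f₀
          (fun 𝔫' h𝔫' h1' => hon0 _ (Or.inr rfl) 𝔫' h𝔫' h1') 𝔫 h𝔫 hτ𝔫 h1
          (s34ib_dom (chtO A0 s) hcl t w hwA 𝔫 hd)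
      · exact s34ib_loc_off τ (chtO A0 s) (chtO A0 {t⁻¹}) w hwA V₁ V₂ hOV hVτO hwV m f₀
          (fun 𝔫' h𝔫' h1' => hon1 _ (Or.inr rfl) 𝔫' h𝔫' h1') 𝔫 h𝔫 hτ𝔫 h1
          (s34ib_dom (chtO A0 s) hcl t⁻¹ w hwA 𝔫 hd)
  exact ⟨key {t} hV0 hVτ0 hon0 hdom₀, key {t⁻¹} hV1 hVτ1 hon1 hdom₁⟩

end Abs

/-! ### The modular function field of level `M q` over a field of definition -/

section Field

variable (M q : ℕ) [NeZero M] [hq : Fact q.Prime] (hM : ¬ q ∣ M)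
  (K0 : Type*) [Field K0] [Algebra ℚ K0] [Algebra K0 Qb]
  (A0 : ValuationSubring K0) [IsDiscreteValuationRing ↥A0]
  {a2 : ℕ} (H : HauptRec a2 q)

/-- the swap fixes the constants -/
theorem s35la_swap_const
    [Algebra A0 ↥(laurentBaseChange K0 (modularFunctionFieldFull (M * q)))]
    [IsScalarTower A0 K0 ↥(laurentBaseChange K0 (modularFunctionFieldFull (M * q)))]
    (a : A0) :
    va2SwapEquiv M q hq.out hM K0
        (algebraMap A0 ↥(laurentBaseChange K0 (modularFunctionFieldFull (M * q))) a) =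
      algebraMap A0 ↥(laurentBaseChange K0 (modularFunctionFieldFull (M * q))) a := by
  rw [IsScalarTower.algebraMap_apply A0 K0
    ↥(laurentBaseChange K0 (modularFunctionFieldFull (M * q))) a]
  exact va2Swap_const M q hq.out hM K0 _

/-- the inverse of the swap fixes the constants -/
theorem s35la_swap_symm_const
    [Algebra A0 ↥(laurentBaseChange K0 (modularFunctionFieldFull (M * q)))]
    [IsScalarTower A0 K0 ↥(laurentBaseChange K0 (modularFunctionFieldFull (M * q)))]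
    (a : A0) :
    (va2SwapEquiv M q hq.out hM K0).symm
        (algebraMap A0 ↥(laurentBaseChange K0 (modularFunctionFieldFull (M * q))) a) =
      algebraMap A0 ↥(laurentBaseChange K0 (modularFunctionFieldFull (M * q))) a := by
  rw [RingEquiv.symm_apply_eq, s35la_swap_const]

include hM in
/-- **(LOC) at every closed point of the special fibres of the two Hauptmodul charts**, for an
arbitrary function `f` of the level-`M q` function field over `K0` satisfying the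
valuation-subring forms `hord` (divisor divisible by `m`) and `hrat` (zeros and poles
`K0`-rational).  The hypotheses on the field of definition are those produced by
`s34if_inputs`. -/
theorem s35la_field (ha2 : a2 ∣ M) [Finite (IsLocalRing.ResidueField ↥A0)]
    (hA0 : A0.LiesOverPrime q) (c0 c1 : A0)
    (hc : IsLocalRing.residue ↥A0 c0 ≠ IsLocalRing.residue ↥A0 c1)
    (hQ0 : smi2U A0 (aeval (c0 : K0) H.Qrad)) (hQ1 : smi2U A0 (aeval (c1 : K0) H.Qrad))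
    (hSM0 : cinstSMChart K0 A0 M H (c0 : K0) (c1 : K0))
    (hSM1 : cinstSMChart K0 A0 M H (c1 : K0) (c0 : K0))
    (hu0 : unrChart K0 A0 M H c0 c1) (hu1 : unrChart K0 A0 M H c1 c0)
    [Algebra A0 ↥(laurentBaseChange K0 (modularFunctionFieldFull (M * q)))]
    [IsScalarTower A0 K0 ↥(laurentBaseChange K0 (modularFunctionFieldFull (M * q)))]
    (t : ↥(laurentBaseChange K0 (modularFunctionFieldFull (M * q))))
    (ht : (t : LaurentSeries K0) = cinstU H K0 (c0 : K0) (c1 : K0))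
    (τ : A0) (hτ : Irreducible τ) (m : ℕ) (hm : 0 < m)
    (f : ↥(laurentBaseChange K0 (modularFunctionFieldFull (M * q)))) (hf : f ≠ 0)
    (hord : ∀ V : ValuationSubring ↥(laurentBaseChange K0 (modularFunctionFieldFull (M * q))),
      (∀ a : A0,
        algebraMap A0 ↥(laurentBaseChange K0 (modularFunctionFieldFull (M * q))) a ∈ V) →
      (algebraMap A0 ↥(laurentBaseChange K0 (modularFunctionFieldFull (M * q))) τ)⁻¹ ∈ V →
      IsPrincipalIdealRing V →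
      ∃ u : ↥(laurentBaseChange K0 (modularFunctionFieldFull (M * q))),
        u ≠ 0 ∧ f * u ^ m ∈ V ∧ (f * u ^ m)⁻¹ ∈ V)
    (hrat : ∀ V : ValuationSubring ↥(laurentBaseChange K0 (modularFunctionFieldFull (M * q))),
      (∀ a : A0,
        algebraMap A0 ↥(laurentBaseChange K0 (modularFunctionFieldFull (M * q))) a ∈ V) →
      (algebraMap A0 ↥(laurentBaseChange K0 (modularFunctionFieldFull (M * q))) τ)⁻¹ ∈ V →
      IsPrincipalIdealRing V → V ≠ ⊤ → (f ∉ V ∨ f⁻¹ ∉ V) →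
      ∀ y ∈ V, ∃ a b : A0, b ≠ 0 ∧
        algebraMap A0 ↥(laurentBaseChange K0 (modularFunctionFieldFull (M * q))) b * y -
          algebraMap A0 ↥(laurentBaseChange K0 (modularFunctionFieldFull (M * q))) a ∈
            V.nonunits) :
    (∀ 𝔫 : Ideal ↥(chtO A0 {t}), 𝔫.IsMaximal → algebraMap A0 ↥(chtO A0 {t}) τ ∈ 𝔫 →
      S34Loc τ m (chtO A0 {t}) f 𝔫) ∧
    (∀ 𝔫 : Ideal ↥(chtO A0 {t⁻¹}), 𝔫.IsMaximal → algebraMap A0 ↥(chtO A0 {t⁻¹}) τ ∈ 𝔫 →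
      S34Loc τ m (chtO A0 {t⁻¹}) f 𝔫) := by
  classical
  have : CharZero K0 := algebraRat.charZero K0
  have hVG : ∀ x : ↥(laurentBaseChange K0 (modularFunctionFieldFull (M * q))),
      x ∈ va2V1 M q K0 A0 ↔ (x : LaurentSeries K0) ∈ grV A0 := fun x => Iff.rfl
  obtain ⟨hA, hτV, hτgen, htt, htV, htV', hG, hfin, hconst⟩ :=
    c2i_hyps A0 (M * q) H (va2V1 M q K0 A0) hVG c0 c1 hc t ht τ hτ
  obtain ⟨hA₂, -, hτgen₂⟩ := s34im_V2_basic M q hM K0 A0 τ hτ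
  have hVal₀ := s34if_val M q hM K0 A0 H ha2 hA0 c0 c1 hc
  have hVal₁ := s34if_val M q hM K0 A0 H ha2 hA0 c1 c0 hc.symm
  obtain ⟨htV₂, htV₂', hex⟩ := hVal₀ t ht
  have htinv : ((t⁻¹ : ↥(laurentBaseChange K0 (modularFunctionFieldFull (M * q)))) :
      LaurentSeries K0) = cinstU H K0 (c1 : K0) (c0 : K0) := by
    rw [IntermediateField.coe_inv, ht, cinstU_inv]
  have hGam₀ := s34if_gam M q hM K0 A0 H ha2 hA0 c0 c1 hc hQ0 hSM0 hSM1 hu0 hu1
  have hGam₁ := s34if_gam M q hM K0 A0 H ha2 hA0 c1 c0 hc.symm hQ1 hSM1 hSM0 hu1 hu0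
  -- (LOC) at the crossing points
  have hnode : ∀ (d0 d1 : A0) (hd : IsLocalRing.residue ↥A0 d0 ≠ IsLocalRing.residue ↥A0 d1),
      S34imVal M q hM K0 A0 H (d0 : K0) (d1 : K0) →
      S34imGam M q hM K0 A0 H (d0 : K0) (d1 : K0) →
      ∀ (t' : ↥(laurentBaseChange K0 (modularFunctionFieldFull (M * q))))
        (_ : (t' : LaurentSeries K0) = cinstU H K0 (d0 : K0) (d1 : K0))
        (g : ↥(laurentBaseChange K0 (modularFunctionFieldFull (M * q)))) (_ : g ≠ 0)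
        (_ : ∀ V : ValuationSubring ↥(laurentBaseChange K0 (modularFunctionFieldFull (M * q))),
          (∀ a : A0,
            algebraMap A0 ↥(laurentBaseChange K0 (modularFunctionFieldFull (M * q))) a ∈ V) →
          (algebraMap A0 ↥(laurentBaseChange K0 (modularFunctionFieldFull (M * q))) τ)⁻¹ ∈ V →
          IsPrincipalIdealRing V →
          ∃ u : ↥(laurentBaseChange K0 (modularFunctionFieldFull (M * q))),
            u ≠ 0 ∧ g * u ^ m ∈ V ∧ (g * u ^ m)⁻¹ ∈ V)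
        (_ : ∀ V : ValuationSubring ↥(laurentBaseChange K0 (modularFunctionFieldFull (M * q))),
          (∀ a : A0,
            algebraMap A0 ↥(laurentBaseChange K0 (modularFunctionFieldFull (M * q))) a ∈ V) →
          (algebraMap A0 ↥(laurentBaseChange K0 (modularFunctionFieldFull (M * q))) τ)⁻¹ ∈ V →
          IsPrincipalIdealRing V → V ≠ ⊤ → (g ∉ V ∨ g⁻¹ ∉ V) →
          ∀ y ∈ V, ∃ a b : A0, b ≠ 0 ∧
            algebraMap A0 ↥(laurentBaseChange K0 (modularFunctionFieldFull (M * q))) b * y -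
              algebraMap A0 ↥(laurentBaseChange K0 (modularFunctionFieldFull (M * q))) a ∈
                V.nonunits)
        (𝔫 : Ideal ↥(chtO A0 {t'})), 𝔫.IsMaximal →
        (∀ x : ↥(chtO A0 {t'}),
          (x : ↥(laurentBaseChange K0 (modularFunctionFieldFull (M * q)))) ∈
            (va2V1 M q K0 A0).nonunits → x ∈ 𝔫) →
        (∀ x : ↥(chtO A0 {t'}),
          (x : ↥(laurentBaseChange K0 (modularFunctionFieldFull (M * q)))) ∈
            (va2V2 M q hM K0 A0).nonunits → x ∈ 𝔫) →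
        S34Loc τ m (chtO A0 {t'}) g 𝔫 := by
    intro d0 d1 hd hVal' hGam' t' ht' g hg hordg hratg 𝔫 h𝔫 hc₁ hc₂
    obtain ⟨-, hτV', -, htt', -, -, -, hfin', -⟩ :=
      c2i_hyps A0 (M * q) H (va2V1 M q K0 A0) hVG d0 d1 hd t' ht' τ hτ
    have hτ𝔫 : algebraMap A0 ↥(chtO A0 {t'}) τ ∈ 𝔫 := hc₁ _ hτV'
    have : IsNoetherianRing ↥(chtO A0 {t'}) :=
      s34im_noeth M q hM K0 A0 H d0 d1 hd t' ht' τ hτ hVal'
    exact lni_node (K0 := K0) hτ t' htt' hfin' m g hg hordg hratg 𝔫 hτ𝔫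
      (hGam' t' ht' τ hτ 𝔫 h𝔫 hc₁ hc₂)
  -- the swapped function
  have hfw : (va2SwapEquiv M q hq.out hM K0).symm f ≠ 0 := (_root_.map_ne_zero _).mpr hf
  have hordw := lni_hord_comap τ m f (va2SwapEquiv M q hq.out hM K0).symm
    (s35la_swap_symm_const M q hM K0 A0) hord
  have hratw := lni_hrat_comap τ f (va2SwapEquiv M q hq.out hM K0).symm
    (s35la_swap_symm_const M q hM K0 A0) hrat
  exact s35la_abs (K0 := K0) (va2V1 M q K0 A0) (va2V2 M q hM K0 A0) hA hA₂ hτ hτV hτgen hτgen₂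
    t htt htV htV' htV₂ htV₂' hG hfin hex hconst m hm (va2SwapEquiv M q hq.out hM K0)
    (s35la_swap_const M q hM K0 A0) (s34im_swap_nonunits M q hM K0 A0)
    (fun 𝔭 h𝔭 => cmi_hD M q hM K0 A0 H ha2 hA0 c0 c1 hc hSM0 t ht τ hτ 𝔭 h𝔭)
    (fun 𝔭 h𝔭 => cmi_hD M q hM K0 A0 H ha2 hA0 c1 c0 hc.symm hSM1 t⁻¹ htinv τ hτ 𝔭 h𝔭)
    ((s34if_dom M q hM K0 A0 H ha2 hA0 c0 c1 hc hQ0 hQ1) t ht τ hτ)
    (fun 𝔫 h1 h2 h3 => by
      have h := (s34if_dom M q hM K0 A0 H ha2 hA0 c1 c0 hc.symm hQ1 hQ0) t⁻¹ htinv τ hτ 𝔫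
        h1 h2 h3
      rw [inv_inv] at h
      exact h.symm)
    f hf hord
    (fun g hg 𝔫 h𝔫 hc₁ hc₂ => by
      rcases hg with rfl | rfl
      · exact hnode c0 c1 hc hVal₀ hGam₀ t ht _ hf hord hrat 𝔫 h𝔫 hc₁ hc₂
      · exact hnode c0 c1 hc hVal₀ hGam₀ t ht _ hfw hordw hratw 𝔫 h𝔫 hc₁ hc₂)
    (fun g hg 𝔫 h𝔫 hc₁ hc₂ => by
      rcases hg with rfl | rfl
      · exact hnode c1 c0 hc.symm hVal₁ hGam₁ t⁻¹ htinv _ hf hord hrat 𝔫 h𝔫 hc₁ hc₂
      · exact hnode c1 c0 hc.symm hVal₁ hGam₁ t⁻¹ htinv _ hfw hordw hratw 𝔫 h𝔫 hc₁ hc₂)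

include hM in
/-- **(LOC) at every closed point of the special fibres of the two Hauptmodul charts**, from the
`Place` forms of the two hypotheses on `f`: all orders divisible by `m`, zeros and poles
`K0`-rational. -/
theorem s35la_place (ha2 : a2 ∣ M) [Finite (IsLocalRing.ResidueField ↥A0)]
    (hA0 : A0.LiesOverPrime q) (c0 c1 : A0)
    (hc : IsLocalRing.residue ↥A0 c0 ≠ IsLocalRing.residue ↥A0 c1)
    (hQ0 : smi2U A0 (aeval (c0 : K0) H.Qrad)) (hQ1 : smi2U A0 (aeval (c1 : K0) H.Qrad))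
    (hSM0 : cinstSMChart K0 A0 M H (c0 : K0) (c1 : K0))
    (hSM1 : cinstSMChart K0 A0 M H (c1 : K0) (c0 : K0))
    (hu0 : unrChart K0 A0 M H c0 c1) (hu1 : unrChart K0 A0 M H c1 c0)
    [Algebra A0 ↥(laurentBaseChange K0 (modularFunctionFieldFull (M * q)))]
    [IsScalarTower A0 K0 ↥(laurentBaseChange K0 (modularFunctionFieldFull (M * q)))]
    (t : ↥(laurentBaseChange K0 (modularFunctionFieldFull (M * q))))
    (ht : (t : LaurentSeries K0) = cinstU H K0 (c0 : K0) (c1 : K0))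
    (τ : A0) (hτ : Irreducible τ) (m : ℕ) (hm : 0 < m)
    (f : ↥(laurentBaseChange K0 (modularFunctionFieldFull (M * q)))) (hf : f ≠ 0)
    (hdiv : ∀ Q : Place K0 ↥(laurentBaseChange K0 (modularFunctionFieldFull (M * q))),
      (m : ℤ) ∣ Q.ord f)
    (hratQ : ∀ Q : Place K0 ↥(laurentBaseChange K0 (modularFunctionFieldFull (M * q))),
      Q.ord f ≠ 0 → ∀ y ∈ Q.toValuationSubring,
      ∃ c : K0, y - algebraMap K0 ↥(laurentBaseChange K0 (modularFunctionFieldFull (M * q))) c ∈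
        Q.toValuationSubring.nonunits) :
    (∀ 𝔫 : Ideal ↥(chtO A0 {t}), 𝔫.IsMaximal → algebraMap A0 ↥(chtO A0 {t}) τ ∈ 𝔫 →
      S34Loc τ m (chtO A0 {t}) f 𝔫) ∧
    (∀ 𝔫 : Ideal ↥(chtO A0 {t⁻¹}), 𝔫.IsMaximal → algebraMap A0 ↥(chtO A0 {t⁻¹}) τ ∈ 𝔫 →
      S34Loc τ m (chtO A0 {t⁻¹}) f 𝔫) :=
  s35la_field M q hM K0 A0 H ha2 hA0 c0 c1 hc hQ0 hQ1 hSM0 hSM1 hu0 hu1 t ht τ hτ m hm f hf
    (cinst_hord (K := K0) τ hτ m f hdiv) (lni_hrat_of_place (K0 := K0) τ hτ f hratQ)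

end Field

end Fermat.Agent.S35
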