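import Mathlib
import Fermat.Agent.S34.InstMod
import Fermat.Agent.S34.InstFinal
import Fermat.Agent.S35.FrobKron
import Fermat.Agent.S35.LocAll
import Fermat.Agent.S35.GaussSep
import Fermat.Agent.S35.FrobNodeSeam
import Fermat.Agent.S35.InstAlg
import Fermat.Agent.S35.InstReduce
import Fermat.Agent.S35.CoreAbs

/-!
# S35, package CORE-INST, layer 1 (InstCore): the abstract core at the modular carrier

`K0` a field with an embedding into `ℚ̄`, `A0` a discrete valuation subring of `K0` over the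
prime `q ∤ M`, `F = K0(X₀(M q))`, `V₁ = va2V1`, `V₂ = va2V2` the two valuation rings, `t` a
Hauptmodul chart coordinate, the swap `va2SwapEquiv`, `s` a Frobenius element of `A0` at `q` and
`σ` the coefficientwise action of `s * s` on `F`.

* `s35in_c_sigma`: the hypotheses of `s35c_main` on the automorphism `σ` (`hστ`, `hσA`, `hσu₁`,
  `hσu₂`).
* `s35in_c_swap`: the hypotheses of `s35c_main` on the swap (`hwA`, `hww`, `hwV`, `hwV'`, `hwσ`).
* `s35in_c_field`: `s35c_main` at the carrier; every hypothesis on `V₁`, the constants, the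
  chart coordinate, `σ` and the swap is discharged (the analogue of `s34im_field`).
* `s35in_c_main`: in addition the chart statements (A-INST, B1-COMP, DOM) and (LOC) at the
  crossing points are discharged from the chart packages over the field of definition (the
  outputs of `s34if_inputs`) and the `Place` forms of the hypotheses on `f₀`; the remaining
  inputs are the discreteness of the two valuations, the two local equations `x`, `y`, the node
  data `S35Node` at the crossing points of both charts and the residue statement `hres`.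
-/

set_option autoImplicit false
set_option linter.unusedSectionVars false

noncomputable section

open ModularCurve AlgebraicCurve Polynomial
open Fermat.Agent.S18 Fermat.Agent.S37 Fermat.Agent.S34

namespace Fermat.Agent.S35

local notation "Qb" => AlgebraicClosure ℚ

section Field

variable (M q : ℕ) [NeZero M] [hq : Fact q.Prime] (hM : ¬ q ∣ M)
  (K0 : Type*) [Field K0] [Algebra ℚ K0] [Algebra K0 Qb]
  (A0 : ValuationSubring K0) [IsDiscreteValuationRing ↥A0]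
  {a2 : ℕ} (H : HauptRec a2 q)

/-- **The hypotheses of `s35c_main` on the automorphism** `σ = Φ_{s s}`, `s` a Frobenius element
of `A0` at `q`: `σ τ = ε τ` with a unit `ε`; `σ` maps constants to constants and is the
`q²`-th power map modulo `τ` on them; `σ g / g` lies in `V₁` and in `V₂` for every `g ≠ 0`. -/
theorem s35in_c_sigma
    [Algebra A0 ↥(laurentBaseChange K0 (modularFunctionFieldFull (M * q)))]
    [IsScalarTower A0 K0 ↥(laurentBaseChange K0 (modularFunctionFieldFull (M * q)))]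
    (s : K0 ≃ₐ[ℚ] K0) (hs : A0.IsFrobeniusAt s q) (τ : A0) (hτ : Irreducible τ) :
    (∃ ε : A0, IsUnit ε ∧
      arithmeticRingAut (modularFunctionFieldFull (M * q)) (s * s) (algebraMap A0 ↥(laurentBaseChange K0 (modularFunctionFieldFull (M * q))) τ) =
        algebraMap A0 ↥(laurentBaseChange K0 (modularFunctionFieldFull (M * q))) ε * algebraMap A0 ↥(laurentBaseChange K0 (modularFunctionFieldFull (M * q))) τ) ∧
    (∀ a : A0, ∃ a' : A0,
      arithmeticRingAut (modularFunctionFieldFull (M * q)) (s * s) (algebraMap A0 ↥(laurentBaseChange K0 (modularFunctionFieldFull (M * q))) a) = algebraMap A0 ↥(laurentBaseChange K0 (modularFunctionFieldFull (M * q))) a' ∧ τ ∣ a' - a ^ (q ^ 2)) ∧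
    (∀ g : ↥(laurentBaseChange K0 (modularFunctionFieldFull (M * q))), g ≠ 0 → arithmeticRingAut (modularFunctionFieldFull (M * q)) (s * s) g * g⁻¹ ∈ va2V1 M q K0 A0) ∧
    (∀ g : ↥(laurentBaseChange K0 (modularFunctionFieldFull (M * q))), g ≠ 0 → arithmeticRingAut (modularFunctionFieldFull (M * q)) (s * s) g * g⁻¹ ∈ va2V2 M q hM K0 A0) := by
  classical
  have hF2 : A0.IsFrobeniusAt (s * s) (q * q) := fkr_frobenius_sq A0 hs
  have hsD : s * s ∈ A0.decompositionSubgroup ℚ := hF2.mem_decompositionSubgroup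
  have hVG : ∀ x : ↥(laurentBaseChange K0 (modularFunctionFieldFull (M * q))),
      x ∈ va2V1 M q K0 A0 ↔ (x : LaurentSeries K0) ∈ grV A0 := fun x => Iff.rfl
  have hgdv : ∀ x ∈ laurentBaseChange K0 (modularFunctionFieldFull (M * q)), gdvProp A0 x :=
    fun x hx => gdv_full_le A0 (M * q) hx
  have hmap : ∀ a : A0,
      algebraMap A0 ↥(laurentBaseChange K0 (modularFunctionFieldFull (M * q))) a =
        algebraMap K0 ↥(laurentBaseChange K0 (modularFunctionFieldFull (M * q))) (a : K0) :=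
    fun a => IsScalarTower.algebraMap_apply A0 K0
      ↥(laurentBaseChange K0 (modularFunctionFieldFull (M * q))) a
  have hτ0 : τ ≠ 0 := hτ.ne_zero
  have hσu₁ : ∀ g : ↥(laurentBaseChange K0 (modularFunctionFieldFull (M * q))), g ≠ 0 → arithmeticRingAut (modularFunctionFieldFull (M * q)) (s * s) g * g⁻¹ ∈ va2V1 M q K0 A0 := fun g hg =>
    sgv_hσu A0 (modularFunctionFieldFull (M * q)) (va2V1 M q K0 A0) hVG hgdv hsD g hg
  have hcomm : ∀ x, va2SwapEquiv M q hq.out hM K0 (arithmeticRingAut (modularFunctionFieldFull (M * q)) (s * s) x) = arithmeticRingAut (modularFunctionFieldFull (M * q)) (s * s) (va2SwapEquiv M q hq.out hM K0 x) := fun x => va2Swap_gal M q hq.out hM K0 (s * s) x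
  refine ⟨?_, ?_, hσu₁, ?_⟩
  · obtain ⟨ε, hε, hστ⟩ := sgv_hστ A0 (modularFunctionFieldFull (M * q)) hsD τ hτ0
    exact ⟨ε, hε, by rw [hmap, hmap, hστ]⟩
  · intro a
    have hmem : (s * s) (a : K0) ∈ A0 := jrg_mem_of_mem_decomp ℚ A0 ⟨s * s, hsD⟩ a.2
    refine ⟨⟨(s * s) (a : K0), hmem⟩, ?_, ?_⟩
    · rw [hmap, hmap, arithmeticRingAut_algebraMap]
    · have h1 : (s * s) (a : K0) - (a : K0) ^ (q * q) ∈ A0.nonunits :=
        fkr_const K0 A0 hF2 (a : K0) a.2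
      obtain ⟨h2, h3⟩ := (ValuationSubring.mem_nonunits_iff_exists_mem_maximalIdeal
        (A := A0) (a := (s * s) (a : K0) - (a : K0) ^ (q * q))).mp h1
      rw [hτ.maximalIdeal_eq, Ideal.mem_span_singleton] at h3
      have h4 : (⟨(s * s) (a : K0), hmem⟩ - a ^ (q ^ 2) : A0) =
          ⟨(s * s) (a : K0) - (a : K0) ^ (q * q), h2⟩ := by
        apply Subtype.ext
        simp [pow_two]
      rw [h4]
      exact h3
  · rw [s34im_V2_eq]
    exact sgv_comap_hσu (va2V1 M q K0 A0) (va2SwapEquiv M q hq.out hM K0) (arithmeticRingAut (modularFunctionFieldFull (M * q)) (s * s)) hcomm hσu₁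

/-- **The hypotheses of `s35c_main` on the swap**: it fixes the constants, is an involution,
exchanges the maximal ideals of the two valuation rings and commutes with the coefficientwise
action of every automorphism of the constants. -/
theorem s35in_c_swap
    [Algebra A0 ↥(laurentBaseChange K0 (modularFunctionFieldFull (M * q)))]
    [IsScalarTower A0 K0 ↥(laurentBaseChange K0 (modularFunctionFieldFull (M * q)))] (s' : K0 ≃ₐ[ℚ] K0) :
    (∀ a : A0, va2SwapEquiv M q hq.out hM K0 (algebraMap A0 ↥(laurentBaseChange K0 (modularFunctionFieldFull (M * q))) a) = algebraMap A0 ↥(laurentBaseChange K0 (modularFunctionFieldFull (M * q))) a) ∧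
    (∀ z : ↥(laurentBaseChange K0 (modularFunctionFieldFull (M * q))), va2SwapEquiv M q hq.out hM K0 (va2SwapEquiv M q hq.out hM K0 z) = z) ∧
    (∀ z ∈ (va2V1 M q K0 A0).nonunits, va2SwapEquiv M q hq.out hM K0 z ∈ (va2V2 M q hM K0 A0).nonunits) ∧
    (∀ z ∈ (va2V2 M q hM K0 A0).nonunits, va2SwapEquiv M q hq.out hM K0 z ∈ (va2V1 M q K0 A0).nonunits) ∧
    (∀ z : ↥(laurentBaseChange K0 (modularFunctionFieldFull (M * q))), va2SwapEquiv M q hq.out hM K0 (arithmeticRingAut (modularFunctionFieldFull (M * q)) s' z) =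
      arithmeticRingAut (modularFunctionFieldFull (M * q)) s' (va2SwapEquiv M q hq.out hM K0 z)) := by
  refine ⟨s35la_swap_const M q hM K0 A0, fun z => ?_, s34im_swap_nonunits M q hM K0 A0,
    fun z hz => ?_, fun z => va2Swap_gal M q hq.out hM K0 s' z⟩
  · rw [va2SwapEquiv_apply, va2SwapEquiv_apply, va2Swap_swap]
  · rw [s34im_mem_V2_nonunits] at hz
    rw [va2SwapEquiv_apply]
    exact hz

/-- **CORE-INST, layer 1, raw form**: `s35c_main` for the level-`M q` function field over `K0`,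
the valuation rings `va2V1`, `va2V2`, the Hauptmodul chart coordinate `t`, the swap
`va2SwapEquiv` and `σ = Φ_{s s}` for a Frobenius element `s` of `A0` at `q` (`Q = q²`).  All
hypotheses on `V₁`, the constants, the chart coordinate, `σ` and the swap are discharged. -/
theorem s35in_c_field
    [Algebra A0 ↥(laurentBaseChange K0 (modularFunctionFieldFull (M * q)))]
    [IsScalarTower A0 K0 ↥(laurentBaseChange K0 (modularFunctionFieldFull (M * q)))]
    (s : K0 ≃ₐ[ℚ] K0) (hs : A0.IsFrobeniusAt s q)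
    (c0 c1 : A0) (hc : IsLocalRing.residue A0 c0 ≠ IsLocalRing.residue A0 c1)
    (t : ↥(laurentBaseChange K0 (modularFunctionFieldFull (M * q))))
    (ht : (t : LaurentSeries K0) = cinstU H K0 (c0 : K0) (c1 : K0))
    (τ : A0) (hτ : Irreducible τ)
    -- the facts about the second valuation ring (A-INST)
    (htV₂ : t ∈ va2V2 M q hM K0 A0) (htV₂' : t⁻¹ ∈ va2V2 M q hM K0 A0)
    (hex : ∀ O' : ValuationSubring ↥(laurentBaseChange K0 (modularFunctionFieldFull (M * q))),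
      ChtSame K0 (va2V1 M q K0 A0) t O' → O' = va2V1 M q K0 A0 ∨ O' = va2V2 M q hM K0 A0)
    (m : ℕ) (hm2 : 2 ≤ m) (hmA : IsUnit (m : A0))
    -- both valuations are discrete with uniformiser `τ`
    (hdec₁ : ∀ z : ↥(laurentBaseChange K0 (modularFunctionFieldFull (M * q))), z ≠ 0 → ∃ j : ℤ, z * algebraMap A0 ↥(laurentBaseChange K0 (modularFunctionFieldFull (M * q))) τ ^ j ∈ va2V1 M q K0 A0 ∧
      (z * algebraMap A0 ↥(laurentBaseChange K0 (modularFunctionFieldFull (M * q))) τ ^ j)⁻¹ ∈ va2V1 M q K0 A0)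
    (hdec₂ : ∀ z : ↥(laurentBaseChange K0 (modularFunctionFieldFull (M * q))), z ≠ 0 → ∃ j : ℤ, z * algebraMap A0 ↥(laurentBaseChange K0 (modularFunctionFieldFull (M * q))) τ ^ j ∈ va2V2 M q hM K0 A0 ∧
      (z * algebraMap A0 ↥(laurentBaseChange K0 (modularFunctionFieldFull (M * q))) τ ^ j)⁻¹ ∈ va2V2 M q hM K0 A0)
    -- local equations of the two components
    (x y : ↥(laurentBaseChange K0 (modularFunctionFieldFull (M * q)))) (hx₁ : x ∈ (va2V1 M q K0 A0).nonunits) (hx₂ : x ∈ va2V2 M q hM K0 A0) (hx₂' : x⁻¹ ∈ va2V2 M q hM K0 A0)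
    (hy₂ : y ∈ (va2V2 M q hM K0 A0).nonunits) (hy₁ : y ∈ va2V1 M q K0 A0) (hy₁' : y⁻¹ ∈ va2V1 M q K0 A0)
    (hx0 : x ≠ 0) (hy0 : y ≠ 0)
    -- the first component of the special fibres of the two charts (B1-COMP)
    (hD₀ : ∀ 𝔭 : Ideal ↥(chtO A0 {t}),
      (∀ x : ↥(chtO A0 {t}), x ∈ 𝔭 ↔ (x : ↥(laurentBaseChange K0 (modularFunctionFieldFull (M * q)))) ∈ (va2V1 M q K0 A0).nonunits) →
      IsDedekindDomain (↥(chtO A0 {t}) ⧸ 𝔭))
    (hD₁ : ∀ 𝔭 : Ideal ↥(chtO A0 {t⁻¹}),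
      (∀ x : ↥(chtO A0 {t⁻¹}), x ∈ 𝔭 ↔ (x : ↥(laurentBaseChange K0 (modularFunctionFieldFull (M * q)))) ∈ (va2V1 M q K0 A0).nonunits) →
      IsDedekindDomain (↥(chtO A0 {t⁻¹}) ⧸ 𝔭))
    -- domination (DOM)
    (hdom₀ : ∀ 𝔫 : Ideal ↥(chtO A0 {t}), 𝔫.IsMaximal →
      algebraMap A0 ↥(chtO A0 {t}) τ ∈ 𝔫 →
      (∃ r : ↥(chtO A0 {t}), (r : ↥(laurentBaseChange K0 (modularFunctionFieldFull (M * q)))) ∈ (va2V1 M q K0 A0).nonunits ∧ r ∉ 𝔫) →
      (∃ a s : ↥(chtO A0 {t}), s ∉ 𝔫 ∧ va2SwapEquiv M q hq.out hM K0 t * (s : ↥(laurentBaseChange K0 (modularFunctionFieldFull (M * q)))) = a) ∨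
      (∃ a s : ↥(chtO A0 {t}), s ∉ 𝔫 ∧ va2SwapEquiv M q hq.out hM K0 t⁻¹ * (s : ↥(laurentBaseChange K0 (modularFunctionFieldFull (M * q)))) = a))
    (hdom₁ : ∀ 𝔫 : Ideal ↥(chtO A0 {t⁻¹}), 𝔫.IsMaximal →
      algebraMap A0 ↥(chtO A0 {t⁻¹}) τ ∈ 𝔫 →
      (∃ r : ↥(chtO A0 {t⁻¹}), (r : ↥(laurentBaseChange K0 (modularFunctionFieldFull (M * q)))) ∈ (va2V1 M q K0 A0).nonunits ∧ r ∉ 𝔫) →
      (∃ a s : ↥(chtO A0 {t⁻¹}), s ∉ 𝔫 ∧ va2SwapEquiv M q hq.out hM K0 t * (s : ↥(laurentBaseChange K0 (modularFunctionFieldFull (M * q)))) = a) ∨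
      (∃ a s : ↥(chtO A0 {t⁻¹}), s ∉ 𝔫 ∧ va2SwapEquiv M q hq.out hM K0 t⁻¹ * (s : ↥(laurentBaseChange K0 (modularFunctionFieldFull (M * q)))) = a))
    (f₀ : ↥(laurentBaseChange K0 (modularFunctionFieldFull (M * q)))) (hf₀ : f₀ ≠ 0)
    (hdiv : ∀ P : AlgebraicCurve.Place K0 ↥(laurentBaseChange K0 (modularFunctionFieldFull (M * q))), (m : ℤ) ∣ P.ord f₀)
    -- (LOC) at the crossing points (NODE), for `f₀` and its swap
    (hnode₀ : ∀ f : ↥(laurentBaseChange K0 (modularFunctionFieldFull (M * q))), f = f₀ ∨ f = va2SwapEquiv M q hq.out hM K0 f₀ →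
      ∀ 𝔫 : Ideal ↥(chtO A0 {t}), 𝔫.IsMaximal →
      (∀ x : ↥(chtO A0 {t}), (x : ↥(laurentBaseChange K0 (modularFunctionFieldFull (M * q)))) ∈ (va2V1 M q K0 A0).nonunits → x ∈ 𝔫) →
      (∀ x : ↥(chtO A0 {t}), (x : ↥(laurentBaseChange K0 (modularFunctionFieldFull (M * q)))) ∈ (va2V2 M q hM K0 A0).nonunits → x ∈ 𝔫) →
      S34Loc τ m (chtO A0 {t}) f 𝔫)
    (hnode₁ : ∀ f : ↥(laurentBaseChange K0 (modularFunctionFieldFull (M * q))), f = f₀ ∨ f = va2SwapEquiv M q hq.out hM K0 f₀ →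
      ∀ 𝔫 : Ideal ↥(chtO A0 {t⁻¹}), 𝔫.IsMaximal →
      (∀ x : ↥(chtO A0 {t⁻¹}), (x : ↥(laurentBaseChange K0 (modularFunctionFieldFull (M * q)))) ∈ (va2V1 M q K0 A0).nonunits → x ∈ 𝔫) →
      (∀ x : ↥(chtO A0 {t⁻¹}), (x : ↥(laurentBaseChange K0 (modularFunctionFieldFull (M * q)))) ∈ (va2V2 M q hM K0 A0).nonunits → x ∈ 𝔫) →
      S34Loc τ m (chtO A0 {t⁻¹}) f 𝔫)
    -- the node data at the crossing points of the two charts
    (hN₀ : ∀ 𝔫 : Ideal ↥(chtO A0 {t}), 𝔫.IsMaximal →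
      (∀ x : ↥(chtO A0 {t}), (x : ↥(laurentBaseChange K0 (modularFunctionFieldFull (M * q)))) ∈ (va2V1 M q K0 A0).nonunits → x ∈ 𝔫) →
      (∀ x : ↥(chtO A0 {t}), (x : ↥(laurentBaseChange K0 (modularFunctionFieldFull (M * q)))) ∈ (va2V2 M q hM K0 A0).nonunits → x ∈ 𝔫) →
      S35Node (chtO A0 {t}) 𝔫 (va2V1 M q K0 A0) (va2V2 M q hM K0 A0) x y (arithmeticRingAut (modularFunctionFieldFull (M * q)) (s * s)) (q ^ 2))
    (hN₁ : ∀ 𝔫 : Ideal ↥(chtO A0 {t⁻¹}), 𝔫.IsMaximal →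
      (∀ x : ↥(chtO A0 {t⁻¹}), (x : ↥(laurentBaseChange K0 (modularFunctionFieldFull (M * q)))) ∈ (va2V1 M q K0 A0).nonunits → x ∈ 𝔫) →
      (∀ x : ↥(chtO A0 {t⁻¹}), (x : ↥(laurentBaseChange K0 (modularFunctionFieldFull (M * q)))) ∈ (va2V2 M q hM K0 A0).nonunits → x ∈ 𝔫) →
      S35Node (chtO A0 {t⁻¹}) 𝔫 (va2V1 M q K0 A0) (va2V2 M q hM K0 A0) x y (arithmeticRingAut (modularFunctionFieldFull (M * q)) (s * s)) (q ^ 2))
    -- the residues of `W0 = (σ - 1)² f₀` on the two components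
    (hres : ∃ (C₁ C₂ : A0) (w₁ w₂ : ↥(laurentBaseChange K0 (modularFunctionFieldFull (M * q)))), IsUnit C₁ ∧ IsUnit C₂ ∧
      w₁ ∈ va2V1 M q K0 A0 ∧ w₁⁻¹ ∈ va2V1 M q K0 A0 ∧ w₂ ∈ va2V2 M q hM K0 A0 ∧ w₂⁻¹ ∈ va2V2 M q hM K0 A0 ∧
      arithmeticRingAut (modularFunctionFieldFull (M * q)) (s * s) (arithmeticRingAut (modularFunctionFieldFull (M * q)) (s * s) f₀) * f₀ * ((arithmeticRingAut (modularFunctionFieldFull (M * q)) (s * s) f₀)⁻¹) ^ 2 - algebraMap A0 ↥(laurentBaseChange K0 (modularFunctionFieldFull (M * q))) C₁ * w₁ ^ m ∈ (va2V1 M q K0 A0).nonunits ∧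
      arithmeticRingAut (modularFunctionFieldFull (M * q)) (s * s) (arithmeticRingAut (modularFunctionFieldFull (M * q)) (s * s) f₀) * f₀ * ((arithmeticRingAut (modularFunctionFieldFull (M * q)) (s * s) f₀)⁻¹) ^ 2 - algebraMap A0 ↥(laurentBaseChange K0 (modularFunctionFieldFull (M * q))) C₂ * w₂ ^ m ∈ (va2V2 M q hM K0 A0).nonunits) :
    ∃ (c : K0) (G : ↥(laurentBaseChange K0 (modularFunctionFieldFull (M * q)))), G ≠ 0 ∧
      arithmeticRingAut (modularFunctionFieldFull (M * q)) (s * s) (arithmeticRingAut (modularFunctionFieldFull (M * q)) (s * s) (arithmeticRingAut (modularFunctionFieldFull (M * q)) (s * s) f₀) * f₀ * ((arithmeticRingAut (modularFunctionFieldFull (M * q)) (s * s) f₀)⁻¹) ^ 2) =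
        algebraMap K0 ↥(laurentBaseChange K0 (modularFunctionFieldFull (M * q))) c * G ^ m * (arithmeticRingAut (modularFunctionFieldFull (M * q)) (s * s) (arithmeticRingAut (modularFunctionFieldFull (M * q)) (s * s) f₀) * f₀ * ((arithmeticRingAut (modularFunctionFieldFull (M * q)) (s * s) f₀)⁻¹) ^ 2) ^ (q ^ 2) := by
  classical
  have : CharZero K0 := algebraRat.charZero K0
  have hVG : ∀ x : ↥(laurentBaseChange K0 (modularFunctionFieldFull (M * q))),
      x ∈ va2V1 M q K0 A0 ↔ (x : LaurentSeries K0) ∈ grV A0 := fun x => Iff.rfl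
  obtain ⟨hA, hτV, hτgen, htt, htV, htV', hG, hfin, hconst⟩ :=
    c2i_hyps A0 (M * q) H (va2V1 M q K0 A0) hVG c0 c1 hc t ht τ hτ
  obtain ⟨hA₂, hτV₂, hτgen₂⟩ := s34im_V2_basic M q hM K0 A0 τ hτ
  obtain ⟨⟨ε, hε, hστ⟩, hσA, hσu₁, hσu₂⟩ := s35in_c_sigma M q hM K0 A0 s hs τ hτ
  obtain ⟨hwA, hww, hwV, hwV', hwσ⟩ := s35in_c_swap M q hM K0 A0 (s * s)
  exact s35c_main (K0 := K0) (va2V1 M q K0 A0) (va2V2 M q hM K0 A0) hA hA₂ hτ hτV hτV₂ hτgen hτgen₂ t htt htV htV'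
    htV₂ htV₂' hG hfin hex hconst m hm2 hmA hdec₁ hdec₂ x y hx₁ hx₂ hx₂' hy₂ hy₁ hy₁' hx0 hy0
    (arithmeticRingAut (modularFunctionFieldFull (M * q)) (s * s)) (q ^ 2) ε hε hστ hσA hσu₁ hσu₂ (va2SwapEquiv M q hq.out hM K0) hwA hww hwV hwV' hwσ hD₀ hD₁ hdom₀ hdom₁
    f₀ hf₀ hdiv hnode₀ hnode₁ hN₀ hN₁ hres

/-- **(LOC) at the crossing points of a Hauptmodul chart** for a function `g` with the
valuation-subring forms `hord`, `hrat` of the two place hypotheses (`lni_node` with the node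
statement `S34imGam`). -/
theorem s35in_c_node
    [Algebra A0 ↥(laurentBaseChange K0 (modularFunctionFieldFull (M * q)))]
    [IsScalarTower A0 K0 ↥(laurentBaseChange K0 (modularFunctionFieldFull (M * q)))]
    (d0 d1 : A0) (hd : IsLocalRing.residue ↥A0 d0 ≠ IsLocalRing.residue ↥A0 d1)
    (hVal : S34imVal M q hM K0 A0 H (d0 : K0) (d1 : K0))
    (hGam : S34imGam M q hM K0 A0 H (d0 : K0) (d1 : K0))
    (t' : ↥(laurentBaseChange K0 (modularFunctionFieldFull (M * q))))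
    (ht' : (t' : LaurentSeries K0) = cinstU H K0 (d0 : K0) (d1 : K0))
    (τ : A0) (hτ : Irreducible τ) (m : ℕ)
    (g : ↥(laurentBaseChange K0 (modularFunctionFieldFull (M * q)))) (hg : g ≠ 0)
    (hordg : ∀ V : ValuationSubring ↥(laurentBaseChange K0 (modularFunctionFieldFull (M * q))),
      (∀ a : A0, algebraMap A0 ↥(laurentBaseChange K0 (modularFunctionFieldFull (M * q))) a ∈ V) →
      (algebraMap A0 ↥(laurentBaseChange K0 (modularFunctionFieldFull (M * q))) τ)⁻¹ ∈ V →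
      IsPrincipalIdealRing V →
      ∃ u : ↥(laurentBaseChange K0 (modularFunctionFieldFull (M * q))), u ≠ 0 ∧ g * u ^ m ∈ V ∧ (g * u ^ m)⁻¹ ∈ V)
    (hratg : ∀ V : ValuationSubring ↥(laurentBaseChange K0 (modularFunctionFieldFull (M * q))),
      (∀ a : A0, algebraMap A0 ↥(laurentBaseChange K0 (modularFunctionFieldFull (M * q))) a ∈ V) →
      (algebraMap A0 ↥(laurentBaseChange K0 (modularFunctionFieldFull (M * q))) τ)⁻¹ ∈ V →
      IsPrincipalIdealRing V → V ≠ ⊤ → (g ∉ V ∨ g⁻¹ ∉ V) →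
      ∀ y ∈ V, ∃ a b : A0, b ≠ 0 ∧
        algebraMap A0 ↥(laurentBaseChange K0 (modularFunctionFieldFull (M * q))) b * y - algebraMap A0 ↥(laurentBaseChange K0 (modularFunctionFieldFull (M * q))) a ∈ V.nonunits)
    (𝔫 : Ideal ↥(chtO A0 {t'})) (h𝔫 : 𝔫.IsMaximal)
    (hc₁ : ∀ x : ↥(chtO A0 {t'}), (x : ↥(laurentBaseChange K0 (modularFunctionFieldFull (M * q)))) ∈ (va2V1 M q K0 A0).nonunits → x ∈ 𝔫)
    (hc₂ : ∀ x : ↥(chtO A0 {t'}), (x : ↥(laurentBaseChange K0 (modularFunctionFieldFull (M * q)))) ∈ (va2V2 M q hM K0 A0).nonunits → x ∈ 𝔫) :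
    S34Loc τ m (chtO A0 {t'}) g 𝔫 := by
  classical
  have : CharZero K0 := algebraRat.charZero K0
  have hVG : ∀ x : ↥(laurentBaseChange K0 (modularFunctionFieldFull (M * q))),
      x ∈ va2V1 M q K0 A0 ↔ (x : LaurentSeries K0) ∈ grV A0 := fun x => Iff.rfl
  obtain ⟨-, hτV', -, htt', -, -, -, hfin', -⟩ :=
    c2i_hyps A0 (M * q) H (va2V1 M q K0 A0) hVG d0 d1 hd t' ht' τ hτ
  have hτ𝔫 : algebraMap A0 ↥(chtO A0 {t'}) τ ∈ 𝔫 := hc₁ _ hτV'
  have : IsNoetherianRing ↥(chtO A0 {t'}) :=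
    s34im_noeth M q hM K0 A0 H d0 d1 hd t' ht' τ hτ hVal
  exact lni_node (K0 := K0) hτ t' htt' hfin' m g hg hordg hratg 𝔫 hτ𝔫
    (hGam t' ht' τ hτ 𝔫 h𝔫 hc₁ hc₂)

/-- **CORE-INST, layer 1**: `s35c_main` at the modular carrier over a field of definition `K0`,
from the chart packages produced by `s34if_inputs` (both orientations of the base points) and the
`Place` forms of the hypotheses on `f₀`.  The remaining inputs are: discreteness of the two
valuations (`hdec₁`, `hdec₂`), the two local equations `x`, `y`, the node data `S35Node` at the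
crossing points of both charts, and the residue statement `hres`. -/
theorem s35in_c_main (ha2 : a2 ∣ M) [Finite (IsLocalRing.ResidueField ↥A0)]
    (hA0 : A0.LiesOverPrime q) (c0 c1 : A0)
    (hc : IsLocalRing.residue ↥A0 c0 ≠ IsLocalRing.residue ↥A0 c1)
    (hQ0 : smi2U A0 (aeval (c0 : K0) H.Qrad)) (hQ1 : smi2U A0 (aeval (c1 : K0) H.Qrad))
    (hSM0 : cinstSMChart K0 A0 M H (c0 : K0) (c1 : K0))
    (hSM1 : cinstSMChart K0 A0 M H (c1 : K0) (c0 : K0))
    (hu0 : unrChart K0 A0 M H c0 c1) (hu1 : unrChart K0 A0 M H c1 c0)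
    [Algebra A0 ↥(laurentBaseChange K0 (modularFunctionFieldFull (M * q)))]
    [IsScalarTower A0 K0 ↥(laurentBaseChange K0 (modularFunctionFieldFull (M * q)))]
    (s : K0 ≃ₐ[ℚ] K0) (hs : A0.IsFrobeniusAt s q)
    (t : ↥(laurentBaseChange K0 (modularFunctionFieldFull (M * q))))
    (ht : (t : LaurentSeries K0) = cinstU H K0 (c0 : K0) (c1 : K0))
    (τ : A0) (hτ : Irreducible τ)
    (m : ℕ) (hm2 : 2 ≤ m) (hmA : IsUnit (m : A0))
    -- both valuations are discrete with uniformiser `τ`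
    (hdec₁ : ∀ z : ↥(laurentBaseChange K0 (modularFunctionFieldFull (M * q))), z ≠ 0 → ∃ j : ℤ, z * algebraMap A0 ↥(laurentBaseChange K0 (modularFunctionFieldFull (M * q))) τ ^ j ∈ va2V1 M q K0 A0 ∧
      (z * algebraMap A0 ↥(laurentBaseChange K0 (modularFunctionFieldFull (M * q))) τ ^ j)⁻¹ ∈ va2V1 M q K0 A0)
    (hdec₂ : ∀ z : ↥(laurentBaseChange K0 (modularFunctionFieldFull (M * q))), z ≠ 0 → ∃ j : ℤ, z * algebraMap A0 ↥(laurentBaseChange K0 (modularFunctionFieldFull (M * q))) τ ^ j ∈ va2V2 M q hM K0 A0 ∧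
      (z * algebraMap A0 ↥(laurentBaseChange K0 (modularFunctionFieldFull (M * q))) τ ^ j)⁻¹ ∈ va2V2 M q hM K0 A0)
    -- local equations of the two components
    (x y : ↥(laurentBaseChange K0 (modularFunctionFieldFull (M * q)))) (hx₁ : x ∈ (va2V1 M q K0 A0).nonunits) (hx₂ : x ∈ va2V2 M q hM K0 A0) (hx₂' : x⁻¹ ∈ va2V2 M q hM K0 A0)
    (hy₂ : y ∈ (va2V2 M q hM K0 A0).nonunits) (hy₁ : y ∈ va2V1 M q K0 A0) (hy₁' : y⁻¹ ∈ va2V1 M q K0 A0)
    (hx0 : x ≠ 0) (hy0 : y ≠ 0)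
    (f₀ : ↥(laurentBaseChange K0 (modularFunctionFieldFull (M * q)))) (hf₀ : f₀ ≠ 0)
    (hdiv : ∀ P : AlgebraicCurve.Place K0 ↥(laurentBaseChange K0 (modularFunctionFieldFull (M * q))), (m : ℤ) ∣ P.ord f₀)
    (hratQ : ∀ P : AlgebraicCurve.Place K0 ↥(laurentBaseChange K0 (modularFunctionFieldFull (M * q))), P.ord f₀ ≠ 0 → ∀ y ∈ P.toValuationSubring,
      ∃ c : K0, y - algebraMap K0 ↥(laurentBaseChange K0 (modularFunctionFieldFull (M * q))) c ∈ P.toValuationSubring.nonunits)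
    -- the node data at the crossing points of the two charts
    (hN₀ : ∀ 𝔫 : Ideal ↥(chtO A0 {t}), 𝔫.IsMaximal →
      (∀ x : ↥(chtO A0 {t}), (x : ↥(laurentBaseChange K0 (modularFunctionFieldFull (M * q)))) ∈ (va2V1 M q K0 A0).nonunits → x ∈ 𝔫) →
      (∀ x : ↥(chtO A0 {t}), (x : ↥(laurentBaseChange K0 (modularFunctionFieldFull (M * q)))) ∈ (va2V2 M q hM K0 A0).nonunits → x ∈ 𝔫) →
      S35Node (chtO A0 {t}) 𝔫 (va2V1 M q K0 A0) (va2V2 M q hM K0 A0) x y (arithmeticRingAut (modularFunctionFieldFull (M * q)) (s * s)) (q ^ 2))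
    (hN₁ : ∀ 𝔫 : Ideal ↥(chtO A0 {t⁻¹}), 𝔫.IsMaximal →
      (∀ x : ↥(chtO A0 {t⁻¹}), (x : ↥(laurentBaseChange K0 (modularFunctionFieldFull (M * q)))) ∈ (va2V1 M q K0 A0).nonunits → x ∈ 𝔫) →
      (∀ x : ↥(chtO A0 {t⁻¹}), (x : ↥(laurentBaseChange K0 (modularFunctionFieldFull (M * q)))) ∈ (va2V2 M q hM K0 A0).nonunits → x ∈ 𝔫) →
      S35Node (chtO A0 {t⁻¹}) 𝔫 (va2V1 M q K0 A0) (va2V2 M q hM K0 A0) x y (arithmeticRingAut (modularFunctionFieldFull (M * q)) (s * s)) (q ^ 2))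
    -- the residues of `W0 = (σ - 1)² f₀` on the two components
    (hres : ∃ (C₁ C₂ : A0) (w₁ w₂ : ↥(laurentBaseChange K0 (modularFunctionFieldFull (M * q)))), IsUnit C₁ ∧ IsUnit C₂ ∧
      w₁ ∈ va2V1 M q K0 A0 ∧ w₁⁻¹ ∈ va2V1 M q K0 A0 ∧ w₂ ∈ va2V2 M q hM K0 A0 ∧ w₂⁻¹ ∈ va2V2 M q hM K0 A0 ∧
      arithmeticRingAut (modularFunctionFieldFull (M * q)) (s * s) (arithmeticRingAut (modularFunctionFieldFull (M * q)) (s * s) f₀) * f₀ * ((arithmeticRingAut (modularFunctionFieldFull (M * q)) (s * s) f₀)⁻¹) ^ 2 - algebraMap A0 ↥(laurentBaseChange K0 (modularFunctionFieldFull (M * q))) C₁ * w₁ ^ m ∈ (va2V1 M q K0 A0).nonunits ∧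
      arithmeticRingAut (modularFunctionFieldFull (M * q)) (s * s) (arithmeticRingAut (modularFunctionFieldFull (M * q)) (s * s) f₀) * f₀ * ((arithmeticRingAut (modularFunctionFieldFull (M * q)) (s * s) f₀)⁻¹) ^ 2 - algebraMap A0 ↥(laurentBaseChange K0 (modularFunctionFieldFull (M * q))) C₂ * w₂ ^ m ∈ (va2V2 M q hM K0 A0).nonunits) :
    ∃ (c : K0) (G : ↥(laurentBaseChange K0 (modularFunctionFieldFull (M * q)))), G ≠ 0 ∧
      arithmeticRingAut (modularFunctionFieldFull (M * q)) (s * s) (arithmeticRingAut (modularFunctionFieldFull (M * q)) (s * s) (arithmeticRingAut (modularFunctionFieldFull (M * q)) (s * s) f₀) * f₀ * ((arithmeticRingAut (modularFunctionFieldFull (M * q)) (s * s) f₀)⁻¹) ^ 2) =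
        algebraMap K0 ↥(laurentBaseChange K0 (modularFunctionFieldFull (M * q))) c * G ^ m * (arithmeticRingAut (modularFunctionFieldFull (M * q)) (s * s) (arithmeticRingAut (modularFunctionFieldFull (M * q)) (s * s) f₀) * f₀ * ((arithmeticRingAut (modularFunctionFieldFull (M * q)) (s * s) f₀)⁻¹) ^ 2) ^ (q ^ 2) := by
  classical
  have hVal₀ := s34if_val M q hM K0 A0 H ha2 hA0 c0 c1 hc
  have hVal₁ := s34if_val M q hM K0 A0 H ha2 hA0 c1 c0 hc.symm
  obtain ⟨htV₂, htV₂', hex⟩ := hVal₀ t ht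
  have htinv : ((t⁻¹ : ↥(laurentBaseChange K0 (modularFunctionFieldFull (M * q)))) :
      LaurentSeries K0) = cinstU H K0 (c1 : K0) (c0 : K0) := by
    rw [IntermediateField.coe_inv, ht, cinstU_inv]
  have hGam₀ := s34if_gam M q hM K0 A0 H ha2 hA0 c0 c1 hc hQ0 hSM0 hSM1 hu0 hu1
  have hGam₁ := s34if_gam M q hM K0 A0 H ha2 hA0 c1 c0 hc.symm hQ1 hSM1 hSM0 hu1 hu0
  have hord := cinst_hord (K := K0) τ hτ m f₀ hdiv
  have hrat := lni_hrat_of_place (K0 := K0) τ hτ f₀ hratQ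
  have hfw : va2SwapEquiv M q hq.out hM K0 f₀ ≠ 0 := (_root_.map_ne_zero _).mpr hf₀
  have hordw := lni_hord_comap τ m f₀ (va2SwapEquiv M q hq.out hM K0) (s35la_swap_const M q hM K0 A0) hord
  have hratw := lni_hrat_comap τ f₀ (va2SwapEquiv M q hq.out hM K0) (s35la_swap_const M q hM K0 A0) hrat
  exact s35in_c_field M q hM K0 A0 H s hs c0 c1 hc t ht τ hτ htV₂ htV₂' hex m hm2 hmA
    hdec₁ hdec₂ x y hx₁ hx₂ hx₂' hy₂ hy₁ hy₁' hx0 hy0
    (fun 𝔭 h𝔭 => cmi_hD M q hM K0 A0 H ha2 hA0 c0 c1 hc hSM0 t ht τ hτ 𝔭 h𝔭)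
    (fun 𝔭 h𝔭 => cmi_hD M q hM K0 A0 H ha2 hA0 c1 c0 hc.symm hSM1 t⁻¹ htinv τ hτ 𝔭 h𝔭)
    ((s34if_dom M q hM K0 A0 H ha2 hA0 c0 c1 hc hQ0 hQ1) t ht τ hτ)
    (fun 𝔫 h1 h2 h3 => by
      have h := (s34if_dom M q hM K0 A0 H ha2 hA0 c1 c0 hc.symm hQ1 hQ0) t⁻¹ htinv τ hτ 𝔫
        h1 h2 h3
      rw [inv_inv] at h
      exact h.symm)
    f₀ hf₀ hdiv
    (fun g hg 𝔫 h𝔫 hc₁ hc₂ => by
      rcases hg with rfl | rfl
      · exact s35in_c_node M q hM K0 A0 H c0 c1 hc hVal₀ hGam₀ t ht τ hτ m _ hf₀ hord hrat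
          𝔫 h𝔫 hc₁ hc₂
      · exact s35in_c_node M q hM K0 A0 H c0 c1 hc hVal₀ hGam₀ t ht τ hτ m _ hfw hordw hratw
          𝔫 h𝔫 hc₁ hc₂)
    (fun g hg 𝔫 h𝔫 hc₁ hc₂ => by
      rcases hg with rfl | rfl
      · exact s35in_c_node M q hM K0 A0 H c1 c0 hc.symm hVal₁ hGam₁ t⁻¹ htinv τ hτ m _ hf₀
          hord hrat 𝔫 h𝔫 hc₁ hc₂
      · exact s35in_c_node M q hM K0 A0 H c1 c0 hc.symm hVal₁ hGam₁ t⁻¹ htinv τ hτ m _ hfw
          hordw hratw 𝔫 h𝔫 hc₁ hc₂)
    hN₀ hN₁ hres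

/-- **CORE-INST, layer 1, closed form up to the residue statement**: in `s35in_c_main` the
discreteness of the two valuations and the local equations (`GaussSep`), the node data at the
crossing points of both charts (`FrobNodeSeam`) and `IsUnit (m : A0)` are discharged, and the
conclusion is put in the inverse-free form of `S35inField`.  The only remaining input is the
residue statement `hres` (CORE-RES). -/
theorem s35in_c_res (ha2 : a2 ∣ M) [Finite (IsLocalRing.ResidueField ↥A0)]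
    (hA0 : A0.LiesOverPrime q) (c0 c1 : A0)
    (hc : IsLocalRing.residue ↥A0 c0 ≠ IsLocalRing.residue ↥A0 c1)
    (hQ0 : smi2U A0 (aeval (c0 : K0) H.Qrad)) (hQ1 : smi2U A0 (aeval (c1 : K0) H.Qrad))
    (hSM0 : cinstSMChart K0 A0 M H (c0 : K0) (c1 : K0))
    (hSM1 : cinstSMChart K0 A0 M H (c1 : K0) (c0 : K0))
    (hu0 : unrChart K0 A0 M H c0 c1) (hu1 : unrChart K0 A0 M H c1 c0)
    [Algebra A0 ↥(laurentBaseChange K0 (modularFunctionFieldFull (M * q)))]
    [IsScalarTower A0 K0 ↥(laurentBaseChange K0 (modularFunctionFieldFull (M * q)))]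
    (s : K0 ≃ₐ[ℚ] K0) (hs : A0.IsFrobeniusAt s q)
    (t : ↥(laurentBaseChange K0 (modularFunctionFieldFull (M * q))))
    (ht : (t : LaurentSeries K0) = cinstU H K0 (c0 : K0) (c1 : K0))
    (τ : A0) (hτ : Irreducible τ)
    (m : ℕ) (hm2 : 2 ≤ m) (hmq : m.Coprime q)
    (f₀ : ↥(laurentBaseChange K0 (modularFunctionFieldFull (M * q)))) (hf₀ : f₀ ≠ 0)
    (hdiv : ∀ P : AlgebraicCurve.Place K0 ↥(laurentBaseChange K0 (modularFunctionFieldFull (M * q))), (m : ℤ) ∣ P.ord f₀)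
    (hratQ : ∀ P : AlgebraicCurve.Place K0 ↥(laurentBaseChange K0 (modularFunctionFieldFull (M * q))), P.ord f₀ ≠ 0 → ∀ y ∈ P.toValuationSubring,
      ∃ c : K0, y - algebraMap K0 ↥(laurentBaseChange K0 (modularFunctionFieldFull (M * q))) c ∈ P.toValuationSubring.nonunits)
    -- the residues of `W0 = (σ - 1)² f₀` on the two components
    (hres : ∃ (C₁ C₂ : A0) (w₁ w₂ : ↥(laurentBaseChange K0 (modularFunctionFieldFull (M * q)))), IsUnit C₁ ∧ IsUnit C₂ ∧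
      w₁ ∈ va2V1 M q K0 A0 ∧ w₁⁻¹ ∈ va2V1 M q K0 A0 ∧ w₂ ∈ va2V2 M q hM K0 A0 ∧ w₂⁻¹ ∈ va2V2 M q hM K0 A0 ∧
      arithmeticRingAut (modularFunctionFieldFull (M * q)) (s * s) (arithmeticRingAut (modularFunctionFieldFull (M * q)) (s * s) f₀) * f₀ * ((arithmeticRingAut (modularFunctionFieldFull (M * q)) (s * s) f₀)⁻¹) ^ 2 - algebraMap A0 ↥(laurentBaseChange K0 (modularFunctionFieldFull (M * q))) C₁ * w₁ ^ m ∈ (va2V1 M q K0 A0).nonunits ∧
      arithmeticRingAut (modularFunctionFieldFull (M * q)) (s * s) (arithmeticRingAut (modularFunctionFieldFull (M * q)) (s * s) f₀) * f₀ * ((arithmeticRingAut (modularFunctionFieldFull (M * q)) (s * s) f₀)⁻¹) ^ 2 - algebraMap A0 ↥(laurentBaseChange K0 (modularFunctionFieldFull (M * q))) C₂ * w₂ ^ m ∈ (va2V2 M q hM K0 A0).nonunits) :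
    ∃ (w : K0) (G : ↥(laurentBaseChange K0 (modularFunctionFieldFull (M * q)))), G ≠ 0 ∧
      arithmeticRingAut (modularFunctionFieldFull (M * q)) (s * s) (arithmeticRingAut (modularFunctionFieldFull (M * q)) (s * s) (arithmeticRingAut (modularFunctionFieldFull (M * q)) (s * s) f₀)) * arithmeticRingAut (modularFunctionFieldFull (M * q)) (s * s) f₀ ^ (1 + 2 * q ^ 2) =
        algebraMap K0 ↥(laurentBaseChange K0 (modularFunctionFieldFull (M * q))) w * G ^ m * arithmeticRingAut (modularFunctionFieldFull (M * q)) (s * s) (arithmeticRingAut (modularFunctionFieldFull (M * q)) (s * s) f₀) ^ (2 + q ^ 2) * f₀ ^ (q ^ 2) := by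
  obtain ⟨hx₂, hx₂', hx0⟩ := gsp_x_unit₂ M q hM K0 A0 H ha2
  obtain ⟨hy₁, hy₁', hy0⟩ := gsp_y_unit₁ M q K0 A0 H ha2
  obtain ⟨c, G, hG, h⟩ := s35in_c_main M q hM K0 A0 H ha2 hA0 c0 c1 hc hQ0 hQ1 hSM0 hSM1 hu0 hu1
    s hs t ht τ hτ m hm2 (cinst_isUnit_natCast A0 q hA0 m hmq)
    (gsp_hdec₁ M q K0 A0 τ hτ) (gsp_hdec₂ M q hM K0 A0 τ hτ)
    (heckeAlphaBar K0 M q (nunH K0 M H ha2) ^ q - heckeBetaBar K0 M q (nunH K0 M H ha2))
    (heckeAlphaBar K0 M q (nunH K0 M H ha2) - heckeBetaBar K0 M q (nunH K0 M H ha2) ^ q)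
    (gsp_x_mem₁ M q hM K0 A0 H ha2 hA0) hx₂ hx₂' (gsp_y_mem₂ M q hM K0 A0 H ha2 hA0) hy₁ hy₁'
    hx0 hy0 f₀ hf₀ hdiv hratQ
    (fun 𝔫 h𝔫 h1 h2 => fns_node M q hM K0 A0 H ha2 hA0 c0 c1 hc hQ0 hSM0 hSM1 hu0 hu1 t ht
      τ hτ hs 𝔫 h𝔫 h1 h2)
    (fun 𝔫 h𝔫 h1 h2 => fns_node_inv M q hM K0 A0 H ha2 hA0 c0 c1 hc hQ1 hSM0 hSM1 hu0 hu1 t ht
      τ hτ hs 𝔫 h𝔫 h1 h2)
    hres
  exact ⟨c, G, hG, s35in_a_rewrite
    ((arithmeticRingAut (modularFunctionFieldFull (M * q)) (s * s) : ↥(laurentBaseChange K0 (modularFunctionFieldFull (M * q))) ≃+* ↥(laurentBaseChange K0 (modularFunctionFieldFull (M * q)))) : ↥(laurentBaseChange K0 (modularFunctionFieldFull (M * q))) →+* ↥(laurentBaseChange K0 (modularFunctionFieldFull (M * q)))) f₀ hf₀ _ G m (q ^ 2) h⟩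

/-- **CORE-INST, layer 1, field form**: `S35inField M q m K0 s` over a generic field of
definition (the hypothesis `hfield` of `s35in_reduce`), from the residue statement (CORE-RES)
for every function satisfying the hypotheses of `S35inField`. -/
theorem s35in_c_infield (ha2 : a2 ∣ M) [Finite (IsLocalRing.ResidueField ↥A0)]
    (hA0 : A0.LiesOverPrime q) (s : K0 ≃ₐ[ℚ] K0) (hs : A0.IsFrobeniusAt s q) (c0 c1 : A0)
    (hc : IsLocalRing.residue ↥A0 c0 ≠ IsLocalRing.residue ↥A0 c1)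
    (hQ0 : smi2U A0 (aeval (c0 : K0) H.Qrad)) (hQ1 : smi2U A0 (aeval (c1 : K0) H.Qrad))
    (hSM0 : cinstSMChart K0 A0 M H (c0 : K0) (c1 : K0))
    (hSM1 : cinstSMChart K0 A0 M H (c1 : K0) (c0 : K0))
    (hu0 : unrChart K0 A0 M H c0 c1) (hu1 : unrChart K0 A0 M H c1 c0)
    (m : ℕ) (hm2 : 2 ≤ m) (hmq : m.Coprime q)
    (hRES : ∀ [Algebra A0 ↥(laurentBaseChange K0 (modularFunctionFieldFull (M * q)))] [IsScalarTower A0 K0 ↥(laurentBaseChange K0 (modularFunctionFieldFull (M * q)))] (f₀ : ↥(laurentBaseChange K0 (modularFunctionFieldFull (M * q)))), f₀ ≠ 0 →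
      (∀ P : AlgebraicCurve.Place K0 ↥(laurentBaseChange K0 (modularFunctionFieldFull (M * q))), (m : ℤ) ∣ P.ord f₀) →
      (∃ (c : K0) (e : ↥(laurentBaseChange K0 (modularFunctionFieldFull M))),
        s35NormA K0 M q f₀ =
          algebraMap K0 ↥(laurentBaseChange K0 (modularFunctionFieldFull M)) c * e ^ m) →
      (∃ (c : K0) (e : ↥(laurentBaseChange K0 (modularFunctionFieldFull M))),
        s35NormB K0 M q f₀ =
          algebraMap K0 ↥(laurentBaseChange K0 (modularFunctionFieldFull M)) c * e ^ m) →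
      ∃ (C₁ C₂ : A0) (w₁ w₂ : ↥(laurentBaseChange K0 (modularFunctionFieldFull (M * q)))), IsUnit C₁ ∧ IsUnit C₂ ∧
        w₁ ∈ va2V1 M q K0 A0 ∧ w₁⁻¹ ∈ va2V1 M q K0 A0 ∧ w₂ ∈ va2V2 M q hM K0 A0 ∧ w₂⁻¹ ∈ va2V2 M q hM K0 A0 ∧
        arithmeticRingAut (modularFunctionFieldFull (M * q)) (s * s) (arithmeticRingAut (modularFunctionFieldFull (M * q)) (s * s) f₀) * f₀ * ((arithmeticRingAut (modularFunctionFieldFull (M * q)) (s * s) f₀)⁻¹) ^ 2 - algebraMap A0 ↥(laurentBaseChange K0 (modularFunctionFieldFull (M * q))) C₁ * w₁ ^ m ∈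
          (va2V1 M q K0 A0).nonunits ∧
        arithmeticRingAut (modularFunctionFieldFull (M * q)) (s * s) (arithmeticRingAut (modularFunctionFieldFull (M * q)) (s * s) f₀) * f₀ * ((arithmeticRingAut (modularFunctionFieldFull (M * q)) (s * s) f₀)⁻¹) ^ 2 - algebraMap A0 ↥(laurentBaseChange K0 (modularFunctionFieldFull (M * q))) C₂ * w₂ ^ m ∈
          (va2V2 M q hM K0 A0).nonunits) :
    S35inField M q m K0 s := by
  classical
  intro f₀ hf₀ hdiv hrat hNa hNb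
  letI algF : Algebra ↥A0 ↥(laurentBaseChange K0 (modularFunctionFieldFull (M * q))) :=
    ((algebraMap K0 ↥(laurentBaseChange K0 (modularFunctionFieldFull (M * q)))).comp A0.subtype).toAlgebra
  haveI twF : IsScalarTower ↥A0 K0 ↥(laurentBaseChange K0 (modularFunctionFieldFull (M * q))) :=
    IsScalarTower.of_algebraMap_eq (fun _ => rfl)
  obtain ⟨τ, hτ⟩ := IsDiscreteValuationRing.exists_irreducible ↥A0
  exact s35in_c_res M q hM K0 A0 H ha2 hA0 c0 c1 hc hQ0 hQ1 hSM0 hSM1 hu0 hu1 s hs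
    ⟨cinstU H K0 (c0 : K0) (c1 : K0), cinstU_mem H K0 (ha2.mul_right q) _ _⟩ rfl τ hτ m hm2 hmq
    f₀ hf₀ hdiv (fun P hP => (hrat P hP).2) (hRES f₀ hf₀ hdiv hNa hNb)

end Field

end Fermat.Agent.S35
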