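import Mathlib
import Fermat.Agent.S35.InstReduce
import Fermat.Agent.S35.InstCore
import Fermat.Agent.S35.GaussSep
import Fermat.Agent.S35.FrobNodeSeam
import Fermat.Agent.S35.CoreResCarrier

/-!
# S35, package CORE-INST, layers 2 and 3 (InstFinal): the core statement of S35

* `s35in_form`: the algebra rewrite from the conclusion `σ W₀ = c G ^ m W₀ ^ Q` of the abstract
  geometric core (`W₀ = σ² f · f · (σ f)⁻²`) to the division-free form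
  `σ³ f · (σ f) ^ (1 + 2 Q) = c G ^ m (σ² f) ^ (2 + Q) f ^ Q`.
* `s35in_field`: `S35inField M q m K0 s` over a generic field of definition `K0` with a discrete
  valuation subring `A0` over `q`, a Frobenius element `s` of `A0` at `q` and base points
  `c0, c1 ∈ A0` as provided by `s34if_inputs`, for `m ≥ 2` prime to `q`
  (`s35in_c_main` with the inputs `gsp_*` (GaussSep), `fns_node`, `fns_node_inv` (FrobNodeSeam)
  and `cri19_main` (CoreResCarrier)).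
* `s35in_final`: for a prime `q ∤ M0`, a Hauptmodul record of level `a2 ∣ M0`, a valuation
  subring `A` of `ℚ̄` over `q`, a Frobenius element `φ` of `A` at `q` and `m ≠ 0` prime to `q`:
  `S35hCore K1 (φ * φ) M0 q m` for all finite normal `K1 ⊆ ℚ̄` containing a finite set.
-/

set_option autoImplicit false
set_option linter.unusedSectionVars false

noncomputable section

open ModularCurve AlgebraicCurve Polynomial
open Fermat.Agent.S18 Fermat.Agent.S37 Fermat.Agent.S34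

namespace Fermat.Agent.S35

local notation "Qb" => AlgebraicClosure ℚ

/-- the field identity behind `s35in_form` -/
theorem s35in_form_aux {F : Type*} [Field F] (a b d f c' : F) (ha : a ≠ 0) (hb : b ≠ 0) (Q : ℕ)
    (h : d * a * (b⁻¹) ^ 2 = c' * (b * f * (a⁻¹) ^ 2) ^ Q) :
    d * a ^ (1 + 2 * Q) = c' * b ^ (2 + Q) * f ^ Q := by
  have key : d * a ^ (1 + 2 * Q) = (d * a * (b⁻¹) ^ 2) * (b ^ 2 * a ^ (2 * Q)) := by
    have hb2 : (b⁻¹) ^ 2 * b ^ 2 = 1 := by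
      rw [inv_pow, inv_mul_cancel₀ (pow_ne_zero _ hb)]
    rw [pow_add, pow_one]
    linear_combination (-(d * a * a ^ (2 * Q))) * hb2
  have hinv : ((a⁻¹) ^ 2) ^ Q * a ^ (2 * Q) = 1 := by
    rw [inv_pow, inv_pow, ← pow_mul, inv_mul_cancel₀ (pow_ne_zero _ ha)]
  rw [key, h, mul_pow, mul_pow, pow_add]
  linear_combination (c' * b ^ Q * f ^ Q * b ^ 2) * hinv

/-- the algebra rewrite from the form of the abstract core to the division-free form -/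
theorem s35in_form {F : Type*} [Field F] (σ : F ≃+* F) (f : F) (hf : f ≠ 0) (m Q : ℕ) (c G : F)
    (h : σ (σ (σ f) * f * ((σ f)⁻¹) ^ 2) = c * G ^ m * (σ (σ f) * f * ((σ f)⁻¹) ^ 2) ^ Q) :
    σ (σ (σ f)) * σ f ^ (1 + 2 * Q) = c * G ^ m * σ (σ f) ^ (2 + Q) * f ^ Q := by
  have h1 : σ f ≠ 0 := (_root_.map_ne_zero _).mpr hf
  have h2 : σ (σ f) ≠ 0 := (_root_.map_ne_zero _).mpr h1
  rw [map_mul, map_mul, map_pow, map_inv₀] at h
  exact s35in_form_aux (σ f) (σ (σ f)) (σ (σ (σ f))) f (c * G ^ m) h1 h2 Q h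

section Field

variable (M q : ℕ) [NeZero M] [hq : Fact q.Prime] (hM : ¬ q ∣ M)
  (K0 : Type*) [Field K0] [Algebra ℚ K0] [Algebra K0 Qb]
  (A0 : ValuationSubring K0) [IsDiscreteValuationRing ↥A0]
  {a2 : ℕ} (H : HauptRec a2 q)

include hM in
/-- **CORE-INST, layer 2**: the core statement of S35 over a generic field of definition. -/
theorem s35in_field (ha2 : a2 ∣ M) [Finite (IsLocalRing.ResidueField ↥A0)]
    (hA0 : A0.LiesOverPrime q) (s : K0 ≃ₐ[ℚ] K0) (hs : A0.IsFrobeniusAt s q) (c0 c1 : A0)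
    (hc : IsLocalRing.residue ↥A0 c0 ≠ IsLocalRing.residue ↥A0 c1)
    (hQ0 : smi2U A0 (aeval (c0 : K0) H.Qrad)) (hQ1 : smi2U A0 (aeval (c1 : K0) H.Qrad))
    (hSM0 : cinstSMChart K0 A0 M H (c0 : K0) (c1 : K0))
    (hSM1 : cinstSMChart K0 A0 M H (c1 : K0) (c0 : K0))
    (hu0 : unrChart K0 A0 M H c0 c1) (hu1 : unrChart K0 A0 M H c1 c0)
    (m : ℕ) (hm2 : 2 ≤ m) (hmq : m.Coprime q) :
    S35inField M q m K0 s := by
  classical
  intro f0 hf0 hdiv hrat hNa hNb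
  let _ : Algebra A0 ↥(laurentBaseChange K0 (modularFunctionFieldFull (M * q))) :=
    ((algebraMap K0 ↥(laurentBaseChange K0 (modularFunctionFieldFull (M * q)))).comp
      A0.subtype).toAlgebra
  have : IsScalarTower A0 K0 ↥(laurentBaseChange K0 (modularFunctionFieldFull (M * q))) :=
    IsScalarTower.of_algebraMap_eq (fun _ => rfl)
  obtain ⟨τ, hτ⟩ := IsDiscreteValuationRing.exists_irreducible A0
  have hmA : IsUnit ((m : ℕ) : ↥A0) := cinst_isUnit_natCast A0 q hA0 m hmq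
  obtain ⟨hx₂, hx₂', hx0⟩ := gsp_x_unit₂ M q hM K0 A0 H ha2
  obtain ⟨hy₁, hy₁', hy0⟩ := gsp_y_unit₁ M q K0 A0 H ha2
  have hres := cri19_main M q hM K0 A0 hA0 hs m f0 hf0 hNa hNb
  obtain ⟨w, G, hG, hrel⟩ := s35in_c_main M q hM K0 A0 H ha2 hA0 c0 c1 hc hQ0 hQ1 hSM0 hSM1
    hu0 hu1 s hs ⟨cinstU H K0 (c0 : K0) (c1 : K0), cinstU_mem H K0 (ha2.mul_right q) _ _⟩ rfl
    τ hτ m hm2 hmA (gsp_hdec₁ M q K0 A0 τ hτ) (gsp_hdec₂ M q hM K0 A0 τ hτ) _ _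
    (gsp_x_mem₁ M q hM K0 A0 H ha2 hA0) hx₂ hx₂' (gsp_y_mem₂ M q hM K0 A0 H ha2 hA0) hy₁ hy₁'
    hx0 hy0 f0 hf0 hdiv (fun P hP => (hrat P hP).2)
    (fun 𝔫 h𝔫 hc₁ hc₂ => fns_node M q hM K0 A0 H ha2 hA0 c0 c1 hc hQ0 hSM0 hSM1 hu0 hu1 _ rfl
      τ hτ hs 𝔫 h𝔫 hc₁ hc₂)
    (fun 𝔫 h𝔫 hc₁ hc₂ => fns_node_inv M q hM K0 A0 H ha2 hA0 c0 c1 hc hQ1 hSM0 hSM1 hu0 hu1 _
      rfl τ hτ hs 𝔫 h𝔫 hc₁ hc₂)
    hres
  exact ⟨w, G, hG, s35in_form _ f0 hf0 m (q ^ 2) _ G hrel⟩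

end Field

/-- **CORE-INST, final form**: the hypothesis `hcore` of the Kummer bridge of S35. -/
theorem s35in_final (M0 q : ℕ) [NeZero M0] [hq : Fact q.Prime] (hqM : ¬ q ∣ M0) {a2 : ℕ}
    (Hr : HauptRec a2 q) (ha2 : a2 ∣ M0) (A : ValuationSubring Qb) (hA : A.LiesOverPrime q)
    (φ : Qb ≃ₐ[ℚ] Qb) (hφ : A.IsFrobeniusAt φ q) (m : ℕ) (hm : m ≠ 0) (hmq : m.Coprime q) :
    ∃ T : Finset Qb, ∀ (K1 : IntermediateField ℚ Qb) [FiniteDimensional ℚ K1] [Normal ℚ K1],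
      (∀ c ∈ T, c ∈ K1) → S35hCore K1 (φ * φ) M0 q m :=
  s35in_reduce M0 q hqM Hr ha2 A hA φ hφ m hm
    (fun K0 _ _ _ A0 _ _ hA0 s hs c0 c1 hc hQ0 hQ1 hSM0 hSM1 hu0 hu1 hm2 =>
      s35in_field M0 q hqM K0 A0 Hr ha2 hA0 s hs c0 c1 hc hQ0 hQ1 hSM0 hSM1 hu0 hu1 m hm2 hmq)

end Fermat.Agent.S35
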