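import Mathlib

/-!
# Norms in a square of fields (base change of the norm)

`E ⊆ F`, `E' ⊆ F'` finite field extensions, `φE : E → E'`, `φF : F → F'` compatible ring
homomorphisms.  If `[F' : E'] = [F : E]` and `F'` is generated over `E'` by the image of `F`, then
a basis of `F / E` maps to a basis of `F' / E'`, and hence

* `nbc_norm_eq`  : `N_{F'/E'} (φF x) = φE (N_{F/E} x)`;
* `nbc_trace_eq` : `Tr_{F'/E'} (φF x) = φE (Tr_{F/E} x)`;
* `nbc_norm_eq_of_closure`, `nbc_norm_eq_of_mem`, `nbc_trace_eq_of_mem`: variants of the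
  generation hypothesis.

Names are prefixed `nbc_`.
-/

set_option autoImplicit false

namespace Fermat.Agent.S35

open Module

section

variable {E F E' F' : Type*} [Field E] [Field F] [Field E'] [Field F']
  [Algebra E F] [Algebra E' F'] [FiniteDimensional E F]
  (φE : E →+* E') (φF : F →+* F')
  (hcomm : ∀ a : E, φF (algebraMap E F a) = algebraMap E' F' (φE a))

omit [FiniteDimensional E F] in
include hcomm in
/-- the image of an element of `F` lies in the `E'`-span of the image of a basis of `F / E` -/
theorem nbc_map_mem_span {ι : Type*} [Fintype ι] (b : Basis ι E F) (y : F) :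
    φF y ∈ Submodule.span E' (Set.range (fun i => φF (b i))) := by
  classical
  have hy : y = ∑ i, b.repr y i • b i := (b.sum_repr y).symm
  rw [hy, map_sum]
  refine Submodule.sum_mem _ fun i _ => ?_
  rw [Algebra.smul_def, map_mul, hcomm, ← Algebra.smul_def]
  exact Submodule.smul_mem _ _ (Submodule.subset_span ⟨i, rfl⟩)

include hcomm in
/-- the image of `F` consists of elements integral over `E'` -/
theorem nbc_isIntegral (y : F) : IsIntegral E' (φF y) := by
  have hy : IsIntegral E y := IsIntegral.of_finite E y
  obtain ⟨p, hp, hpy⟩ := hy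
  refine ⟨p.map φE, hp.map φE, ?_⟩
  rw [Polynomial.eval₂_map]
  have h1 : (algebraMap E' F').comp φE = φF.comp (algebraMap E F) := by
    ext a
    exact (hcomm a).symm
  rw [h1, ← Polynomial.hom_eval₂, hpy, map_zero]

include hcomm in
/-- the image of a basis of `F / E` spans `F'` over `E'` when `F' = E'(φF F)` -/
theorem nbc_top_le_span {ι : Type*} [Fintype ι] (b : Basis ι E F)
    (hgen : IntermediateField.adjoin E' (Set.range φF) = ⊤) :
    ⊤ ≤ Submodule.span E' (Set.range (fun i => φF (b i))) := by
  classical
  have halg : ∀ z ∈ Set.range φF, IsAlgebraic E' z := by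
    rintro _ ⟨y, rfl⟩
    exact (nbc_isIntegral φE φF hcomm y).isAlgebraic
  have h1 : (IntermediateField.adjoin E' (Set.range φF)).toSubalgebra =
      Algebra.adjoin E' (Set.range φF) :=
    IntermediateField.adjoin_toSubalgebra_of_isAlgebraic halg
  have h2 : Algebra.adjoin E' (Set.range φF) = ⊤ := by
    rw [← h1, hgen]
    rfl
  have h3 : (Submonoid.closure (Set.range φF) : Set F') = Set.range φF := by
    have : Set.range φF = ((φF.rangeS.toSubmonoid : Submonoid F') : Set F') := by
      ext z
      exact Iff.rfl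
    rw [this, Submonoid.closure_eq]
  intro z _
  have hz : z ∈ Algebra.adjoin E' (Set.range φF) := by
    rw [h2]
    trivial
  have hz' : z ∈ Submodule.span E' (Submonoid.closure (Set.range φF) : Set F') := by
    have h4 := Algebra.adjoin_eq_span E' (Set.range φF)
    have : z ∈ Subalgebra.toSubmodule (Algebra.adjoin E' (Set.range φF)) := hz
    rwa [h4] at this
  rw [h3] at hz'
  refine Submodule.span_le.mpr ?_ hz'
  rintro _ ⟨y, rfl⟩
  exact nbc_map_mem_span φE φF hcomm b y

include hcomm in
/-- **Base change of the norm.** -/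
theorem nbc_norm_eq (hdeg : finrank E' F' = finrank E F)
    (hgen : IntermediateField.adjoin E' (Set.range φF) = ⊤) (x : F) :
    Algebra.norm E' (φF x) = φE (Algebra.norm E x) := by
  classical
  set b : Basis (Fin (finrank E F)) E F := finBasis E F with hb
  have hcard : Fintype.card (Fin (finrank E F)) = finrank E' F' := by
    rw [Fintype.card_fin, hdeg]
  set B' : Basis (Fin (finrank E F)) E' F' :=
    basisOfTopLeSpanOfCardEqFinrank (fun i => φF (b i))
      (nbc_top_le_span φE φF hcomm b hgen) hcard with hB'
  have hB'i : ∀ i, B' i = φF (b i) := fun i => by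
    rw [hB', coe_basisOfTopLeSpanOfCardEqFinrank]
  rw [Algebra.norm_eq_matrix_det B' (φF x), Algebra.norm_eq_matrix_det b x, RingHom.map_det]
  congr 1
  ext i j
  rw [Algebra.leftMulMatrix_eq_repr_mul, RingHom.mapMatrix_apply, Matrix.map_apply,
    Algebra.leftMulMatrix_eq_repr_mul, hB'i, ← map_mul]
  have h1 : x * b j = ∑ k, b.repr (x * b j) k • b k := (b.sum_repr (x * b j)).symm
  have h2 : φF (x * b j) = ∑ k, φE (b.repr (x * b j) k) • B' k := by
    conv_lhs => rw [h1]
    rw [map_sum]
    refine Finset.sum_congr rfl fun k _ => ?_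
    rw [Algebra.smul_def, map_mul, hcomm, ← Algebra.smul_def, hB'i]
  rw [h2, B'.repr_sum_self]

include hcomm in
/-- **Base change of the trace.** -/
theorem nbc_trace_eq (hdeg : finrank E' F' = finrank E F)
    (hgen : IntermediateField.adjoin E' (Set.range φF) = ⊤) (x : F) :
    Algebra.trace E' F' (φF x) = φE (Algebra.trace E F x) := by
  classical
  set b : Basis (Fin (finrank E F)) E F := finBasis E F with hb
  have hcard : Fintype.card (Fin (finrank E F)) = finrank E' F' := by
    rw [Fintype.card_fin, hdeg]
  set B' : Basis (Fin (finrank E F)) E' F' :=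
    basisOfTopLeSpanOfCardEqFinrank (fun i => φF (b i))
      (nbc_top_le_span φE φF hcomm b hgen) hcard with hB'
  have hB'i : ∀ i, B' i = φF (b i) := fun i => by
    rw [hB', coe_basisOfTopLeSpanOfCardEqFinrank]
  rw [Algebra.trace_eq_matrix_trace B' (φF x), Algebra.trace_eq_matrix_trace b x,
    Matrix.trace, Matrix.trace, map_sum]
  refine Finset.sum_congr rfl fun i _ => ?_
  rw [Matrix.diag_apply, Matrix.diag_apply, Algebra.leftMulMatrix_eq_repr_mul,
    Algebra.leftMulMatrix_eq_repr_mul, hB'i, ← map_mul]
  have h1 : x * b i = ∑ k, b.repr (x * b i) k • b k := (b.sum_repr (x * b i)).symm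
  have h2 : φF (x * b i) = ∑ k, φE (b.repr (x * b i) k) • B' k := by
    conv_lhs => rw [h1]
    rw [map_sum]
    refine Finset.sum_congr rfl fun k _ => ?_
    rw [Algebra.smul_def, map_mul, hcomm, ← Algebra.smul_def, hB'i]
  rw [h2, B'.repr_sum_self]

include hcomm in
/-- `nbc_norm_eq` with the generation hypothesis in subfield-closure form -/
theorem nbc_norm_eq_of_closure (hdeg : finrank E' F' = finrank E F)
    (hgen : ∀ y : F', y ∈ Subfield.closure (Set.range (algebraMap E' F') ∪ Set.range φF))
    (x : F) : Algebra.norm E' (φF x) = φE (Algebra.norm E x) := by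
  refine nbc_norm_eq φE φF hcomm hdeg ?_ x
  rw [eq_top_iff]
  intro y _
  exact hgen y

include hcomm in
/-- `nbc_norm_eq` when `F' = E'(θ)` for one element `θ` of the image of `F` -/
theorem nbc_norm_eq_of_mem (hdeg : finrank E' F' = finrank E F) (θ : F')
    (hθ : θ ∈ Set.range φF) (hgen : IntermediateField.adjoin E' {θ} = ⊤) (x : F) :
    Algebra.norm E' (φF x) = φE (Algebra.norm E x) := by
  refine nbc_norm_eq φE φF hcomm hdeg ?_ x
  rw [eq_top_iff, ← hgen]
  exact IntermediateField.adjoin.mono E' _ _ (Set.singleton_subset_iff.mpr hθ)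

include hcomm in
/-- `nbc_trace_eq` when `F' = E'(θ)` for one element `θ` of the image of `F` -/
theorem nbc_trace_eq_of_mem (hdeg : finrank E' F' = finrank E F) (θ : F')
    (hθ : θ ∈ Set.range φF) (hgen : IntermediateField.adjoin E' {θ} = ⊤) (x : F) :
    Algebra.trace E' F' (φF x) = φE (Algebra.trace E F x) := by
  refine nbc_trace_eq φE φF hcomm hdeg ?_ x
  rw [eq_top_iff, ← hgen]
  exact IntermediateField.adjoin.mono E' _ _ (Set.singleton_subset_iff.mpr hθ)

end

end Fermat.Agent.S35
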