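import Fermat.Agent.S35.Push
import Fermat.Agent.S37.HeckeDeg
import Fermat.Agent.S37.ESTors2
import Fermat.Prelude.Thm_ModularCurve_coeffMap_qExpand

/-!
# S35, DEG-PUSH: push-forward of divisor classes along the degeneracy maps

For a `ℚ̄`-embedding `φ : F_N → F_M` of function fields of modular curves:

* `s35pPush N M φ : JZero M →+ JZero N`, the push-forward of divisor classes (Prelude
  `Pic0.pushforwardHom`), and `pglNorm N M φ : F_M →* F_N`, the field norm along `φ`;
* `pgl_push_smul`: the push-forward commutes with the Galois action as soon as `φ` commutes with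
  the coefficient action (`pgl_alpha_intertwines`, `pgl_beta_intertwines`: both degeneracy maps
  do);
* `pgl_push_hecke`: the push-forward commutes with the Hecke operators `T_ℓ` on torsion classes of
  order prime to `ℓ` (`ℓ` not dividing either level), by the Eichler–Shimura relation on torsion;
* `pgl_push_kummer`: the push-forward of the class of `D` with `m D = div f` is the class of a
  divisor `E` with `m E = div (N_φ f)`;
* `pgl_push_eq_zero`: if moreover the push-forward vanishes, then `N_φ f = c · e ^ m`;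
* `pgl_push_pull`: the push-forward commutes with the pull-backs `lvlPullback` on torsion classes,
  given the corresponding identity of norms.
-/

set_option autoImplicit false
set_option linter.unusedSectionVars false
set_option linter.unusedVariables false
set_option linter.style.haveILetI false

open AlgebraicCurve ModularCurve

namespace Fermat.Agent.S35

local notation "Qb" => AlgebraicClosure ℚ

/-! ### Abstract statements in the `Place` language -/

section abs

variable {K F F' : Type*} [Field K] [Field F] [Field F'] [Algebra K F] [Algebra K F']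
  [Algebra F F'] [IsScalarTower K F F'] [Algebra.IsIntegral F F']

/-- the push-forward of divisors commutes with a pair of intertwined semilinear automorphisms
(all inertia degrees being one) -/
theorem pgl_pushforward_smul (hdeg : ∀ w : Place K F', w.inertiaDeg F = 1)
    (g : SemilinearAut K F) (g' : SemilinearAut K F')
    (h : SemilinearAut.IntertwinesAlong (algebraMap F F') g g') (D : Divisor K F') :
    Divisor.pushforward F (g' • D) = g • Divisor.pushforward F D := by
  induction D using Finsupp.induction with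
  | zero => simp
  | single_add w n D _ _ ih =>
    rw [smul_add, map_add, map_add, smul_add, ih, SemilinearAut.smul_single,
      Divisor.pushforward_single, Divisor.pushforward_single, SemilinearAut.smul_single,
      Fermat.Agent.S37.lvl_restrict_smul g g' h, hdeg, hdeg]

/-- the push-forward of divisor classes commutes with a pair of intertwined semilinear
automorphisms -/
theorem pgl_pushforwardHom_smul [Module.Finite F F'] [HasPrincipalDivisors K F']
    (H : Divisor.PushforwardNormFormula K F F')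
    (hdeg : ∀ w : Place K F', w.inertiaDeg F = 1)
    (g : SemilinearAut K F) (g' : SemilinearAut K F')
    (h : SemilinearAut.IntertwinesAlong (algebraMap F F') g g') (x : Pic0 K F') :
    Pic0.pushforwardHom K F F' H (g' • x) = g • Pic0.pushforwardHom K F F' H x := by
  obtain ⟨D, rfl⟩ := Pic0.mk_surjective x
  rw [SemilinearAut.pic0_smul_mk, Pic0.pushforwardHom_mk, Pic0.pushforwardHom_mk,
    SemilinearAut.pic0_smul_mk]
  congr 1
  apply Subtype.ext
  rw [Pic0.coe_pushforwardDegZeroHom, SemilinearAut.coe_degZeroSMulHom,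
    SemilinearAut.coe_degZeroSMulHom, Pic0.coe_pushforwardDegZeroHom]
  exact pgl_pushforward_smul hdeg g g' h D

end abs

section along

variable {K F F' : Type*} [Field K] [Field F] [Field F'] [Algebra K F] [Algebra K F']

/-- the field norm along an embedding -/
noncomputable def pglNormAlong (φ : F →ₐ[K] F') : F' →* F :=
  letI := algebraAlong φ
  Algebra.norm F

/-- **Kummer calculus, push-forward**: if `m D = div f` then `m φ_* D = div (N_φ f)`. -/
theorem pgl_kummer_push (φ : F →ₐ[K] F') (hφ : φ.toRingHom.IsIntegral) (hfin : FiniteAlong K φ)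
    (hN : NormFormulaAlong K φ hfin) (m : ℤ) (f : F') (hf : f ≠ 0) (D : Divisor K F')
    (hD : ∀ w : Place K F', m * D w = w.ord f) (v : Place K F) :
    m * Divisor.pushforwardAlong φ hφ D v = v.ord (pglNormAlong φ f) := by
  letI := algebraAlong φ
  haveI := isScalarTower_along φ
  haveI := isIntegral_along φ hφ
  haveI : Module.Finite F F' := hfin
  have hN' : Divisor.PushforwardNormFormula K F F' := hN
  have h := hN' f hf (m • D) (fun w => by rw [Finsupp.smul_apply, smul_eq_mul, hD]) v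
  rw [map_zsmul, Finsupp.smul_apply, smul_eq_mul] at h
  exact h

/-- **Kummer calculus, pull-back**: if `m D = div f` then `m φ^* D = div (φ f)`. -/
theorem pgl_kummer_pull [HasPrincipalDivisors K F'] (φ : F →ₐ[K] F')
    (hφ : φ.toRingHom.IsIntegral) (m : ℤ) (f : F) (D : Divisor K F)
    (hD : ∀ v : Place K F, m * D v = v.ord f) (w : Place K F') :
    m * Divisor.pullbackAlong φ hφ D w = w.ord (φ f) := by
  rw [Divisor.pullbackAlong_apply, Place.ord_restrictAlong φ hφ, ← hD, mul_left_comm]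

end along

/-! ### The modular curves -/

section modular

variable (N M : ℕ) [NeZero N] [NeZero M]
  (φ : ↥(modularFunctionFieldBar N) →ₐ[Qb] ↥(modularFunctionFieldBar M))

/-- the field norm `F_M → F_N` along `φ` -/
noncomputable def pglNorm : ↥(modularFunctionFieldBar M) →* ↥(modularFunctionFieldBar N) :=
  pglNormAlong φ

theorem pglNorm_ne_zero {y : ↥(modularFunctionFieldBar M)} (hy : y ≠ 0) :
    pglNorm N M φ y ≠ 0 := by
  letI := algebraAlong φ
  haveI : Module.Finite ↥(modularFunctionFieldBar N) ↥(modularFunctionFieldBar M) :=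
    Fermat.Agent.S37.hki_finiteAlong N M φ
  haveI : Module.Free ↥(modularFunctionFieldBar N) ↥(modularFunctionFieldBar M) :=
    Module.Free.of_divisionRing _ _
  show Algebra.norm ↥(modularFunctionFieldBar N) y ≠ 0
  rw [Ne, Algebra.norm_eq_zero_iff]
  exact hy

/-- the push-forward of a divisor of degree zero, as a divisor of degree zero -/
noncomputable def pglPushDiv
    (D : Divisor.degZero (K := Qb) (F := ↥(modularFunctionFieldBar M))) :
    Divisor.degZero (K := Qb) (F := ↥(modularFunctionFieldBar N)) :=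
  ⟨Divisor.pushforwardAlong φ (Fermat.Agent.S37.hki_isIntegral N M φ)
      (D : Divisor Qb ↥(modularFunctionFieldBar M)),
    Divisor.pushforwardAlong_mem_degZero φ _ D.2⟩

theorem pglPush_mk (D : Divisor.degZero (K := Qb) (F := ↥(modularFunctionFieldBar M))) :
    s35pPush N M φ (Pic0.mk D) = Pic0.mk (pglPushDiv N M φ D) := rfl

/-- the push-forward preserves torsion -/
theorem pgl_push_torsion (m : ℕ) (x : JZero M) (hx : m • x = 0) :
    m • s35pPush N M φ x = 0 := by
  rw [← map_nsmul, hx, map_zero]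

/-- **DEG-PUSH (a)**: the push-forward commutes with the Galois action, for an embedding
commuting with the coefficient action. -/
theorem pgl_push_smul (σ : Qb ≃ₐ[ℚ] Qb)
    (hφ : SemilinearAut.IntertwinesAlong φ.toRingHom
      (arithmeticGalois (modularFunctionFieldFull N) σ)
      (arithmeticGalois (modularFunctionFieldFull M) σ)) (x : JZero M) :
    s35pPush N M φ (σ • x) = σ • s35pPush N M φ x := by
  letI := algebraAlong φ
  haveI := isScalarTower_along φ
  haveI := isIntegral_along φ (Fermat.Agent.S37.hki_isIntegral N M φ)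
  haveI := Fermat.Agent.S37.hki_hasPrincipalDivisors M
  haveI : Module.Finite ↥(modularFunctionFieldBar N) ↥(modularFunctionFieldBar M) :=
    Fermat.Agent.S37.hki_finiteAlong N M φ
  rw [galois_smul_pic0_def, galois_smul_pic0_def]
  exact pgl_pushforwardHom_smul
    (Fermat.Agent.S37.hki_normFormulaAlong N M φ (Fermat.Agent.S37.hki_finiteAlong N M φ))
    (fun w => Fermat.Agent.S37.hki_inertiaDeg (Fermat.Agent.S37.hki_residue N)
      (Fermat.Agent.S37.hki_residue M) w)
    (arithmeticGalois (modularFunctionFieldFull N) σ)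
    (arithmeticGalois (modularFunctionFieldFull M) σ) hφ x

/-- **DEG-HECKE**: the push-forward commutes with the Hecke operator `T_ℓ` on torsion classes of
order prime to `ℓ`, `ℓ` not dividing the two levels (Eichler–Shimura on torsion at both levels
and Galois-equivariance of the push-forward). -/
theorem pgl_push_hecke
    (hφ : ∀ σ : Qb ≃ₐ[ℚ] Qb, SemilinearAut.IntertwinesAlong φ.toRingHom
      (arithmeticGalois (modularFunctionFieldFull N) σ)
      (arithmeticGalois (modularFunctionFieldFull M) σ))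
    (m ℓ : ℕ) (hℓ : ℓ.Prime) (hℓN : ¬ ℓ ∣ N * m) (hℓM : ¬ ℓ ∣ M * m)
    (z : JZero M) (hz : m • z = 0) :
    s35pPush N M φ (heckeOperatorBar M ⟨ℓ, hℓ⟩ z) =
      heckeOperatorBar N ⟨ℓ, hℓ⟩ (s35pPush N M φ z) := by
  obtain ⟨A, σ, hA, hσ⟩ := Fermat.Agent.Lib.FrobeniusExists.exists_isFrobeniusAt ℓ hℓ
  have hym : m • (σ⁻¹ • z) = 0 := Fermat.Agent.S37.est_galois_torsion M m σ⁻¹ z hz
  have hzy : z = σ • σ⁻¹ • z := (smul_inv_smul σ z).symm
  generalize σ⁻¹ • z = y at hym hzy
  subst hzy
  have h1 := Fermat.Agent.S37.est_frobenius M m ℓ hℓ hℓM A hA σ hσ y hym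
  have h2 := Fermat.Agent.S37.est_frobenius N m ℓ hℓ hℓN A hA σ hσ (s35pPush N M φ y)
    (pgl_push_torsion N M φ m y hym)
  have h1' : heckeOperatorBar M ⟨ℓ, hℓ⟩ (σ • y) = σ • σ • y + ℓ • y := by
    have h := h1
    rw [sub_add_eq_add_sub, sub_eq_zero] at h
    exact h.symm
  have h2' : heckeOperatorBar N ⟨ℓ, hℓ⟩ (σ • s35pPush N M φ y) =
      σ • σ • s35pPush N M φ y + ℓ • s35pPush N M φ y := by
    have h := h2
    rw [sub_add_eq_add_sub, sub_eq_zero] at h
    exact h.symm
  rw [h1', map_add, map_nsmul, pgl_push_smul N M φ σ (hφ σ), pgl_push_smul N M φ σ (hφ σ)]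
  exact h2'.symm

/-- **Kummer calculus**: the push-forward of a divisor `D` with `m D = div f`. -/
theorem pgl_push_kummer (m : ℤ) (f : ↥(modularFunctionFieldBar M)) (hf : f ≠ 0)
    (D : Divisor.degZero (K := Qb) (F := ↥(modularFunctionFieldBar M)))
    (hD : ∀ w : Place Qb ↥(modularFunctionFieldBar M),
      m * (D : Divisor Qb ↥(modularFunctionFieldBar M)) w = w.ord f)
    (v : Place Qb ↥(modularFunctionFieldBar N)) :
    m * (pglPushDiv N M φ D : Divisor Qb ↥(modularFunctionFieldBar N)) v =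
      v.ord (pglNorm N M φ f) :=
  pgl_kummer_push φ (Fermat.Agent.S37.hki_isIntegral N M φ)
    (Fermat.Agent.S37.hki_finiteAlong N M φ)
    (Fermat.Agent.S37.hki_normFormulaAlong N M φ (Fermat.Agent.S37.hki_finiteAlong N M φ))
    m f hf _ hD v

/-- **CORE-KUM, norm half**: if the push-forward of the class of `D` vanishes and `m D = div f`,
then the norm of `f` is a constant times an `m`-th power. -/
theorem pgl_push_eq_zero (m : ℕ) (f : ↥(modularFunctionFieldBar M)) (hf : f ≠ 0)
    (D : Divisor.degZero (K := Qb) (F := ↥(modularFunctionFieldBar M)))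
    (hD : ∀ w : Place Qb ↥(modularFunctionFieldBar M),
      (m : ℤ) * (D : Divisor Qb ↥(modularFunctionFieldBar M)) w = w.ord f)
    (h0 : s35pPush N M φ (Pic0.mk D) = 0) :
    ∃ (c : Qb) (e : ↥(modularFunctionFieldBar N)), c ≠ 0 ∧ e ≠ 0 ∧
      pglNorm N M φ f = algebraMap Qb ↥(modularFunctionFieldBar N) c * e ^ m := by
  rw [pglPush_mk] at h0
  have h1 : (pglPushDiv N M φ D : Divisor Qb ↥(modularFunctionFieldBar N)) ∈
      Divisor.principal (K := Qb) (F := ↥(modularFunctionFieldBar N)) :=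
    AddSubgroup.mem_addSubgroupOf.mp ((QuotientAddGroup.eq_zero_iff _).mp h0)
  obtain ⟨e, he0, he⟩ := h1
  have hNf : pglNorm N M φ f ≠ 0 := pglNorm_ne_zero N M φ hf
  have hem : e ^ m ≠ 0 := pow_ne_zero m he0
  have hord : ∀ v : Place Qb ↥(modularFunctionFieldBar N),
      v.ord (pglNorm N M φ f * (e ^ m)⁻¹) = 0 := by
    intro v
    rw [v.ord_mul hNf (inv_ne_zero hem), v.ord_inv, Fermat.Agent.S37.lvl_ord_pow,
      ← pgl_push_kummer N M φ (m : ℤ) f hf D hD v, he v]
    ring
  obtain ⟨c, hc⟩ := Fermat.Agent.S37.lvl_const N _ (mul_ne_zero hNf (inv_ne_zero hem)) hord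
  refine ⟨c, e, ?_, he0, ?_⟩
  · rintro rfl
    rw [map_zero] at hc
    exact mul_ne_zero hNf (inv_ne_zero hem) hc.symm
  · rw [hc, mul_assoc, inv_mul_cancel₀ hem, mul_one]

end modular

/-! ### The two degeneracy maps commute with the coefficient action -/

section degeneracy

variable (N ℓ : ℕ) [NeZero N] [NeZero ℓ]

theorem pgl_alpha_intertwines (σ : Qb ≃ₐ[ℚ] Qb) :
    SemilinearAut.IntertwinesAlong (heckeAlphaBar Qb N ℓ).toRingHom
      (arithmeticGalois (modularFunctionFieldFull N) σ)
      (arithmeticGalois (modularFunctionFieldFull (N * ℓ)) σ) := by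
  intro y
  apply Subtype.ext
  rw [coe_arithmeticGalois_smul]
  show _ = ((heckeAlphaBar Qb N ℓ (arithmeticGalois (modularFunctionFieldFull N) σ • y) :
    ↥(modularFunctionFieldBar (N * ℓ))) : LaurentSeries Qb)
  rw [coe_heckeAlphaBar, coe_arithmeticGalois_smul]
  show ModularCurve.coeffMap (σ : Qb →+* Qb)
    ((heckeAlphaBar Qb N ℓ y : ↥(modularFunctionFieldBar (N * ℓ))) : LaurentSeries Qb) = _
  rw [coe_heckeAlphaBar]

theorem pgl_beta_intertwines (σ : Qb ≃ₐ[ℚ] Qb) :
    SemilinearAut.IntertwinesAlong (heckeBetaBar Qb N ℓ).toRingHom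
      (arithmeticGalois (modularFunctionFieldFull N) σ)
      (arithmeticGalois (modularFunctionFieldFull (N * ℓ)) σ) := by
  intro y
  apply Subtype.ext
  rw [coe_arithmeticGalois_smul]
  show _ = ((heckeBetaBar Qb N ℓ (arithmeticGalois (modularFunctionFieldFull N) σ • y) :
    ↥(modularFunctionFieldBar (N * ℓ))) : LaurentSeries Qb)
  rw [coe_heckeBetaBar, coe_arithmeticGalois_smul]
  show ModularCurve.coeffMap (σ : Qb →+* Qb)
    ((heckeBetaBar Qb N ℓ y : ↥(modularFunctionFieldBar (N * ℓ))) : LaurentSeries Qb) = _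
  rw [coe_heckeBetaBar, coeffMap_qExpand]

/-- `α_*` commutes with the Galois action -/
theorem pgl_alpha_smul (σ : Qb ≃ₐ[ℚ] Qb) (x : JZero (N * ℓ)) :
    s35pAlpha N ℓ (σ • x) = σ • s35pAlpha N ℓ x :=
  haveI : NeZero (N * ℓ) := ⟨Nat.mul_ne_zero (NeZero.ne N) (NeZero.ne ℓ)⟩
  pgl_push_smul N (N * ℓ) (heckeAlphaBar Qb N ℓ) σ (pgl_alpha_intertwines N ℓ σ) x

/-- `β_*` commutes with the Galois action -/
theorem pgl_beta_smul (σ : Qb ≃ₐ[ℚ] Qb) (x : JZero (N * ℓ)) :
    s35pBeta N ℓ (σ • x) = σ • s35pBeta N ℓ x :=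
  haveI : NeZero (N * ℓ) := ⟨Nat.mul_ne_zero (NeZero.ne N) (NeZero.ne ℓ)⟩
  pgl_push_smul N (N * ℓ) (heckeBetaBar Qb N ℓ) σ (pgl_beta_intertwines N ℓ σ) x

/-- **DEG-HECKE for `α_*`**: `α_* T_l = T_l α_*` on `m`-torsion, `l ∤ N ℓ m`. -/
theorem pgl_alpha_hecke [NeZero (N * ℓ)] (m l : ℕ) (hl : l.Prime) (hlm : ¬ l ∣ N * ℓ * m)
    (z : JZero (N * ℓ)) (hz : m • z = 0) :
    s35pAlpha N ℓ (heckeOperatorBar (N * ℓ) ⟨l, hl⟩ z) =
      heckeOperatorBar N ⟨l, hl⟩ (s35pAlpha N ℓ z) :=
  pgl_push_hecke N (N * ℓ) (heckeAlphaBar Qb N ℓ) (pgl_alpha_intertwines N ℓ) m l hl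
    (fun h => hlm (by
      obtain ⟨c, hc⟩ := h
      exact ⟨c * ℓ, by rw [mul_right_comm, hc]; ring⟩)) hlm z hz

/-- **DEG-HECKE for `β_*`**: `β_* T_l = T_l β_*` on `m`-torsion, `l ∤ N ℓ m`. -/
theorem pgl_beta_hecke [NeZero (N * ℓ)] (m l : ℕ) (hl : l.Prime) (hlm : ¬ l ∣ N * ℓ * m)
    (z : JZero (N * ℓ)) (hz : m • z = 0) :
    s35pBeta N ℓ (heckeOperatorBar (N * ℓ) ⟨l, hl⟩ z) =
      heckeOperatorBar N ⟨l, hl⟩ (s35pBeta N ℓ z) :=
  pgl_push_hecke N (N * ℓ) (heckeBetaBar Qb N ℓ) (pgl_beta_intertwines N ℓ) m l hl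
    (fun h => hlm (by
      obtain ⟨c, hc⟩ := h
      exact ⟨c * ℓ, by rw [mul_right_comm, hc]; ring⟩)) hlm z hz

/-- the norm along `α` is `hkdNorm` -/
theorem pglNorm_alpha [NeZero (N * ℓ)] :
    pglNorm N (N * ℓ) (heckeAlphaBar Qb N ℓ) = Fermat.Agent.S37.hkdNorm N ℓ := rfl

/-- the norm along `β` is `hkdNormBeta` -/
theorem pglNorm_beta [NeZero (N * ℓ)] :
    pglNorm N (N * ℓ) (heckeBetaBar Qb N ℓ) = Fermat.Agent.S37.hkdNormBeta N ℓ := rfl

/-- **(K2) for `α_*`**: if `α_* [D] = 0` and `m D = div f` then `N_α f = c e ^ m`. -/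
theorem pgl_alpha_eq_zero [NeZero (N * ℓ)] (m : ℕ) (f : ↥(modularFunctionFieldBar (N * ℓ)))
    (hf : f ≠ 0) (D : Divisor.degZero (K := Qb) (F := ↥(modularFunctionFieldBar (N * ℓ))))
    (hD : ∀ w : Place Qb ↥(modularFunctionFieldBar (N * ℓ)),
      (m : ℤ) * (D : Divisor Qb ↥(modularFunctionFieldBar (N * ℓ))) w = w.ord f)
    (h0 : s35pAlpha N ℓ (Pic0.mk D) = 0) :
    ∃ (c : Qb) (e : ↥(modularFunctionFieldBar N)), c ≠ 0 ∧ e ≠ 0 ∧
      Fermat.Agent.S37.hkdNorm N ℓ f = algebraMap Qb ↥(modularFunctionFieldBar N) c * e ^ m :=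
  pgl_push_eq_zero N (N * ℓ) (heckeAlphaBar Qb N ℓ) m f hf D hD h0

/-- **(K2) for `β_*`**: if `β_* [D] = 0` and `m D = div f` then `N_β f = c e ^ m`. -/
theorem pgl_beta_eq_zero [NeZero (N * ℓ)] (m : ℕ) (f : ↥(modularFunctionFieldBar (N * ℓ)))
    (hf : f ≠ 0) (D : Divisor.degZero (K := Qb) (F := ↥(modularFunctionFieldBar (N * ℓ))))
    (hD : ∀ w : Place Qb ↥(modularFunctionFieldBar (N * ℓ)),
      (m : ℤ) * (D : Divisor Qb ↥(modularFunctionFieldBar (N * ℓ))) w = w.ord f)
    (h0 : s35pBeta N ℓ (Pic0.mk D) = 0) :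
    ∃ (c : Qb) (e : ↥(modularFunctionFieldBar N)), c ≠ 0 ∧ e ≠ 0 ∧
      Fermat.Agent.S37.hkdNormBeta N ℓ f =
        algebraMap Qb ↥(modularFunctionFieldBar N) c * e ^ m :=
  pgl_push_eq_zero N (N * ℓ) (heckeBetaBar Qb N ℓ) m f hf D hD h0

end degeneracy

end Fermat.Agent.S35
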