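import Mathlib
import Fermat.Agent.S34.KummerJ
import Fermat.Agent.S34.Val2Swap
import Fermat.Agent.S34.Val2Deg
import Fermat.Agent.S35.PushGal
import Fermat.Agent.S35.NormBC
import Fermat.Agent.S35.HCoreDef

/-!
# S35 [CORE-KUM]: from the core statement over number fields to `J₀(N q)`

`(σ - q²)(σ - 1)² y = 0` for a torsion class `y` of `J₀(N q)` killed by the two degeneracy
push-forwards follows from the statement `S35hCore` about functions over sufficiently large
finite normal extensions `K₁` of `ℚ`.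
-/

set_option autoImplicit false
set_option linter.style.haveILetI false

open ModularCurve AlgebraicCurve

namespace Fermat.Agent.S35

local notation "Qb" => AlgebraicClosure ℚ

/-! ### Base change of the norm from `K0` to `ℚ̄` -/

section normbc

variable (K0 : Type*) [Field K0] [Algebra ℚ K0] [Algebra K0 Qb]
  (F₁ F₂ : IntermediateField ℚ (LaurentSeries ℚ))

/-- the function field over `ℚ̄` is generated, over the image of any `ℚ̄`-embedding, by the
functions defined over `K0` -/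
theorem s35k_adjoin_top
    (φ' : ↥(laurentBaseChange Qb F₁) →ₐ[Qb] ↥(laurentBaseChange Qb F₂)) :
    letI := algebraAlong φ'
    IntermediateField.adjoin ↥(laurentBaseChange Qb F₁)
      (Set.range (Fermat.Agent.S18.bcfHom K0 Qb F₂)) = ⊤ := by
  letI := algebraAlong φ'
  rw [eq_top_iff]
  intro y _
  set E := IntermediateField.adjoin ↥(laurentBaseChange Qb F₁)
      (Set.range (Fermat.Agent.S18.bcfHom K0 Qb F₂)) with hE
  have hy : (y : LaurentSeries Qb) ∈ (laurentBaseChange Qb F₂).toSubfield := y.2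
  rw [← Fermat.Agent.S18.bcf_closure_eq K0 Qb F₂] at hy
  have hle : Subfield.closure (Set.range (algebraMap Qb (LaurentSeries Qb)) ∪
      (⇑(coeffMap (algebraMap K0 Qb)) '' (laurentBaseChange K0 F₂ : Set (LaurentSeries K0)))) ≤
      E.toSubfield.map (algebraMap ↥(laurentBaseChange Qb F₂) (LaurentSeries Qb)) := by
    rw [Subfield.closure_le]
    rintro z (⟨c, rfl⟩ | ⟨w, hw, rfl⟩)
    · refine ⟨algebraMap Qb ↥(laurentBaseChange Qb F₂) c, ?_, rfl⟩
      have hc : algebraMap Qb ↥(laurentBaseChange Qb F₂) c =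
          algebraMap ↥(laurentBaseChange Qb F₁) ↥(laurentBaseChange Qb F₂)
            (algebraMap Qb ↥(laurentBaseChange Qb F₁) c) := (φ'.commutes c).symm
      rw [hc]
      exact E.algebraMap_mem _
    · exact ⟨Fermat.Agent.S18.bcfHom K0 Qb F₂ ⟨w, hw⟩,
        IntermediateField.subset_adjoin _ _ ⟨⟨w, hw⟩, rfl⟩, rfl⟩
  obtain ⟨y', hy', hyy'⟩ := hle hy
  have : y' = y := Subtype.ext hyy'
  rw [← this]
  exact hy'

/-- **Base change of the norm**: for embeddings `φ` over `K0` and `φ'` over `ℚ̄` compatible with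
base change and of the same degree, the norm along `φ'` of a function defined over `K0` is the
base change of its norm along `φ`. -/
theorem s35k_norm_bc
    (φ : ↥(laurentBaseChange K0 F₁) →ₐ[K0] ↥(laurentBaseChange K0 F₂))
    (φ' : ↥(laurentBaseChange Qb F₁) →ₐ[Qb] ↥(laurentBaseChange Qb F₂))
    (hcomm : ∀ a : ↥(laurentBaseChange K0 F₁),
      Fermat.Agent.S18.bcfHom K0 Qb F₂ (φ a) = φ' (Fermat.Agent.S18.bcfHom K0 Qb F₁ a))
    (hdeg : finrankAlong Qb φ' = finrankAlong K0 φ) (hpos : 0 < finrankAlong K0 φ)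
    (x : ↥(laurentBaseChange K0 F₂)) :
    (letI := algebraAlong φ'
     Algebra.norm ↥(laurentBaseChange Qb F₁) (Fermat.Agent.S18.bcfHom K0 Qb F₂ x)) =
      Fermat.Agent.S18.bcfHom K0 Qb F₁
        (letI := algebraAlong φ
         Algebra.norm ↥(laurentBaseChange K0 F₁) x) := by
  letI := algebraAlong φ
  letI := algebraAlong φ'
  haveI : FiniteDimensional ↥(laurentBaseChange K0 F₁) ↥(laurentBaseChange K0 F₂) :=
    Module.finite_of_finrank_pos hpos
  exact nbc_norm_eq (Fermat.Agent.S18.bcfHom K0 Qb F₁) (Fermat.Agent.S18.bcfHom K0 Qb F₂)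
    hcomm hdeg (s35k_adjoin_top K0 F₁ F₂ φ') x

end normbc

/-! ### The two degeneracy norms -/

section norms

variable (N q : ℕ) [NeZero N] [NeZero q] (hq : q.Prime) (hN : ¬ q ∣ N)
  (K0 : Type*) [Field K0] [Algebra ℚ K0] [Algebra K0 Qb]

include hq hN in
/-- the degree of `β` over any coefficient field -/
theorem s35k_finrank_beta :
    finrankAlong K0 (heckeBetaBar K0 N q) = q + 1 := by
  rw [← Fermat.Agent.S34.va2d_finrank K0 N hq hN]
  symm
  exact @Algebra.finrank_eq_of_equiv_equiv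
    ↥(laurentBaseChange K0 (modularFunctionFieldFull N))
    ↥(laurentBaseChange K0 (modularFunctionFieldFull (N * q))) _ _
    (algebraAlong (heckeAlphaBar K0 N q))
    ↥(laurentBaseChange K0 (modularFunctionFieldFull N))
    ↥(laurentBaseChange K0 (modularFunctionFieldFull (N * q))) _ _
    (algebraAlong (heckeBetaBar K0 N q))
    (RingEquiv.refl _) (Fermat.Agent.S34.va2SwapEquiv N q hq hN K0)
    (RingHom.ext fun x => (Fermat.Agent.S34.va2Swap_alpha N q hq hN K0 x).symm)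

include hq hN in
/-- the norm along `α` over `ℚ̄` of a function defined over `K0` -/
theorem s35k_normA_bc (x : ↥(laurentBaseChange K0 (modularFunctionFieldFull (N * q)))) :
    Fermat.Agent.S37.hkdNorm N q
        (Fermat.Agent.S18.bcfHom K0 Qb (modularFunctionFieldFull (N * q)) x) =
      Fermat.Agent.S18.bcfHom K0 Qb (modularFunctionFieldFull N) (s35NormA K0 N q x) := by
  have h1 : finrankAlong K0 (heckeAlphaBar K0 N q) = q + 1 :=
    Fermat.Agent.S34.va2d_finrank K0 N hq hN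
  have h2 : finrankAlong Qb (heckeAlphaBar Qb N q) = q + 1 :=
    Fermat.Agent.S34.va2d_finrank Qb N hq hN
  exact s35k_norm_bc K0 (modularFunctionFieldFull N) (modularFunctionFieldFull (N * q))
    (heckeAlphaBar K0 N q) (heckeAlphaBar Qb N q)
    (Fermat.Agent.S34.va2_bcf_alpha N q K0) (h2.trans h1.symm) (by rw [h1]; omega) x

include hq hN in
/-- the norm along `β` over `ℚ̄` of a function defined over `K0` -/
theorem s35k_normB_bc (x : ↥(laurentBaseChange K0 (modularFunctionFieldFull (N * q)))) :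
    Fermat.Agent.S37.hkdNormBeta N q
        (Fermat.Agent.S18.bcfHom K0 Qb (modularFunctionFieldFull (N * q)) x) =
      Fermat.Agent.S18.bcfHom K0 Qb (modularFunctionFieldFull N) (s35NormB K0 N q x) := by
  have h1 : finrankAlong K0 (heckeBetaBar K0 N q) = q + 1 := s35k_finrank_beta N q hq hN K0
  have h2 : finrankAlong Qb (heckeBetaBar Qb N q) = q + 1 := s35k_finrank_beta N q hq hN Qb
  exact s35k_norm_bc K0 (modularFunctionFieldFull N) (modularFunctionFieldFull (N * q))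
    (heckeBetaBar K0 N q) (heckeBetaBar Qb N q)
    (Fermat.Agent.S34.va2_bcf_beta N q K0) (h2.trans h1.symm) (by rw [h1]; omega) x

end norms

/-! ### The Kummer function over `ℚ̄` -/

section main

/-- **CORE-KUM, function form.** For a divisor `D` of degree zero on `X₀(N q)` with
`m D = div f` whose class is killed by both degeneracy push-forwards, the function
`(σ - q²)(σ - 1)² f` (multiplicative notation) is a constant times an `m`-th power. -/
theorem s35k_fun (N q : ℕ) [NeZero N] [NeZero q] (hq : q.Prime) (hN : ¬ q ∣ N)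
    (m : ℕ) (σ : Qb ≃ₐ[ℚ] Qb)
    (hcore : ∃ T : Finset Qb, ∀ (K1 : IntermediateField ℚ Qb) [FiniteDimensional ℚ K1]
      [Normal ℚ K1], (∀ c ∈ T, c ∈ K1) → S35hCore K1 σ N q m)
    (D : Divisor.degZero (K := Qb) (F := ↥(modularFunctionFieldBar (N * q))))
    (f : ↥(modularFunctionFieldBar (N * q))) (hf0 : f ≠ 0)
    (hfD : ∀ w : Place Qb ↥(modularFunctionFieldBar (N * q)),
      (m : ℤ) * (D : Divisor Qb ↥(modularFunctionFieldBar (N * q))) w = w.ord f)
    (hα : s35pAlpha N q (Pic0.mk D) = 0) (hβ : s35pBeta N q (Pic0.mk D) = 0)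
    (g : SemilinearAut Qb ↥(modularFunctionFieldBar (N * q)))
    (hg : g = arithmeticGalois (modularFunctionFieldFull (N * q)) σ) :
    ∃ (c : Qb) (Gb : ↥(modularFunctionFieldBar (N * q))), Gb ≠ 0 ∧
      (g • g • g • f) * (g • f) ^ (1 + 2 * q ^ 2) =
        algebraMap Qb ↥(modularFunctionFieldBar (N * q)) c * Gb ^ m *
          (g • g • f) ^ (2 + q ^ 2) * f ^ (q ^ 2) := by
  classical
  obtain ⟨T, hT⟩ := hcore
  -- the two norms over `ℚ̄`
  obtain ⟨cA, eA, hcA0, heA0, hNA⟩ := pgl_alpha_eq_zero N q m f hf0 D hfD hα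
  obtain ⟨cB, eB, hcB0, heB0, hNB⟩ := pgl_beta_eq_zero N q m f hf0 D hfD hβ
  -- the support of `f`
  have := Fermat.Agent.S24.finiteDimensional_jBar' (N * q)
  have htr := Fermat.Agent.S24.transcendental_jBar' (N * q)
  have hfin := Fermat.Agent.S24.ord_support_finite (Fermat.Agent.S24.jBar (N * q)) htr f hf0
  obtain ⟨Ls, hLsfin, hLs⟩ := Fermat.Agent.S34.s34h_places_fix (N * q) hfin.toFinset
  -- descent of `f`, `eA`, `eB`
  obtain ⟨Tf, hTf⟩ := Fermat.Agent.S18.dvd_descend_bc Qb (modularFunctionFieldFull (N * q))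
    (f : LaurentSeries Qb) f.2
  obtain ⟨TA, hTA⟩ := Fermat.Agent.S18.dvd_descend_bc Qb (modularFunctionFieldFull N)
    (eA : LaurentSeries Qb) eA.2
  obtain ⟨TB, hTB⟩ := Fermat.Agent.S18.dvd_descend_bc Qb (modularFunctionFieldFull N)
    (eB : LaurentSeries Qb) eB.2
  -- the number field
  obtain ⟨TT, hTTdef⟩ : ∃ TT : Finset Qb, TT = T ∪ Tf ∪ (TA ∪ TB) ∪ {cA, cB} := ⟨_, rfl⟩
  have := hLsfin
  have := Fermat.Agent.S18.dvd_adjoin_finite TT
  obtain ⟨K1, hK1fin, hK1gal, hle⟩ := Fermat.Agent.S29.ost_exists_galois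
    (Ls ⊔ IntermediateField.adjoin ℚ ((TT : Finset Qb) : Set Qb))
  have := hK1fin
  have : Normal ℚ ↥K1 := hK1gal.to_normal
  have hLsK : Ls ≤ K1 := le_trans le_sup_left hle
  have hTK : ∀ c ∈ TT, c ∈ K1 := fun c hc =>
    hle ((le_sup_right : _ ≤ Ls ⊔ IntermediateField.adjoin ℚ ((TT : Finset Qb) : Set Qb))
      (IntermediateField.subset_adjoin ℚ _ (Finset.mem_coe.mpr hc)))
  have hTK1 : ∀ c ∈ T, c ∈ K1 := fun c hc => hTK c (by
    rw [hTTdef]
    exact Finset.mem_union_left _ (Finset.mem_union_left _ (Finset.mem_union_left _ hc)))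
  have hTK2 : ∀ c ∈ Tf, c ∈ K1 := fun c hc => hTK c (by
    rw [hTTdef]
    exact Finset.mem_union_left _ (Finset.mem_union_left _ (Finset.mem_union_right _ hc)))
  have hTK3 : ∀ c ∈ TA, c ∈ K1 := fun c hc => hTK c (by
    rw [hTTdef]
    exact Finset.mem_union_left _ (Finset.mem_union_right _ (Finset.mem_union_left _ hc)))
  have hTK4 : ∀ c ∈ TB, c ∈ K1 := fun c hc => hTK c (by
    rw [hTTdef]
    exact Finset.mem_union_left _ (Finset.mem_union_right _ (Finset.mem_union_right _ hc)))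
  have hcAK : cA ∈ K1 := hTK cA (by
    rw [hTTdef]
    exact Finset.mem_union_right _ (Finset.mem_insert_self _ _))
  have hcBK : cB ∈ K1 := hTK cB (by
    rw [hTTdef]
    exact Finset.mem_union_right _ (Finset.mem_insert_of_mem (Finset.mem_singleton_self _)))
  have hcoreK := hT K1 hTK1
  obtain ⟨x0, hx0mem, hx0f⟩ := hTf K1 hTK2
  obtain ⟨xA, hxAmem, hxAe⟩ := hTA K1 hTK3
  obtain ⟨xB, hxBmem, hxBe⟩ := hTB K1 hTK4
  obtain ⟨f0, hf0def⟩ : ∃ f0 : ↥(laurentBaseChange ↥K1 (modularFunctionFieldFull (N * q))),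
      f0 = ⟨x0, hx0mem⟩ := ⟨_, rfl⟩
  obtain ⟨eA0, heA0def⟩ : ∃ e0 : ↥(laurentBaseChange ↥K1 (modularFunctionFieldFull N)),
      e0 = ⟨xA, hxAmem⟩ := ⟨_, rfl⟩
  obtain ⟨eB0, heB0def⟩ : ∃ e0 : ↥(laurentBaseChange ↥K1 (modularFunctionFieldFull N)),
      e0 = ⟨xB, hxBmem⟩ := ⟨_, rfl⟩
  have hbf : Fermat.Agent.S18.bcfHom ↥K1 Qb (modularFunctionFieldFull (N * q)) f0 = f := by
    apply Subtype.ext
    rw [Fermat.Agent.S18.bcfHom_coe, hf0def]
    exact hx0f
  have hbA : Fermat.Agent.S18.bcfHom ↥K1 Qb (modularFunctionFieldFull N) eA0 = eA := by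
    apply Subtype.ext
    rw [Fermat.Agent.S18.bcfHom_coe, heA0def]
    exact hxAe
  have hbB : Fermat.Agent.S18.bcfHom ↥K1 Qb (modularFunctionFieldFull N) eB0 = eB := by
    apply Subtype.ext
    rw [Fermat.Agent.S18.bcfHom_coe, heB0def]
    exact hxBe
  have hf00 : f0 ≠ 0 := by
    rintro rfl
    rw [map_zero] at hbf
    exact hf0 hbf.symm
  have _alg : Algebra.IsAlgebraic ℚ Qb := AlgebraicClosure.isAlgebraic ℚ
  have _algK : Algebra.IsAlgebraic ↥K1 Qb := Fermat.Agent.S18.bcf_isAlgebraic ↥K1 Qb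
  -- the hypotheses of the core statement
  have h1 : ∀ Q : Place ↥K1 ↥(laurentBaseChange ↥K1 (modularFunctionFieldFull (N * q))),
      (m : ℤ) ∣ Q.ord f0 := by
    intro Q
    apply Fermat.Agent.S18.bcf_dvd_ord ↥K1 Qb (modularFunctionFieldFull (N * q)) (m : ℤ) f0
    intro P
    rw [hbf, ← hfD P]
    exact dvd_mul_right _ _
  have h2 : ∀ Q : Place ↥K1 ↥(laurentBaseChange ↥K1 (modularFunctionFieldFull (N * q))),
      Q.ord f0 ≠ 0 →
      Q.deg = 1 ∧ Function.Bijective (algebraMap ↥K1 Q.ResidueField) ∧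
      ∀ y ∈ Q.toValuationSubring, ∃ c : ↥K1,
        y - algebraMap ↥K1 ↥(laurentBaseChange ↥K1 (modularFunctionFieldFull (N * q))) c ∈
          Q.toValuationSubring.nonunits := by
    intro Q hQ
    obtain ⟨P, hP⟩ := Fermat.Agent.S18.bcf_exists_place ↥K1 Qb
      (modularFunctionFieldFull (N * q)) Q
    have hPsupp : P ∈ hfin.toFinset := by
      rw [Set.Finite.mem_toFinset, Function.mem_support, ← hbf, hP]
      exact hQ
    exact Fermat.Agent.S34.s34h_rational (N * q) K1 Q P hP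
      (fun τ hτ => hLs τ (fun z hz => hτ z (hLsK hz)) P hPsupp)
  have h3 : ∃ (c : ↥K1) (e : ↥(laurentBaseChange ↥K1 (modularFunctionFieldFull N))),
      s35NormA ↥K1 N q f0 =
        algebraMap ↥K1 ↥(laurentBaseChange ↥K1 (modularFunctionFieldFull N)) c * e ^ m := by
    refine ⟨⟨cA, hcAK⟩, eA0, ?_⟩
    apply Fermat.Agent.S18.bcfHom_injective ↥K1 Qb (modularFunctionFieldFull N)
    rw [← s35k_normA_bc N q hq hN ↥K1 f0, hbf, hNA, map_mul, map_pow,
      Fermat.Agent.S18.bcfHom_algebraMap, hbA]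
    rfl
  have h4 : ∃ (c : ↥K1) (e : ↥(laurentBaseChange ↥K1 (modularFunctionFieldFull N))),
      s35NormB ↥K1 N q f0 =
        algebraMap ↥K1 ↥(laurentBaseChange ↥K1 (modularFunctionFieldFull N)) c * e ^ m := by
    refine ⟨⟨cB, hcBK⟩, eB0, ?_⟩
    apply Fermat.Agent.S18.bcfHom_injective ↥K1 Qb (modularFunctionFieldFull N)
    rw [← s35k_normB_bc N q hq hN ↥K1 f0, hbf, hNB, map_mul, map_pow,
      Fermat.Agent.S18.bcfHom_algebraMap, hbB]
    rfl
  obtain ⟨w, G, hG0, hEq⟩ := hcoreK f0 hf00 h1 h2 h3 h4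
  -- push the relation to `ℚ̄`
  obtain ⟨a1, ha1⟩ : ∃ a1 : ↥(laurentBaseChange ↥K1 (modularFunctionFieldFull (N * q))),
      a1 = arithmeticGalois (modularFunctionFieldFull (N * q)) (σ.restrictNormal ↥K1) • f0 :=
    ⟨_, rfl⟩
  obtain ⟨a2, ha2⟩ : ∃ a2 : ↥(laurentBaseChange ↥K1 (modularFunctionFieldFull (N * q))),
      a2 = arithmeticGalois (modularFunctionFieldFull (N * q)) (σ.restrictNormal ↥K1) • a1 :=
    ⟨_, rfl⟩
  obtain ⟨a3, ha3⟩ : ∃ a3 : ↥(laurentBaseChange ↥K1 (modularFunctionFieldFull (N * q))),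
      a3 = arithmeticGalois (modularFunctionFieldFull (N * q)) (σ.restrictNormal ↥K1) • a2 :=
    ⟨_, rfl⟩
  rw [← ha1, ← ha2, ← ha3] at hEq
  have hb1 : Fermat.Agent.S18.bcfHom ↥K1 Qb (modularFunctionFieldFull (N * q)) a1 = g • f := by
    rw [ha1, Fermat.Agent.S34.s34h_bcf_smul, hbf, hg]
  have hb2 : Fermat.Agent.S18.bcfHom ↥K1 Qb (modularFunctionFieldFull (N * q)) a2 =
      g • g • f := by
    rw [ha2, Fermat.Agent.S34.s34h_bcf_smul, hb1, hg]
  have hb3 : Fermat.Agent.S18.bcfHom ↥K1 Qb (modularFunctionFieldFull (N * q)) a3 =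
      g • g • g • f := by
    rw [ha3, Fermat.Agent.S34.s34h_bcf_smul, hb2, hg]
  refine ⟨algebraMap ↥K1 Qb w,
    Fermat.Agent.S18.bcfHom ↥K1 Qb (modularFunctionFieldFull (N * q)) G,
    (map_ne_zero _).mpr hG0, ?_⟩
  have h := congrArg (Fermat.Agent.S18.bcfHom ↥K1 Qb (modularFunctionFieldFull (N * q))) hEq
  rw [map_mul, map_mul, map_mul, map_mul, map_pow, map_pow, map_pow, map_pow,
    Fermat.Agent.S18.bcfHom_algebraMap, hb3, hb2, hb1, hbf] at h
  exact h

/-! ### The main theorem -/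

/-- the divisor bookkeeping: from the Kummer relation to the divisor of `G` -/
theorem s35k_div (M : ℕ) (q m : ℕ) (hm : m ≠ 0)
    (g : SemilinearAut Qb ↥(modularFunctionFieldBar M))
    (Dd : Divisor Qb ↥(modularFunctionFieldBar M))
    (f : ↥(modularFunctionFieldBar M)) (hf0 : f ≠ 0)
    (hfD : ∀ w : Place Qb ↥(modularFunctionFieldBar M), (m : ℤ) * Dd w = w.ord f)
    (c : Qb) (Gb : ↥(modularFunctionFieldBar M)) (hGb0 : Gb ≠ 0)
    (hEqb : (g • g • g • f) * (g • f) ^ (1 + 2 * q ^ 2) =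
      algebraMap Qb ↥(modularFunctionFieldBar M) c * Gb ^ m *
        (g • g • f) ^ (2 + q ^ 2) * f ^ (q ^ 2))
    (v : Place Qb ↥(modularFunctionFieldBar M)) :
    (g • (g • g • Dd - (g • Dd + g • Dd) + Dd) -
      (q ^ 2) • (g • g • Dd - (g • Dd + g • Dd) + Dd)) v = v.ord Gb := by
  have hgf0 : g • f ≠ 0 := by
    rw [Ne, smul_eq_zero_iff_eq]
    exact hf0
  have hggf0 : g • g • f ≠ 0 := by
    rw [Ne, smul_eq_zero_iff_eq]
    exact hgf0
  have hgggf0 : g • g • g • f ≠ 0 := by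
    rw [Ne, smul_eq_zero_iff_eq]
    exact hggf0
  have hw0 : algebraMap Qb ↥(modularFunctionFieldBar M) c ≠ 0 := by
    intro h0
    rw [h0, zero_mul, zero_mul, zero_mul] at hEqb
    exact mul_ne_zero hgggf0 (pow_ne_zero _ hgf0) hEqb
  have e1 := Fermat.Agent.S34.s34h_ord_smul M g f Dd (m : ℤ) hfD
  have e2 := Fermat.Agent.S34.s34h_ord_smul M g (g • f) (g • Dd) (m : ℤ) e1
  have e3 := Fermat.Agent.S34.s34h_ord_smul M g (g • g • f) (g • g • Dd) (m : ℤ) e2
  obtain ⟨b1, hb1⟩ : ∃ b1 : ↥(modularFunctionFieldBar M), b1 = g • f := ⟨_, rfl⟩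
  obtain ⟨b2, hb2⟩ : ∃ b2 : ↥(modularFunctionFieldBar M), b2 = g • g • f := ⟨_, rfl⟩
  obtain ⟨b3, hb3⟩ : ∃ b3 : ↥(modularFunctionFieldBar M), b3 = g • g • g • f := ⟨_, rfl⟩
  obtain ⟨D1, hD1⟩ : ∃ D1 : Divisor Qb ↥(modularFunctionFieldBar M), D1 = g • Dd := ⟨_, rfl⟩
  obtain ⟨D2, hD2⟩ : ∃ D2 : Divisor Qb ↥(modularFunctionFieldBar M), D2 = g • g • Dd :=
    ⟨_, rfl⟩
  obtain ⟨D3, hD3⟩ : ∃ D3 : Divisor Qb ↥(modularFunctionFieldBar M), D3 = g • g • g • Dd :=
    ⟨_, rfl⟩
  rw [← hb3, ← hb2, ← hb1] at hEqb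
  rw [← hb1] at hgf0
  rw [← hb2] at hggf0
  rw [← hb3] at hgggf0
  have e1v : (m : ℤ) * D1 v = v.ord b1 := by rw [hD1, hb1]; exact e1 v
  have e2v : (m : ℤ) * D2 v = v.ord b2 := by rw [hD2, hb2]; exact e2 v
  have e3v : (m : ℤ) * D3 v = v.ord b3 := by rw [hD3, hb3]; exact e3 v
  have h := congrArg v.ord hEqb
  rw [Place.ord_mul _ hgggf0 (pow_ne_zero _ hgf0),
    Place.ord_mul _ (mul_ne_zero (mul_ne_zero hw0 (pow_ne_zero m hGb0))
      (pow_ne_zero _ hggf0)) (pow_ne_zero _ hf0),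
    Place.ord_mul _ (mul_ne_zero hw0 (pow_ne_zero m hGb0)) (pow_ne_zero _ hggf0),
    Place.ord_mul _ hw0 (pow_ne_zero m hGb0),
    Fermat.Agent.S24.sf_ord_algebraMap, Fermat.Agent.S24.sf_ord_pow,
    Fermat.Agent.S24.sf_ord_pow, Fermat.Agent.S24.sf_ord_pow, Fermat.Agent.S24.sf_ord_pow,
    ← e3v, ← e2v, ← e1v, ← hfD v] at h
  have hm' : (m : ℤ) ≠ 0 := Nat.cast_ne_zero.mpr hm
  apply mul_left_cancel₀ hm'
  have hexp : g • (g • g • Dd - (g • Dd + g • Dd) + Dd) = D3 - (D2 + D2) + D1 := by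
    rw [smul_add, smul_sub, smul_add, hD3, hD2, hD1]
  rw [hexp, ← hD2, ← hD1]
  rw [Finsupp.sub_apply, Finsupp.add_apply, Finsupp.sub_apply, Finsupp.add_apply,
    Finsupp.smul_apply, Finsupp.add_apply, Finsupp.sub_apply, Finsupp.add_apply, nsmul_eq_mul]
  push_cast at h ⊢
  linear_combination h

/-- **CORE-KUM.** `(σ - q²)(σ - 1)² y = 0` for an `m`-torsion class `y` of `J₀(N q)` killed by
both degeneracy push-forwards, given the core statement `S35hCore` over all sufficiently large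
finite normal extensions of `ℚ`. -/
theorem s35k_main (N q : ℕ) [NeZero N] [NeZero q] (hq : q.Prime) (hN : ¬ q ∣ N)
    (m : ℕ) (hm : m ≠ 0) (σ : Qb ≃ₐ[ℚ] Qb)
    (hcore : ∃ T : Finset Qb, ∀ (K1 : IntermediateField ℚ Qb) [FiniteDimensional ℚ K1]
      [Normal ℚ K1], (∀ c ∈ T, c ∈ K1) → S35hCore K1 σ N q m)
    (y : JZero (N * q)) (hy : m • y = 0)
    (hα : s35pAlpha N q y = 0) (hβ : s35pBeta N q y = 0) :
    σ • (σ • σ • y - (σ • y + σ • y) + y) - (q ^ 2) • (σ • σ • y - (σ • y + σ • y) + y) = 0 := by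
  classical
  obtain ⟨D, rfl⟩ := Pic0.mk_surjective y
  -- `m D` is principal
  have hmD : ((m • D : Divisor.degZero (K := Qb) (F := ↥(modularFunctionFieldBar (N * q)))) :
      Divisor Qb ↥(modularFunctionFieldBar (N * q))) ∈
      Divisor.principal (K := Qb) (F := ↥(modularFunctionFieldBar (N * q))) := by
    have h1 : Pic0.mk (m • D) = (0 : JZero (N * q)) := by
      rw [← hy]
      rfl
    have h2 := (QuotientAddGroup.eq_zero_iff (m • D)).mp h1
    exact AddSubgroup.mem_addSubgroupOf.mp h2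
  obtain ⟨f, hf0, hf⟩ := hmD
  have hfD : ∀ w : Place Qb ↥(modularFunctionFieldBar (N * q)),
      (m : ℤ) * (D : Divisor Qb ↥(modularFunctionFieldBar (N * q))) w = w.ord f := by
    intro w
    rw [← hf w, AddSubgroupClass.coe_nsmul, Finsupp.smul_apply, nsmul_eq_mul]
  obtain ⟨g, hg⟩ : ∃ g : SemilinearAut Qb ↥(modularFunctionFieldBar (N * q)),
      g = arithmeticGalois (modularFunctionFieldFull (N * q)) σ := ⟨_, rfl⟩
  obtain ⟨c, Gb, hGb0, hEqb⟩ := s35k_fun N q hq hN m σ hcore D f hf0 hfD hα hβ g hg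
  have hdiv := s35k_div (N * q) q m hm g
    (D : Divisor Qb ↥(modularFunctionFieldBar (N * q))) f hf0 hfD c Gb hGb0 hEqb
  -- conclude
  have hσ : ∀ x : JZero (N * q), σ • x = g • x := by
    intro x
    rw [hg]
    rfl
  rw [hσ, hσ, hσ]
  have hX : (g • g • Pic0.mk D - (g • Pic0.mk D + g • Pic0.mk D) + Pic0.mk D :
      JZero (N * q)) =
      Pic0.mk (SemilinearAut.degZeroSMulHom g (SemilinearAut.degZeroSMulHom g D) -
        (SemilinearAut.degZeroSMulHom g D + SemilinearAut.degZeroSMulHom g D) + D) := rfl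
  rw [hX, SemilinearAut.pic0_smul_mk]
  have hgoal : (Pic0.mk (SemilinearAut.degZeroSMulHom g
        (SemilinearAut.degZeroSMulHom g (SemilinearAut.degZeroSMulHom g D) -
          (SemilinearAut.degZeroSMulHom g D + SemilinearAut.degZeroSMulHom g D) + D)) -
      (q ^ 2) • Pic0.mk (SemilinearAut.degZeroSMulHom g (SemilinearAut.degZeroSMulHom g D) -
        (SemilinearAut.degZeroSMulHom g D + SemilinearAut.degZeroSMulHom g D) + D) :
      JZero (N * q)) =
      Pic0.mk (SemilinearAut.degZeroSMulHom g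
          (SemilinearAut.degZeroSMulHom g (SemilinearAut.degZeroSMulHom g D) -
            (SemilinearAut.degZeroSMulHom g D + SemilinearAut.degZeroSMulHom g D) + D) -
        (q ^ 2) • (SemilinearAut.degZeroSMulHom g (SemilinearAut.degZeroSMulHom g D) -
          (SemilinearAut.degZeroSMulHom g D + SemilinearAut.degZeroSMulHom g D) + D)) := rfl
  rw [hgoal]
  refine (QuotientAddGroup.eq_zero_iff _).mpr (AddSubgroup.mem_addSubgroupOf.mpr ?_)
  refine ⟨Gb, hGb0, fun v => ?_⟩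
  rw [← hdiv v]
  rfl

end main

end Fermat.Agent.S35
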