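import Mathlib
import Fermat.Agent.S35.NormBC
import Fermat.Agent.S34.Val2Gen
import Fermat.Agent.S37.HeckeDeg
import Fermat.Agent.S37.LevelUp
import Fermat.Agent.S37.Swap
import Fermat.Agent.S18.BaseChangeField
import Fermat.Agent.S18.DvrDef

/-!
# S35, [DEG-SQUARES]: the norm squares of the level-raising inclusions

`F_N` the function field of `X₀(N)` over `ℚ̄`, `q` a prime.

* `nsq_gen_base`, `nsq_gen_of_base`, `nsq_gen_closure`, `nsq_gen`: `F_{Mq} = α(F_M)(j(t^q))` for `q ∤ M` (over `ℚ` by the
  two-valuation argument of `S34/Val2Gen` with a discrete valuation ring of `ℚ` over `q`, over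
  `ℚ̄` by base change);
* `nsq_level_alpha`: for `N ∣ N'`, `q ∤ N'`, the norm `F_{N'q} → F_{N'}` along `α` restricts on
  `F_{Nq}` to the norm `F_{Nq} → F_N` along `α`;
* `nsq_swp_lvlIncl`: the swap at `q` commutes with the level-raising inclusions;
* `nsq_level_beta`: the same for the norms along `β`.

Names are prefixed `nsq_`.
-/

set_option autoImplicit false
set_option linter.style.haveILetI false

noncomputable section

open AlgebraicCurve ModularCurve Fermat.Agent.S37 Fermat.Agent.S18 Fermat.Agent.S34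
  Fermat.Agent.S24

namespace Fermat.Agent.S35

local notation "Qb" => AlgebraicClosure ℚ

/-! ### generation -/

section gen

variable (M q : ℕ) [NeZero M] [NeZero q]
  (K0 : Type*) [Field K0] [Algebra ℚ K0] [Algebra K0 Qb]

/-- base change commutes with `α` -/
theorem nsq_bcf_alpha (a : ↥(laurentBaseChange K0 (modularFunctionFieldFull M))) :
    bcfHom K0 Qb (modularFunctionFieldFull (M * q)) (heckeAlphaBar K0 M q a) =
      heckeAlphaBar Qb M q (bcfHom K0 Qb (modularFunctionFieldFull M) a) := by
  apply Subtype.ext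
  rw [bcfHom_coe, coe_heckeAlphaBar, coe_heckeAlphaBar, bcfHom_coe]

omit [NeZero M] in
/-- base change maps `j(t^q)` to `j(t^q)` -/
theorem nsq_bcf_betaJ :
    bcfHom K0 Qb (modularFunctionFieldFull (M * q)) (heckeBetaBar K0 M q (grJ K0 M)) =
      heckeBetaBar Qb M q (grJ Qb M) := by
  apply Subtype.ext
  rw [bcfHom_coe, coe_heckeBetaBar, coe_heckeBetaBar]
  show coeffMap (algebraMap K0 Qb) (qExpand K0 q (jqModC K0)) = qExpand Qb q (jqModC Qb)
  rw [coeffMap_qExpand, coeffMap_jqModC]

/-- the image of the `K0`-function field of level `M q` lies in the subfield generated by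
`α(F_M)` and `j(t^q)`, as soon as this holds over `K0` -/
theorem nsq_gen_image
    (hgen : ∀ z : ↥(laurentBaseChange K0 (modularFunctionFieldFull (M * q))),
      z ∈ Subfield.closure (Set.range (heckeAlphaBar K0 M q) ∪
        {heckeBetaBar K0 M q (grJ K0 M)}))
    (z : ↥(laurentBaseChange K0 (modularFunctionFieldFull (M * q)))) :
    bcfHom K0 Qb (modularFunctionFieldFull (M * q)) z ∈
      Subfield.closure (Set.range (heckeAlphaBar Qb M q) ∪
        {heckeBetaBar Qb M q (grJ Qb M)}) := by
  have hle : Subfield.closure (Set.range (heckeAlphaBar K0 M q) ∪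
      {heckeBetaBar K0 M q (grJ K0 M)}) ≤
      (Subfield.closure (Set.range (heckeAlphaBar Qb M q) ∪
        {heckeBetaBar Qb M q (grJ Qb M)})).comap
        (bcfHom K0 Qb (modularFunctionFieldFull (M * q))) := by
    rw [Subfield.closure_le]
    rintro _ (⟨a, rfl⟩ | hb)
    · rw [SetLike.mem_coe, Subfield.mem_comap, nsq_bcf_alpha]
      exact Subfield.subset_closure (Or.inl ⟨_, rfl⟩)
    · rw [Set.mem_singleton_iff] at hb
      rw [hb, SetLike.mem_coe, Subfield.mem_comap, nsq_bcf_betaJ]
      exact Subfield.subset_closure (Or.inr rfl)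
  exact hle (hgen z)

/-- generation over `ℚ̄` from generation over `K0` -/
theorem nsq_gen_of_base
    (hgen : ∀ z : ↥(laurentBaseChange K0 (modularFunctionFieldFull (M * q))),
      z ∈ Subfield.closure (Set.range (heckeAlphaBar K0 M q) ∪
        {heckeBetaBar K0 M q (grJ K0 M)}))
    (y : ↥(modularFunctionFieldBar (M * q))) :
    y ∈ Subfield.closure (Set.range (heckeAlphaBar Qb M q) ∪
      {heckeBetaBar Qb M q (grJ Qb M)}) := by
  have htop := bcf_adjoin_eq_top K0 Qb (modularFunctionFieldFull (M * q))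
  letI := bcfAlgebra K0 Qb (modularFunctionFieldFull (M * q))
  have hy : y ∈ IntermediateField.adjoin
      ↥(laurentBaseChange K0 (modularFunctionFieldFull (M * q)))
      (Set.range (algebraMap Qb ↥(laurentBaseChange Qb (modularFunctionFieldFull (M * q))))) := by
    rw [htop]
    trivial
  have hy' : y ∈ Subfield.closure
      (Set.range (bcfHom K0 Qb (modularFunctionFieldFull (M * q))) ∪
        Set.range (algebraMap Qb ↥(laurentBaseChange Qb (modularFunctionFieldFull (M * q))))) :=
    hy
  have hle : Subfield.closure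
      (Set.range (bcfHom K0 Qb (modularFunctionFieldFull (M * q))) ∪
        Set.range (algebraMap Qb ↥(laurentBaseChange Qb (modularFunctionFieldFull (M * q))))) ≤
      Subfield.closure (Set.range (heckeAlphaBar Qb M q) ∪
        {heckeBetaBar Qb M q (grJ Qb M)}) := by
    rw [Subfield.closure_le]
    rintro _ (⟨z, rfl⟩ | ⟨c, rfl⟩)
    · exact nsq_gen_image M q K0 hgen z
    · have h1 : algebraMap Qb ↥(laurentBaseChange Qb (modularFunctionFieldFull (M * q))) c =
          heckeAlphaBar Qb M q (algebraMap Qb _ c) := (AlgHom.commutes _ c).symm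
      rw [h1]
      exact Subfield.subset_closure (Or.inl ⟨_, rfl⟩)
  exact hle hy'

/-- generation over `K0` (a field with a discrete valuation subring over `q`), closure form -/
theorem nsq_gen_base (hq : q.Prime) (hM : ¬ q ∣ M)
    (A0 : ValuationSubring K0) [IsDiscreteValuationRing ↥A0] (hA0 : A0.LiesOverPrime q)
    (z : ↥(laurentBaseChange K0 (modularFunctionFieldFull (M * q)))) :
    z ∈ Subfield.closure (Set.range (heckeAlphaBar K0 M q) ∪
      {heckeBetaBar K0 M q (grJ K0 M)}) := by
  haveI : Fact q.Prime := ⟨hq⟩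
  have hgen := va2g_adjoin_betaJ M q hM K0 A0 hA0
  letI := algebraAlong (heckeAlphaBar K0 M q)
  have hz : z ∈ IntermediateField.adjoin ↥(laurentBaseChange K0 (modularFunctionFieldFull M))
      ({heckeBetaBar K0 M q (grJ K0 M)} :
        Set ↥(laurentBaseChange K0 (modularFunctionFieldFull (M * q)))) := by
    rw [hgen]
    trivial
  exact hz

end gen

/-- a discrete valuation subring of `ℚ` over a prime -/
theorem nsq_exists_dvr (q : ℕ) (hq : q.Prime) :
    ∃ A0 : ValuationSubring ℚ, IsDiscreteValuationRing ↥A0 ∧ A0.LiesOverPrime q := by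
  obtain ⟨A0, hA0⟩ := va2d_exists_liesOver ℚ q hq
  have hne : A0 ≠ ⊤ := by
    intro htop
    have hA0' : (q : ℚ) ∈ A0.nonunits := hA0
    rw [ValuationSubring.mem_nonunits_iff_or] at hA0'
    rcases hA0' with h0 | h1
    · exact hq.ne_zero (by exact_mod_cast h0)
    · exact h1 (htop ▸ ValuationSubring.mem_top _)
  exact ⟨A0, (dvd_isDVR ℚ A0 hne).1, hA0⟩

/-- generation over `ℚ̄`, subfield-closure form -/
theorem nsq_gen_closure (M q : ℕ) [NeZero M] [NeZero q] (hq : q.Prime) (hM : ¬ q ∣ M)
    (y : ↥(modularFunctionFieldBar (M * q))) :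
    y ∈ Subfield.closure (Set.range (heckeAlphaBar Qb M q) ∪
      {heckeBetaBar Qb M q (grJ Qb M)}) := by
  obtain ⟨A0, hdvr, hA0⟩ := nsq_exists_dvr q hq
  exact nsq_gen_of_base M q ℚ (fun z => nsq_gen_base M q ℚ hq hM A0 hA0 z) y

/-- **Generation over `ℚ̄`**: `F_{Mq} = α(F_M)(j(t^q))` (with `j` as `grJ`). -/
theorem nsq_gen_grJ (M q : ℕ) [NeZero M] [NeZero q] (hq : q.Prime) (hM : ¬ q ∣ M) :
    letI := algebraAlong (heckeAlphaBar Qb M q)
    IntermediateField.adjoin ↥(modularFunctionFieldBar M)
      ({heckeBetaBar Qb M q (grJ Qb M)} : Set ↥(modularFunctionFieldBar (M * q))) = ⊤ := by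
  letI := algebraAlong (heckeAlphaBar Qb M q)
  rw [eq_top_iff]
  intro y _
  exact nsq_gen_closure M q hq hM y

/-- the two names of `j` in the function field over `ℚ̄` -/
theorem nsq_grJ_eq_jBar (M : ℕ) [NeZero M] : grJ Qb M = jBar M := by
  apply Subtype.ext
  show jqModC Qb = coeffEmb Qb jq
  rw [← jqModC_rat, coeffEmb, coeffMap_jqModC]

/-- **Generation over `ℚ̄`**: `F_{Mq} = α(F_M)(j(t^q))`. -/
theorem nsq_gen (M q : ℕ) [NeZero M] [NeZero q] (hq : q.Prime) (hM : ¬ q ∣ M) :
    letI := algebraAlong (heckeAlphaBar Qb M q)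
    IntermediateField.adjoin ↥(modularFunctionFieldBar M)
      ({heckeBetaBar Qb M q (jBar M)} : Set ↥(modularFunctionFieldBar (M * q))) = ⊤ := by
  rw [← nsq_grJ_eq_jBar M]
  exact nsq_gen_grJ M q hq hM

/-! ### the level square for the norms along `α` -/

section level

variable (N N' q : ℕ) [NeZero N] [NeZero N'] [NeZero q] (h : N ∣ N') (h' : N * q ∣ N' * q)

/-- the level inclusions commute with `α` -/
theorem nsq_lvlIncl_alpha (a : ↥(modularFunctionFieldBar N)) :
    lvlIncl (N * q) (N' * q) h' (heckeAlphaBar Qb N q a) =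
      heckeAlphaBar Qb N' q (lvlIncl N N' h a) := by
  apply Subtype.ext
  rw [coe_lvlIncl, coe_heckeAlphaBar, coe_heckeAlphaBar, coe_lvlIncl]

/-- the level inclusions commute with `β` -/
theorem nsq_lvlIncl_beta (a : ↥(modularFunctionFieldBar N)) :
    lvlIncl (N * q) (N' * q) h' (heckeBetaBar Qb N q a) =
      heckeBetaBar Qb N' q (lvlIncl N N' h a) := by
  apply Subtype.ext
  rw [coe_lvlIncl, coe_heckeBetaBar, coe_heckeBetaBar, coe_lvlIncl]

omit [NeZero q] in
/-- the level inclusions map `j` to `j` -/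
theorem nsq_lvlIncl_grJ : lvlIncl N N' h (grJ Qb N) = grJ Qb N' := by
  apply Subtype.ext
  rw [coe_lvlIncl]
  rfl

/-- compatibility of the level inclusions with the algebra structures along `α` -/
theorem nsq_hcomm :
    letI : Algebra ↥(modularFunctionFieldBar N) ↥(modularFunctionFieldBar (N * q)) :=
      algebraAlong (heckeAlphaBar Qb N q)
    letI : Algebra ↥(modularFunctionFieldBar N') ↥(modularFunctionFieldBar (N' * q)) :=
      algebraAlong (heckeAlphaBar Qb N' q)
    ∀ a : ↥(modularFunctionFieldBar N),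
      (lvlIncl (N * q) (N' * q) h').toRingHom (algebraMap _ _ a) =
        algebraMap ↥(modularFunctionFieldBar N') ↥(modularFunctionFieldBar (N' * q))
          ((lvlIncl N N' h).toRingHom a) := by
  letI algE : Algebra ↥(modularFunctionFieldBar N) ↥(modularFunctionFieldBar (N * q)) :=
    algebraAlong (heckeAlphaBar Qb N q)
  letI algE' : Algebra ↥(modularFunctionFieldBar N') ↥(modularFunctionFieldBar (N' * q)) :=
    algebraAlong (heckeAlphaBar Qb N' q)
  intro a
  have h1 : algebraMap ↥(modularFunctionFieldBar N) ↥(modularFunctionFieldBar (N * q)) a =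
      heckeAlphaBar Qb N q a := rfl
  have h2 : algebraMap ↥(modularFunctionFieldBar N') ↥(modularFunctionFieldBar (N' * q))
      ((lvlIncl N N' h).toRingHom a) = heckeAlphaBar Qb N' q (lvlIncl N N' h a) := rfl
  rw [h1, h2]
  exact nsq_lvlIncl_alpha N N' q h h' a

/-- the degrees along `α` at the two levels agree -/
theorem nsq_hdeg (hq : q.Prime) (hN : ¬ q ∣ N) (hN' : ¬ q ∣ N') :
    letI : Algebra ↥(modularFunctionFieldBar N) ↥(modularFunctionFieldBar (N * q)) :=
      algebraAlong (heckeAlphaBar Qb N q)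
    letI : Algebra ↥(modularFunctionFieldBar N') ↥(modularFunctionFieldBar (N' * q)) :=
      algebraAlong (heckeAlphaBar Qb N' q)
    Module.finrank ↥(modularFunctionFieldBar N') ↥(modularFunctionFieldBar (N' * q)) =
      Module.finrank ↥(modularFunctionFieldBar N) ↥(modularFunctionFieldBar (N * q)) := by
  letI algE : Algebra ↥(modularFunctionFieldBar N) ↥(modularFunctionFieldBar (N * q)) :=
    algebraAlong (heckeAlphaBar Qb N q)
  letI algE' : Algebra ↥(modularFunctionFieldBar N') ↥(modularFunctionFieldBar (N' * q)) :=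
    algebraAlong (heckeAlphaBar Qb N' q)
  have h1 : Module.finrank ↥(modularFunctionFieldBar N')
      ↥(modularFunctionFieldBar (N' * q)) = q + 1 := hkd_finrankAlong_alpha N' hq hN'
  have h2 : Module.finrank ↥(modularFunctionFieldBar N)
      ↥(modularFunctionFieldBar (N * q)) = q + 1 := hkd_finrankAlong_alpha N hq hN
  rw [h1, h2]

include h in
/-- `F_{N'q}` is generated by `α(F_{N'})` and the image of `F_{Nq}` -/
theorem nsq_hgen (hq : q.Prime) (hN' : ¬ q ∣ N') (y : ↥(modularFunctionFieldBar (N' * q))) :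
    y ∈ Subfield.closure (Set.range (heckeAlphaBar Qb N' q) ∪
      Set.range (lvlIncl (N * q) (N' * q) h').toRingHom) := by
  refine Subfield.closure_mono ?_ (nsq_gen_closure N' q hq hN' y)
  rintro _ (hz | hz)
  · exact Or.inl hz
  · rw [Set.mem_singleton_iff] at hz
    rw [hz]
    refine Or.inr ⟨heckeBetaBar Qb N q (grJ Qb N), ?_⟩
    show lvlIncl (N * q) (N' * q) h' (heckeBetaBar Qb N q (grJ Qb N)) = _
    rw [nsq_lvlIncl_beta N N' q h h', nsq_lvlIncl_grJ N N' h]

end level

/-- **(SQ-LEVEL, `α`)**: for `N ∣ N'` and `q ∤ N'`, the norm `F_{N'q} → F_{N'}` along `α` of a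
function of level `N q` is its norm `F_{Nq} → F_N` along `α`. -/
theorem nsq_level_alpha (N N' q : ℕ) [NeZero N] [NeZero N'] [NeZero q] (hq : q.Prime)
    (hN' : ¬ q ∣ N') (h : N ∣ N') (h' : N * q ∣ N' * q)
    (x : ↥(modularFunctionFieldBar (N * q))) :
    hkdNorm N' q (lvlIncl (N * q) (N' * q) h' x) = lvlIncl N N' h (hkdNorm N q x) := by
  have hN : ¬ q ∣ N := fun hqN => hN' (hqN.trans h)
  letI algE : Algebra ↥(modularFunctionFieldBar N) ↥(modularFunctionFieldBar (N * q)) :=
    algebraAlong (heckeAlphaBar Qb N q)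
  letI algE' : Algebra ↥(modularFunctionFieldBar N') ↥(modularFunctionFieldBar (N' * q)) :=
    algebraAlong (heckeAlphaBar Qb N' q)
  haveI : FiniteDimensional ↥(modularFunctionFieldBar N) ↥(modularFunctionFieldBar (N * q)) :=
    hki_finiteAlong N (N * q) (heckeAlphaBar Qb N q)
  exact nbc_norm_eq_of_closure (lvlIncl N N' h).toRingHom (lvlIncl (N * q) (N' * q) h').toRingHom
    (nsq_hcomm N N' q h h') (nsq_hdeg N N' q hq hN hN') (nsq_hgen N N' q h h' hq hN') x

/-! ### the swap and the level inclusions -/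

/-- the swap at `q` commutes with the level-raising inclusions -/
theorem nsq_swp_lvlIncl (N N' q : ℕ) [NeZero N] [NeZero N'] [NeZero q] (hq : q.Prime)
    (hN : ¬ q ∣ N) (hN' : ¬ q ∣ N') (h : N ∣ N') (h' : N * q ∣ N' * q)
    (x : ↥(modularFunctionFieldBar (N * q))) :
    swp N' q hq hN' (lvlIncl (N * q) (N' * q) h' x) =
      lvlIncl (N * q) (N' * q) h' (swp N q hq hN x) := by
  have hext := ringHom_ext_Fb (N * q)
    ((swp N' q hq hN').comp (lvlIncl (N * q) (N' * q) h').toRingHom)
    ((lvlIncl (N * q) (N' * q) h').toRingHom.comp (swp N q hq hN)) ?_ ?_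
  · exact congrArg (fun φ => φ x) hext
  · intro c
    show swp N' q hq hN' (lvlIncl (N * q) (N' * q) h' (algebraMap _ _ c)) =
      lvlIncl (N * q) (N' * q) h' (swp N q hq hN (algebraMap _ _ c))
    rw [AlgHom.commutes, swp_const, swp_const, AlgHom.commutes]
  · intro e _ he
    show swp N' q hq hN' (lvlIncl (N * q) (N' * q) h' (jdBar (N * q) e he)) =
      lvlIncl (N * q) (N' * q) h' (swp N q hq hN (jdBar (N * q) e he))
    rcases swp_dvd_cases N q hq he with hd | ⟨d, hd, rfl⟩
    · have h1 : lvlIncl (N * q) (N' * q) h' (jdBar (N * q) e he) =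
          jdBar (N' * q) e ((hd.trans h).mul_right q) := Subtype.ext rfl
      rw [h1]
      refine (swp_jd1 N' q hq hN' e (hd.trans h)).trans ?_
      have h2 : swp N q hq hN (jdBar (N * q) e he) =
          jdBar (N * q) (q * e) (by rw [mul_comm N q]; exact Nat.mul_dvd_mul_left q hd) :=
        swp_jd1 N q hq hN e hd
      rw [h2]
      exact Subtype.ext rfl
    · haveI : NeZero d := ⟨ne_zero_of_dvd_ne_zero (NeZero.ne N) hd⟩
      have h1 : lvlIncl (N * q) (N' * q) h' (jdBar (N * q) (q * d) he) =
          jdBar (N' * q) (q * d)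
            (by rw [mul_comm N' q]; exact Nat.mul_dvd_mul_left q (hd.trans h)) :=
        Subtype.ext rfl
      rw [h1]
      refine (swp_jd2 N' q hq hN' d (hd.trans h)).trans ?_
      have h2 : swp N q hq hN (jdBar (N * q) (q * d) he) =
          jdBar (N * q) d (hd.mul_right q) := swp_jd2 N q hq hN d hd
      rw [h2]
      exact Subtype.ext rfl

/-! ### the level square for the norms along `β` -/

/-- **(SQ-LEVEL, `β`)**: for `N ∣ N'` and `q ∤ N'`, the norm `F_{N'q} → F_{N'}` along `β` of a
function of level `N q` is its norm `F_{Nq} → F_N` along `β`. -/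
theorem nsq_level_beta (N N' q : ℕ) [NeZero N] [NeZero N'] [NeZero q] (hq : q.Prime)
    (hN' : ¬ q ∣ N') (h : N ∣ N') (h' : N * q ∣ N' * q)
    (x : ↥(modularFunctionFieldBar (N * q))) :
    hkdNormBeta N' q (lvlIncl (N * q) (N' * q) h' x) = lvlIncl N N' h (hkdNormBeta N q x) := by
  have hN : ¬ q ∣ N := fun hqN => hN' (hqN.trans h)
  rw [← hkdNorm_swp N' hq hN', nsq_swp_lvlIncl N N' q hq hN hN' h h',
    nsq_level_alpha N N' q hq hN' h h', hkdNorm_swp N hq hN]

end Fermat.Agent.S35
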