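import Fermat.Agent.S35.ClauseAux
import Fermat.Agent.S35.NormSquare
import Fermat.Agent.S35.KummerNew
import Fermat.Agent.S35.InstFinal

/-!
# S35: the clause at a prime `q ∥ M` (final assembly)

`s35cl_main`: let `g` be a newform of level `M`, `q ∥ M`, `q ≠ λ`, and let `ρ` be an adic Galois
representation over `O''` whose Frobenius elements at the good primes `ℓ ∉ S` have
characteristic polynomial `X² - χ(T_ℓ) X + ℓ`.  Then the characteristic polynomial of `ρ(φ)`,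
`φ` a Frobenius element at `q`, is `X² - (q + 1) X + q` or `X² + (q + 1) X + q`.

Assembly (finding 184): write `M = M' q`, choose `a2 = a ^ k ∈ {4, 9}` prime to `q`
(`hp9_exists_hauptRec`), and combine

* `s35t_main` (trace transfer, from the torsion relation `d P(T) (s - 1)² (s - q²) = 0`),
* `s35tm_main_end` (the torsion relation from (DEG) and (CORE) by descent along
  `J₀(M) → J₀(a2 M)`),
* `s35cl_new` (the Hecke polynomial `P` of the newform: `χ(P) ≠ 0`, `d P(T) = 0` on the torsion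
  of `J₀(M')`), `s35cl_deg` with `nsq_level_alpha`, `nsq_level_beta` (DEG),
* `s35k_main` with `s35in_final` (CORE: `(s - q²)(s - 1)² = 0` on the classes of `J₀(a2 M' q)`
  killed by both degeneracy push-forwards), via the bridge `s35cl_core_of_kum`.
-/

set_option autoImplicit false

open ModularCurve AlgebraicCurve Polynomial CuspForm

namespace Fermat.Agent.S35

open Fermat.Agent.S29 Fermat.Agent.S30 Fermat.Agent.S31 Fermat.Agent.S34 Fermat.Agent.S37

local notation "Qb" => AlgebraicClosure ℚ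

/-! ### The clause -/

/-- **S35, clause at `q ∥ M`.** -/
theorem s35cl_main
    {M : ℕ} [NeZero M] {g : CuspForm (CongruenceSubgroup.Gamma0 M) 2} (hg : g.IsNewform)
    (lam : ℕ) [Fact lam.Prime]
    (S : Finset ℕ)
    (O' : Type) [CommRing O'] [IsDomain O'] [IsDiscreteValuationRing O']
    [IsAdicComplete (IsLocalRing.maximalIdeal O') O'] [Finite (IsLocalRing.ResidueField O')]
    [CharZero O'] (hlamO' : (lam : O') ∈ IsLocalRing.maximalIdeal O')
    (chig : CuspForm.heckeAlgebra M 2 (↑S : Set ℕ) →+* ℂ)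
    (hchig : ∀ (ℓ : ℕ) (hℓ : ℓ.Prime) (hℓM : ¬ ℓ ∣ M) (hℓS : ℓ ∉ (↑S : Set ℕ)),
      chig (CuspForm.heckeAlgebra.T hℓ hℓM hℓS) = ModularFormClass.qCoeff g ℓ)
    (iota : chig.range →+* O')
    (hlamS : lam ∈ S) (hMS : ∀ q : ℕ, q.Prime → q ∣ M → q ∈ S)
    (O'' : Type) [CommRing O''] [IsDomain O''] [IsDiscreteValuationRing O'']
    [IsAdicComplete (IsLocalRing.maximalIdeal O'') O''] [Finite (IsLocalRing.ResidueField O'')]
    [CharZero O''] [Algebra O' O''] [Module.Finite O' O''] [IsLocalHom (algebraMap O' O'')]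
    (hinj : Function.Injective (algebraMap O' O''))
    (ρ : GaloisRepAdic O'')
    (hfrob : ∀ (ℓ : ℕ) (hℓ : ℓ.Prime) (hℓM : ¬ ℓ ∣ M) (hℓS : ℓ ∉ (↑S : Set ℕ)),
      ∀ A : ValuationSubring (AlgebraicClosure ℚ), A.LiesOverPrime ℓ →
        ∀ σ : AlgebraicClosure ℚ ≃ₐ[ℚ] AlgebraicClosure ℚ, A.IsFrobeniusAt σ ℓ →
          LinearMap.charpoly (ρ.ρ σ) =
            X ^ 2 - C (algebraMap O' O'' ((iota.comp chig.rangeRestrict) (CuspForm.heckeAlgebra.T hℓ hℓM hℓS))) * X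
              + C ((ℓ : O'')))
    (q : ℕ) (hq : q.Prime) (hqlam : q ≠ lam) (hqM : q ∣ M) (hq2 : ¬ q ^ 2 ∣ M)
    (A : ValuationSubring (AlgebraicClosure ℚ)) (hA : A.LiesOverPrime q)
    (σ : AlgebraicClosure ℚ ≃ₐ[ℚ] AlgebraicClosure ℚ) (hσ : A.IsFrobeniusAt σ q) :
    LinearMap.charpoly (ρ.ρ σ) = X ^ 2 - C ((q : O'') + 1) * X + C ((q : O'')) ∨
    LinearMap.charpoly (ρ.ρ σ) = X ^ 2 + C ((q : O'') + 1) * X + C ((q : O'')) := by
  have hlam : lam.Prime := Fact.out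
  obtain ⟨M', hM'⟩ := hqM
  rw [mul_comm] at hM'
  subst hM'
  have hM'0 : M' ≠ 0 := by
    rintro rfl
    exact NeZero.ne (0 * q) (zero_mul q)
  have hqM' : ¬ q ∣ M' := by
    rintro ⟨r, rfl⟩
    exact hq2 ⟨r, by ring⟩
  haveI : Fact q.Prime := ⟨hq⟩
  haveI : NeZero M' := ⟨hM'0⟩
  haveI : NeZero q := ⟨hq.ne_zero⟩
  obtain ⟨a2, ha2, ⟨Hr⟩⟩ := Fermat.Agent.S18.hp9_exists_hauptRec q
  obtain ⟨a, k, haP, rfl⟩ : ∃ a k : ℕ, a.Prime ∧ a2 = a ^ k := by
    rcases ha2 with rfl | rfl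
    · exact ⟨2, 2, Nat.prime_two, rfl⟩
    · exact ⟨3, 2, Nat.prime_three, rfl⟩
  have hqL : ¬ q ∣ a ^ k * M' := fun h => (hq.dvd_mul.mp h).elim Hr.not_dvd hqM'
  haveI : NeZero (a ^ k * M') := ⟨Nat.mul_ne_zero Hr.pos.ne' hM'0⟩
  haveI : NeZero (a ^ k * M' * q) := ⟨Nat.mul_ne_zero (NeZero.ne _) hq.ne_zero⟩
  have hN : M' ∣ M' * q := dvd_mul_right M' q
  have hne : M' ≠ M' * q := by
    intro h
    have h1 : M' * 1 = M' * q := by rw [mul_one]; exact h
    exact hq.one_lt.ne (Nat.eq_of_mul_eq_mul_left (Nat.pos_of_ne_zero hM'0) h1)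
  have hL : M' ∣ a ^ k * M' := dvd_mul_left M' (a ^ k)
  have hdvd : M' * q ∣ a ^ k * M' * q := Nat.mul_dvd_mul_right hL q
  -- the Hecke polynomial from newness
  obtain ⟨P, d, hd, hPχ, hNEW⟩ := s35cl_new hg lam hlam S chig hchig hMS M' hN hne
  -- the character with values in `O''`
  have hlamO'' : (lam : O'') ∈ IsLocalRing.maximalIdeal O'' := by
    have h := map_nonunit (algebraMap O' O'') (lam : O') hlamO'
    rwa [map_natCast] at h
  have hP : ((algebraMap O' O'').comp (iota.comp chig.rangeRestrict))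
      (hresT (M' * q) (↑S : Set ℕ) P) ≠ 0 :=
    (nwi_hres_ne_zero_iff chig iota hinj P).mpr hPχ
  have hcmp : TrcCmp (M' * q) lam :=
    Fermat.Agent.S31.trc_cmp_of_gen (M' * q) lam hlam.ne_zero (fun m hm => by
      have : NeZero m := ⟨hm⟩
      obtain ⟨Φ, hinj, hS, -, hT⟩ := Fermat.Agent.S29.cmg_main (M' * q) m
      exact ⟨Φ, hinj, hS, hT⟩)
  refine s35t_main hlamO'' hMS ((algebraMap O' O'').comp (iota.comp chig.rangeRestrict)) ρ
    (fun ℓ hℓ hℓM hℓS A hA τ hτ => hfrob ℓ hℓ hℓM hℓS A hA τ hτ) hcmp q hq hqlam A hA σ hσ P hP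
    d hd
    (s35tm_main_end M' q a k haP lam hlam S hlamS P d (σ * σ) hdvd
      (s35cl_deg M' q a k lam hlam S hlamS P d hN hL hdvd
        (nsq_level_alpha M' (a ^ k * M') q hq hqL hL hdvd)
        (nsq_level_beta M' (a ^ k * M') q hq hqL hL hdvd) hNEW)
      (fun n y hα hβ => ?_))
  refine s35cl_core_of_kum (a ^ k * M' * q) (lam ^ n) (q ^ 2) (σ * σ) y ?_
  have hy : lam ^ n • (y : JZero (a ^ k * M' * q)) = 0 := by
    have h := Pic0.mem_torsion.mp y.2
    rwa [natCast_zsmul] at h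
  exact s35k_main (a ^ k * M') q hq hqL (lam ^ n) (pow_ne_zero n hlam.ne_zero) (σ * σ)
    (s35in_final (a ^ k * M') q hqL Hr (dvd_mul_right (a ^ k) M') A hA σ hσ (lam ^ n)
      (pow_ne_zero n hlam.ne_zero)
      (Nat.Coprime.pow_left n ((Nat.coprime_primes hlam hq).mpr hqlam.symm)))
    (y : JZero (a ^ k * M' * q)) hy hα hβ

end Fermat.Agent.S35
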