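import Mathlib
import Fermat.Agent.S34.Transfer

/-!
# S35, package TRANSFER: the characteristic polynomial of a Frobenius lift at a prime `q ∥ M`
from a polynomial relation on the torsion of `J₀(M)`

Let `ρ` be an adic Galois representation of rank two over a local noetherian domain `O` of
characteristic zero whose Frobenius elements at the good primes `ℓ ∉ S` have characteristic
polynomial `X² - χ(T_ℓ) X + ℓ` (`χ` a ring homomorphism from the Hecke algebra of level `M`).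

* `s35t_abs` : the abstract trace argument (variant of `s34t_abs` of S34): if `σ` agrees on a
  finite level with a power `τ ^ m` of a Frobenius element, `ℓ ^ m = c` on the torsion, and
  `d P(T) (σ - 1)² (σ - c) = 0` on the torsion, then `d χ(P) (trace ρ(σ) - (1 + c))²` lies in the
  ideal.
* `s35t_trace` : consequently `d χ(P) (trace ρ(σ) - (1 + c))² = 0` in `O` as soon as the relation
  holds on `J₀(M)[p ^ n]` for all `n`.
* `s35t_det` : `det ρ(φ) = q` for every Frobenius lift `φ` at a prime `q ≠ p` (no hypothesis at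
  `q`: only density, the good Frobenius elements and the cyclotomic character).
* `s35t_main` : if `d P(T) (φ² - 1)² (φ² - q²) = 0` on `J₀(M)[p ^ n]` for all `n`, with `d ≠ 0` and
  `χ(P) ≠ 0`, then the characteristic polynomial of `ρ(φ)` is `X² - (q + 1) X + q` or
  `X² + (q + 1) X + q`.
-/

set_option autoImplicit false

open ModularCurve AlgebraicCurve

namespace Fermat.Agent.S35

open Fermat.Agent.S29 Fermat.Agent.S30 Fermat.Agent.S31 Fermat.Agent.S34 Polynomial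

local notation "Qb" => AlgebraicClosure ℚ

/-- A ring identity: with `s s' = s' s = 1` and `c` a natural number,
`(s + c s' - (1 + c))² = (s - 1)² (s - c) · ((s - c) s'²)`. -/
theorem s35t_ring_id {E : Type*} [Ring E] (s s' : E) (c : ℕ) (h1 : s * s' = 1) (h2 : s' * s = 1) :
    (s + (c : E) * s' - (1 + (c : E))) * (s + (c : E) * s' - (1 + (c : E))) =
      ((s - 1) * (s - 1) * (s - (c : E))) * ((s - (c : E)) * s' * s') := by
  have hcs : (c : E) * s = s * (c : E) := (Nat.cast_commute c s).eq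
  have hss : Commute s' s := by
    show s' * s = s * s'
    rw [h2, h1]
  have hs1 : s' * (s - 1) = (s - 1) * s' := (hss.sub_right (Commute.one_right s')).eq
  have hs2 : s' * (s - (c : E)) = (s - (c : E)) * s' :=
    (hss.sub_right (Nat.cast_commute c s').symm).eq
  have hc2 : (s - (c : E)) * (s - 1) = (s - 1) * (s - (c : E)) :=
    ((((Commute.refl s).sub_left (Nat.cast_commute c s)).sub_right
      (Commute.one_right (s - (c : E))))).eq
  have hk : s + (c : E) * s' - (1 + (c : E)) = (s - 1) * (s - (c : E)) * s' := by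
    have e1 : (s - 1) * (s - (c : E)) * s' = s * (s * s') - (s * (c : E)) * s' - s * s'
        + (c : E) * s' := by
      rw [sub_mul, mul_sub, one_mul, sub_mul, sub_mul, sub_mul, mul_assoc s s s']
      abel
    rw [e1, h1, ← hcs, mul_assoc (c : E) s s', h1, mul_one, mul_one]
    abel
  rw [hk]
  calc (s - 1) * (s - (c : E)) * s' * ((s - 1) * (s - (c : E)) * s')
      = (s - 1) * (s - (c : E)) * (s' * (s - 1)) * (s - (c : E)) * s' := by
        simp only [mul_assoc]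
    _ = (s - 1) * ((s - (c : E)) * (s - 1)) * (s' * (s - (c : E))) * s' := by
        rw [hs1]; simp only [mul_assoc]
    _ = (s - 1) * (s - 1) * (s - (c : E)) * ((s - (c : E)) * s' * s') := by
        rw [hc2, hs2]; simp only [mul_assoc]

/-- **Abstract trace argument for a Frobenius lift.** -/
theorem s35t_abs {G : Type*} [Group G] {T : Type*} [CommRing T] (𝔞 : Ideal T) {V : Type*}
    [AddCommGroup V] [Module T V] [Module.Free T V] [Module.Finite T V]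
    (hV : Module.finrank T V = 2) (ρ : G →* Module.End T V) {E : Type*} [Ring E] (ρJ : G →* E)
    {I : Type*} (t : I → T) (θ : I → E) (ℓ : I → ℕ) (σ : G) (c : ℕ)
    (hD : ∃ (τ : G) (i : I) (m : ℕ),
      LinearMap.charpoly (ρ τ) = X ^ 2 - C (t i) * X + C ((ℓ i : ℕ) : T) ∧
      ρJ τ * ρJ τ - θ i * ρJ τ + ((ℓ i : ℕ) : E) = 0 ∧ θ i * ρJ τ = ρJ τ * θ i ∧
      LinearMap.trace T V (ρ (τ ^ m)) - LinearMap.trace T V (ρ σ) ∈ 𝔞 ∧ ρJ (τ ^ m) = ρJ σ ∧
      ((ℓ i : ℕ) : E) ^ m = (c : E))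
    (hR : ∀ P : FreeAlgebra ℤ I, FreeAlgebra.lift ℤ θ P = 0 → FreeAlgebra.lift ℤ t P ∈ 𝔞)
    (P₀ : FreeAlgebra ℤ I) (d : ℕ)
    (hu : (d : E) * FreeAlgebra.lift ℤ θ P₀ *
      ((ρJ σ - 1) * (ρJ σ - 1) * (ρJ σ - (c : E))) = 0) :
    (d : T) * FreeAlgebra.lift ℤ t P₀ * (LinearMap.trace T V (ρ σ) - (1 + (c : T))) ^ 2 ∈ 𝔞 := by
  obtain ⟨τ, i, m, hcp, hrel, hcomm, htr, hJ, hε⟩ := hD
  have e1 : LinearMap.trace T V (ρ (τ ^ m)) = lucV (t i) ((ℓ i : ℕ) : T) m :=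
    luc_trace_rep hV ρ τ _ _ hcp m
  have e2 := luc_rep ρJ τ (θ i) ((ℓ i : ℕ) : E) hrel hcomm (Nat.cast_commute (ℓ i) _).eq m
  rw [hJ, tra_inv_eq ρJ (τ ^ m) σ hJ, hε] at e2
  have hinv : ρJ σ⁻¹ * ρJ σ = 1 := by rw [← map_mul, inv_mul_cancel, map_one]
  have hinv' : ρJ σ * ρJ σ⁻¹ = 1 := by rw [← map_mul, mul_inv_cancel, map_one]
  have h3 : (d : E) * FreeAlgebra.lift ℤ θ P₀ *
      ((lucV (θ i) ((ℓ i : ℕ) : E) m - (1 + (c : E))) *
        (lucV (θ i) ((ℓ i : ℕ) : E) m - (1 + (c : E)))) = 0 := by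
    rw [← e2, s35t_ring_id (ρJ σ) (ρJ σ⁻¹) c hinv' hinv, ← mul_assoc, hu, zero_mul]
  have hP : FreeAlgebra.lift ℤ θ ((d : FreeAlgebra ℤ I) * P₀ *
      ((lucV (FreeAlgebra.ι ℤ i) ((ℓ i : ℕ) : FreeAlgebra ℤ I) m - (1 + (c : FreeAlgebra ℤ I))) *
        (lucV (FreeAlgebra.ι ℤ i) ((ℓ i : ℕ) : FreeAlgebra ℤ I) m
          - (1 + (c : FreeAlgebra ℤ I))))) = 0 := by
    rw [map_mul, map_mul, map_mul, map_natCast, map_sub, luc_lift_natCast, map_add, map_one,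
      map_natCast]
    exact h3
  have h4 := hR _ hP
  rw [map_mul, map_mul, map_mul, map_natCast, map_sub, luc_lift_natCast, map_add, map_one,
    map_natCast, ← e1] at h4
  have h5 : (d : T) * FreeAlgebra.lift ℤ t P₀ * (LinearMap.trace T V (ρ σ) - (1 + (c : T))) ^ 2 =
      (d : T) * FreeAlgebra.lift ℤ t P₀ *
        ((LinearMap.trace T V (ρ (τ ^ m)) - (1 + (c : T))) *
          (LinearMap.trace T V (ρ (τ ^ m)) - (1 + (c : T)))) -
      (d : T) * FreeAlgebra.lift ℤ t P₀ *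
        (LinearMap.trace T V (ρ (τ ^ m)) + LinearMap.trace T V (ρ σ) - 2 * (1 + (c : T))) *
        (LinearMap.trace T V (ρ (τ ^ m)) - LinearMap.trace T V (ρ σ)) := by
    ring
  rw [h5]
  exact 𝔞.sub_mem h4 (𝔞.mul_mem_left _ htr)

section main

variable {M : ℕ} [NeZero M] {S : Finset ℕ} {p : ℕ} [Fact p.Prime]
  {O : Type} [CommRing O] [IsDomain O] [IsLocalRing O] [IsNoetherianRing O] [CharZero O]

/-- **The trace relation.**  If `σ` acts on the `p`-power roots of unity through the natural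
number `c` and `d P(T) (σ - 1)² (σ - c)` kills `J₀(M)[p ^ n]` for all `n`, then
`d χ(P) (trace ρ(σ) - (1 + c))² = 0`. -/
theorem s35t_trace (hpO : (p : O) ∈ IsLocalRing.maximalIdeal O)
    (hMS : ∀ q : ℕ, q.Prime → q ∣ M → q ∈ S)
    (χ : CuspForm.heckeAlgebra M 2 (↑S : Set ℕ) →+* O) (ρ : GaloisRepAdic O)
    (hρ : ∀ (ℓ : ℕ) (hℓ : ℓ.Prime) (hℓM : ¬ ℓ ∣ M) (hℓS : ℓ ∉ (↑S : Set ℕ))
      (A : ValuationSubring Qb), A.LiesOverPrime ℓ → ∀ τ : Qb ≃ₐ[ℚ] Qb, A.IsFrobeniusAt τ ℓ →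
        LinearMap.charpoly (ρ.ρ τ) =
          X ^ 2 - C (χ (CuspForm.heckeAlgebra.T hℓ hℓM hℓS)) * X + C ((ℓ : ℕ) : O))
    (hcmp : TrcCmp M p) (σ : Qb ≃ₐ[ℚ] Qb) (c : ℕ)
    (hε : ∀ n : ℕ, trcEps p n σ = (c : ZMod (p ^ n)))
    (P : FreeAlgebra ℤ (HresIdx M (↑S : Set ℕ))) (d : ℕ)
    (hTORS : ∀ n : ℕ, (d : Module.End ℤ (TrcX M (p ^ n))) *
      hresJ (trcTheta M (p ^ n) (↑S : Set ℕ)) P *
      ((trcRhoJ M (p ^ n) σ - 1) * (trcRhoJ M (p ^ n) σ - 1) *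
        (trcRhoJ M (p ^ n) σ - (c : Module.End ℤ (TrcX M (p ^ n))))) = 0) :
    (d : O) * χ (hresT M (↑S : Set ℕ) P) *
      (LinearMap.trace O ρ.V (ρ.ρ σ) - (1 + (c : O))) ^ 2 = 0 := by
  have hp : p.Prime := Fact.out
  apply tra_eq_of_local
  intro n
  rw [sub_zero]
  obtain ⟨v, hv⟩ := hres_final M (↑S : Set ℕ) p
  obtain ⟨hfin, Φ, hΦS, hΦT⟩ := hcmp (n + v)
  have := hfin
  have : NeZero (p ^ (n + v)) := ⟨pow_ne_zero _ hp.ne_zero⟩
  obtain ⟨L₀, hL₀, htr⟩ := trc_trace_congr ρ n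
  have := hL₀
  have e1 := trc_lift_comp χ
    (fun l : HresIdx M (↑S : Set ℕ) => CuspForm.heckeAlgebra.T l.2.1 l.2.2.1 l.2.2.2) P
  have e2 : FreeAlgebra.lift ℤ
      (fun l : HresIdx M (↑S : Set ℕ) => CuspForm.heckeAlgebra.T l.2.1 l.2.2.1 l.2.2.2) P
      = hresT M (↑S : Set ℕ) P := rfl
  rw [← e2, ← e1]
  refine s35t_abs (IsLocalRing.maximalIdeal O ^ n) ρ.finrank_eq ρ.ρ
    (trcRhoJ M (p ^ (n + v)))
    (fun l : HresIdx M (↑S : Set ℕ) => χ (CuspForm.heckeAlgebra.T l.2.1 l.2.2.1 l.2.2.2))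
    (trcTheta M (p ^ (n + v)) (↑S : Set ℕ)) (fun l => l.1) σ c ?_ ?_ P d ?_
  · -- density
    obtain ⟨ℓ, hℓ, hℓS, hℓp, A', hA', τ, hτ, b, hb, hJ, hεb⟩ :=
      trc_density M p (n + v) L₀ S σ
    have hℓN : ¬ ℓ ∣ M := fun h => hℓS (hMS ℓ hℓ h)
    have hℓS' : ℓ ∉ (↑S : Set ℕ) := fun h => hℓS (Finset.mem_coe.mp h)
    have hℓm : ¬ ℓ ∣ M * p ^ (n + v) := trc_not_dvd hp hℓ hℓN hℓp _
    refine ⟨τ, ⟨ℓ, hℓ, hℓN, hℓS'⟩, b, hρ ℓ hℓ hℓN hℓS' A' hA' τ hτ,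
      trc_frob_rel M _ _ ⟨ℓ, hℓ, hℓN, hℓS'⟩ hℓm A' hA' τ hτ,
      trc_comm M _ _ ⟨ℓ, hℓ, hℓN, hℓS'⟩ hℓm τ, htr _ _ hb, ?_, ?_⟩
    · exact LinearMap.ext fun x => LinearMap.congr_fun hJ x
    · rw [hε (n + v)] at hεb
      rw [trc_natCast_pow M _ ℓ b _ hεb]
      unfold trcScal
      exact trc_natCast_eq M (p ^ (n + v)) _ c (by rw [ZMod.natCast_zmod_val])
  · -- HECKERES
    intro P' hP'
    have hpO' : (p : O) ∈ IsLocalRing.maximalIdeal O := hpO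
    obtain ⟨Q, hQ⟩ := hv (n + v) (Nat.le_add_left v n) (TrcX M (p ^ (n + v)))
      (trcTheta M (p ^ (n + v)) (↑S : Set ℕ)) Φ
      (fun l c => hΦT l.1 l.2.1 l.2.2.1 c) hΦS P' (fun c => LinearMap.congr_fun hP' c)
    have e1' := trc_lift_comp χ
      (fun l : HresIdx M (↑S : Set ℕ) => CuspForm.heckeAlgebra.T l.2.1 l.2.2.1 l.2.2.2) P'
    have e2' : FreeAlgebra.lift ℤ
        (fun l : HresIdx M (↑S : Set ℕ) => CuspForm.heckeAlgebra.T l.2.1 l.2.2.1 l.2.2.2) P'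
        = hresT M (↑S : Set ℕ) P' := rfl
    rw [e1', e2', hQ, Nat.add_sub_cancel, map_zsmul, zsmul_eq_mul]
    refine Ideal.mul_mem_right _ _ ?_
    push_cast
    exact Ideal.pow_mem_pow hpO' n
  · exact hTORS (n + v)

/-- The constant coefficient of `X² - a X + b`. -/
theorem s35t_coeff_zero {T : Type*} [CommRing T] (a b : T) :
    (X ^ 2 - C a * X + C b : T[X]).coeff 0 = b := by
  simp

/-- The determinant of an endomorphism of a free module of rank two with characteristic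
polynomial `X² - a X + b` is `b`. -/
theorem s35t_det_of_charpoly {T : Type*} [CommRing T] {V : Type*} [AddCommGroup V] [Module T V]
    [Module.Free T V] [Module.Finite T V] (hV : Module.finrank T V = 2) (f : Module.End T V)
    (a b : T) (h : LinearMap.charpoly f = X ^ 2 - C a * X + C b) : LinearMap.det f = b := by
  have h1 := s34t_charpoly hV f
  rw [h] at h1
  have h2 := congrArg (fun P : T[X] => P.coeff 0) h1
  simp only [s35t_coeff_zero] at h2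
  exact h2.symm

/-- `trace (f²) = (trace f)² - 2 det f` in rank two. -/
theorem s35t_trace_sq {T : Type*} [CommRing T] {V : Type*} [AddCommGroup V] [Module T V]
    [Module.Free T V] [Module.Finite T V] (hV : Module.finrank T V = 2) (f : Module.End T V) :
    LinearMap.trace T V (f * f) =
      LinearMap.trace T V f * LinearMap.trace T V f - LinearMap.det f * 2 := by
  have h := luc_trace_pow hV f _ _ (s34t_charpoly hV f) 2
  rw [pow_two] at h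
  exact h

/-- **The determinant of a Frobenius lift.**  If `φ` acts on the `p`-power roots of unity through
the natural number `c`, then `det ρ(φ) = c`. -/
theorem s35t_det (hpO : (p : O) ∈ IsLocalRing.maximalIdeal O)
    (hMS : ∀ q : ℕ, q.Prime → q ∣ M → q ∈ S)
    (χ : CuspForm.heckeAlgebra M 2 (↑S : Set ℕ) →+* O) (ρ : GaloisRepAdic O)
    (hρ : ∀ (ℓ : ℕ) (hℓ : ℓ.Prime) (hℓM : ¬ ℓ ∣ M) (hℓS : ℓ ∉ (↑S : Set ℕ))
      (A : ValuationSubring Qb), A.LiesOverPrime ℓ → ∀ τ : Qb ≃ₐ[ℚ] Qb, A.IsFrobeniusAt τ ℓ →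
        LinearMap.charpoly (ρ.ρ τ) =
          X ^ 2 - C (χ (CuspForm.heckeAlgebra.T hℓ hℓM hℓS)) * X + C ((ℓ : ℕ) : O))
    (hcmp : TrcCmp M p) (φ : Qb ≃ₐ[ℚ] Qb) (c : ℕ)
    (hε : ∀ n : ℕ, trcEps p n φ = (c : ZMod (p ^ n))) :
    LinearMap.det (ρ.ρ φ) = (c : O) := by
  have hp : p.Prime := Fact.out
  have key : (2 : O) * (LinearMap.det (ρ.ρ φ) - (c : O)) = 0 := by
    apply tra_eq_of_local
    intro n
    rw [sub_zero]
    obtain ⟨hfin, -⟩ := hcmp n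
    have := hfin
    obtain ⟨L₀, hL₀, htr⟩ := trc_trace_congr ρ n
    have := hL₀
    have hfdm : FiniteDimensional ℚ ↥(L₀.map (φ : Qb →ₐ[ℚ] Qb)) :=
      LinearEquiv.finiteDimensional (IntermediateField.equivMap L₀ (φ : Qb →ₐ[ℚ] Qb)).toLinearEquiv
    obtain ⟨ℓ, hℓ, hℓS, hℓp, A', hA', τ, hτ, b, hb, -, hεb⟩ :=
      trc_density M p n (L₀ ⊔ L₀.map (φ : Qb →ₐ[ℚ] Qb)) S φ
    have hℓN : ¬ ℓ ∣ M := fun h => hℓS (hMS ℓ hℓ h)
    have hℓS' : ℓ ∉ (↑S : Set ℕ) := fun h => hℓS (Finset.mem_coe.mp h)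
    have hcp := hρ ℓ hℓ hℓN hℓS' A' hA' τ hτ
    -- the two trace congruences
    have hA1 : LinearMap.trace O ρ.V (ρ.ρ (τ ^ b)) - LinearMap.trace O ρ.V (ρ.ρ φ)
        ∈ IsLocalRing.maximalIdeal O ^ n :=
      htr _ _ (fun x hx => hb x (le_sup_left (a := L₀) hx))
    have hA2 : LinearMap.trace O ρ.V (ρ.ρ (τ ^ b * τ ^ b)) - LinearMap.trace O ρ.V (ρ.ρ (φ * φ))
        ∈ IsLocalRing.maximalIdeal O ^ n := by
      refine htr _ _ (fun x hx => ?_)
      have h1 : φ x ∈ L₀ ⊔ L₀.map (φ : Qb →ₐ[ℚ] Qb) :=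
        le_sup_right (a := L₀) ⟨x, hx, rfl⟩
      rw [AlgEquiv.mul_apply, AlgEquiv.mul_apply, hb x (le_sup_left (a := L₀) hx), hb (φ x) h1]
    -- the determinant of `ρ(τ ^ b)`
    have hdτ : LinearMap.det (ρ.ρ (τ ^ b)) = ((ℓ : ℕ) : O) ^ b := by
      rw [map_pow, map_pow, s35t_det_of_charpoly ρ.finrank_eq (ρ.ρ τ) _ _ hcp]
    have hT1 := s35t_trace_sq ρ.finrank_eq (ρ.ρ (τ ^ b))
    have hT2 := s35t_trace_sq ρ.finrank_eq (ρ.ρ φ)
    rw [← map_mul] at hT1 hT2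
    -- `ℓ ^ b ≡ c` modulo `p ^ n`
    have hcong : ((ℓ : ℕ) : O) ^ b - (c : O) ∈ IsLocalRing.maximalIdeal O ^ n := by
      rw [hε n] at hεb
      have h1 : ((ℓ ^ b : ℕ) : ZMod (p ^ n)) = ((c : ℕ) : ZMod (p ^ n)) := by
        rw [Nat.cast_pow]
        exact hεb
      have h2 : ((p ^ n : ℕ) : ℤ) ∣ ((ℓ ^ b : ℕ) : ℤ) - ((c : ℕ) : ℤ) := by
        have h3 := (ZMod.intCast_eq_intCast_iff_dvd_sub ((c : ℕ) : ℤ) ((ℓ ^ b : ℕ) : ℤ)
          (p ^ n)).mp (by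
            rw [Int.cast_natCast, Int.cast_natCast]
            exact h1.symm)
        exact h3
      obtain ⟨k, hk⟩ := h2
      have h4 : ((ℓ : ℕ) : O) ^ b - (c : O) = ((p : O) ^ n) * (k : O) := by
        have := congrArg (fun z : ℤ => (z : O)) hk
        simp only [Int.cast_sub, Int.cast_natCast, Nat.cast_pow, Int.cast_mul, Int.cast_pow]
          at this
        exact this
      rw [h4]
      exact Ideal.mul_mem_right _ _ (Ideal.pow_mem_pow hpO n)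
    have e : (2 : O) * (LinearMap.det (ρ.ρ φ) - (c : O)) =
        (LinearMap.trace O ρ.V (ρ.ρ (τ ^ b * τ ^ b)) - LinearMap.trace O ρ.V (ρ.ρ (φ * φ)))
        - (LinearMap.trace O ρ.V (ρ.ρ (τ ^ b)) + LinearMap.trace O ρ.V (ρ.ρ φ)) *
          (LinearMap.trace O ρ.V (ρ.ρ (τ ^ b)) - LinearMap.trace O ρ.V (ρ.ρ φ))
        + 2 * (((ℓ : ℕ) : O) ^ b - (c : O)) := by
      rw [hT1, hT2, hdτ]
      ring
    rw [e]
    exact Ideal.add_mem _ (Ideal.sub_mem _ hA2 (Ideal.mul_mem_left _ _ hA1))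
      (Ideal.mul_mem_left _ _ hcong)
  rcases mul_eq_zero.mp key with h | h
  · exact absurd h two_ne_zero
  · exact sub_eq_zero.mp h

/-- **S35, clause at `q ∥ M`, from the torsion of `J₀(M)`** (endomorphism form).  Let `φ` be a
Frobenius lift at a prime `q ≠ p`.  If, for some `d ≠ 0` and some noncommutative Hecke polynomial
`P` with `χ(P) ≠ 0`, the operator `d P(T) (φ² - 1)² (φ² - q²)` kills `J₀(M)[p ^ n]` for every `n`,
then the characteristic polynomial of `ρ(φ)` is `X² ∓ (q + 1) X + q`. -/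
theorem s35t_main (hpO : (p : O) ∈ IsLocalRing.maximalIdeal O)
    (hMS : ∀ q : ℕ, q.Prime → q ∣ M → q ∈ S)
    (χ : CuspForm.heckeAlgebra M 2 (↑S : Set ℕ) →+* O) (ρ : GaloisRepAdic O)
    (hρ : ∀ (ℓ : ℕ) (hℓ : ℓ.Prime) (hℓM : ¬ ℓ ∣ M) (hℓS : ℓ ∉ (↑S : Set ℕ))
      (A : ValuationSubring Qb), A.LiesOverPrime ℓ → ∀ τ : Qb ≃ₐ[ℚ] Qb, A.IsFrobeniusAt τ ℓ →
        LinearMap.charpoly (ρ.ρ τ) =
          X ^ 2 - C (χ (CuspForm.heckeAlgebra.T hℓ hℓM hℓS)) * X + C ((ℓ : ℕ) : O))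
    (hcmp : TrcCmp M p) (q : ℕ) (hq : q.Prime) (hqp : q ≠ p)
    (A : ValuationSubring Qb) (hA : A.LiesOverPrime q) (φ : Qb ≃ₐ[ℚ] Qb)
    (hφ : A.IsFrobeniusAt φ q)
    (P : FreeAlgebra ℤ (HresIdx M (↑S : Set ℕ))) (hP : χ (hresT M (↑S : Set ℕ) P) ≠ 0)
    (d : ℕ) (hd : d ≠ 0)
    (hTORS : ∀ n : ℕ, (d : Module.End ℤ (TrcX M (p ^ n))) *
      hresJ (trcTheta M (p ^ n) (↑S : Set ℕ)) P *
      ((trcRhoJ M (p ^ n) (φ * φ) - 1) * (trcRhoJ M (p ^ n) (φ * φ) - 1) *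
        (trcRhoJ M (p ^ n) (φ * φ) - ((q ^ 2 : ℕ) : Module.End ℤ (TrcX M (p ^ n))))) = 0) :
    LinearMap.charpoly (ρ.ρ φ) = X ^ 2 - C ((q : O) + 1) * X + C (q : O) ∨
      LinearMap.charpoly (ρ.ρ φ) = X ^ 2 + C ((q : O) + 1) * X + C (q : O) := by
  have hεφ : ∀ n : ℕ, trcEps p n φ = (q : ZMod (p ^ n)) := fun n =>
    trcEps_frobenius p n q hq hqp A hA φ hφ
  have hεσ : ∀ n : ℕ, trcEps p n (φ * φ) = ((q ^ 2 : ℕ) : ZMod (p ^ n)) := fun n => by
    rw [trcEps_mul, hεφ n, Nat.cast_pow, pow_two]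
  have h1 := s35t_trace hpO hMS χ ρ hρ hcmp (φ * φ) (q ^ 2) hεσ P d hTORS
  have hd' : (d : O) ≠ 0 := Nat.cast_ne_zero.mpr hd
  have h2 : LinearMap.trace O ρ.V (ρ.ρ (φ * φ)) = 1 + ((q ^ 2 : ℕ) : O) := by
    rcases mul_eq_zero.mp h1 with h | h
    · rcases mul_eq_zero.mp h with h' | h'
      · exact absurd h' hd'
      · exact absurd h' hP
    · exact sub_eq_zero.mp (pow_eq_zero_iff (two_ne_zero)|>.mp h)
  have h3 : LinearMap.det (ρ.ρ φ) = (q : O) := s35t_det hpO hMS χ ρ hρ hcmp φ q hεφ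
  have h4 := s35t_trace_sq ρ.finrank_eq (ρ.ρ φ)
  rw [← map_mul, h2, h3] at h4
  have h5 : (LinearMap.trace O ρ.V (ρ.ρ φ) - ((q : O) + 1)) *
      (LinearMap.trace O ρ.V (ρ.ρ φ) + ((q : O) + 1)) = 0 := by
    have : LinearMap.trace O ρ.V (ρ.ρ φ) * LinearMap.trace O ρ.V (ρ.ρ φ)
        = 1 + ((q ^ 2 : ℕ) : O) + (q : O) * 2 := by rw [h4]; ring
    have e : (LinearMap.trace O ρ.V (ρ.ρ φ) - ((q : O) + 1)) *
        (LinearMap.trace O ρ.V (ρ.ρ φ) + ((q : O) + 1)) =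
        LinearMap.trace O ρ.V (ρ.ρ φ) * LinearMap.trace O ρ.V (ρ.ρ φ) - ((q : O) + 1) ^ 2 := by
      ring
    rw [e, this]
    push_cast
    ring
  have hcp := s34t_charpoly ρ.finrank_eq (ρ.ρ φ)
  rw [h3] at hcp
  rcases mul_eq_zero.mp h5 with h | h
  · left
    rw [hcp, sub_eq_zero.mp h]
  · right
    rw [hcp, eq_neg_of_add_eq_zero_left h, map_neg]
    ring

/-- Coercion of a noncommutative Hecke polynomial acting on the torsion. -/
theorem s35t_coe_hresJ (m : ℕ) (P : FreeAlgebra ℤ (HresIdx M (↑S : Set ℕ))) :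
    ∀ x : TrcX M m, ((hresJ (trcTheta M m (↑S : Set ℕ)) P x : TrcX M m) : JZero M) =
      hresJ (fun l : HresIdx M (↑S : Set ℕ) => heckeOperatorBar M ⟨l.1, l.2.1⟩) P
        (x : JZero M) := by
  refine FreeAlgebra.induction ℤ (HresIdx M (↑S : Set ℕ)) ?_ ?_ ?_ ?_ P
  · intro r x
    rw [AlgHom.commutes, AlgHom.commutes, Algebra.algebraMap_eq_smul_one,
      Algebra.algebraMap_eq_smul_one, LinearMap.smul_apply, LinearMap.smul_apply,
      Module.End.one_apply, Module.End.one_apply]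
    rfl
  · intro l x
    rw [hresJ_ι, hresJ_ι, trcTheta_apply]
    rfl
  · intro a b ha hb x
    rw [map_mul, map_mul, Module.End.mul_apply, Module.End.mul_apply, ha, hb]
  · intro a b ha hb x
    rw [map_add, map_add, LinearMap.add_apply, LinearMap.add_apply, ← ha, ← hb]
    rfl

/-- **S35, clause at `q ∥ M`, from the torsion of `J₀(M)`** (elementwise form on `J₀(M)`).
The hypothesis: for every `n` and every `x ∈ J₀(M)` with `p ^ n • x = 0`,
`d • P(T) ((σ - 1) (σ - 1) (σ - q²) x) = 0`, `σ = φ * φ` acting through the Galois action. -/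
theorem s35t_main_elt (hpO : (p : O) ∈ IsLocalRing.maximalIdeal O)
    (hMS : ∀ q : ℕ, q.Prime → q ∣ M → q ∈ S)
    (χ : CuspForm.heckeAlgebra M 2 (↑S : Set ℕ) →+* O) (ρ : GaloisRepAdic O)
    (hρ : ∀ (ℓ : ℕ) (hℓ : ℓ.Prime) (hℓM : ¬ ℓ ∣ M) (hℓS : ℓ ∉ (↑S : Set ℕ))
      (A : ValuationSubring Qb), A.LiesOverPrime ℓ → ∀ τ : Qb ≃ₐ[ℚ] Qb, A.IsFrobeniusAt τ ℓ →
        LinearMap.charpoly (ρ.ρ τ) =
          X ^ 2 - C (χ (CuspForm.heckeAlgebra.T hℓ hℓM hℓS)) * X + C ((ℓ : ℕ) : O))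
    (hcmp : TrcCmp M p) (q : ℕ) (hq : q.Prime) (hqp : q ≠ p)
    (A : ValuationSubring Qb) (hA : A.LiesOverPrime q) (φ : Qb ≃ₐ[ℚ] Qb)
    (hφ : A.IsFrobeniusAt φ q)
    (P : FreeAlgebra ℤ (HresIdx M (↑S : Set ℕ))) (hP : χ (hresT M (↑S : Set ℕ) P) ≠ 0)
    (d : ℕ) (hd : d ≠ 0)
    (hTORS : ∀ (n : ℕ) (x : JZero M), p ^ n • x = 0 →
      d • hresJ (fun l : HresIdx M (↑S : Set ℕ) => heckeOperatorBar M ⟨l.1, l.2.1⟩) P
        ((φ * φ) • ((φ * φ) • ((φ * φ) • x - q ^ 2 • x) - ((φ * φ) • x - q ^ 2 • x))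
          - ((φ * φ) • ((φ * φ) • x - q ^ 2 • x) - ((φ * φ) • x - q ^ 2 • x))) = 0) :
    LinearMap.charpoly (ρ.ρ φ) = X ^ 2 - C ((q : O) + 1) * X + C (q : O) ∨
      LinearMap.charpoly (ρ.ρ φ) = X ^ 2 + C ((q : O) + 1) * X + C (q : O) := by
  refine s35t_main hpO hMS χ ρ hρ hcmp q hq hqp A hA φ hφ P hP d hd (fun n => ?_)
  refine LinearMap.ext fun x => Subtype.ext ?_
  have hx : p ^ n • (x : JZero M) = 0 := by
    have h := Pic0.mem_torsion.mp x.2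
    rwa [natCast_zsmul] at h
  have h := hTORS n (x : JZero M) hx
  simp only [Module.End.mul_apply, LinearMap.sub_apply, Module.End.one_apply,
    Module.End.natCast_apply, LinearMap.zero_apply, trcRhoJ_apply, AddSubgroup.coe_nsmul,
    AddSubgroup.coe_sub, JZero.coe_torsionGaloisRep_apply, ZeroMemClass.coe_zero,
    s35t_coe_hresJ]
  exact h

end main

end Fermat.Agent.S35
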