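import Fermat.Statements.S35
import Fermat.Agent.S30
import Fermat.Agent.S35.Transfer

/-!
# S35, package ASSEMBLE: S35 from the torsion relation

`s35asm_main` : the frozen statement S35 follows from S30 (landed), the transfer `s35t_main_elt`
and ONE hypothesis `hT`: for every prime `q ≠ lam` with `q ∥ M` and every Frobenius lift `φ` at
`q` there are a noncommutative Hecke polynomial `P` (in the `T_ℓ`, `ℓ ∉ S`) with `chig P ≠ 0` and
`d ≠ 0` such that `d • P(T) ((σ - 1)² (σ - q²) x) = 0` for all `x ∈ J₀(M)[lam ^ n]`, all `n`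
(`σ = φ * φ`).

`s35asm_iota_injective` : a ring homomorphism from the range of `chig` (integral over `ℤ`) to a
domain of characteristic zero is injective.
-/

set_option autoImplicit false

open Polynomial CuspForm ModularCurve AlgebraicCurve

namespace Fermat.Agent.S35

open Fermat.Agent.S29 Fermat.Agent.S30 Fermat.Agent.S31

local notation "Qb" => AlgebraicClosure ℚ

/-- A ring homomorphism from the range of a character of the Hecke algebra to a domain of
characteristic zero is injective. -/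
theorem s35asm_iota_injective {M : ℕ} [NeZero M] (S : Set ℕ)
    (chig : CuspForm.heckeAlgebra M 2 S →+* ℂ) {O : Type*} [CommRing O] [IsDomain O] [CharZero O]
    (iota : chig.range →+* O) : Function.Injective iota := by
  have : Module.Finite ℤ (CuspForm.heckeAlgebra M 2 S) :=
    Fermat.Agent.S23.moduleFinite_heckeAlgebra_of_hasIntegralStructure M 2 S
      (fun _ => Fermat.Agent.S23.hasIntegralStructure M 2)
  rw [injective_iff_map_eq_zero]
  intro x hx
  obtain ⟨t, ht⟩ := chig.rangeRestrict_surjective x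
  have hint : IsIntegral ℤ x := by
    rw [← ht]
    exact map_isIntegral_int chig.rangeRestrict (IsIntegral.of_finite ℤ t)
  have h := egs_ker_le (chig.range.subtype) iota (fun y hy => by
    have hy0 : y = 0 := Subtype.ext (RingHom.mem_ker.mp hy)
    rw [hy0]
    exact Ideal.zero_mem _) x hint hx
  exact Subtype.ext h

/-- **S35 from the torsion relation.** -/
theorem s35asm_main
    {M : ℕ} [NeZero M]
    (lam : ℕ) [Fact lam.Prime]
    (S : Finset ℕ)
    (O' : Type) [CommRing O'] [IsDomain O'] [IsDiscreteValuationRing O']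
    [IsAdicComplete (IsLocalRing.maximalIdeal O') O'] [Finite (IsLocalRing.ResidueField O')]
    [CharZero O'] (hlamO' : (lam : O') ∈ IsLocalRing.maximalIdeal O')
    (chig : CuspForm.heckeAlgebra M 2 (↑S : Set ℕ) →+* ℂ)
    (iota : chig.range →+* O')
    (hlamS : lam ∈ S) (hMS : ∀ q : ℕ, q.Prime → q ∣ M → q ∈ S)
    (hT : ∀ q : ℕ, q.Prime → q ≠ lam → q ∣ M → ¬ q ^ 2 ∣ M →
      ∀ A : ValuationSubring Qb, A.LiesOverPrime q →
        ∀ φ : Qb ≃ₐ[ℚ] Qb, A.IsFrobeniusAt φ q →
          ∃ (P : FreeAlgebra ℤ (HresIdx M (↑S : Set ℕ))) (d : ℕ),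
            chig (hresT M (↑S : Set ℕ) P) ≠ 0 ∧ d ≠ 0 ∧
            ∀ (n : ℕ) (x : JZero M), lam ^ n • x = 0 →
              d • hresJ (fun l : HresIdx M (↑S : Set ℕ) => heckeOperatorBar M ⟨l.1, l.2.1⟩) P
                ((φ * φ) • ((φ * φ) • ((φ * φ) • x - q ^ 2 • x) - ((φ * φ) • x - q ^ 2 • x))
                  - ((φ * φ) • ((φ * φ) • x - q ^ 2 • x) - ((φ * φ) • x - q ^ 2 • x))) = 0) :
    ∃ (O'' : Type) (_ : CommRing O'') (_ : IsDomain O'') (_ : IsDiscreteValuationRing O'')
      (_ : IsAdicComplete (IsLocalRing.maximalIdeal O'') O'') (_ : Finite (IsLocalRing.ResidueField O''))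
      (_ : CharZero O'') (_ : Algebra O' O'') (_ : Module.Finite O' O'') (_ : IsLocalHom (algebraMap O' O'')),
      Function.Injective (algebraMap O' O'') ∧
      ∃ ρ : GaloisRepAdic O'',
        (∀ (ℓ : ℕ) (hℓ : ℓ.Prime) (hℓM : ¬ ℓ ∣ M) (hℓS : ℓ ∉ (↑S : Set ℕ)),
          ∀ A : ValuationSubring (AlgebraicClosure ℚ), A.LiesOverPrime ℓ →
            ∀ σ : AlgebraicClosure ℚ ≃ₐ[ℚ] AlgebraicClosure ℚ, A.IsFrobeniusAt σ ℓ →
              LinearMap.charpoly (ρ.ρ σ) =
                X ^ 2 - C (algebraMap O' O'' ((iota.comp chig.rangeRestrict) (CuspForm.heckeAlgebra.T hℓ hℓM hℓS))) * X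
                  + C ((ℓ : O''))) ∧
        (∀ q : ℕ, q.Prime → q ≠ lam → q ∣ M → ¬ q ^ 2 ∣ M →
          ∀ A : ValuationSubring (AlgebraicClosure ℚ), A.LiesOverPrime q →
            ∀ σ : AlgebraicClosure ℚ ≃ₐ[ℚ] AlgebraicClosure ℚ, A.IsFrobeniusAt σ q →
              LinearMap.charpoly (ρ.ρ σ) = X ^ 2 - C ((q : O'') + 1) * X + C ((q : O'')) ∨
              LinearMap.charpoly (ρ.ρ σ) = X ^ 2 + C ((q : O'') + 1) * X + C ((q : O''))) := by
  have hlam : lam.Prime := Fact.out
  obtain ⟨O'', i1, i2, i3, i4, i5, i6, i7, i8, i9, hinj, ρ, hρ, -⟩ :=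
    Fermat.Agent.S30.result lam M S hlamS hMS O' hlamO' (iota.comp chig.rangeRestrict)
  refine ⟨O'', i1, i2, i3, i4, i5, i6, i7, i8, i9, hinj, ρ, hρ, ?_⟩
  intro q hq hqlam hqM hq2 A hA φ hφ
  obtain ⟨P, d, hP, hd, hTORS⟩ := hT q hq hqlam hqM hq2 A hA φ hφ
  have hlamO'' : (lam : O'') ∈ IsLocalRing.maximalIdeal O'' := by
    have h := map_nonunit (algebraMap O' O'') (lam : O') hlamO'
    rwa [map_natCast] at h
  have hcmp : TrcCmp M lam := trc_cmp_of_gen M lam hlam.ne_zero (fun m hm => by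
    have : NeZero m := ⟨hm⟩
    obtain ⟨Φ, hinj', hS, -, hT'⟩ := Fermat.Agent.S29.cmg_main M m
    exact ⟨Φ, hinj', hS, hT'⟩)
  have hiota := s35asm_iota_injective (↑S : Set ℕ) chig iota
  refine s35t_main_elt (p := lam) hlamO'' hMS
    ((algebraMap O' O'').comp (iota.comp chig.rangeRestrict)) ρ
    (fun ℓ hℓ hℓM hℓS A' hA' τ hτ => hρ ℓ hℓ hℓM hℓS A' hA' τ hτ)
    hcmp q hq hqlam A hA φ hφ P ?_ d hd hTORS
  intro h0
  apply hP
  have h1 : iota (chig.rangeRestrict (hresT M (↑S : Set ℕ) P)) = 0 := by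
    apply hinj
    rw [map_zero]
    exact h0
  have h2 := hiota (h1.trans (map_zero iota).symm)
  exact congrArg Subtype.val h2

end Fermat.Agent.S35
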