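/-
Stage 5 (S35), leaf NEWP-ALG (abstract, Mathlib + the common-eigenvector lemma of S49).

A character of a ring of commuting operators occurs in a finite-dimensional complex vector space
as soon as the operators preserve a finitely generated subgroup `L` spanning the space, on which a
separating family of linear functionals takes integer values (a rational structure).

* `nwa_avoid`   : finitely many nonzero additive maps to `ℂ` are simultaneously nonzero somewhere;
* `nwa_occurs`  : an additive character all of whose values are eigenvalues occurs;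
* `nwa_main`    : the basis form (integer matrices in a `ℂ`-basis);
* `nwa_lattice_basis` : a basis of the lattice is a `ℂ`-basis;
* `nwa_lattice` : the lattice form.
-/
import Mathlib
import Fermat.Agent.S49.Algebra

set_option autoImplicit false

namespace Fermat.Agent.S35

open Module Polynomial

/-- Finitely many nonzero additive maps to `ℂ` are simultaneously nonzero at some point. -/
theorem nwa_avoid {G : Type*} [AddCommGroup G] {κ : Type*} (s : Finset κ) (d : κ → G →+ ℂ)
    (hd : ∀ i ∈ s, d i ≠ 0) : ∃ t : G, ∀ i ∈ s, d i t ≠ 0 := by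
  classical
  induction s using Finset.induction_on with
  | empty => exact ⟨0, by simp⟩
  | insert i s hi ih =>
    obtain ⟨t, ht⟩ := ih (fun j hj => hd j (Finset.mem_insert_of_mem hj))
    have h0 : d i ≠ 0 := hd i (Finset.mem_insert_self i s)
    obtain ⟨u, hu⟩ : ∃ u, d i u ≠ 0 := by
      by_contra hcon
      push Not at hcon
      exact h0 (AddMonoidHom.ext hcon)
    -- the bad sets
    let B : κ → Set ℕ := fun j => {n : ℕ | d j (n • t + u) = 0}
    have hval : ∀ (j : κ) (n : ℕ), d j (n • t + u) = (n : ℂ) * d j t + d j u := by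
      intro j n
      rw [map_add, map_nsmul, nsmul_eq_mul]
    have hB : ∀ j ∈ insert i s, (B j).Finite := by
      intro j hj
      apply Set.Subsingleton.finite
      intro n hn n' hn'
      have h1 : (n : ℂ) * d j t + d j u = 0 := by rw [← hval]; exact hn
      have h2 : (n' : ℂ) * d j t + d j u = 0 := by rw [← hval]; exact hn'
      have h3 : ((n : ℂ) - (n' : ℂ)) * d j t = 0 := by linear_combination h1 - h2
      rcases mul_eq_zero.mp h3 with h4 | h4
      · exact_mod_cast sub_eq_zero.mp h4
      · exfalso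
        rcases Finset.mem_insert.mp hj with rfl | hjs
        · apply hu
          rw [h4, mul_zero, zero_add] at h1
          exact h1
        · exact ht j hjs h4
    have hfin : (⋃ j ∈ insert i s, B j).Finite :=
      Set.Finite.biUnion (Finset.finite_toSet (insert i s)) (fun j hj => hB j hj)
    obtain ⟨n, hn⟩ := hfin.exists_notMem
    refine ⟨n • t + u, fun j hj hzero => hn ?_⟩
    exact Set.mem_biUnion (Finset.mem_coe.mpr hj) hzero

/-- An additive character of a ring of commuting operators on a finite-dimensional complex vector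
space, all of whose values are eigenvalues of the corresponding operators, occurs: there is a
common eigenvector with this character. -/
theorem nwa_occurs {V : Type*} [AddCommGroup V] [Module ℂ V] [FiniteDimensional ℂ V]
    {F : Type*} [Ring F] (ρ : F →+* Module.End ℂ V) (hcomm : ∀ s t, Commute (ρ s) (ρ t))
    (χ : F →+ ℂ) (heig : ∀ t, (ρ t).HasEigenvalue (χ t)) :
    ∃ v : V, v ≠ 0 ∧ ∀ t, ρ t v = χ t • v := by
  classical
  by_contra hcon
  push Not at hcon
  -- the joint generalised eigenspaces
  let Wc : (F → ℂ) → Submodule ℂ V := fun c => ⨅ s, (ρ s).maxGenEigenspace (c s)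
  have hind : iSupIndep Wc :=
    Module.End.independent_iInf_maxGenEigenspace_of_forall_mapsTo (fun s => ρ s)
      (fun i j φ => Module.End.mapsTo_maxGenEigenspace_of_comm (hcomm j i) φ)
  have hfin : {c : F → ℂ | Wc c ≠ ⊥}.Finite := WellFoundedGT.finite_ne_bot_of_iSupIndep hind
  -- the occurring characters
  let Ψ : Set (F →+ ℂ) := {c | ∃ v : V, v ≠ 0 ∧ ∀ s, ρ s v = c s • v}
  have hΨ : Ψ.Finite := by
    have h1 : ((fun c : F →+ ℂ => (c : F → ℂ)) ⁻¹' {c : F → ℂ | Wc c ≠ ⊥}).Finite :=
      hfin.preimage (fun c _ c' _ h => DFunLike.coe_injective h)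
    refine h1.subset ?_
    rintro c ⟨v, hv0, hv⟩
    show Wc (c : F → ℂ) ≠ ⊥
    intro hbot
    apply hv0
    have hmem : v ∈ Wc (c : F → ℂ) := by
      refine (Submodule.mem_iInf _).mpr fun s => ?_
      rw [Module.End.mem_maxGenEigenspace]
      refine ⟨1, ?_⟩
      rw [pow_one, LinearMap.sub_apply, LinearMap.smul_apply, Module.End.one_apply, hv s, sub_self]
    rw [hbot] at hmem
    exact (Submodule.mem_bot ℂ).mp hmem
  have hne : ∀ c ∈ hΨ.toFinset, χ - c ≠ 0 := by
    intro c hc h0
    rw [Set.Finite.mem_toFinset] at hc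
    obtain ⟨v, hv0, hv⟩ := hc
    obtain ⟨t, ht⟩ := hcon v hv0
    apply ht
    rw [hv t, ← sub_eq_zero.mp h0]
  obtain ⟨t, ht⟩ := nwa_avoid hΨ.toFinset (fun c => χ - c) hne
  -- the eigenspace of `ρ t` for `χ t`
  obtain ⟨w, hw⟩ := (heig t).exists_hasEigenvector
  set E : Submodule ℂ V := (ρ t).eigenspace (χ t) with hE
  have hwE : w ∈ E := hw.1
  have hEne : E ≠ ⊥ := fun hbot => hw.2 (by rw [hbot] at hwE; exact (Submodule.mem_bot ℂ).mp hwE)
  have hinv : ∀ s, ∀ x ∈ E, ρ s x ∈ E := by
    intro s x hx
    rw [hE, Module.End.mem_eigenspace_iff] at hx ⊢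
    have h1 : ρ t (ρ s x) = ρ s (ρ t x) := by
      have := congrArg (fun f : Module.End ℂ V => f x) (hcomm t s).eq
      simpa using this
    rw [h1, hx, map_smul]
  have : Nontrivial E := Submodule.nontrivial_iff_ne_bot.mpr hEne
  let T : F → Module.End ℂ E := fun s => (ρ s).restrict (hinv s)
  have hT : ∀ s s', Commute (T s) (T s') := by
    intro s s'
    apply LinearMap.ext
    intro x
    apply Subtype.ext
    have := congrArg (fun f : Module.End ℂ V => f (x : V)) (hcomm s s').eq
    simpa [T] using this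
  obtain ⟨v, hv0, hv⟩ := Fermat.Agent.S49.exists_common_eigenvector T hT
  choose c hc using hv
  have hv0' : (v : V) ≠ 0 := fun h => hv0 (Subtype.ext h)
  have hc' : ∀ s, ρ s (v : V) = c s • (v : V) := by
    intro s
    have := congrArg Subtype.val (hc s)
    simpa [T] using this
  have hinj : ∀ a b : ℂ, a • (v : V) = b • (v : V) → a = b := fun a b h =>
    smul_left_injective ℂ hv0' h
  let ca : F →+ ℂ :=
    { toFun := c
      map_zero' := by
        apply hinj
        rw [← hc', map_zero, zero_smul, LinearMap.zero_apply]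
      map_add' := by
        intro s s'
        apply hinj
        rw [← hc', map_add, LinearMap.add_apply, hc', hc', add_smul] }
  have hca : ca ∈ hΨ.toFinset := by
    rw [Set.Finite.mem_toFinset]
    exact ⟨(v : V), hv0', hc'⟩
  apply ht ca hca
  show χ t - c t = 0
  rw [sub_eq_zero]
  apply hinj
  rw [← hc' t]
  have hvE : ρ t (v : V) = χ t • (v : V) := Module.End.mem_eigenspace_iff.mp v.2
  exact hvE.symm

/-- **NEWP-ALG, basis form.** A ring acting by commuting operators with INTEGER matrices in some
`ℂ`-basis: every character of the ring which kills the kernel of the action occurs. -/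
theorem nwa_main {ι : Type*} [Fintype ι] [DecidableEq ι] {W : Type*} [AddCommGroup W] [Module ℂ W]
    (b : Module.Basis ι ℂ W) {F : Type*} [Ring F] (ρ : F →+* Module.End ℂ W)
    (hcomm : ∀ s t, Commute (ρ s) (ρ t))
    (hint : ∀ t : F, ∃ Mz : Matrix ι ι ℤ, ∀ j, ρ t (b j) = ∑ i, ((Mz i j : ℤ) : ℂ) • b i)
    (χ : F →+* ℂ) (hker : ∀ t, ρ t = 0 → χ t = 0) :
    ∃ f : W, f ≠ 0 ∧ ∀ t, ρ t f = χ t • f := by
  have : Module.Finite ℂ W := Module.Finite.of_basis b
  refine nwa_occurs ρ hcomm χ.toAddMonoidHom (fun t => ?_)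
  obtain ⟨Mz, hMz⟩ := hint t
  have h1 : LinearMap.toMatrix b b (ρ t) = Mz.map (Int.castRingHom ℂ) := by
    ext i j
    rw [LinearMap.toMatrix_apply, hMz j, map_sum, Finset.sum_apply']
    simp [Finsupp.single_apply]
  have h2 : (ρ t).charpoly = Mz.charpoly.map (Int.castRingHom ℂ) := by
    rw [← LinearMap.charpoly_toMatrix (ρ t) b, h1, Matrix.charpoly_map]
  have h3 : aeval (ρ t) Mz.charpoly = 0 := by
    have h := LinearMap.aeval_self_charpoly (ρ t)
    rw [h2, ← algebraMap_int_eq, aeval_map_algebraMap] at h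
    exact h
  have h4 : ρ (aeval t Mz.charpoly) = 0 := by
    have h := aeval_algHom_apply ρ.toIntAlgHom t Mz.charpoly
    rw [show ρ.toIntAlgHom t = ρ t from rfl, h3] at h
    exact h.symm
  have h5 : aeval (χ t) Mz.charpoly = 0 := by
    have h := aeval_algHom_apply χ.toIntAlgHom t Mz.charpoly
    rw [show χ.toIntAlgHom t = χ t from rfl] at h
    rw [h]
    exact hker _ h4
  show (ρ t).HasEigenvalue (χ t)
  rw [Module.End.hasEigenvalue_iff_isRoot_charpoly, h2, IsRoot.def, eval_map, ← algebraMap_int_eq,
    ← aeval_def]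
  exact h5

universe u

/-- A `ℤ`-basis of a finitely generated subgroup spanning `W`, on which a separating family of
linear functionals takes integer values, is a `ℂ`-basis of `W`. -/
theorem nwa_lattice_basis {W : Type u} [AddCommGroup W] [Module ℂ W] (L : Submodule ℤ W)
    (hfg : L.FG) (hspan : Submodule.span ℂ (L : Set W) = ⊤)
    {κ : Type*} (lam : κ → W →ₗ[ℂ] ℂ) (hsep : ∀ w, (∀ n, lam n w = 0) → w = 0)
    (hintg : ∀ w ∈ L, ∀ n, ∃ m : ℤ, lam n w = (m : ℂ)) :
    ∃ (ι : Type u) (_ : Fintype ι) (b : Module.Basis ι ℂ W), (∀ i, b i ∈ L) ∧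
      ∀ w ∈ L, ∃ z : ι → ℤ, w = ∑ i, ((z i : ℤ) : ℂ) • b i := by
  classical
  have : Module.Finite ℤ L := Module.Finite.iff_fg.mpr hfg
  have : IsAddTorsionFree W := .of_isTorsionFree ℂ _
  have : Module.Free ℤ L := Module.free_of_finite_type_torsion_free'
  let β := Module.Free.chooseBasis ℤ L
  let β' : Module.Free.ChooseBasisIndex ℤ L → W := fun i => (β i : W)
  have hβL : ∀ i, β' i ∈ L := fun i => (β i).2
  have hℤ : LinearIndependent ℤ β' := β.linearIndependent.map' L.subtype (Submodule.ker_subtype L)
  let _ : Module ℚ W := Module.compHom W (algebraMap ℚ ℂ)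
  have : IsScalarTower ℚ ℂ W := ⟨fun q c w => by
    show (q • c) • w = (algebraMap ℚ ℂ q) • (c • w)
    rw [Algebra.smul_def, mul_smul]⟩
  have hℚ : LinearIndependent ℚ β' := (LinearIndependent.iff_fractionRing ℤ ℚ).mp hℤ
  have hqsmul : ∀ (q : ℚ) (w : W), q • w = (q : ℂ) • w := fun q w => rfl
  choose m hm using fun (i : Module.Free.ChooseBasisIndex ℤ L) (n : κ) => hintg (β' i) (hβL i) n
  have hℂ : LinearIndependent ℂ β' := by
    rw [Fintype.linearIndependent_iff]
    intro c hc
    by_contra hne
    push Not at hne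
    obtain ⟨i0, hi0⟩ := hne
    obtain ⟨φ, hφ⟩ := Module.Projective.exists_dual_eq_one ℚ hi0
    have key : ∑ i, φ (c i) • β' i = 0 := by
      apply hsep
      intro n
      have h1 : ∑ i, c i * (m i n : ℂ) = 0 := by
        have := congrArg (lam n) hc
        rw [map_sum, map_zero] at this
        rw [← this]
        refine Finset.sum_congr rfl fun i _ => ?_
        rw [map_smul, smul_eq_mul, hm]
      have h2 : ∑ i, φ (c i) * (m i n : ℚ) = 0 := by
        have := congrArg φ h1
        rw [map_sum, map_zero] at this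
        rw [← this]
        refine Finset.sum_congr rfl fun i _ => ?_
        have h3 : c i * (m i n : ℂ) = (m i n : ℚ) • c i := by
          rw [Algebra.smul_def, mul_comm]
          simp
        rw [h3, map_smul, smul_eq_mul, mul_comm]
      rw [map_sum]
      have h4 : ∀ i, lam n (φ (c i) • β' i) = ((φ (c i) * (m i n : ℚ) : ℚ) : ℂ) := by
        intro i
        rw [hqsmul, map_smul, smul_eq_mul, hm]
        push_cast
        rfl
      rw [Finset.sum_congr rfl fun i _ => h4 i, ← Rat.cast_sum, h2, Rat.cast_zero]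
    have h5 := Fintype.linearIndependent_iff.mp hℚ (fun i => φ (c i)) key i0
    rw [hφ] at h5
    exact one_ne_zero h5
  have hrepr : ∀ w ∈ L, ∃ z : Module.Free.ChooseBasisIndex ℤ L → ℤ,
      w = ∑ i, ((z i : ℤ) : ℂ) • β' i := by
    intro w hw
    refine ⟨fun i => β.repr ⟨w, hw⟩ i, ?_⟩
    have h1 := β.sum_repr ⟨w, hw⟩
    have h2 := congrArg (fun x : L => (x : W)) h1
    simp only [Submodule.coe_sum, Submodule.coe_smul] at h2
    refine h2.symm.trans ?_
    refine Finset.sum_congr rfl fun i _ => ?_
    rw [Int.cast_smul_eq_zsmul]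
  have hsp : ⊤ ≤ Submodule.span ℂ (Set.range β') := by
    rw [← hspan]
    refine Submodule.span_le.mpr fun w hw => ?_
    obtain ⟨z, hz⟩ := hrepr w hw
    rw [hz]
    exact Submodule.sum_mem _ fun i _ =>
      Submodule.smul_mem _ _ (Submodule.subset_span (Set.mem_range_self i))
  refine ⟨Module.Free.ChooseBasisIndex ℤ L, inferInstance, Module.Basis.mk hℂ hsp, ?_, ?_⟩
  · intro i
    rw [Module.Basis.mk_apply]
    exact hβL i
  · intro w hw
    obtain ⟨z, hz⟩ := hrepr w hw
    refine ⟨z, ?_⟩
    rw [hz]
    refine Finset.sum_congr rfl fun i _ => ?_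
    rw [Module.Basis.mk_apply]

/-- **NEWP-ALG, lattice form.** `W` a complex vector space, `L` a finitely generated subgroup
spanning `W` over `ℂ`, `lam` a separating family of linear functionals with integer values on `L`
(so `L` is a lattice: a rational structure).  A ring `F` acting on `W` through commuting operators
preserving `L`: every ring homomorphism `χ : F → ℂ` killing the kernel of the action occurs, i.e.
there is a nonzero common eigenvector with character `χ`. -/
theorem nwa_lattice {W : Type*} [AddCommGroup W] [Module ℂ W] (L : Submodule ℤ W)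
    (hfg : L.FG) (hspan : Submodule.span ℂ (L : Set W) = ⊤)
    {κ : Type*} (lam : κ → W →ₗ[ℂ] ℂ) (hsep : ∀ w, (∀ n, lam n w = 0) → w = 0)
    (hintg : ∀ w ∈ L, ∀ n, ∃ m : ℤ, lam n w = (m : ℂ))
    {F : Type*} [Ring F] (ρ : F →+* Module.End ℂ W) (hcomm : ∀ s t, Commute (ρ s) (ρ t))
    (hstab : ∀ t, ∀ w ∈ L, ρ t w ∈ L)
    (χ : F →+* ℂ) (hker : ∀ t, ρ t = 0 → χ t = 0) :
    ∃ f : W, f ≠ 0 ∧ ∀ t, ρ t f = χ t • f := by
  classical
  obtain ⟨ι, _, b, hbL, hrep⟩ := nwa_lattice_basis L hfg hspan lam hsep hintg
  refine nwa_main b ρ hcomm (fun t => ?_) χ hker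
  choose z hz using fun j => hrep (ρ t (b j)) (hstab t (b j) (hbL j))
  exact ⟨fun i j => z j i, fun j => hz j⟩

end Fermat.Agent.S35
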