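/-
Stage 5 (S35), leaf NEWP-EIG, first half: NEWP-ALG applied to the image of the Hecke polynomials.

`nwe_joint`: let `a l` (`l` a good prime: `l ∤ N`, `l ∉ S`) be complex numbers such that every
noncommutative polynomial `P` in the Hecke operators `T_l` which is zero as an operator on
`S_2(Γ₀(N))` is killed by the evaluation `T_l ↦ a l`.  Then there is a nonzero cusp form `f` of
level `N` with `T_l f = a l • f` for all good `l`.

Inputs: the integral structure (S23), the lattice of forms with integral `q`-expansion is finitely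
generated and Hecke stable (Prelude), `q`-coefficients separate cusp forms (S49), `nwa_lattice`.
-/
import Mathlib
import Fermat.Agent.S23.Main
import Fermat.Agent.S31.HeckeRes
import Fermat.Agent.S49.Forms
import Fermat.Agent.S35.NewAlg

set_option autoImplicit false

namespace Fermat.Agent.S35

open CuspForm CongruenceSubgroup Fermat.Agent.S31

/-- **NEWP-EIG, first half.** A system `a` of numbers indexed by the good primes which kills every
Hecke polynomial vanishing on `S_2(Γ₀(N))` is the system of eigenvalues of a nonzero cusp form of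
level `N`. -/
theorem nwe_joint (N : ℕ) [NeZero N] (S : Set ℕ) (a : HresIdx N S → ℂ)
    (hker : ∀ P : FreeAlgebra ℤ (HresIdx N S), hresT N S P = 0 → FreeAlgebra.lift ℤ a P = 0) :
    ∃ f : CuspForm (Gamma0 N) 2, f ≠ 0 ∧
      ∀ l : HresIdx N S, CuspForm.heckeTLin 2 l.2.1 l.2.2.1 f = a l • f := by
  let ρ : FreeAlgebra ℤ (HresIdx N S) →+* Module.End ℂ (CuspForm (Gamma0 N) 2) :=
    ((heckeAlgebra N 2 S).val.toRingHom).comp (hresT N S).toRingHom
  have hρ : ∀ P, ρ P =
      ((hresT N S P : heckeAlgebra N 2 S) : Module.End ℂ (CuspForm (Gamma0 N) 2)) := fun _ => rfl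
  let χ : FreeAlgebra ℤ (HresIdx N S) →+* ℂ := (FreeAlgebra.lift ℤ a).toRingHom
  have hcomm : ∀ s t, Commute (ρ s) (ρ t) := by
    intro s t
    show ρ s * ρ t = ρ t * ρ s
    rw [hρ, hρ]
    exact congrArg Subtype.val (mul_comm (hresT N S s) (hresT N S t))
  obtain ⟨f, hf0, hf⟩ := nwa_lattice (CuspForm.intLattice N 2) (CuspForm.intLattice_fg N 2)
    (Fermat.Agent.S23.hasIntegralStructure N 2) (fun n => Fermat.Agent.S49.qC N 2 n)
    (Fermat.Agent.S49.eq_zero_of_qC N 2)
    (fun w hw => (Fermat.Agent.S49.mem_intLattice_iff' w).mp hw) ρ hcomm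
    (fun t w hw => CuspForm.mem_intLattice_of_mem_heckeAlgebra one_le_two (hresT N S t).2 hw)
    χ (fun t ht => hker t (Subtype.ext ht))
  refine ⟨f, hf0, fun l => ?_⟩
  have h := hf (FreeAlgebra.ι ℤ l)
  rw [hρ, hresT_ι, heckeAlgebra.coe_T] at h
  rw [h]
  show (FreeAlgebra.lift ℤ a) (FreeAlgebra.ι ℤ l) • f = a l • f
  rw [FreeAlgebra.lift_ι_apply]

end Fermat.Agent.S35
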