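import Mathlib
import Fermat.Agent.S29
import Fermat.Agent.S29.FrobDens
import Fermat.Agent.S31.Lucas
import Fermat.Agent.Lib.FrobeniusExists
import Fermat.Prelude.Def_CuspForm_Newforms

/-!
# S35, leaf NEWP-SMO: eigenvalues at the remaining good primes

Two normalised weight-2 eigenforms `g` (level `M`) and `g'` (level `M' ∣ M`) whose eigenvalues
agree at all primes `ℓ ∤ M` outside a finite set `S` have the same eigenvalue at EVERY prime
`ℓ ∤ M` (`nsm_main`); hence the good eigensystem of `g` occurs at level `M'` (`nsm_occurs`).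

Route: for a prime `p ≠ ℓ₀` and a residue map `φ` of the ring of algebraic integers to a field
of characteristic `p`, the mod-`p` representations of `g` and `g'` (S29) have the same trace at
a Frobenius element at `ℓ₀`: by the density statement `fd_main` this Frobenius agrees, on the
compositum of the two finite levels, with a power of a Frobenius at a prime outside
`S ∪ {p} ∪ {primes of M}`, and the trace of a power is a Lucas polynomial in the characteristic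
polynomial.  An algebraic integer killed by all residue maps of characteristic `p`, for all
primes `p` outside a finite set, is zero.

Names are prefixed `nsm_`.
-/

set_option autoImplicit false
set_option linter.style.haveILetI false

noncomputable section

open Polynomial CuspForm

namespace Fermat.Agent.S35

local notation "Qb" => AlgebraicClosure ℚ

/-! ### Residue maps of the ring of algebraic integers -/

theorem nsm_int_injective :
    Function.Injective (algebraMap ℤ (integralClosure ℤ ℂ)) := by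
  intro m n h
  have h1 := congrArg (fun x : integralClosure ℤ ℂ => (x : ℂ)) h
  simpa using h1

/-- For every prime `p` there is a maximal ideal of the ring of algebraic integers over `p`. -/
theorem nsm_exists_max (p : ℕ) (hp : p.Prime) :
    ∃ Q : Ideal (integralClosure ℤ ℂ), Q.IsMaximal ∧
      ∀ n : ℤ, algebraMap ℤ (integralClosure ℤ ℂ) n ∈ Q ↔ (p : ℤ) ∣ n := by
  have hmax : (Ideal.span {(p : ℤ)}).IsMaximal :=
    PrincipalIdealRing.isMaximal_of_irreducible (Nat.prime_iff_prime_int.mp hp).irreducible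
  have hker : RingHom.ker (algebraMap ℤ (integralClosure ℤ ℂ)) ≤ Ideal.span {(p : ℤ)} := by
    rw [(RingHom.injective_iff_ker_eq_bot _).mp nsm_int_injective]
    exact bot_le
  obtain ⟨Q, hQ, hQc⟩ := Ideal.exists_ideal_over_maximal_of_isIntegral
    (S := integralClosure ℤ ℂ) (Ideal.span {(p : ℤ)}) hker
  refine ⟨Q, hQ, fun n => ?_⟩
  rw [← Ideal.mem_comap, hQc, Ideal.mem_span_singleton]

/-- An algebraic integer killed by every residue map of characteristic `p`, for all primes `p`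
outside a finite set, is zero. -/
theorem nsm_eq_zero_of_residues (T : Finset ℕ) (d : integralClosure ℤ ℂ)
    (h : ∀ p : ℕ, p.Prime → p ∉ T → ∀ (k : Type) [Field k] [CharP k p]
      (φ : integralClosure ℤ ℂ →+* k), φ d = 0) : d = 0 := by
  by_contra hd
  obtain ⟨P, hPm, hP⟩ : IsIntegral ℤ d := Algebra.IsIntegral.isIntegral d
  have hP0 : P ≠ 0 := hPm.ne_zero
  obtain ⟨P1, hP1, hnd⟩ := exists_eq_pow_rootMultiplicity_mul_and_not_dvd P hP0 0
  rw [C_0, sub_zero] at hP1 hnd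
  have hc0 : P1.coeff 0 ≠ 0 := fun h0 => hnd (X_dvd_iff.mpr h0)
  have hP1d : aeval d P1 = 0 := by
    have h1 : aeval d P = 0 := hP
    rw [hP1, map_mul, map_pow, aeval_X] at h1
    rcases mul_eq_zero.mp h1 with h2 | h2
    · exact absurd h2 (pow_ne_zero _ hd)
    · exact h2
  -- a prime outside `T` not dividing the constant coefficient
  obtain ⟨p, hpn, hp⟩ := Nat.exists_infinite_primes (max (T.sup id) (P1.coeff 0).natAbs + 1)
  have hpT : p ∉ T := by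
    intro hmem
    have h1 : id p ≤ T.sup id := Finset.le_sup (f := id) hmem
    have h2 : T.sup id ≤ max (T.sup id) (P1.coeff 0).natAbs := le_max_left _ _
    simp only [id] at h1
    omega
  have hpc : ¬ (p : ℤ) ∣ P1.coeff 0 := by
    intro hdvd
    have h1 : p ∣ (P1.coeff 0).natAbs := Int.natCast_dvd.mp hdvd
    have h2 : (P1.coeff 0).natAbs ≤ max (T.sup id) (P1.coeff 0).natAbs := le_max_right _ _
    have h3 := Nat.le_of_dvd (Int.natAbs_pos.mpr hc0) h1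
    omega
  obtain ⟨Q, hQ, hQn⟩ := nsm_exists_max p hp
  letI := Ideal.Quotient.field Q
  have hpQ : ((p : ℕ) : integralClosure ℤ ℂ ⧸ Q) = 0 := by
    have h1 : ((p : ℕ) : integralClosure ℤ ℂ ⧸ Q)
        = Ideal.Quotient.mk Q (algebraMap ℤ (integralClosure ℤ ℂ) (p : ℤ)) := by
      simp
    rw [h1, Ideal.Quotient.eq_zero_iff_mem, hQn]
  haveI : CharP (integralClosure ℤ ℂ ⧸ Q) p := (CharP.charP_iff_prime_eq_zero hp).mpr hpQ
  have hdQ : d ∈ Q := Ideal.Quotient.eq_zero_iff_mem.mp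
    (h p hp hpT (integralClosure ℤ ℂ ⧸ Q) (Ideal.Quotient.mk Q))
  apply hpc
  rw [← hQn]
  have h4 : aeval d (divX P1 * X + C (P1.coeff 0)) = 0 := by
    rw [divX_mul_X_add]
    exact hP1d
  rw [map_add, map_mul, aeval_X, aeval_C] at h4
  have h5 : algebraMap ℤ (integralClosure ℤ ℂ) (P1.coeff 0) = -(aeval d (divX P1) * d) :=
    eq_neg_of_add_eq_zero_right h4
  rw [h5]
  exact Q.neg_mem (Q.mul_mem_left _ hdQ)

/-! ### The mod-`p` traces at a Frobenius -/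

section Trace

variable {M M' : ℕ} {g : CuspForm (CongruenceSubgroup.Gamma0 M) 2}
  {g' : CuspForm (CongruenceSubgroup.Gamma0 M') 2}

/-- a representation which is trivial on the pointwise stabiliser of `L` takes the same value
on two elements agreeing on `L` -/
theorem nsm_rho_eq {Mon : Type} [Monoid Mon] (ρ : (Qb ≃ₐ[ℚ] Qb) →* Mon)
    (L : IntermediateField ℚ Qb)
    (hL : ∀ σ : Qb ≃ₐ[ℚ] Qb, (∀ x ∈ L, σ x = x) → ρ σ = 1)
    (σ τ : Qb ≃ₐ[ℚ] Qb) (h : ∀ x ∈ L, τ x = σ x) : ρ τ = ρ σ := by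
  have h1 : ρ (σ⁻¹ * τ) = 1 := by
    apply hL
    intro x hx
    show σ⁻¹ (τ x) = x
    rw [h x hx]
    exact σ.symm_apply_apply x
  have h2 : ρ σ * ρ (σ⁻¹ * τ) = ρ τ := by
    rw [← map_mul, ← mul_assoc, mul_inv_cancel, one_mul]
  rw [← h2, h1, mul_one]

/-- the coefficient of a normalised eigenform at a good prime is an algebraic integer -/
theorem nsm_integral (hg : g.IsNormalizedEigenform) (ℓ₀ : ℕ) (hℓ₀ : ℓ₀.Prime)
    (hℓ₀M : ¬ ℓ₀ ∣ M) :
    ∃ a : integralClosure ℤ ℂ, (a : ℂ) = ModularFormClass.qCoeff g ℓ₀ := by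
  obtain ⟨p, hpn, hp⟩ := Nat.exists_infinite_primes (ℓ₀ + 1)
  have hpℓ : p ≠ ℓ₀ := by omega
  obtain ⟨Q, hQ, hQn⟩ := nsm_exists_max p hp
  letI := Ideal.Quotient.field Q
  have hpQ : ((p : ℕ) : integralClosure ℤ ℂ ⧸ Q) = 0 := by
    have h1 : ((p : ℕ) : integralClosure ℤ ℂ ⧸ Q)
        = Ideal.Quotient.mk Q (algebraMap ℤ (integralClosure ℤ ℂ) (p : ℤ)) := by
      simp
    rw [h1, Ideal.Quotient.eq_zero_iff_mem, hQn]
  haveI : CharP (integralClosure ℤ ℂ ⧸ Q) p := (CharP.charP_iff_prime_eq_zero hp).mpr hpQ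
  obtain ⟨ρ, hρ, -⟩ := Fermat.Agent.S29.result hg hp (Ideal.Quotient.mk Q)
  obtain ⟨A, σ, hA, hσ⟩ := Fermat.Agent.Lib.FrobeniusExists.exists_isFrobeniusAt ℓ₀ hℓ₀
  have hℓk : ((ℓ₀ : ℕ) : integralClosure ℤ ℂ ⧸ Q) ≠ 0 := by
    intro h0
    have h1 := (CharP.cast_eq_zero_iff (integralClosure ℤ ℂ ⧸ Q) p ℓ₀).mp h0
    exact hpℓ ((Nat.prime_dvd_prime_iff_eq hp hℓ₀).mp h1)
  obtain ⟨a, ha, -⟩ := hρ ℓ₀ hℓ₀ hℓ₀M hℓk A hA σ hσ
  exact ⟨a, ha⟩

/-- **Equality of the residues of the two eigenvalues at `ℓ₀`** for every residue map of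
characteristic `p ≠ ℓ₀`. -/
theorem nsm_residue_eq (hM' : M' ∣ M) (hg : g.IsNormalizedEigenform)
    (hg' : g'.IsNormalizedEigenform) (S : Finset ℕ)
    (h : ∀ ℓ : ℕ, ℓ.Prime → ¬ ℓ ∣ M → ℓ ∉ S →
      ModularFormClass.qCoeff g' ℓ = ModularFormClass.qCoeff g ℓ)
    (ℓ₀ : ℕ) (hℓ₀ : ℓ₀.Prime) (hℓ₀M : ¬ ℓ₀ ∣ M)
    {p : ℕ} (hp : p.Prime) (hpℓ : p ≠ ℓ₀) {k : Type} [Field k] [CharP k p]
    (φ : integralClosure ℤ ℂ →+* k) (a a' : integralClosure ℤ ℂ)
    (ha : (a : ℂ) = ModularFormClass.qCoeff g ℓ₀)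
    (ha' : (a' : ℂ) = ModularFormClass.qCoeff g' ℓ₀) : φ a = φ a' := by
  classical
  have hM0 : M ≠ 0 := by
    rintro rfl
    exact hℓ₀M (dvd_zero _)
  have hℓ₀M' : ¬ ℓ₀ ∣ M' := fun hd => hℓ₀M (hd.trans hM')
  obtain ⟨ρ, hρ, -⟩ := Fermat.Agent.S29.result hg hp φ
  obtain ⟨ρ', hρ', -⟩ := Fermat.Agent.S29.result hg' hp φ
  obtain ⟨L, hLfin, hL⟩ := ρ.factorsThroughFiniteLevel
  obtain ⟨L', hL'fin, hL'⟩ := ρ'.factorsThroughFiniteLevel
  haveI := hLfin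
  haveI := hL'fin
  obtain ⟨A₀, σ₀, hA₀, hσ₀⟩ := Fermat.Agent.Lib.FrobeniusExists.exists_isFrobeniusAt ℓ₀ hℓ₀
  -- a Frobenius at an auxiliary prime, a power of which agrees with `σ₀` on `L ⊔ L'`
  obtain ⟨l, hl, hlT, A, hA, τ, hτ, b, hb⟩ :=
    Fermat.Agent.S29.fd_main (L ⊔ L') (S ∪ {p} ∪ M.primeFactors) σ₀
  have hlS : l ∉ S := fun hmem => hlT (Finset.mem_union_left _ (Finset.mem_union_left _ hmem))
  have hlp : l ≠ p := fun heq =>
    hlT (Finset.mem_union_left _ (Finset.mem_union_right _ (Finset.mem_singleton.mpr heq)))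
  have hlM : ¬ l ∣ M := fun hd =>
    hlT (Finset.mem_union_right _ (Nat.mem_primeFactors.mpr ⟨hl, hd, hM0⟩))
  have hlM' : ¬ l ∣ M' := fun hd => hlM (hd.trans hM')
  have hlk : ((l : ℕ) : k) ≠ 0 := by
    intro h0
    have h1 := (CharP.cast_eq_zero_iff k p l).mp h0
    exact hlp ((Nat.prime_dvd_prime_iff_eq hp hl).mp h1).symm
  have hℓk : ((ℓ₀ : ℕ) : k) ≠ 0 := by
    intro h0
    have h1 := (CharP.cast_eq_zero_iff k p ℓ₀).mp h0
    exact hpℓ ((Nat.prime_dvd_prime_iff_eq hp hℓ₀).mp h1)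
  -- the two representations at `τ`
  obtain ⟨c, hc, hchar⟩ := hρ l hl hlM hlk A hA τ hτ
  obtain ⟨c', hc', hchar'⟩ := hρ' l hl hlM' hlk A hA τ hτ
  have hcc : c = c' := Subtype.ext (by rw [hc, hc', h l hl hlM hlS])
  -- the two representations at `σ₀`
  obtain ⟨e, he, hcharσ⟩ := hρ ℓ₀ hℓ₀ hℓ₀M hℓk A₀ hA₀ σ₀ hσ₀
  obtain ⟨e', he', hcharσ'⟩ := hρ' ℓ₀ hℓ₀ hℓ₀M' hℓk A₀ hA₀ σ₀ hσ₀
  have hea : e = a := Subtype.ext (by rw [he, ha])
  have hea' : e' = a' := Subtype.ext (by rw [he', ha'])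
  -- `ρ σ₀ = ρ (τ ^ b)`
  have h1 : ρ.ρ (τ ^ b) = ρ.ρ σ₀ :=
    nsm_rho_eq ρ.ρ L hL σ₀ (τ ^ b) fun x hx => hb x ((le_sup_left : L ≤ L ⊔ L') hx)
  have h1' : ρ'.ρ (τ ^ b) = ρ'.ρ σ₀ :=
    nsm_rho_eq ρ'.ρ L' hL' σ₀ (τ ^ b) fun x hx => hb x ((le_sup_right : L' ≤ L ⊔ L') hx)
  have ht : LinearMap.trace k ρ.V (ρ.ρ σ₀) = Fermat.Agent.S31.lucV (φ c) ((l : ℕ) : k) b := by
    rw [← h1]
    exact Fermat.Agent.S31.luc_trace_rep ρ.finrank_eq ρ.ρ τ (φ c) _ hchar b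
  have ht' : LinearMap.trace k ρ'.V (ρ'.ρ σ₀)
      = Fermat.Agent.S31.lucV (φ c') ((l : ℕ) : k) b := by
    rw [← h1']
    exact Fermat.Agent.S31.luc_trace_rep ρ'.finrank_eq ρ'.ρ τ (φ c') _ hchar' b
  have hs : LinearMap.trace k ρ.V (ρ.ρ σ₀) = φ e :=
    Fermat.Agent.S31.luc_trace_eq ρ.finrank_eq (ρ.ρ σ₀) (φ e) _ hcharσ
  have hs' : LinearMap.trace k ρ'.V (ρ'.ρ σ₀) = φ e' :=
    Fermat.Agent.S31.luc_trace_eq ρ'.finrank_eq (ρ'.ρ σ₀) (φ e') _ hcharσ'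
  rw [← hea, ← hea', ← hs, ← hs', ht, ht', hcc]

/-- **NEWP-SMO.**  Two normalised eigenforms of levels `M' ∣ M` whose eigenvalues agree at the
primes `ℓ ∤ M` outside a finite set have the same eigenvalue at every prime `ℓ ∤ M`. -/
theorem nsm_main (hM' : M' ∣ M) (hg : g.IsNormalizedEigenform)
    (hg' : g'.IsNormalizedEigenform) (S : Finset ℕ)
    (h : ∀ ℓ : ℕ, ℓ.Prime → ¬ ℓ ∣ M → ℓ ∉ S →
      ModularFormClass.qCoeff g' ℓ = ModularFormClass.qCoeff g ℓ) :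
    ∀ ℓ : ℕ, ℓ.Prime → ¬ ℓ ∣ M →
      ModularFormClass.qCoeff g' ℓ = ModularFormClass.qCoeff g ℓ := by
  intro ℓ₀ hℓ₀ hℓ₀M
  have hℓ₀M' : ¬ ℓ₀ ∣ M' := fun hd => hℓ₀M (hd.trans hM')
  obtain ⟨a, ha⟩ := nsm_integral hg ℓ₀ hℓ₀ hℓ₀M
  obtain ⟨a', ha'⟩ := nsm_integral hg' ℓ₀ hℓ₀ hℓ₀M'
  have h0 : a - a' = 0 := by
    refine nsm_eq_zero_of_residues {ℓ₀} (a - a') ?_
    intro p hp hpT k _ _ φ
    have hpℓ : p ≠ ℓ₀ := fun heq => hpT (Finset.mem_singleton.mpr heq)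
    rw [map_sub, sub_eq_zero]
    exact nsm_residue_eq hM' hg hg' S h ℓ₀ hℓ₀ hℓ₀M hp hpℓ φ a a' ha ha'
  rw [← ha, ← ha', sub_eq_zero.mp h0]

/-- The good eigensystem of `g` occurs at level `M'`. -/
theorem nsm_occurs (hM' : M' ∣ M) (hg : g.IsNormalizedEigenform)
    (hg' : g'.IsNormalizedEigenform) (S : Finset ℕ)
    (h : ∀ ℓ : ℕ, ℓ.Prime → ¬ ℓ ∣ M → ℓ ∉ S →
      ModularFormClass.qCoeff g' ℓ = ModularFormClass.qCoeff g ℓ) :
    GoodEigensystemOccursAt g M' :=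
  ⟨g', hg', nsm_main hM' hg hg' S h⟩

end Trace

end Fermat.Agent.S35
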