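import Mathlib
import Fermat.Prelude.Def_CuspForm_HeckeAlgebra
import Fermat.Prelude.Def_CuspForm_Newforms
import Fermat.Agent.Lib.DeligneSerre
import Fermat.Agent.Lib.HeckeEigenform
import Fermat.Agent.S30.EigSys
import Fermat.Agent.S31.HeckeRes
import Fermat.Agent.S35.NewpSmo

/-!
# S35, leaf NEWP-EIGFORM: from a joint eigenvector to a normalised eigenform

Let `f ≠ 0` be a cusp form of weight 2 and level `Γ₀(N)` which is an eigenvector of the Hecke
operators `T_ℓ` for all primes `ℓ ∤ N` in a set of primes `P`, with eigenvalues `c ℓ`.  Then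
there is a NORMALISED eigenform `g'` of level `N` (eigenvector of all `T_ℓ`, `ℓ ∤ N`, and all
`U_q`, `q ∣ N`, with `a_1 = 1`) such that `a_ℓ(g') = c ℓ` for all primes `ℓ ∤ N` in `P`
(`nwg_pred`; `nwg_main` is the same statement indexed by `HresIdx N S` of S31/HeckeRes).

Proof: the joint eigenspace `W` of the `T_ℓ`, `ℓ ∈ P`, is a nonzero subspace of the
finite-dimensional space of cusp forms, stable under the full (commutative) Hecke algebra of
level `N`; a commutative family on a nonzero finite-dimensional complex vector space has a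
common eigenvector (`nwg_exists_eigenvector`); a common eigenvector of all `T_ℓ` and `U_q` has
`a_1 ≠ 0` and its normalisation is a normalised eigenform with `a_ℓ` = the eigenvalue.

Corollary `nwg_occurs`: with the landed `nsm_occurs` (NEWP-SMO), if `g` is a normalised
eigenform of level `M`, `M' ∣ M`, and there is `f ≠ 0` of level `M'` with
`T_ℓ f = a_ℓ(g) f` for all primes `ℓ ∤ M` outside a finite set `S`, then the good eigensystem
of `g` occurs at level `M'`.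

Names are prefixed `nwg_`.
-/

set_option autoImplicit false

noncomputable section

namespace Fermat.Agent.S35

open CongruenceSubgroup

section Abstract

variable {K : Type*} [Field K] [IsAlgClosed K] {H : Type*} [CommRing H]
  {V : Type*} [AddCommGroup V] [Module K V] [FiniteDimensional K V]

/-- A commutative ring acting on a finite-dimensional vector space over an algebraically closed
field: every nonzero stable subspace contains a common eigenvector. -/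
theorem nwg_exists_eigenvector (ρ : H →+* Module.End K V) (W : Submodule K V) (hW : W ≠ ⊥)
    (hstab : ∀ t, ∀ w ∈ W, ρ t w ∈ W) :
    ∃ v ∈ W, v ≠ 0 ∧ ∀ t, ∃ c : K, ρ t v = c • v := by
  -- the annihilator ideal of `W`
  let I : Ideal H :=
    { carrier := {t | ∀ w ∈ W, ρ t w = 0}
      add_mem' := fun {a b} ha hb w hw => by
        rw [map_add, LinearMap.add_apply, ha w hw, hb w hw, add_zero]
      zero_mem' := fun w _ => by rw [map_zero]; rfl
      smul_mem' := fun a b hb w hw => by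
        rw [smul_eq_mul, map_mul, Module.End.mul_apply, hb w hw, map_zero] }
  have hI : I ≠ ⊤ := by
    intro h
    have h1 : (1 : H) ∈ I := by rw [h]; exact Submodule.mem_top
    obtain ⟨w, hw, hw0⟩ := Submodule.exists_mem_ne_zero_of_ne_bot hW
    have h2 : ρ 1 w = 0 := h1 w hw
    rw [map_one] at h2
    exact hw0 h2
  obtain ⟨𝔫, h𝔫, hle⟩ := Ideal.exists_le_maximal I hI
  have : 𝔫.IsPrime := h𝔫.isPrime
  obtain ⟨v, hv, hv0, heig, -⟩ :=
    Fermat.Agent.Lib.DeligneSerre.exists_eigenvector_aux ρ 𝔫 _ W rfl hstab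
      (fun t ht => hle ht)
  exact ⟨v, hv, hv0, heig⟩

end Abstract

section Forms

variable {N : ℕ} [NeZero N]

/-- **NEWP-EIGFORM**, predicate form.  A nonzero joint eigenvector `f` of the `T_ℓ` (`ℓ ∤ N` prime with `P ℓ`)
in `S_2(Γ₀(N))`, with eigenvalues `c ℓ`, gives a normalised eigenform `g'` of level `N` with
`a_ℓ(g') = c ℓ` for all primes `ℓ ∤ N` with `P ℓ`. -/
theorem nwg_pred (P : ℕ → Prop) (c : ℕ → ℂ) (f : CuspForm (Gamma0 N) 2) (hf : f ≠ 0)
    (hT : ∀ (ℓ : ℕ) (hℓ : ℓ.Prime) (hℓN : ¬ ℓ ∣ N), P ℓ →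
      CuspForm.heckeTLin 2 hℓ hℓN f = c ℓ • f) :
    ∃ g' : CuspForm (Gamma0 N) 2, g'.IsNormalizedEigenform ∧
      ∀ ℓ : ℕ, ℓ.Prime → ¬ ℓ ∣ N → P ℓ → ModularFormClass.qCoeff g' ℓ = c ℓ := by
  classical
  have hfd : FiniteDimensional ℂ (CuspForm (Gamma0 N) 2) :=
    Fermat.Agent.S30.egs_finiteDimensional N 2
  -- the joint eigenspace
  let W : Submodule ℂ (CuspForm (Gamma0 N) 2) :=
    { carrier := {w | ∀ (ℓ : ℕ) (hℓ : ℓ.Prime) (hℓN : ¬ ℓ ∣ N), P ℓ →
        CuspForm.heckeTLin 2 hℓ hℓN w = c ℓ • w}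
      add_mem' := fun {a b} ha hb ℓ hℓ hℓN hP => by
        rw [map_add, ha ℓ hℓ hℓN hP, hb ℓ hℓ hℓN hP, smul_add]
      zero_mem' := fun ℓ hℓ hℓN _ => by rw [map_zero, smul_zero]
      smul_mem' := fun a w hw ℓ hℓ hℓN hP => by
        rw [map_smul, hw ℓ hℓ hℓN hP, smul_comm] }
  have hfW : f ∈ W := hT
  have hW : W ≠ ⊥ := fun h => hf (by rw [h] at hfW; exact (Submodule.mem_bot ℂ).mp hfW)
  let ρ : CuspForm.heckeAlgebra N 2 (∅ : Set ℕ) →+* Module.End ℂ (CuspForm (Gamma0 N) 2) :=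
    (CuspForm.heckeAlgebra N 2 (∅ : Set ℕ)).val.toRingHom
  have hρ : ∀ t : CuspForm.heckeAlgebra N 2 (∅ : Set ℕ),
      ρ t = (t : Module.End ℂ (CuspForm (Gamma0 N) 2)) := fun _ => rfl
  have hstab : ∀ t, ∀ w ∈ W, ρ t w ∈ W := by
    intro t w hw ℓ hℓ hℓN hP
    have hcomm : CuspForm.heckeAlgebra.T hℓ hℓN (Set.notMem_empty ℓ) * t
        = t * CuspForm.heckeAlgebra.T hℓ hℓN (Set.notMem_empty ℓ) := mul_comm _ _
    have h1 : ρ (CuspForm.heckeAlgebra.T hℓ hℓN (Set.notMem_empty ℓ) * t) w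
        = ρ (t * CuspForm.heckeAlgebra.T hℓ hℓN (Set.notMem_empty ℓ)) w := by rw [hcomm]
    rw [map_mul, map_mul, Module.End.mul_apply, Module.End.mul_apply] at h1
    have h2 : ρ (CuspForm.heckeAlgebra.T hℓ hℓN (Set.notMem_empty ℓ))
        = CuspForm.heckeTLin 2 hℓ hℓN := rfl
    rw [h2] at h1
    rw [h1, hw ℓ hℓ hℓN hP, map_smul]
  obtain ⟨v, hvW, hv0, heig⟩ := nwg_exists_eigenvector ρ W hW hstab
  choose e he using heig
  -- the eigenvalue function
  let lam : ℕ → ℂ := fun l =>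
    if hl : l.Prime then
      if hlN : l ∣ N then e (CuspForm.heckeAlgebra.U hl hlN (Set.notMem_empty l))
      else e (CuspForm.heckeAlgebra.T hl hlN (Set.notMem_empty l))
    else 0
  have hlamT : ∀ (l : ℕ) (hl : l.Prime) (hlN : ¬ l ∣ N),
      CuspForm.heckeTLin 2 hl hlN v = lam l • v := by
    intro l hl hlN
    have h1 : lam l = e (CuspForm.heckeAlgebra.T hl hlN (Set.notMem_empty l)) := by
      simp only [lam, dif_pos hl, dif_neg hlN]
    rw [h1, ← he]
    rfl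
  have hlamU : ∀ (q : ℕ) (_ : q.Prime) (hqN : q ∣ N),
      CuspForm.heckeULin 2 hqN v = lam q • v := by
    intro q hq hqN
    have h1 : lam q = e (CuspForm.heckeAlgebra.U hq hqN (Set.notMem_empty q)) := by
      simp only [lam, dif_pos hq, dif_pos hqN]
    rw [h1, ← he]
    rfl
  obtain ⟨-, hnorm, hcoeff⟩ :=
    Fermat.Agent.Lib.HeckeEigenform.isNormalizedEigenform_of_eigen v hv0 lam hlamT hlamU
  refine ⟨_, hnorm, fun ℓ hℓ hℓN hP => ?_⟩
  rw [hcoeff ℓ hℓ]
  have h1 : lam ℓ • v = c ℓ • v := by rw [← hlamT ℓ hℓ hℓN, hvW ℓ hℓ hℓN hP]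
  exact smul_left_injective ℂ hv0 h1

end Forms

section Idx

open Fermat.Agent.S31

/-- **NEWP-EIGFORM.**  A nonzero joint eigenvector `f` of the `T_l`, `l : HresIdx N S` (the primes
`l ∤ N`, `l ∉ S`), in `S_2(Γ₀(N))`, with eigenvalues `a l`, gives a normalised eigenform `g'` of
level `N` with `a_l(g') = a l` for all `l : HresIdx N S`. -/
theorem nwg_main (N : ℕ) [NeZero N] (S : Set ℕ) (a : HresIdx N S → ℂ)
    (f : CuspForm (Gamma0 N) 2) (hf : f ≠ 0)
    (h : ∀ l : HresIdx N S, CuspForm.heckeTLin 2 l.2.1 l.2.2.1 f = a l • f) :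
    ∃ g' : CuspForm (Gamma0 N) 2, g'.IsNormalizedEigenform ∧
      ∀ l : HresIdx N S, ModularFormClass.qCoeff g' l.1 = a l := by
  classical
  obtain ⟨g', hg', hcoeff⟩ := nwg_pred (N := N) (fun ℓ => ℓ ∉ S)
    (fun ℓ => if hℓ : ℓ.Prime ∧ ¬ ℓ ∣ N ∧ ℓ ∉ S then a ⟨ℓ, hℓ⟩ else 0) f hf
    (fun ℓ hℓ hℓN hℓS => by
      rw [dif_pos ⟨hℓ, hℓN, hℓS⟩]
      exact h ⟨ℓ, hℓ, hℓN, hℓS⟩)
  refine ⟨g', hg', fun l => ?_⟩
  rw [hcoeff l.1 l.2.1 l.2.2.1 l.2.2.2, dif_pos l.2]
  rfl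

end Idx

section Occurs

variable {M M' : ℕ} [NeZero M']

/-- **NEWP-EIGFORM + NEWP-SMO.**  Let `g` be a normalised eigenform of level `M`, `M' ∣ M`, and
`f ≠ 0` a cusp form of level `M'` with `T_ℓ f = a_ℓ(g) f` for all primes `ℓ ∤ M` outside a
finite set `S`.  Then the good eigensystem of `g` occurs at level `M'`. -/
theorem nwg_occurs (hM' : M' ∣ M) {g : CuspForm (Gamma0 M) 2} (hg : g.IsNormalizedEigenform)
    (S : Finset ℕ) (f : CuspForm (Gamma0 M') 2) (hf : f ≠ 0)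
    (hT : ∀ (ℓ : ℕ) (hℓ : ℓ.Prime) (hℓM' : ¬ ℓ ∣ M'), ¬ ℓ ∣ M → ℓ ∉ S →
      CuspForm.heckeTLin 2 hℓ hℓM' f = ModularFormClass.qCoeff g ℓ • f) :
    CuspForm.GoodEigensystemOccursAt g M' := by
  obtain ⟨g', hg', hcoeff⟩ := nwg_pred (fun ℓ => ¬ ℓ ∣ M ∧ ℓ ∉ S)
    (fun ℓ => ModularFormClass.qCoeff g ℓ) f hf
    (fun ℓ hℓ hℓM' hP => hT ℓ hℓ hℓM' hP.1 hP.2)
  exact nsm_occurs hM' hg hg' S
    (fun ℓ hℓ hℓM hℓS => hcoeff ℓ hℓ (fun h => hℓM (h.trans hM')) ⟨hℓM, hℓS⟩)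

end Occurs

end Fermat.Agent.S35
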