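/-
Stage 5 (S35), leaf NEWP-EIG, assembled (`nwg_main ∘ nwe_joint`).

* `nwt_kernel` : a system `a l` of complex numbers at the good primes (`l ∤ N`, `l ∉ S`) killing
  every Hecke polynomial which vanishes on `S_2(Γ₀(N))` is the system of `q`-coefficients of a
  normalised eigenform of level `N`;
* `nwt_char` : every ring homomorphism `χ : heckeAlgebra N 2 S → ℂ` is the eigensystem of a
  normalised eigenform of level `N`: `a_ℓ(g') = χ (T_ℓ)` for all primes `ℓ ∤ N`, `ℓ ∉ S`.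
-/
import Mathlib
import Fermat.Agent.S35.NewEig
import Fermat.Agent.S35.NewEigForm

set_option autoImplicit false

namespace Fermat.Agent.S35

open CuspForm CongruenceSubgroup Fermat.Agent.S31

/-- **NEWP-EIG, kernel form.** -/
theorem nwt_kernel (N : ℕ) [NeZero N] (S : Set ℕ) (a : HresIdx N S → ℂ)
    (hker : ∀ P : FreeAlgebra ℤ (HresIdx N S), hresT N S P = 0 → FreeAlgebra.lift ℤ a P = 0) :
    ∃ g' : CuspForm (Gamma0 N) 2, g'.IsNormalizedEigenform ∧
      ∀ l : HresIdx N S, ModularFormClass.qCoeff g' l.1 = a l := by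
  obtain ⟨f, hf0, hf⟩ := nwe_joint N S a hker
  exact nwg_main N S a f hf0 hf

/-- **NEWP-EIG, character form.** Every character of the Hecke algebra `heckeAlgebra N 2 S` is the
system of eigenvalues of a normalised eigenform of level `N`. -/
theorem nwt_char (N : ℕ) [NeZero N] (S : Set ℕ) (χ : heckeAlgebra N 2 S →+* ℂ) :
    ∃ g' : CuspForm (Gamma0 N) 2, g'.IsNormalizedEigenform ∧
      ∀ (ℓ : ℕ) (hℓ : ℓ.Prime) (hℓN : ¬ ℓ ∣ N) (hℓS : ℓ ∉ S),
        ModularFormClass.qCoeff g' ℓ = χ (heckeAlgebra.T hℓ hℓN hℓS) := by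
  let a : HresIdx N S → ℂ := fun l => χ (heckeAlgebra.T l.2.1 l.2.2.1 l.2.2.2)
  have hlift : ∀ P : FreeAlgebra ℤ (HresIdx N S), FreeAlgebra.lift ℤ a P = χ (hresT N S P) := by
    intro P
    have h1 : FreeAlgebra.lift ℤ a = (χ.toIntAlgHom).comp (hresT N S) := by
      apply FreeAlgebra.hom_ext
      funext l
      simp only [Function.comp_apply, FreeAlgebra.lift_ι_apply, AlgHom.comp_apply, hresT_ι]
      rfl
    rw [h1]
    rfl
  obtain ⟨g', hg', hq⟩ := nwt_kernel N S a (fun P hP => by rw [hlift, hP, map_zero])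
  exact ⟨g', hg', fun ℓ hℓ hℓN hℓS => hq ⟨ℓ, hℓ, hℓN, hℓS⟩⟩

end Fermat.Agent.S35
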