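/-
Stage 5 (S35), leaf NEWP-FWD: the forward Hecke transfer.

`nwf_main`: there is `d ≠ 0` (depending on `N`, `S` only) such that every noncommutative
polynomial `P` in the Hecke operators `T_l` (`l` prime, `l ∤ N`, `l ∉ S`) which is zero in the
Hecke algebra of `S₂(Γ₀(N))` satisfies `d • P(T) = 0` on the `m`-torsion of `J₀(N)`, for every
modulus `m ≠ 0`.

Ingredients: the comparison map `cmgPhi` (injective, Hecke equivariant, with values killing the
elements of trace of absolute value at most `2`), the Eichler-Shimura isomorphism (S21), the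
period relation `hres_period`, and two new facts proved here:
* `nwf_abs`: lifting of homomorphisms `G → ZMod m` to integral ones up to a fixed integer;
* `nwf_heckeTr_charInvolution`: the transfer Hecke operators commute with the involution of
  `Hom(Γ₀(N), A)` induced by conjugation with `diag(1, -1)`.
-/
import Mathlib
import Fermat.Agent.S29.CompareGenRange
import Fermat.Agent.S31.TraceInst
import Fermat.Agent.S21

set_option autoImplicit false
set_option linter.style.haveILetI false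

open CongruenceSubgroup Matrix.SpecialLinearGroup ModularForm
open P2MW.S_ModularForm_heckeT_slash_eq_self_of_mem_Gamma0.ModularForm.HeckeSlashInvariance
open ModularCurve.Period ModularCurve AlgebraicCurve CuspForm
open scoped MatrixGroups
open OnePoint

namespace Fermat.Agent.S35

open Fermat.Agent.S29 Fermat.Agent.S31 Fermat.Agent.S20

local notation "Qb" => AlgebraicClosure ℚ

attribute [local instance] cmgAlg

/-! ### Abstract part: lifting homomorphisms to `ZMod m` -/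

/-- lifting: there is `d ≠ 0` such that for every modulus `m` and every `χ : G →+ ZMod m`
killing `Z`, `d • χ` is the reduction of an integral homomorphism killing `Z`. -/
theorem nwf_lift {G : Type} [AddGroup G] [AddGroup.FG G] (Z : Set G) :
    ∃ d : ℕ, d ≠ 0 ∧ ∀ (m : ℕ) (χ : G →+ ZMod m), (∀ s ∈ Z, χ s = 0) →
      ∃ l : G →+ ℤ, (∀ s ∈ Z, l s = 0) ∧ d • χ = (Int.castAddHom (ZMod m)).comp l := by
  classical
  let Idx : Type := Σ m : ℕ, {χ : G →+ ZMod m // ∀ s ∈ Z, χ s = 0}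
  let Φ : G →+ (∀ i : Idx, ZMod i.1) :=
    { toFun := fun g i => i.2.1 g
      map_zero' := by funext i; exact map_zero _
      map_add' := fun a b => by funext i; exact map_add _ a b }
  haveI : Module.Finite ℤ Φ.range := Module.Finite.iff_addGroup_fg.mpr (AddGroup.fg_range Φ)
  -- torsion exponent
  have hT : ∃ d : ℕ, d ≠ 0 ∧ ∀ x ∈ Submodule.torsion ℤ Φ.range, d • x = 0 := by
    have hfg : (Submodule.torsion ℤ Φ.range).FG := IsNoetherian.noetherian _
    obtain ⟨gens, hgens⟩ := hfg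
    have h1 : ∀ x ∈ gens, ∃ n : ℕ, n ≠ 0 ∧ n • x = 0 := by
      intro x hx
      have hx' : x ∈ Submodule.torsion ℤ Φ.range := by
        rw [← hgens]; exact Submodule.subset_span hx
      obtain ⟨a, ha⟩ := (Submodule.mem_torsion_iff x).mp hx'
      refine ⟨(a : ℤ).natAbs, ?_, ?_⟩
      · exact Int.natAbs_ne_zero.mpr (nonZeroDivisors.coe_ne_zero a)
      · have ha' : (a : ℤ) • x = 0 := ha
        rcases Int.natAbs_eq (a : ℤ) with h | h
        · rw [h, natCast_zsmul] at ha'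
          exact ha'
        · rw [h, neg_smul, natCast_zsmul, neg_eq_zero] at ha'
          exact ha'
    choose! n hn0 hn using h1
    refine ⟨∏ x ∈ gens, n x, Finset.prod_ne_zero_iff.mpr hn0, fun x hx => ?_⟩
    rw [← hgens] at hx
    refine Submodule.span_induction ?_ ?_ ?_ ?_ hx
    · intro y hy
      obtain ⟨c, hc⟩ := Finset.dvd_prod_of_mem n hy
      rw [hc, mul_nsmul, hn y hy, smul_zero]
    · simp
    · intro a b _ _ ha hb
      rw [smul_add, ha, hb, add_zero]
    · intro c a _ ha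
      rw [smul_comm, ha, smul_zero]
  obtain ⟨d, hd0, hd⟩ := hT
  refine ⟨d, hd0, fun m χ hχ => ?_⟩
  -- the quotient by torsion is free
  let T := Submodule.torsion ℤ Φ.range
  haveI : Module.Free ℤ (Φ.range ⧸ T) := Module.free_of_finite_type_torsion_free'
  -- χ as a linear map on Φ.range
  let i0 : Idx := ⟨m, χ, hχ⟩
  let χbar : Φ.range →ₗ[ℤ] ZMod m :=
    ((Pi.evalAddMonoidHom (fun i : Idx => ZMod i.1) i0).comp Φ.range.subtype).toIntLinearMap
  have hχbar : ∀ g, χbar (Φ.rangeRestrict g) = χ g := fun g => rfl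
  -- d • χbar kills T
  let χd : Φ.range →ₗ[ℤ] ZMod m := (d : ℤ) • χbar
  have hker : T ≤ LinearMap.ker χd := by
    intro x hx
    rw [LinearMap.mem_ker]
    show (d : ℤ) • χbar x = 0
    rw [← _root_.map_smul, natCast_zsmul, hd x hx, map_zero]
  let χq : (Φ.range ⧸ T) →ₗ[ℤ] ZMod m := T.liftQ χd hker
  -- lift along ℤ → ZMod m
  let red : ℤ →ₗ[ℤ] ZMod m := (Int.castAddHom (ZMod m)).toIntLinearMap
  have hred : Function.Surjective red := ZMod.intCast_surjective
  obtain ⟨lq, hlq⟩ := Module.projective_lifting_property red χq hred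
  refine ⟨(lq.comp T.mkQ).toAddMonoidHom.comp Φ.rangeRestrict, ?_, ?_⟩
  · intro s hs
    have h0 : Φ.rangeRestrict s = 0 := by
      apply Subtype.ext
      funext i
      exact i.2.2 s hs
    show lq (T.mkQ (Φ.rangeRestrict s)) = 0
    rw [h0, map_zero, map_zero]
  · ext g
    show (d • χ) g = red (lq (T.mkQ (Φ.rangeRestrict g)))
    have h2 := LinearMap.congr_fun hlq (T.mkQ (Φ.rangeRestrict g))
    rw [LinearMap.comp_apply] at h2
    rw [h2]
    show d • χ g = χq (T.mkQ (Φ.rangeRestrict g))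
    rw [Submodule.mkQ_apply, Submodule.liftQ_apply]
    show d • χ g = (d : ℤ) • χbar (Φ.rangeRestrict g)
    rw [hχbar, natCast_zsmul]

/-- **forward Hecke transfer, abstract form**: a noncommutative polynomial killing the
complex-valued homomorphisms vanishing on `Z` kills, up to a fixed nonzero integer, the
homomorphisms to `ZMod m` vanishing on `Z`, for every modulus `m`. -/
theorem nwf_abs {G : Type} [AddGroup G] [AddGroup.FG G] (Z : Set G) {I : Type}
    (t : ∀ (A : Type) [AddCommGroup A], I → (G →+ A) →+ (G →+ A))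
    (hnat : ∀ (A B : Type) [AddCommGroup A] [AddCommGroup B] (φ : A →+ B) (i : I) (ψ : G →+ A),
      t B i (φ.comp ψ) = φ.comp (t A i ψ)) :
    ∃ d : ℕ, d ≠ 0 ∧ ∀ P : FreeAlgebra ℤ I,
      (∀ ψ : G →+ ℂ, (∀ s ∈ Z, ψ s = 0) → hresEv t ℂ P ψ = 0) →
      ∀ (m : ℕ) (χ : G →+ ZMod m), (∀ s ∈ Z, χ s = 0) → d • hresEv t (ZMod m) P χ = 0 := by
  obtain ⟨d, hd0, hd⟩ := nwf_lift Z
  refine ⟨d, hd0, fun P hP m χ hχ => ?_⟩
  obtain ⟨l, hl, hdl⟩ := hd m χ hχ
  have h1 : hresEv t ℤ P l = 0 := by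
    have h2 := hP ((Int.castAddHom ℂ).comp l) (fun s hs => by
      rw [AddMonoidHom.comp_apply, hl s hs, map_zero])
    rw [hresEv_nat hnat] at h2
    ext g
    have h3 := DFunLike.congr_fun h2 g
    rw [AddMonoidHom.comp_apply, AddMonoidHom.zero_apply, Int.coe_castAddHom] at h3
    rw [AddMonoidHom.zero_apply]
    have h4 : ((hresEv t ℤ P l g : ℤ) : ℂ) = 0 := h3
    exact_mod_cast h4
  rw [← map_nsmul, hdl, hresEv_nat hnat, h1]
  ext g
  simp


/-! ### The transfer operators commute with the involution -/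

/-- the matrix `diag(1, -1)` over the reals -/
noncomputable def nwfJ : GL (Fin 2) ℝ :=
  Matrix.GeneralLinearGroup.mkOfDetNeZero !![1, 0; 0, -1] (by simp [Matrix.det_fin_two_of])

theorem nwfJ_mul_self : nwfJ * nwfJ = 1 := by
  ext i j
  fin_cases i <;> fin_cases j <;> simp [nwfJ, Matrix.mul_apply, Fin.sum_univ_two]

theorem nwf_mapGL_jConj (g : SL(2, ℤ)) :
    mapGL ℝ (jConjSL g) = nwfJ * mapGL ℝ g * nwfJ := by
  ext i j
  fin_cases i <;> fin_cases j <;>
    simp [nwfJ, Matrix.mul_apply, Fin.sum_univ_two, Matrix.vecMul, dotProduct]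

variable {N ℓ : ℕ} [Fact ℓ.Prime]

variable (ℓ) in
/-- the matrix `diag(-1, 1)` over `ZMod ℓ` -/
noncomputable def nwfD : GL (Fin 2) (ZMod ℓ) :=
  Matrix.GeneralLinearGroup.mkOfDetNeZero !![-1, 0; 0, 1] (by simp [Matrix.det_fin_two_of])

theorem nwfD_mul_self : nwfD ℓ * nwfD ℓ = 1 := by
  apply Matrix.GeneralLinearGroup.ext
  intro i j
  fin_cases i <;> fin_cases j <;> simp [nwfD, Matrix.mul_apply, Fin.sum_univ_two]

theorem nwf_redMatrix_jConj (g : SL(2, ℤ)) :
    redMatrix ℓ (jConjSL g) = nwfD ℓ * redMatrix ℓ g * nwfD ℓ := by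
  apply Matrix.GeneralLinearGroup.ext
  intro i j
  fin_cases i <;> fin_cases j <;>
    simp [nwfD, Matrix.mul_apply, Fin.sum_univ_two, Matrix.vecMul, dotProduct]

/-- the matrix `[[1, -1], [0, 1]]` -/
def nwfT : SL(2, ℤ) := ⟨!![1, -1; 0, 1], by simp [Matrix.det_fin_two_of]⟩

theorem nwfT_apply_zero_zero : nwfT 0 0 = 1 := rfl

theorem nwfT_apply_zero_one : nwfT 0 1 = -1 := rfl

theorem nwfT_apply_one_zero : nwfT 1 0 = 0 := rfl

theorem nwfT_apply_one_one : nwfT 1 1 = 1 := rfl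

/-- `[[1, -1], [0, 1]]` as an element of `Γ₀(N)` -/
def nwfU (N : ℕ) : Gamma0 N :=
  ⟨nwfT, per_mem_of_dvd (by show (N : ℤ) ∣ nwfT 1 0; simp [nwfT])⟩

/-- conjugating a coset representative by `diag(1, -1)` gives a translate of the representative
of the negated point -/
theorem nwf_conj_rep (N : ℕ) (y : OnePoint (ZMod ℓ)) :
    ∃ u : Gamma0 N, nwfJ * heckeRep ℓ y * nwfJ
      = mapGL ℝ ((u : Gamma0 N) : SL(2, ℤ)) * heckeRep ℓ (nwfD ℓ • y) := by
  have hℓ : ℓ ≠ 0 := (Fact.out : ℓ.Prime).ne_zero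
  induction y using OnePoint.rec with
  | infty =>
    refine ⟨1, ?_⟩
    have h : nwfD ℓ • (∞ : OnePoint (ZMod ℓ)) = ∞ := by
      rw [OnePoint.smul_infty_eq_ite]
      simp [nwfD]
    rw [h, heckeRep_infty]
    ext i j
    fin_cases i <;> fin_cases j <;>
      simp [nwfJ, hℓ, Matrix.mul_apply, Fin.sum_univ_two]
  | coe j =>
    have h : nwfD ℓ • ((j : ZMod ℓ) : OnePoint (ZMod ℓ)) = ((-j : ZMod ℓ) : OnePoint (ZMod ℓ)) := by
      rw [OnePoint.smul_some_eq_ite]
      simp [nwfD]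
    rw [h, heckeRep_coe, heckeRep_coe]
    by_cases hj : j = 0
    · subst hj
      refine ⟨1, ?_⟩
      rw [neg_zero]
      ext a b
      fin_cases a <;> fin_cases b <;>
        simp [nwfJ, hℓ, Matrix.mul_apply, Fin.sum_univ_two]
    · refine ⟨nwfU N, ?_⟩
      have hval : (((-j).val : ℕ) : ℝ) = (ℓ : ℝ) - (j.val : ℝ) := by
        rw [ZMod.neg_val, if_neg hj, Nat.cast_sub j.val_le]
      ext a b
      fin_cases a <;> fin_cases b <;>
        simp [nwfJ, nwfU, hℓ, hval, Matrix.mul_apply, Fin.sum_univ_two, nwfT_apply_zero_zero,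
          nwfT_apply_zero_one, nwfT_apply_one_zero, nwfT_apply_one_one]
      ring

/-- the cocycle of the conjugated element -/
theorem nwf_gam_jConj (hℓN : ¬ ℓ ∣ N) (u : OnePoint (ZMod ℓ) → Gamma0 N)
    (hu : ∀ y, nwfJ * heckeRep ℓ y * nwfJ
      = mapGL ℝ ((u y : Gamma0 N) : SL(2, ℤ)) * heckeRep ℓ (nwfD ℓ • y))
    (γ : Gamma0 N) (x : OnePoint (ZMod ℓ)) :
    per_gam hℓN (jConjGamma0 N γ) x
      = (u (nwfD ℓ • x))⁻¹ * jConjGamma0 N (per_gam hℓN γ (nwfD ℓ • x))
          * u (redMatrix ℓ (γ : SL(2, ℤ)) • (nwfD ℓ • x)) := by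
  apply Subtype.ext
  apply per_mapGL_cancel
    (M := heckeRep ℓ (redMatrix ℓ ((jConjGamma0 N γ : Gamma0 N) : SL(2, ℤ)) • x))
  rw [← per_gam_spec hℓN (jConjGamma0 N γ) x]
  set y := nwfD ℓ • x with hy
  have hDD : nwfD ℓ • y = x := by rw [hy, ← mul_smul, nwfD_mul_self, one_smul]
  have h1 := hu y
  rw [hDD] at h1
  have h2 := per_gam_spec hℓN γ y
  have h3 := hu (redMatrix ℓ (γ : SL(2, ℤ)) • y)
  have h4 : redMatrix ℓ ((jConjGamma0 N γ : Gamma0 N) : SL(2, ℤ)) • x
      = nwfD ℓ • (redMatrix ℓ (γ : SL(2, ℤ)) • y) := by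
    rw [jConjGamma0_coe, nwf_redMatrix_jConj, mul_smul, mul_smul]
  rw [h4]
  have e : ((((u y)⁻¹ * jConjGamma0 N (per_gam hℓN γ y)
        * u (redMatrix ℓ (γ : SL(2, ℤ)) • y) : Gamma0 N)) : SL(2, ℤ))
      = ((u y : Gamma0 N) : SL(2, ℤ))⁻¹ * jConjSL ((per_gam hℓN γ y : Gamma0 N) : SL(2, ℤ))
        * ((u (redMatrix ℓ (γ : SL(2, ℤ)) • y) : Gamma0 N) : SL(2, ℤ)) := rfl
  rw [e, jConjGamma0_coe, map_mul, map_mul, map_inv, nwf_mapGL_jConj, nwf_mapGL_jConj,
    mul_assoc (_ * _), ← h3]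
  have h1' : heckeRep ℓ x
      = (mapGL ℝ ((u y : Gamma0 N) : SL(2, ℤ)))⁻¹ * (nwfJ * heckeRep ℓ y * nwfJ) := by
    rw [h1, inv_mul_cancel_left]
  have hJ := nwfJ_mul_self
  have hJ' : ∀ X : GL (Fin 2) ℝ, nwfJ * (nwfJ * X) = X := fun X => by
    rw [← mul_assoc, hJ, one_mul]
  rw [h1']
  simp only [mul_assoc]
  rw [hJ', ← mul_assoc (heckeRep ℓ y), h2]
  simp only [mul_assoc]
  rw [hJ']

/-- **the transfer operator commutes with the involution induced by `diag(1, -1)`** -/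
theorem nwf_Tcoh_charInvolution (hℓN : ¬ ℓ ∣ N) (R : Type*) [Semiring R] {A : Type*}
    [AddCommGroup A] [Module R A] (ψ : Additive (Gamma0 N) →+ A) :
    per_Tcoh hℓN A (charInvolution N R A ψ) = charInvolution N R A (per_Tcoh hℓN A ψ) := by
  classical
  choose u hu using nwf_conj_rep (ℓ := ℓ) N
  refine AddMonoidHom.ext fun a => ?_
  obtain ⟨γ, rfl⟩ := Additive.ofMul.surjective a
  rw [per_Tcoh_apply, charInvolution_apply, toMul_ofMul, per_Tcoh_apply]
  have hR : ∀ x : OnePoint (ZMod ℓ),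
      ψ (Additive.ofMul (per_gam hℓN (jConjGamma0 N γ) x))
        = ψ (Additive.ofMul (jConjGamma0 N (per_gam hℓN γ (nwfD ℓ • x))))
          + (ψ (Additive.ofMul (u (redMatrix ℓ (γ : SL(2, ℤ)) • (nwfD ℓ • x))))
            - ψ (Additive.ofMul (u (nwfD ℓ • x)))) := by
    intro x
    rw [nwf_gam_jConj hℓN u hu γ x, ofMul_mul, ofMul_mul, ofMul_inv, map_add, map_add, map_neg]
    abel
  have hL : ∀ x : OnePoint (ZMod ℓ),
      (charInvolution N R A ψ) (Additive.ofMul (per_gam hℓN γ x))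
        = ψ (Additive.ofMul (jConjGamma0 N (per_gam hℓN γ x))) := fun x => rfl
  simp only [hR, hL, Finset.sum_add_distrib, Finset.sum_sub_distrib]
  have e1 : ∑ x : OnePoint (ZMod ℓ),
      ψ (Additive.ofMul (jConjGamma0 N (per_gam hℓN γ (nwfD ℓ • x))))
      = ∑ x : OnePoint (ZMod ℓ), ψ (Additive.ofMul (jConjGamma0 N (per_gam hℓN γ x))) :=
    Equiv.sum_comp (MulAction.toPerm (nwfD ℓ))
      (fun x => ψ (Additive.ofMul (jConjGamma0 N (per_gam hℓN γ x))))
  have e2 : ∑ x : OnePoint (ZMod ℓ),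
      ψ (Additive.ofMul (u (redMatrix ℓ (γ : SL(2, ℤ)) • (nwfD ℓ • x))))
      = ∑ x : OnePoint (ZMod ℓ), ψ (Additive.ofMul (u x)) :=
    Equiv.sum_comp ((MulAction.toPerm (nwfD ℓ)).trans
        (MulAction.toPerm (redMatrix ℓ (γ : SL(2, ℤ)))))
      (fun x => ψ (Additive.ofMul (u x)))
  have e3 : ∑ x : OnePoint (ZMod ℓ), ψ (Additive.ofMul (u (nwfD ℓ • x)))
      = ∑ x : OnePoint (ZMod ℓ), ψ (Additive.ofMul (u x)) :=
    Equiv.sum_comp (MulAction.toPerm (nwfD ℓ)) (fun x => ψ (Additive.ofMul (u x)))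
  rw [e1, e2, e3, sub_self, add_zero]


/-! ### The forward transfer -/

/-- the transfer Hecke operator `heckeTr` commutes with the involution -/
theorem nwf_heckeTr_charInvolution (N l : ℕ) (R : Type*) [Semiring R] {A : Type*}
    [AddCommGroup A] [Module R A] (ψ : Additive (Gamma0 N) →+ A) :
    heckeTr N l A (charInvolution N R A ψ) = charInvolution N R A (heckeTr N l A ψ) := by
  by_cases h : l.Prime ∧ ¬ l ∣ N
  · haveI : Fact l.Prime := ⟨h.1⟩
    rw [heckeTr_eq_per_Tcoh h.2, nwf_Tcoh_charInvolution h.2 R ψ]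
  · rw [heckeTr, dif_neg h]
    simp

/-- noncommutative polynomials in the transfer operators commute with the involution -/
theorem nwf_hresTr_charInvolution (N : ℕ) (S : Set ℕ) (P : FreeAlgebra ℤ (HresIdx N S)) :
    ∀ ψ : Additive (Gamma0 N) →+ ℂ,
      hresTr N S ℂ P (charInvolution N ℂ ℂ ψ) = charInvolution N ℂ ℂ (hresTr N S ℂ P ψ) := by
  refine FreeAlgebra.induction ℤ (HresIdx N S) ?_ ?_ ?_ ?_ P
  · intro r ψ
    rw [AlgHom.commutes, Algebra.algebraMap_eq_smul_one, LinearMap.smul_apply,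
      LinearMap.smul_apply, Module.End.one_apply, Module.End.one_apply]
    exact (map_zsmul (charInvolution N ℂ ℂ) r ψ).symm
  · intro l ψ
    rw [hresTr_ι, hresTr_ι, nwf_heckeTr_charInvolution]
  · intro a b ha hb ψ
    rw [map_mul, Module.End.mul_apply, Module.End.mul_apply, hb, ha]
  · intro a b ha hb ψ
    rw [map_add, LinearMap.add_apply, LinearMap.add_apply, ha, hb, map_add]

/-- a Hecke polynomial which is zero on the cusp forms kills the complex-valued homomorphisms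
vanishing on the elements of trace of absolute value at most `2` -/
theorem nwf_complex (N : ℕ) [NeZero N] (S : Set ℕ) (P : FreeAlgebra ℤ (HresIdx N S))
    (hP : hresT N S P = 0) (ψ : Additive (Gamma0 N) →+ ℂ) (hψ : ∀ s ∈ redS N, ψ s = 0) :
    hresTr N S ℂ P ψ = 0 := by
  have hpar : ψ ∈ parabolicHoms ℂ (Gamma0 N) ℂ := by
    rw [mem_parabolicHoms_iff]
    intro γ hγ
    refine hψ _ ?_
    rw [red_mem_S]
    exact abs_le_of_sq_le_sq (by rw [hγ]; norm_num) (by norm_num)
  obtain ⟨pml, hpml, hdef⟩ := periodHomPair_def N (existsPeriodMapLinear N)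
  have h21 := (Fermat.Agent.S21.result N).2
  rw [← h21] at hpar
  obtain ⟨⟨f, g⟩, rfl⟩ := hpar
  have happ : periodHomPair N (f, g) =
      (periodMap N f + charInvolution N ℂ ℂ (periodMap N f)) +
        (periodMap N g - charInvolution N ℂ ℂ (periodMap N g)) := by
    rw [hdef]
    simp [LinearMap.coprod_apply, hpml]
  rw [happ]
  have hz : ∀ f : CuspForm (Gamma0 N) 2, hresTr N S ℂ P (periodMap N f) = 0 := by
    intro f
    rw [hres_period, hP]
    show periodMap N (((0 : heckeAlgebra N 2 S) : Module.End ℂ (CuspForm (Gamma0 N) 2)) f) = 0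
    rw [ZeroMemClass.coe_zero, LinearMap.zero_apply, ← per_periodLin_apply, map_zero]
  rw [map_add, map_add, map_sub, nwf_hresTr_charInvolution, nwf_hresTr_charInvolution, hz f,
    hz g]
  simp

/-- **NEWP-FWD.**  A Hecke polynomial which is zero on `S₂(Γ₀(N))` kills, up to a fixed nonzero
integer, the torsion of `J₀(N)`. -/
theorem nwf_main (N : ℕ) [NeZero N] (S : Set ℕ) :
    ∃ d : ℕ, d ≠ 0 ∧ ∀ P : FreeAlgebra ℤ (HresIdx N S), hresT N S P = 0 →
      ∀ (m : ℕ) [NeZero m] (x : TrcX N m), d • hresJ (trcTheta N m S) P x = 0 := by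
  haveI : AddGroup.FG (Additive (Gamma0 N)) := egr_gamma0_fg N
  obtain ⟨d, hd0, hd⟩ := nwf_abs (redS N)
    (fun (A : Type) [AddCommGroup A] (l : HresIdx N S) => heckeTr N l.1 A)
    (fun A B _ _ φ l ψ => heckeTr_comp N l.1 φ ψ)
  refine ⟨d, hd0, fun P hP m _ x => ?_⟩
  apply cmg_injective N m
  rw [map_nsmul, map_zero, hres_equivariant N S (trcTheta N m S) (cmgPhi N m)
    (fun l c => cmg_hecke N m l.2.1 l.2.2.1 c) P x]
  exact hd P (fun ψ hψ => nwf_complex N S P hP ψ hψ) m (cmgPhi N m x) (cmg_redS N m x)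

/-- **NEWP-FWD**, in the binder shape of the hypothesis `hFWD` of `nwm_abs` (NEWP-MAIN). -/
theorem nwf_fwd (N' : ℕ) [NeZero N'] (S : Set ℕ) (lam : ℕ) (hlam : lam ≠ 0) :
    ∀ P' : FreeAlgebra ℤ (HresIdx N' S), hresT N' S P' = 0 →
      ∃ d : ℕ, d ≠ 0 ∧ ∀ (n : ℕ) (x : TrcX N' (lam ^ n)),
        d • hresJ (trcTheta N' (lam ^ n) S) P' x = 0 := by
  obtain ⟨d, hd0, hd⟩ := nwf_main N' S
  intro P' hP'
  refine ⟨d, hd0, fun n x => ?_⟩
  haveI : NeZero (lam ^ n) := ⟨pow_ne_zero n hlam⟩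
  exact hd P' hP' (lam ^ n) x

end Fermat.Agent.S35
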