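import Mathlib
import Fermat.Prelude.Def_CuspForm_Newforms
import Fermat.Agent.S31.HeckeRes
import Fermat.Agent.S31.TraceInst
import Fermat.Agent.S35.NewpSmo

/-!
# S35, leaf NEWP-MAIN: the Hecke polynomial of a newform

Let `g` be a newform of level `M`, `S` a finite set of primes containing the primes of `M`, and
`chig` the eigencharacter of `g` on the Hecke algebra of level `M` away from `S`.  For a proper
divisor level `N' ∣ M` there are a noncommutative polynomial `P` in the Hecke operators `T_ℓ`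
(`ℓ ∉ S`) and an integer `d ≠ 0` such that

* `chig (P(T)) ≠ 0` at level `M`, and
* `d • P(T)` kills the `λ`-power torsion of `J₀(N')`.

Proof (finding 184, section 4).  If some `P` acting as `0` on `S₂(Γ₀(N'))` has `chig (P(T)) ≠ 0`,
the forward direction (NEWP-FWD: a Hecke polynomial vanishing on cusp forms kills the torsion of
`J₀(N')` up to a bounded factor) gives the claim.  Otherwise `chig` factors through the Hecke
algebra of level `N'` (`nwm_factor`), so its eigensystem is the eigensystem of a normalised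
eigenform of level `N'` outside `S` (NEWP-ALG + NEWP-EIG), hence at all good primes
(NEWP-SMO, `nsm_occurs`), contradicting newness.

The two upstream inputs enter `nwm_abs` as hypotheses in the exact shapes of their leaves.
-/

set_option autoImplicit false

open CongruenceSubgroup CuspForm

namespace Fermat.Agent.S35

open Fermat.Agent.S31

/-- a good prime of level `M` away from `S` is a good prime of every divisor level -/
def nwmIdx {M N' : ℕ} (S : Set ℕ) (hN : N' ∣ M) (l : HresIdx M S) : HresIdx N' S :=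
  ⟨l.1, l.2.1, fun h => l.2.2.1 (h.trans hN), l.2.2.2⟩

theorem nwmIdx_val {M N' : ℕ} (S : Set ℕ) (hN : N' ∣ M) (l : HresIdx M S) :
    (nwmIdx S hN l).1 = l.1 := rfl

/-- change of level on noncommutative Hecke polynomials: the variable `T_ℓ` of level `M` goes to
the variable `T_ℓ` of the divisor level `N'` -/
noncomputable def nwmRe {M N' : ℕ} (S : Set ℕ) (hN : N' ∣ M) :
    FreeAlgebra ℤ (HresIdx M S) →ₐ[ℤ] FreeAlgebra ℤ (HresIdx N' S) :=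
  FreeAlgebra.lift ℤ (fun l => FreeAlgebra.ι ℤ (nwmIdx S hN l))

theorem nwmRe_ι {M N' : ℕ} (S : Set ℕ) (hN : N' ∣ M) (l : HresIdx M S) :
    nwmRe S hN (FreeAlgebra.ι ℤ l) = FreeAlgebra.ι ℤ (nwmIdx S hN l) := by
  simp [nwmRe]

/-- evaluating a re-indexed polynomial = evaluating the polynomial at the re-indexed family -/
theorem nwm_hresJ_re {M N' : ℕ} (S : Set ℕ) (hN : N' ∣ M) {X : Type*} [AddCommGroup X]
    (TJ : HresIdx N' S → Module.End ℤ X) (P : FreeAlgebra ℤ (HresIdx M S)) :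
    hresJ TJ (nwmRe S hN P) = hresJ (fun l : HresIdx M S => TJ (nwmIdx S hN l)) P := by
  have h : (hresJ TJ).comp (nwmRe S hN) = hresJ (fun l : HresIdx M S => TJ (nwmIdx S hN l)) := by
    apply FreeAlgebra.hom_ext
    funext l
    simp [hresJ, nwmRe]
  rw [← h]
  rfl

/-- the Hecke algebra of the divisor level, away from `S`, is generated by the `T_ℓ` with `ℓ` a
good prime of level `M` (all primes of `M` lie in `S`) -/
theorem nwm_surj {M N' : ℕ} [NeZero N'] (S : Set ℕ) (hN : N' ∣ M)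
    (hMS : ∀ q : ℕ, q.Prime → q ∣ M → q ∈ S) :
    Function.Surjective ((hresT N' S).comp (nwmRe S hN)) := by
  rintro ⟨t, ht⟩
  have key : ∃ P : FreeAlgebra ℤ (HresIdx M S),
      (((hresT N' S).comp (nwmRe S hN) P : heckeAlgebra N' 2 S) :
        Module.End ℂ (CuspForm (Gamma0 N') 2)) = t := by
    induction ht using Algebra.adjoin_induction with
    | mem x hx =>
      rcases hx with ⟨ℓ, hℓ, hℓN, hℓS, rfl⟩ | ⟨q, hqN, hq, hqS, rfl⟩
      · have hℓM : ¬ ℓ ∣ M := fun h => hℓS (hMS ℓ hℓ h)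
        refine ⟨FreeAlgebra.ι ℤ ⟨ℓ, hℓ, hℓM, hℓS⟩, ?_⟩
        rw [AlgHom.comp_apply, nwmRe_ι, hresT_ι]
        rfl
      · exact absurd (hMS q hq (hqN.trans hN)) hqS
    | algebraMap r =>
      refine ⟨algebraMap ℤ _ r, ?_⟩
      rw [AlgHom.commutes]
      rfl
    | add x y hx hy ihx ihy =>
      obtain ⟨P, hP⟩ := ihx
      obtain ⟨Q, hQ⟩ := ihy
      refine ⟨P + Q, ?_⟩
      rw [map_add, Subalgebra.coe_add, hP, hQ]
    | mul x y hx hy ihx ihy =>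
      obtain ⟨P, hP⟩ := ihx
      obtain ⟨Q, hQ⟩ := ihy
      refine ⟨P * Q, ?_⟩
      rw [map_mul, Subalgebra.coe_mul, hP, hQ]
  obtain ⟨P, hP⟩ := key
  exact ⟨P, Subtype.ext hP⟩

/-- **Factorisation.**  If the eigencharacter of level `M` kills every Hecke polynomial that
vanishes at the divisor level `N'`, it factors through the Hecke algebra of level `N'`. -/
theorem nwm_factor {M N' : ℕ} [NeZero M] [NeZero N'] (S : Set ℕ) (hN : N' ∣ M)
    (hMS : ∀ q : ℕ, q.Prime → q ∣ M → q ∈ S)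
    (chig : heckeAlgebra M 2 S →+* ℂ)
    (hker : ∀ P : FreeAlgebra ℤ (HresIdx M S),
      hresT N' S (nwmRe S hN P) = 0 → chig (hresT M S P) = 0) :
    ∃ χ' : heckeAlgebra N' 2 S →+* ℂ,
      (∀ P : FreeAlgebra ℤ (HresIdx M S),
        χ' (hresT N' S (nwmRe S hN P)) = chig (hresT M S P)) ∧
      ∀ (ℓ : ℕ) (hℓ : ℓ.Prime) (hℓM : ¬ ℓ ∣ M) (hℓN : ¬ ℓ ∣ N') (hℓS : ℓ ∉ S),
        χ' (heckeAlgebra.T hℓ hℓN hℓS) = chig (heckeAlgebra.T hℓ hℓM hℓS) := by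
  let f : FreeAlgebra ℤ (HresIdx M S) →+* heckeAlgebra N' 2 S :=
    ((hresT N' S).comp (nwmRe S hN)).toRingHom
  let c : FreeAlgebra ℤ (HresIdx M S) →+* ℂ := chig.comp (hresT M S).toRingHom
  have hf : Function.Surjective f := nwm_surj S hN hMS
  have hle : RingHom.ker f ≤ RingHom.ker c := by
    intro P hP
    rw [RingHom.mem_ker] at hP ⊢
    exact hker P hP
  let χ' : heckeAlgebra N' 2 S →+* ℂ := f.liftOfSurjective hf ⟨c, hle⟩
  have hχ' : ∀ P : FreeAlgebra ℤ (HresIdx M S),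
      χ' (hresT N' S (nwmRe S hN P)) = chig (hresT M S P) := fun P =>
    RingHom.liftOfSurjective_comp_apply f hf ⟨c, hle⟩ P
  refine ⟨χ', hχ', fun ℓ hℓ hℓM hℓN hℓS => ?_⟩
  have h1 := hχ' (FreeAlgebra.ι ℤ ⟨ℓ, hℓ, hℓM, hℓS⟩)
  rw [nwmRe_ι, hresT_ι, hresT_ι] at h1
  exact h1

/-- **NEWP-MAIN, abstract form.**  `hFWD` is the statement of NEWP-FWD at the level `N'`; `hEIG`
is the statement of NEWP-ALG + NEWP-EIG (a character of the Hecke algebra of level `N'` away from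
`S` is the eigensystem of a normalised eigenform of level `N'`). -/
theorem nwm_abs {M : ℕ} [NeZero M] {g : CuspForm (Gamma0 M) 2} (hg : g.IsNewform)
    (lam : ℕ) (S : Finset ℕ)
    (chig : heckeAlgebra M 2 (↑S : Set ℕ) →+* ℂ)
    (hchig : ∀ (ℓ : ℕ) (hℓ : ℓ.Prime) (hℓM : ¬ ℓ ∣ M) (hℓS : ℓ ∉ (↑S : Set ℕ)),
      chig (heckeAlgebra.T hℓ hℓM hℓS) = ModularFormClass.qCoeff g ℓ)
    (hMS : ∀ q : ℕ, q.Prime → q ∣ M → q ∈ S)
    (N' : ℕ) [NeZero N'] (hN : N' ∣ M) (hne : N' ≠ M)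
    (hFWD : ∀ P' : FreeAlgebra ℤ (HresIdx N' (↑S : Set ℕ)), hresT N' (↑S : Set ℕ) P' = 0 →
      ∃ d : ℕ, d ≠ 0 ∧ ∀ (n : ℕ) (x : TrcX N' (lam ^ n)),
        d • hresJ (trcTheta N' (lam ^ n) (↑S : Set ℕ)) P' x = 0)
    (hEIG : ∀ χ' : heckeAlgebra N' 2 (↑S : Set ℕ) →+* ℂ,
      ∃ g' : CuspForm (Gamma0 N') 2, g'.IsNormalizedEigenform ∧
        ∀ (ℓ : ℕ) (hℓ : ℓ.Prime) (hℓN : ¬ ℓ ∣ N') (hℓS : ℓ ∉ (↑S : Set ℕ)),
          ModularFormClass.qCoeff g' ℓ = χ' (heckeAlgebra.T hℓ hℓN hℓS)) :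
    ∃ (P : FreeAlgebra ℤ (HresIdx M (↑S : Set ℕ))) (d : ℕ), d ≠ 0 ∧
      chig (hresT M (↑S : Set ℕ) P) ≠ 0 ∧
      ∀ (n : ℕ) (x : TrcX N' (lam ^ n)),
        d • hresJ (fun l : HresIdx M (↑S : Set ℕ) =>
          trcTheta N' (lam ^ n) (↑S : Set ℕ) (nwmIdx (↑S : Set ℕ) hN l)) P x = 0 := by
  by_cases hcase : ∀ P : FreeAlgebra ℤ (HresIdx M (↑S : Set ℕ)),
      hresT N' (↑S : Set ℕ) (nwmRe (↑S : Set ℕ) hN P) = 0 → chig (hresT M (↑S : Set ℕ) P) = 0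
  · exfalso
    obtain ⟨χ', -, hχ'⟩ := nwm_factor (↑S : Set ℕ) hN (fun q hq hqM => hMS q hq hqM) chig hcase
    obtain ⟨g', hg', hg'χ⟩ := hEIG χ'
    refine hg.2 N' hN hne (nsm_occurs hN hg.1 hg' S fun ℓ hℓ hℓM hℓS => ?_)
    have hℓS' : ℓ ∉ (↑S : Set ℕ) := fun h => hℓS (Finset.mem_coe.mp h)
    have hℓN : ¬ ℓ ∣ N' := fun h => hℓM (h.trans hN)
    rw [hg'χ ℓ hℓ hℓN hℓS', hχ' ℓ hℓ hℓM hℓN hℓS', hchig ℓ hℓ hℓM hℓS']
  · push Not at hcase
    obtain ⟨P, hP0, hPχ⟩ := hcase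
    obtain ⟨d, hd, hkill⟩ := hFWD _ hP0
    refine ⟨P, d, hd, hPχ, fun n x => ?_⟩
    rw [← nwm_hresJ_re]
    exact hkill n x

/-- the input shape `hEIG` of `nwm_abs` from the joint-eigenvector form of NEWP-EIG (`hJ`: a
family of eigenvalues killing every Hecke polynomial that vanishes in the Hecke algebra is the
eigensystem of a normalised eigenform) -/
theorem nwm_eig_of_joint (N' : ℕ) [NeZero N'] (S : Set ℕ)
    (hJ : ∀ a : HresIdx N' S → ℂ,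
      (∀ P : FreeAlgebra ℤ (HresIdx N' S), hresT N' S P = 0 → FreeAlgebra.lift ℤ a P = 0) →
      ∃ g' : CuspForm (Gamma0 N') 2, g'.IsNormalizedEigenform ∧
        ∀ l : HresIdx N' S, ModularFormClass.qCoeff g' l.1 = a l)
    (χ' : heckeAlgebra N' 2 S →+* ℂ) :
    ∃ g' : CuspForm (Gamma0 N') 2, g'.IsNormalizedEigenform ∧
      ∀ (ℓ : ℕ) (hℓ : ℓ.Prime) (hℓN : ¬ ℓ ∣ N') (hℓS : ℓ ∉ S),
        ModularFormClass.qCoeff g' ℓ = χ' (heckeAlgebra.T hℓ hℓN hℓS) := by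
  have hlift : ∀ P : FreeAlgebra ℤ (HresIdx N' S),
      FreeAlgebra.lift ℤ (fun l : HresIdx N' S => χ' (heckeAlgebra.T l.2.1 l.2.2.1 l.2.2.2)) P
        = χ' (hresT N' S P) := fun P =>
    trc_lift_comp χ' (fun l : HresIdx N' S => heckeAlgebra.T l.2.1 l.2.2.1 l.2.2.2) P
  obtain ⟨g', hg', h⟩ := hJ (fun l => χ' (heckeAlgebra.T l.2.1 l.2.2.1 l.2.2.2))
    (fun P hP => by rw [hlift P, hP, map_zero])
  exact ⟨g', hg', fun ℓ hℓ hℓN hℓS => h ⟨ℓ, hℓ, hℓN, hℓS⟩⟩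

/-- **NEWP-MAIN, abstract form with the joint-eigenvector input.** -/
theorem nwm_abs2 {M : ℕ} [NeZero M] {g : CuspForm (Gamma0 M) 2} (hg : g.IsNewform)
    (lam : ℕ) (S : Finset ℕ)
    (chig : heckeAlgebra M 2 (↑S : Set ℕ) →+* ℂ)
    (hchig : ∀ (ℓ : ℕ) (hℓ : ℓ.Prime) (hℓM : ¬ ℓ ∣ M) (hℓS : ℓ ∉ (↑S : Set ℕ)),
      chig (heckeAlgebra.T hℓ hℓM hℓS) = ModularFormClass.qCoeff g ℓ)
    (hMS : ∀ q : ℕ, q.Prime → q ∣ M → q ∈ S)
    (N' : ℕ) [NeZero N'] (hN : N' ∣ M) (hne : N' ≠ M)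
    (hFWD : ∀ P' : FreeAlgebra ℤ (HresIdx N' (↑S : Set ℕ)), hresT N' (↑S : Set ℕ) P' = 0 →
      ∃ d : ℕ, d ≠ 0 ∧ ∀ (n : ℕ) (x : TrcX N' (lam ^ n)),
        d • hresJ (trcTheta N' (lam ^ n) (↑S : Set ℕ)) P' x = 0)
    (hJ : ∀ a : HresIdx N' (↑S : Set ℕ) → ℂ,
      (∀ P : FreeAlgebra ℤ (HresIdx N' (↑S : Set ℕ)),
        hresT N' (↑S : Set ℕ) P = 0 → FreeAlgebra.lift ℤ a P = 0) →
      ∃ g' : CuspForm (Gamma0 N') 2, g'.IsNormalizedEigenform ∧
        ∀ l : HresIdx N' (↑S : Set ℕ), ModularFormClass.qCoeff g' l.1 = a l) :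
    ∃ (P : FreeAlgebra ℤ (HresIdx M (↑S : Set ℕ))) (d : ℕ), d ≠ 0 ∧
      chig (hresT M (↑S : Set ℕ) P) ≠ 0 ∧
      ∀ (n : ℕ) (x : TrcX N' (lam ^ n)),
        d • hresJ (fun l : HresIdx M (↑S : Set ℕ) =>
          trcTheta N' (lam ^ n) (↑S : Set ℕ) (nwmIdx (↑S : Set ℕ) hN l)) P x = 0 :=
  nwm_abs hg lam S chig hchig hMS N' hN hne hFWD
    (nwm_eig_of_joint N' (↑S : Set ℕ) hJ)

end Fermat.Agent.S35
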