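import Mathlib
import Fermat.Agent.S37.LevelUp
import Fermat.Agent.S37.HeckeIn

/-!
# S35 / DEG-PUSH : the two degeneracy push-forwards `J₀(N q) → J₀(N)`

`s35pPush N M φ : JZero M →+ JZero N` is the push-forward (norm) along a `ℚ̄`-embedding
`φ` of the function field of `X₀(N)` into that of `X₀(M)`; `s35pAlpha N q` and
`s35pBeta N q` are its instances along `heckeAlphaBar` and `heckeBetaBar`.
-/

set_option autoImplicit false
set_option linter.unusedSectionVars false
set_option linter.style.haveILetI false

open AlgebraicCurve ModularCurve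

namespace Fermat.Agent.S35

local notation "Qb" => AlgebraicClosure ℚ

/-- push-forward `J₀(M) → J₀(N)` along a `ℚ̄`-embedding of function fields. -/
noncomputable def s35pPush (N M : ℕ) [NeZero N] [NeZero M]
    (φ : ↥(modularFunctionFieldBar N) →ₐ[Qb] ↥(modularFunctionFieldBar M)) :
    JZero M →+ JZero N :=
  letI := algebraAlong φ
  haveI := isScalarTower_along φ
  haveI : Module.Finite ↥(modularFunctionFieldBar N) ↥(modularFunctionFieldBar M) :=
    Fermat.Agent.S37.hki_finiteAlong N M φ
  haveI : Algebra.IsIntegral ↥(modularFunctionFieldBar N) ↥(modularFunctionFieldBar M) :=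
    isIntegral_along φ (Fermat.Agent.S37.hki_isIntegral N M φ)
  Pic0.pushforwardHom Qb ↥(modularFunctionFieldBar N) ↥(modularFunctionFieldBar M)
    (Fermat.Agent.S37.hki_normFormulaAlong N M φ (Fermat.Agent.S37.hki_finiteAlong N M φ))

/-- value of the push-forward on the class of a degree-zero divisor. -/
theorem s35p_push_mk (N M : ℕ) [NeZero N] [NeZero M]
    (φ : ↥(modularFunctionFieldBar N) →ₐ[Qb] ↥(modularFunctionFieldBar M))
    (D : Divisor.degZero (K := Qb) (F := ↥(modularFunctionFieldBar M))) :
    s35pPush N M φ (Pic0.mk D) =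
      (letI := algebraAlong φ
       haveI := isScalarTower_along φ
       haveI : Algebra.IsIntegral ↥(modularFunctionFieldBar N) ↥(modularFunctionFieldBar M) :=
         isIntegral_along φ (Fermat.Agent.S37.hki_isIntegral N M φ)
       Pic0.mk (Pic0.pushforwardDegZeroHom ↥(modularFunctionFieldBar N) D)) :=
  rfl

/-- `α_* : J₀(N q) → J₀(N)`, the push-forward along the inclusion of function fields. -/
noncomputable def s35pAlpha (N q : ℕ) [NeZero N] [NeZero q] :
    JZero (N * q) →+ JZero N :=
  haveI : NeZero (N * q) := ⟨Nat.mul_ne_zero (NeZero.ne N) (NeZero.ne q)⟩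
  s35pPush N (N * q) (heckeAlphaBar Qb N q)

/-- `β_* : J₀(N q) → J₀(N)`, the push-forward along `f(τ) ↦ f(q τ)`. -/
noncomputable def s35pBeta (N q : ℕ) [NeZero N] [NeZero q] :
    JZero (N * q) →+ JZero N :=
  haveI : NeZero (N * q) := ⟨Nat.mul_ne_zero (NeZero.ne N) (NeZero.ne q)⟩
  s35pPush N (N * q) (heckeBetaBar Qb N q)

theorem s35p_alpha_def (N q : ℕ) [NeZero N] [NeZero q] [NeZero (N * q)] :
    s35pAlpha N q = s35pPush N (N * q) (heckeAlphaBar Qb N q) :=
  rfl

theorem s35p_beta_def (N q : ℕ) [NeZero N] [NeZero q] [NeZero (N * q)] :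
    s35pBeta N q = s35pPush N (N * q) (heckeBetaBar Qb N q) :=
  rfl

end Fermat.Agent.S35
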