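import Mathlib
import Fermat.Agent.S35.Push
import Fermat.Agent.S31.TraceInst
import Fermat.Agent.S30.TorsLevel
import Fermat.Agent.S37.LevelUp

/-!
# S35, package TORS-MAIN: the torsion statement (TORS) consumed by the trace transfer

`s35tm_main`: let `M = M' * q`, `L = a ^ k * M'` (`a` prime).  Suppose

* (DEG) for every `x ∈ J₀(M)[lam ^ n]`, the class `y := π^*(d • P(T) x) ∈ J₀(L q)` is killed by
  the two degeneracy push-forwards `α_*, β_* : J₀(L q) → J₀(L)`;
* (CORE) every `y ∈ J₀(L q)[lam ^ n]` killed by `α_*` and `β_*` satisfies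
  `(s - q ^ 2) (s - 1) (s - 1) y = 0`, where `s` is the action of `σ`.

Then `d • P(T) ((s - 1) (s - 1) (s - q ^ 2) x) = 0` for every `x ∈ J₀(M)[lam ^ n]`.

(The pull-back `π^* : J₀(M) → J₀(a ^ k M)` is Galois-equivariant and injective on torsion; the
Hecke operators `T_l`, `l ∤ M lam`, commute with the Galois action on the torsion.)
-/

set_option autoImplicit false

open ModularCurve AlgebraicCurve

namespace Fermat.Agent.S35

open Fermat.Agent.S29 Fermat.Agent.S30 Fermat.Agent.S31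

local notation "Qb" => AlgebraicClosure ℚ

/-! ### The pull-back on the torsion -/

section pull

variable (N N' : ℕ) [NeZero N] [NeZero N'] (h : N ∣ N') (m : ℕ)

/-- The pull-back `J₀(N)[m] → J₀(N')[m]`, as a `ℤ`-linear map. -/
noncomputable def s35tmPull : TrcX N m →ₗ[ℤ] TrcX N' m :=
  (((Fermat.Agent.S37.lvlPullback N N' h).comp
      (Pic0.torsion Qb (modularFunctionFieldBar N) m).subtype).codRestrict
    (Pic0.torsion Qb (modularFunctionFieldBar N') m) (fun x => by
      rw [Pic0.mem_torsion]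
      show (m : ℤ) • Fermat.Agent.S37.lvlPullback N N' h (x : JZero N) = 0
      rw [← map_zsmul, Pic0.mem_torsion.mp x.2, map_zero])).toIntLinearMap

theorem s35tm_pull_coe (x : TrcX N m) :
    ((s35tmPull N N' h m x : TrcX N' m) : JZero N')
      = Fermat.Agent.S37.lvlPullback N N' h (x : JZero N) :=
  rfl

/-- The pull-back commutes with the Galois action. -/
theorem s35tm_pull_rho (σ : Qb ≃ₐ[ℚ] Qb) (x : TrcX N m) :
    s35tmPull N N' h m (trcRhoJ N m σ x) = trcRhoJ N' m σ (s35tmPull N N' h m x) := by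
  refine Subtype.ext ?_
  rw [s35tm_pull_coe, trcRhoJ_apply, trcRhoJ_apply, JZero.coe_torsionGaloisRep_apply,
    JZero.coe_torsionGaloisRep_apply, Fermat.Agent.S37.lvl_smul, s35tm_pull_coe]

/-- The pull-back is injective on the torsion. -/
theorem s35tm_pull_injective (hm : m ≠ 0)
    (hnum : dedekindPsi N' * N < 2 * N' * dedekindPsi N) :
    Function.Injective (s35tmPull N N' h m) := by
  rw [injective_iff_map_eq_zero]
  intro x hx
  refine Subtype.ext ?_
  refine Fermat.Agent.S37.lvl_injective_torsion N N' h hnum (x : JZero N) m hm ?_ ?_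
  · have h1 := Pic0.mem_torsion.mp x.2
    rwa [natCast_zsmul] at h1
  · have h1 := congrArg (Subtype.val) hx
    rw [s35tm_pull_coe] at h1
    exact h1

/-- The pull-back intertwines polynomials in the Galois action. -/
theorem s35tm_pull_sub_natCast (σ : Qb ≃ₐ[ℚ] Qb) (c : ℕ) (x : TrcX N m) :
    s35tmPull N N' h m ((trcRhoJ N m σ - (c : Module.End ℤ (TrcX N m))) x)
      = (trcRhoJ N' m σ - (c : Module.End ℤ (TrcX N' m))) (s35tmPull N N' h m x) := by
  rw [LinearMap.sub_apply, LinearMap.sub_apply, map_sub, s35tm_pull_rho,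
    Module.End.natCast_apply, Module.End.natCast_apply]
  congr 1
  exact map_nsmul (s35tmPull N N' h m) c x

theorem s35tm_pull_sub_one (σ : Qb ≃ₐ[ℚ] Qb) (x : TrcX N m) :
    s35tmPull N N' h m ((trcRhoJ N m σ - 1) x)
      = (trcRhoJ N' m σ - 1) (s35tmPull N N' h m x) := by
  rw [LinearMap.sub_apply, LinearMap.sub_apply, map_sub, s35tm_pull_rho,
    Module.End.one_apply, Module.End.one_apply]

end pull

/-! ### The Hecke polynomials commute with the Galois action -/

/-- `P(T)` commutes with the Galois action on the `m`-torsion. -/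
theorem s35tm_comm (N m : ℕ) [NeZero N] (S : Set ℕ)
    (hS : ∀ l : HresIdx N S, ¬ l.1 ∣ N * m) (P : FreeAlgebra ℤ (HresIdx N S))
    (τ : Qb ≃ₐ[ℚ] Qb) :
    Commute (hresJ (trcTheta N m S) P) (trcRhoJ N m τ) := by
  induction P using FreeAlgebra.induction with
  | grade0 r =>
    rw [AlgHom.commutes]
    exact Algebra.commute_algebraMap_left r _
  | grade1 l =>
    rw [hresJ_ι]
    exact trc_comm N m S l (hS l) τ
  | mul a b ha hb =>
    rw [map_mul]
    exact ha.mul_left hb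
  | add a b ha hb =>
    rw [map_add]
    exact ha.add_left hb

/-! ### The abstract descent -/

/-- Abstract form of the descent: `π` injective and intertwining `s` with `s'`, `T` commuting
with `s`. -/
theorem s35tm_abs {X Y : Type*} [AddCommGroup X] [AddCommGroup Y] (s T : Module.End ℤ X)
    (s' : Module.End ℤ Y) (π : X →ₗ[ℤ] Y) (hπ : Function.Injective π)
    (hπs : ∀ x : X, π (s x) = s' (π x)) (hcomm : Commute T s) (c d : ℕ) (x : X)
    (H : (s' - (c : Module.End ℤ Y)) ((s' - 1) ((s' - 1) (π (d • T x)))) = 0) :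
    d • T ((s - 1) ((s - 1) ((s - (c : Module.End ℤ X)) x))) = 0 := by
  have hc1 : Commute T (s - 1) := hcomm.sub_right (Commute.one_right T)
  have hc2 : Commute T (s - (c : Module.End ℤ X)) :=
    hcomm.sub_right (Nat.cast_commute c T).symm
  have hs2 : Commute (s - 1) (s - (c : Module.End ℤ X)) :=
    ((Commute.refl s).sub_right (Nat.cast_commute c s).symm).sub_left (Commute.one_left _)
  have hπ1 : ∀ z : X, π ((s - 1) z) = (s' - 1) (π z) := fun z => by
    rw [LinearMap.sub_apply, LinearMap.sub_apply, map_sub, hπs, Module.End.one_apply,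
      Module.End.one_apply]
  have hπc : ∀ z : X, π ((s - (c : Module.End ℤ X)) z) = (s' - (c : Module.End ℤ Y)) (π z) :=
    fun z => by
      rw [LinearMap.sub_apply, LinearMap.sub_apply, map_sub, hπs, Module.End.natCast_apply,
        Module.End.natCast_apply, map_nsmul]
  have key : (s - (c : Module.End ℤ X)) ((s - 1) ((s - 1) (d • T x))) = 0 := by
    apply hπ
    rw [map_zero, hπc, hπ1, hπ1]
    exact H
  have e1 : T * ((s - 1) * ((s - 1) * (s - (c : Module.End ℤ X))))
      = (s - (c : Module.End ℤ X)) * ((s - 1) * ((s - 1) * T)) := by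
    calc T * ((s - 1) * ((s - 1) * (s - (c : Module.End ℤ X))))
        = (s - 1) * ((s - 1) * ((s - (c : Module.End ℤ X)) * T)) := by
          rw [← mul_assoc, hc1.eq, mul_assoc, ← mul_assoc T, hc1.eq, mul_assoc, hc2.eq]
      _ = (s - (c : Module.End ℤ X)) * ((s - 1) * ((s - 1) * T)) := by
          rw [← mul_assoc (s - 1) (s - (c : Module.End ℤ X)) T, hs2.eq, mul_assoc,
            ← mul_assoc (s - 1) (s - (c : Module.End ℤ X)), hs2.eq, mul_assoc]
  have e2 := LinearMap.congr_fun e1 x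
  simp only [Module.End.mul_apply] at e2
  rw [e2, ← map_nsmul, ← map_nsmul, ← map_nsmul]
  exact key

/-! ### The main statement -/

/-- **TORS-MAIN.** -/
theorem s35tm_main (M' q : ℕ) [NeZero (M' * q)] (a k : ℕ) (ha : a.Prime) [NeZero (a ^ k * M')]
    [NeZero q] [NeZero (a ^ k * M' * q)]
    (lam : ℕ) (hlam : lam.Prime) (S : Finset ℕ) (hlamS : lam ∈ S)
    (P : FreeAlgebra ℤ (HresIdx (M' * q) (↑S : Set ℕ))) (d : ℕ)
    (σ : Qb ≃ₐ[ℚ] Qb) (hdvd : M' * q ∣ a ^ k * M' * q)
    (hDEG : ∀ (n : ℕ) (x : TrcX (M' * q) (lam ^ n)),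
      s35pAlpha (a ^ k * M') q
        (Fermat.Agent.S37.lvlPullback (M' * q) (a ^ k * M' * q) hdvd
          ((d • hresJ (trcTheta (M' * q) (lam ^ n) (↑S : Set ℕ)) P x :
            TrcX (M' * q) (lam ^ n)) : JZero (M' * q))) = 0 ∧
      s35pBeta (a ^ k * M') q
        (Fermat.Agent.S37.lvlPullback (M' * q) (a ^ k * M' * q) hdvd
          ((d • hresJ (trcTheta (M' * q) (lam ^ n) (↑S : Set ℕ)) P x :
            TrcX (M' * q) (lam ^ n)) : JZero (M' * q))) = 0)
    (hCORE : ∀ (n : ℕ) (y : TrcX (a ^ k * M' * q) (lam ^ n)),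
      s35pAlpha (a ^ k * M') q (y : JZero (a ^ k * M' * q)) = 0 →
      s35pBeta (a ^ k * M') q (y : JZero (a ^ k * M' * q)) = 0 →
      (trcRhoJ (a ^ k * M' * q) (lam ^ n) σ
          - ((q ^ 2 : ℕ) : Module.End ℤ (TrcX (a ^ k * M' * q) (lam ^ n))))
        ((trcRhoJ (a ^ k * M' * q) (lam ^ n) σ - 1)
          ((trcRhoJ (a ^ k * M' * q) (lam ^ n) σ - 1) y)) = 0)
    (n : ℕ) (x : TrcX (M' * q) (lam ^ n)) :
    d • hresJ (trcTheta (M' * q) (lam ^ n) (↑S : Set ℕ)) P
      ((trcRhoJ (M' * q) (lam ^ n) σ - 1)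
        ((trcRhoJ (M' * q) (lam ^ n) σ - 1)
          ((trcRhoJ (M' * q) (lam ^ n) σ
            - ((q ^ 2 : ℕ) : Module.End ℤ (TrcX (M' * q) (lam ^ n)))) x))) = 0 := by
  have hnum : dedekindPsi (a ^ k * M' * q) * (M' * q)
      < 2 * (a ^ k * M' * q) * dedekindPsi (M' * q) := by
    rw [mul_assoc (a ^ k) M' q]
    exact Fermat.Agent.S37.lvl_num (M' * q) a k (NeZero.pos (M' * q)) ha
  refine s35tm_abs (trcRhoJ (M' * q) (lam ^ n) σ)
    (hresJ (trcTheta (M' * q) (lam ^ n) (↑S : Set ℕ)) P)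
    (trcRhoJ (a ^ k * M' * q) (lam ^ n) σ)
    (s35tmPull (M' * q) (a ^ k * M' * q) hdvd (lam ^ n))
    (s35tm_pull_injective (M' * q) (a ^ k * M' * q) hdvd (lam ^ n)
      (pow_ne_zero n hlam.ne_zero) hnum)
    (s35tm_pull_rho (M' * q) (a ^ k * M' * q) hdvd (lam ^ n) σ) ?_ (q ^ 2) d x ?_
  · refine s35tm_comm (M' * q) (lam ^ n) (↑S : Set ℕ) (fun l => ?_) P σ
    refine trc_not_dvd hlam l.2.1 l.2.2.1 (fun hl => l.2.2.2 ?_) n
    rw [hl]
    exact Finset.mem_coe.mpr hlamS
  · exact hCORE n _ (hDEG n x).1 (hDEG n x).2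

/-- **TORS-MAIN**, in the shape of the hypothesis `hTORS` of `s35t_main` (an identity in the
endomorphism ring of the torsion). -/
theorem s35tm_main_end (M' q : ℕ) [NeZero (M' * q)] (a k : ℕ) (ha : a.Prime)
    [NeZero (a ^ k * M')] [NeZero q] [NeZero (a ^ k * M' * q)]
    (lam : ℕ) (hlam : lam.Prime) (S : Finset ℕ) (hlamS : lam ∈ S)
    (P : FreeAlgebra ℤ (HresIdx (M' * q) (↑S : Set ℕ))) (d : ℕ)
    (σ : Qb ≃ₐ[ℚ] Qb) (hdvd : M' * q ∣ a ^ k * M' * q)
    (hDEG : ∀ (n : ℕ) (x : TrcX (M' * q) (lam ^ n)),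
      s35pAlpha (a ^ k * M') q
        (Fermat.Agent.S37.lvlPullback (M' * q) (a ^ k * M' * q) hdvd
          ((d • hresJ (trcTheta (M' * q) (lam ^ n) (↑S : Set ℕ)) P x :
            TrcX (M' * q) (lam ^ n)) : JZero (M' * q))) = 0 ∧
      s35pBeta (a ^ k * M') q
        (Fermat.Agent.S37.lvlPullback (M' * q) (a ^ k * M' * q) hdvd
          ((d • hresJ (trcTheta (M' * q) (lam ^ n) (↑S : Set ℕ)) P x :
            TrcX (M' * q) (lam ^ n)) : JZero (M' * q))) = 0)
    (hCORE : ∀ (n : ℕ) (y : TrcX (a ^ k * M' * q) (lam ^ n)),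
      s35pAlpha (a ^ k * M') q (y : JZero (a ^ k * M' * q)) = 0 →
      s35pBeta (a ^ k * M') q (y : JZero (a ^ k * M' * q)) = 0 →
      (trcRhoJ (a ^ k * M' * q) (lam ^ n) σ
          - ((q ^ 2 : ℕ) : Module.End ℤ (TrcX (a ^ k * M' * q) (lam ^ n))))
        ((trcRhoJ (a ^ k * M' * q) (lam ^ n) σ - 1)
          ((trcRhoJ (a ^ k * M' * q) (lam ^ n) σ - 1) y)) = 0)
    (n : ℕ) :
    (d : Module.End ℤ (TrcX (M' * q) (lam ^ n))) *
      hresJ (trcTheta (M' * q) (lam ^ n) (↑S : Set ℕ)) P *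
      ((trcRhoJ (M' * q) (lam ^ n) σ - 1) * (trcRhoJ (M' * q) (lam ^ n) σ - 1) *
        (trcRhoJ (M' * q) (lam ^ n) σ
          - ((q ^ 2 : ℕ) : Module.End ℤ (TrcX (M' * q) (lam ^ n))))) = 0 := by
  refine LinearMap.ext fun x => ?_
  have h := s35tm_main M' q a k ha lam hlam S hlamS P d σ hdvd hDEG hCORE n x
  simp only [Module.End.mul_apply, LinearMap.zero_apply]
  rw [Module.End.natCast_apply]
  exact h

/-- Bridge for (CORE): the `End`-form on the torsion from the elementwise form on `J₀`. -/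
theorem s35tm_core_of_smul (N : ℕ) [NeZero N] (m c : ℕ) (σ : Qb ≃ₐ[ℚ] Qb) (y : TrcX N m)
    (H : σ • (σ • (σ • (y : JZero N) - (y : JZero N)) - (σ • (y : JZero N) - (y : JZero N)))
      - c • (σ • (σ • (y : JZero N) - (y : JZero N)) - (σ • (y : JZero N) - (y : JZero N)))
        = 0) :
    (trcRhoJ N m σ - (c : Module.End ℤ (TrcX N m)))
      ((trcRhoJ N m σ - 1) ((trcRhoJ N m σ - 1) y)) = 0 := by
  refine Subtype.ext ?_
  simp only [LinearMap.sub_apply, Module.End.one_apply, Module.End.natCast_apply,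
    trcRhoJ_apply, AddSubgroup.coe_nsmul, AddSubgroup.coe_sub,
    JZero.coe_torsionGaloisRep_apply, ZeroMemClass.coe_zero]
  exact H

/-- The output of `s35tm_main` in elementwise form on `J₀`. -/
theorem s35tm_smul_of_tors (N : ℕ) [NeZero N] (m c : ℕ) (σ : Qb ≃ₐ[ℚ] Qb) (y : TrcX N m)
    (H : (trcRhoJ N m σ - 1) ((trcRhoJ N m σ - 1)
      ((trcRhoJ N m σ - (c : Module.End ℤ (TrcX N m))) y)) = 0) :
    σ • (σ • (σ • (y : JZero N) - c • (y : JZero N)) - (σ • (y : JZero N) - c • (y : JZero N)))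
      - (σ • (σ • (y : JZero N) - c • (y : JZero N)) - (σ • (y : JZero N) - c • (y : JZero N)))
        = 0 := by
  have h := congrArg Subtype.val H
  simp only [LinearMap.sub_apply, Module.End.one_apply, Module.End.natCast_apply,
    trcRhoJ_apply, AddSubgroup.coe_nsmul, AddSubgroup.coe_sub,
    JZero.coe_torsionGaloisRep_apply, ZeroMemClass.coe_zero] at h
  exact h

end Fermat.Agent.S35
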