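import Fermat.Statements.S35
import Fermat.Agent.S35.Assemble
import Fermat.Agent.S35.TorsMain
import Fermat.Agent.S35.NewMain
import Fermat.Agent.S35.NewFwd
import Fermat.Agent.S35.NewEigTop
import Fermat.Agent.S35.HCoreDef
import Fermat.Agent.S18.Haupt9Rec

/-!
# S35, package ASM-CLAUSE (spare top): S35 from three named inputs

`s35ac_main` : the frozen statement S35 from the three inputs that are not yet available when this
file is written, each taken as a hypothesis in its contract shape: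

* `hFIN` : the final statement of CORE-INST (the core statement `S35hCore` over all sufficiently
  large finite normal extensions of `ℚ`, for `σ = φ * φ`);
* `hKUM` : the class form CORE-KUM (`(σ - q²)(σ - 1)² y = 0` for a torsion class killed by both
  degeneracy push-forwards, given `S35hCore`);
* `hDEG` : the seam DEG-MAIN (the class `π^*(d • P(T) x)` is killed by both push-forwards).

Everything else (S30, the trace transfer, TORS-MAIN, the NEWP chain, the Hauptmodul records, the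
bookkeeping of levels) is discharged here.
-/

set_option autoImplicit false
open Polynomial
open CuspForm CuspForm.IsNewform CongruenceSubgroup

namespace Fermat.Agent.S35

open Fermat.Agent.S18 Fermat.Agent.S29 Fermat.Agent.S30 Fermat.Agent.S31 ModularCurve AlgebraicCurve

local notation "Qb" => AlgebraicClosure ℚ

/-- rearrangement: the class form of CORE-KUM gives the nested form of `s35tm_core_of_smul`. -/
theorem s35ac_rearr {X : Type*} [AddCommGroup X] {G : Type*} [Monoid G] [DistribMulAction G X]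
    (σ : G) (c : ℕ) (y : X)
    (H : σ • (σ • σ • y - (σ • y + σ • y) + y) - c • (σ • σ • y - (σ • y + σ • y) + y) = 0) :
    σ • (σ • (σ • y - y) - (σ • y - y)) - c • (σ • (σ • y - y) - (σ • y - y)) = 0 := by
  have e : σ • (σ • y - y) - (σ • y - y) = σ • σ • y - (σ • y + σ • y) + y := by
    rw [smul_sub]
    abel
  rw [e]
  exact H

/-- The hypothesis `hT` of `s35asm_main` from the three inputs. -/
theorem s35ac_hT {M : ℕ} [NeZero M] {g : CuspForm (CongruenceSubgroup.Gamma0 M) 2}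
    (hg : g.IsNewform) (lam : ℕ) [Fact lam.Prime] (S : Finset ℕ)
    (chig : CuspForm.heckeAlgebra M 2 (↑S : Set ℕ) →+* ℂ)
    (hchig : ∀ (ℓ : ℕ) (hℓ : ℓ.Prime) (hℓM : ¬ ℓ ∣ M) (hℓS : ℓ ∉ (↑S : Set ℕ)),
      chig (CuspForm.heckeAlgebra.T hℓ hℓM hℓS) = ModularFormClass.qCoeff g ℓ)
    (hlamS : lam ∈ S) (hMS : ∀ q : ℕ, q.Prime → q ∣ M → q ∈ S)
    (hFIN : ∀ (M0 q : ℕ) [NeZero M0] [Fact q.Prime], ¬ q ∣ M0 → ∀ {a2 : ℕ}, HauptRec a2 q →
      a2 ∣ M0 → ∀ A : ValuationSubring Qb, A.LiesOverPrime q → ∀ φ : Qb ≃ₐ[ℚ] Qb,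
      A.IsFrobeniusAt φ q → ∀ m : ℕ, m ≠ 0 → m.Coprime q →
      ∃ T : Finset Qb, ∀ (K1 : IntermediateField ℚ Qb) [FiniteDimensional ℚ K1] [Normal ℚ K1],
        (∀ c ∈ T, c ∈ K1) → S35hCore K1 (φ * φ) M0 q m)
    (hKUM : ∀ (N q : ℕ) [NeZero N] [NeZero q], q.Prime → ¬ q ∣ N → ∀ m : ℕ, m ≠ 0 →
      ∀ σ : Qb ≃ₐ[ℚ] Qb,
      (∃ T : Finset Qb, ∀ (K1 : IntermediateField ℚ Qb) [FiniteDimensional ℚ K1] [Normal ℚ K1],
        (∀ c ∈ T, c ∈ K1) → S35hCore K1 σ N q m) →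
      ∀ y : JZero (N * q), m • y = 0 → s35pAlpha N q y = 0 → s35pBeta N q y = 0 →
        σ • (σ • σ • y - (σ • y + σ • y) + y)
          - (q ^ 2) • (σ • σ • y - (σ • y + σ • y) + y) = 0)
    (hDEG : ∀ (M' q a k : ℕ) [NeZero M'] [NeZero (M' * q)] [NeZero (a ^ k * M')] [NeZero q]
      [NeZero (a ^ k * M' * q)], q.Prime → ¬ q ∣ M' → ¬ q ∣ a ^ k → a.Prime →
      ∀ lam : ℕ, lam.Prime → q ≠ lam → ∀ S : Finset ℕ, lam ∈ S →
      (∀ r : ℕ, r.Prime → r ∣ M' * q → r ∈ S) →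
      ∀ (P : FreeAlgebra ℤ (HresIdx (M' * q) (↑S : Set ℕ))) (d : ℕ)
        (hN : M' ∣ M' * q) (hdvd : M' * q ∣ a ^ k * M' * q),
      (∀ (n : ℕ) (z : TrcX M' (lam ^ n)),
        d • hresJ (fun l : HresIdx (M' * q) (↑S : Set ℕ) =>
          trcTheta M' (lam ^ n) (↑S : Set ℕ) (nwmIdx (↑S : Set ℕ) hN l)) P z = 0) →
      ∀ (n : ℕ) (x : TrcX (M' * q) (lam ^ n)),
        s35pAlpha (a ^ k * M') q
          (Fermat.Agent.S37.lvlPullback (M' * q) (a ^ k * M' * q) hdvd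
            ((d • hresJ (trcTheta (M' * q) (lam ^ n) (↑S : Set ℕ)) P x :
              TrcX (M' * q) (lam ^ n)) : JZero (M' * q))) = 0 ∧
        s35pBeta (a ^ k * M') q
          (Fermat.Agent.S37.lvlPullback (M' * q) (a ^ k * M' * q) hdvd
            ((d • hresJ (trcTheta (M' * q) (lam ^ n) (↑S : Set ℕ)) P x :
              TrcX (M' * q) (lam ^ n)) : JZero (M' * q))) = 0) :
    ∀ q : ℕ, q.Prime → q ≠ lam → q ∣ M → ¬ q ^ 2 ∣ M →
      ∀ A : ValuationSubring Qb, A.LiesOverPrime q →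
        ∀ φ : Qb ≃ₐ[ℚ] Qb, A.IsFrobeniusAt φ q →
          ∃ (P : FreeAlgebra ℤ (HresIdx M (↑S : Set ℕ))) (d : ℕ),
            chig (hresT M (↑S : Set ℕ) P) ≠ 0 ∧ d ≠ 0 ∧
            ∀ (n : ℕ) (x : JZero M), lam ^ n • x = 0 →
              d • hresJ (fun l : HresIdx M (↑S : Set ℕ) => heckeOperatorBar M ⟨l.1, l.2.1⟩) P
                ((φ * φ) • ((φ * φ) • ((φ * φ) • x - q ^ 2 • x) - ((φ * φ) • x - q ^ 2 • x))
                  - ((φ * φ) • ((φ * φ) • x - q ^ 2 • x) - ((φ * φ) • x - q ^ 2 • x))) = 0 := by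
  have hlam : lam.Prime := Fact.out
  intro q hq hqlam hqM hq2 A hA φ hφ
  have : Fact q.Prime := ⟨hq⟩
  obtain ⟨M', rfl⟩ : ∃ M', M = M' * q := ⟨M / q, (Nat.div_mul_cancel hqM).symm⟩
  have hM'0 : M' ≠ 0 := by
    rintro rfl
    rw [zero_mul] at *
    exact NeZero.ne 0 rfl
  have : NeZero M' := ⟨hM'0⟩
  have hqM' : ¬ q ∣ M' := by
    rintro ⟨r, rfl⟩
    exact hq2 ⟨r, by ring⟩
  obtain ⟨a2, ha2, ⟨Hr⟩⟩ := Fermat.Agent.S18.hp9_exists_hauptRec q
  obtain ⟨a, k, haP, hak⟩ : ∃ a k : ℕ, a.Prime ∧ a2 = a ^ k := by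
    rcases ha2 with rfl | rfl
    · exact ⟨2, 2, Nat.prime_two, rfl⟩
    · exact ⟨3, 2, Nat.prime_three, rfl⟩
  subst hak
  have hM0 : ¬ q ∣ a ^ k * M' := fun h => (hq.dvd_mul.mp h).elim Hr.not_dvd hqM'
  haveI : NeZero (a ^ k * M') := ⟨Nat.mul_ne_zero Hr.pos.ne' hM'0⟩
  haveI : NeZero (a ^ k * M' * q) := ⟨Nat.mul_ne_zero (NeZero.ne _) hq.ne_zero⟩
  have hN : M' ∣ M' * q := Dvd.intro _ rfl
  have hne : M' ≠ M' * q := by
    intro h
    have h2 : M' * 1 = M' * q := by rw [mul_one]; exact h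
    exact hq.one_lt.ne (Nat.eq_of_mul_eq_mul_left (Nat.pos_of_ne_zero hM'0) h2)
  have hdvd : M' * q ∣ a ^ k * M' * q := ⟨a ^ k, by ring⟩
  obtain ⟨P, d, hd, hP, hNEW⟩ := nwm_abs hg lam S chig hchig hMS M' hN hne
    (nwf_fwd M' (↑S : Set ℕ) lam hlam.ne_zero) (fun χ' => nwt_char M' (↑S : Set ℕ) χ')
  refine ⟨P, d, hP, hd, ?_⟩
  intro n x hx
  have hDEG := hDEG M' q a k hq hqM' Hr.not_dvd haP lam hlam hqlam S hlamS hMS P d hN hdvd hNEW
  have hCORE : ∀ (n : ℕ) (y : TrcX (a ^ k * M' * q) (lam ^ n)),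
      s35pAlpha (a ^ k * M') q (y : JZero (a ^ k * M' * q)) = 0 →
      s35pBeta (a ^ k * M') q (y : JZero (a ^ k * M' * q)) = 0 →
      (trcRhoJ (a ^ k * M' * q) (lam ^ n) (φ * φ)
          - ((q ^ 2 : ℕ) : Module.End ℤ (TrcX (a ^ k * M' * q) (lam ^ n))))
        ((trcRhoJ (a ^ k * M' * q) (lam ^ n) (φ * φ) - 1)
          ((trcRhoJ (a ^ k * M' * q) (lam ^ n) (φ * φ) - 1) y)) = 0 := by
    intro n' y hyα hyβ
    refine s35tm_core_of_smul (a ^ k * M' * q) (lam ^ n') (q ^ 2) (φ * φ) y ?_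
    refine s35ac_rearr (φ * φ) (q ^ 2) (y : JZero (a ^ k * M' * q)) ?_
    have hy : lam ^ n' • (y : JZero (a ^ k * M' * q)) = 0 := by
      have h := Pic0.mem_torsion.mp y.2
      rwa [natCast_zsmul] at h
    exact hKUM (a ^ k * M') q hq hM0 (lam ^ n') (pow_ne_zero n' hlam.ne_zero) (φ * φ)
      (hFIN (a ^ k * M') q hM0 Hr (dvd_mul_right (a ^ k) M') A hA φ hφ (lam ^ n')
        (pow_ne_zero n' hlam.ne_zero)
        (Nat.Coprime.pow_left n' ((Nat.coprime_primes hlam hq).mpr hqlam.symm)))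
      (y : JZero (a ^ k * M' * q)) hy hyα hyβ
  have hxm : x ∈ Pic0.torsion Qb (modularFunctionFieldBar (M' * q)) (lam ^ n) := by
    rw [Pic0.mem_torsion, natCast_zsmul]
    exact hx
  have h := s35tm_main M' q a k haP lam hlam S hlamS P d (φ * φ) hdvd hDEG hCORE n ⟨x, hxm⟩
  have h' := congrArg Subtype.val h
  simp only [LinearMap.sub_apply, Module.End.one_apply,
    Module.End.natCast_apply, trcRhoJ_apply, AddSubgroup.coe_nsmul,
    AddSubgroup.coe_sub, JZero.coe_torsionGaloisRep_apply, ZeroMemClass.coe_zero,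
    s35t_coe_hresJ] at h'
  exact h'

/-- **S35 from the three inputs** (the frozen conclusion verbatim). -/
theorem s35ac_main
    {M : ℕ} [NeZero M] {g : CuspForm (CongruenceSubgroup.Gamma0 M) 2} (hg : g.IsNewform)
    (lam : ℕ) [Fact lam.Prime]
    (S : Finset ℕ)
    (O' : Type) [CommRing O'] [IsDomain O'] [IsDiscreteValuationRing O']
    [IsAdicComplete (IsLocalRing.maximalIdeal O') O'] [Finite (IsLocalRing.ResidueField O')]
    [CharZero O'] (hlamO' : (lam : O') ∈ IsLocalRing.maximalIdeal O')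
    (chig : CuspForm.heckeAlgebra M 2 (↑S : Set ℕ) →+* ℂ)
    (hchig : ∀ (ℓ : ℕ) (hℓ : ℓ.Prime) (hℓM : ¬ ℓ ∣ M) (hℓS : ℓ ∉ (↑S : Set ℕ)),
      chig (CuspForm.heckeAlgebra.T hℓ hℓM hℓS) = ModularFormClass.qCoeff g ℓ)
    (iota : chig.range →+* O')
    (hlamS : lam ∈ S) (hMS : ∀ q : ℕ, q.Prime → q ∣ M → q ∈ S)
    (hFIN : ∀ (M0 q : ℕ) [NeZero M0] [Fact q.Prime], ¬ q ∣ M0 → ∀ {a2 : ℕ}, HauptRec a2 q →
      a2 ∣ M0 → ∀ A : ValuationSubring Qb, A.LiesOverPrime q → ∀ φ : Qb ≃ₐ[ℚ] Qb,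
      A.IsFrobeniusAt φ q → ∀ m : ℕ, m ≠ 0 → m.Coprime q →
      ∃ T : Finset Qb, ∀ (K1 : IntermediateField ℚ Qb) [FiniteDimensional ℚ K1] [Normal ℚ K1],
        (∀ c ∈ T, c ∈ K1) → S35hCore K1 (φ * φ) M0 q m)
    (hKUM : ∀ (N q : ℕ) [NeZero N] [NeZero q], q.Prime → ¬ q ∣ N → ∀ m : ℕ, m ≠ 0 →
      ∀ σ : Qb ≃ₐ[ℚ] Qb,
      (∃ T : Finset Qb, ∀ (K1 : IntermediateField ℚ Qb) [FiniteDimensional ℚ K1] [Normal ℚ K1],
        (∀ c ∈ T, c ∈ K1) → S35hCore K1 σ N q m) →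
      ∀ y : JZero (N * q), m • y = 0 → s35pAlpha N q y = 0 → s35pBeta N q y = 0 →
        σ • (σ • σ • y - (σ • y + σ • y) + y)
          - (q ^ 2) • (σ • σ • y - (σ • y + σ • y) + y) = 0)
    (hDEG : ∀ (M' q a k : ℕ) [NeZero M'] [NeZero (M' * q)] [NeZero (a ^ k * M')] [NeZero q]
      [NeZero (a ^ k * M' * q)], q.Prime → ¬ q ∣ M' → ¬ q ∣ a ^ k → a.Prime →
      ∀ lam : ℕ, lam.Prime → q ≠ lam → ∀ S : Finset ℕ, lam ∈ S →
      (∀ r : ℕ, r.Prime → r ∣ M' * q → r ∈ S) →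
      ∀ (P : FreeAlgebra ℤ (HresIdx (M' * q) (↑S : Set ℕ))) (d : ℕ)
        (hN : M' ∣ M' * q) (hdvd : M' * q ∣ a ^ k * M' * q),
      (∀ (n : ℕ) (z : TrcX M' (lam ^ n)),
        d • hresJ (fun l : HresIdx (M' * q) (↑S : Set ℕ) =>
          trcTheta M' (lam ^ n) (↑S : Set ℕ) (nwmIdx (↑S : Set ℕ) hN l)) P z = 0) →
      ∀ (n : ℕ) (x : TrcX (M' * q) (lam ^ n)),
        s35pAlpha (a ^ k * M') q
          (Fermat.Agent.S37.lvlPullback (M' * q) (a ^ k * M' * q) hdvd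
            ((d • hresJ (trcTheta (M' * q) (lam ^ n) (↑S : Set ℕ)) P x :
              TrcX (M' * q) (lam ^ n)) : JZero (M' * q))) = 0 ∧
        s35pBeta (a ^ k * M') q
          (Fermat.Agent.S37.lvlPullback (M' * q) (a ^ k * M' * q) hdvd
            ((d • hresJ (trcTheta (M' * q) (lam ^ n) (↑S : Set ℕ)) P x :
              TrcX (M' * q) (lam ^ n)) : JZero (M' * q))) = 0) :
    ∃ (O'' : Type) (_ : CommRing O'') (_ : IsDomain O'') (_ : IsDiscreteValuationRing O'')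
      (_ : IsAdicComplete (IsLocalRing.maximalIdeal O'') O'') (_ : Finite (IsLocalRing.ResidueField O''))
      (_ : CharZero O'') (_ : Algebra O' O'') (_ : Module.Finite O' O'') (_ : IsLocalHom (algebraMap O' O'')),
      Function.Injective (algebraMap O' O'') ∧
      ∃ ρ : GaloisRepAdic O'',
        (∀ (ℓ : ℕ) (hℓ : ℓ.Prime) (hℓM : ¬ ℓ ∣ M) (hℓS : ℓ ∉ (↑S : Set ℕ)),
          ∀ A : ValuationSubring (AlgebraicClosure ℚ), A.LiesOverPrime ℓ →
            ∀ σ : AlgebraicClosure ℚ ≃ₐ[ℚ] AlgebraicClosure ℚ, A.IsFrobeniusAt σ ℓ →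
              LinearMap.charpoly (ρ.ρ σ) =
                X ^ 2 - C (algebraMap O' O'' ((iota.comp chig.rangeRestrict) (CuspForm.heckeAlgebra.T hℓ hℓM hℓS))) * X
                  + C ((ℓ : O''))) ∧
        (∀ q : ℕ, q.Prime → q ≠ lam → q ∣ M → ¬ q ^ 2 ∣ M →
          ∀ A : ValuationSubring (AlgebraicClosure ℚ), A.LiesOverPrime q →
            ∀ σ : AlgebraicClosure ℚ ≃ₐ[ℚ] AlgebraicClosure ℚ, A.IsFrobeniusAt σ q →
              LinearMap.charpoly (ρ.ρ σ) = X ^ 2 - C ((q : O'') + 1) * X + C ((q : O'')) ∨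
              LinearMap.charpoly (ρ.ρ σ) = X ^ 2 + C ((q : O'') + 1) * X + C ((q : O''))) :=
  s35asm_main lam S O' hlamO' chig iota hlamS hMS
    (s35ac_hT hg lam S chig hchig hlamS hMS hFIN hKUM hDEG)

end Fermat.Agent.S35
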