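import Mathlib

/-!
# S35 — ALG : the characteristic polynomial at a prime `q ‖ M`

`s35a_charpoly`: over a domain, a rank-2 endomorphism `M` with `det M = q` and
`trace (M * M) = 1 + q ^ 2` has characteristic polynomial `X² - (q+1) X + q` or
`X² + (q+1) X + q`.
-/

set_option autoImplicit false

namespace Fermat.Agent.S35

open Polynomial

/-- the characteristic polynomial of a rank-2 endomorphism. -/
theorem s35a_charpoly_two {T : Type*} [CommRing T] {V : Type*} [AddCommGroup V] [Module T V]
    [Module.Free T V] [Module.Finite T V] (hV : Module.finrank T V = 2) (M : Module.End T V) :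
    LinearMap.charpoly M = X ^ 2 - C (LinearMap.trace T V M) * X + C (LinearMap.det M) := by
  nontriviality T
  let b := Module.finBasisOfFinrankEq T V hV
  rw [← LinearMap.charpoly_toMatrix M b, Matrix.charpoly_fin_two,
    ← LinearMap.trace_eq_matrix_trace T b M, LinearMap.det_toMatrix b M]

/-- `trace (M²) = (trace M)² - 2 det M` in rank 2. -/
theorem s35a_trace_sq {T : Type*} [CommRing T] {V : Type*} [AddCommGroup V] [Module T V]
    [Module.Free T V] [Module.Finite T V] (hV : Module.finrank T V = 2) (M : Module.End T V) :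
    LinearMap.trace T V (M * M) =
      LinearMap.trace T V M ^ 2 - 2 * LinearMap.det M := by
  nontriviality T
  let b := Module.finBasisOfFinrankEq T V hV
  rw [LinearMap.trace_eq_matrix_trace T b (M * M), LinearMap.trace_eq_matrix_trace T b M,
    ← LinearMap.det_toMatrix b M, LinearMap.toMatrix_mul]
  generalize LinearMap.toMatrix b b M = A
  rw [Matrix.trace_fin_two, Matrix.trace_fin_two, Matrix.det_fin_two, Matrix.mul_apply,
    Matrix.mul_apply, Fin.sum_univ_two, Fin.sum_univ_two]
  ring

/-- **ALG**: `det M = q` and `trace (M * M) = 1 + q ^ 2` force the characteristic polynomial. -/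
theorem s35a_charpoly {T : Type*} [CommRing T] [IsDomain T] {V : Type*} [AddCommGroup V]
    [Module T V] [Module.Free T V] [Module.Finite T V] (hV : Module.finrank T V = 2)
    (M : Module.End T V) (q : T) (hdet : LinearMap.det M = q)
    (htr : LinearMap.trace T V (M * M) = 1 + q ^ 2) :
    LinearMap.charpoly M = X ^ 2 - C (q + 1) * X + C q ∨
      LinearMap.charpoly M = X ^ 2 + C (q + 1) * X + C q := by
  have h1 := s35a_trace_sq hV M
  rw [htr, hdet] at h1
  have h2 : (LinearMap.trace T V M - (q + 1)) * (LinearMap.trace T V M + (q + 1)) = 0 := by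
    linear_combination -h1
  rcases mul_eq_zero.1 h2 with h | h
  · left
    rw [s35a_charpoly_two hV M, hdet, sub_eq_zero.1 h]
  · right
    rw [s35a_charpoly_two hV M, hdet, eq_neg_of_add_eq_zero_left h, C_neg, neg_mul,
      sub_neg_eq_add]

/-- group-representation form: `ρ φ` with `det = q` and `trace ρ(φ²) = 1 + q²`. -/
theorem s35a_charpoly_rep {G : Type*} [Monoid G] {T : Type*} [CommRing T] [IsDomain T]
    {V : Type*} [AddCommGroup V] [Module T V] [Module.Free T V] [Module.Finite T V]
    (hV : Module.finrank T V = 2) (ρ : G →* Module.End T V) (φ : G) (q : T)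
    (hdet : LinearMap.det (ρ φ) = q)
    (htr : LinearMap.trace T V (ρ (φ ^ 2)) = 1 + q ^ 2) :
    LinearMap.charpoly (ρ φ) = X ^ 2 - C (q + 1) * X + C q ∨
      LinearMap.charpoly (ρ φ) = X ^ 2 + C (q + 1) * X + C q := by
  refine s35a_charpoly hV (ρ φ) q hdet ?_
  rw [← htr, map_pow, pow_two]

/-- the same with `φ * φ` instead of `φ ^ 2`. -/
theorem s35a_charpoly_rep' {G : Type*} [Monoid G] {T : Type*} [CommRing T] [IsDomain T]
    {V : Type*} [AddCommGroup V] [Module T V] [Module.Free T V] [Module.Finite T V]
    (hV : Module.finrank T V = 2) (ρ : G →* Module.End T V) (φ : G) (q : T)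
    (hdet : LinearMap.det (ρ φ) = q)
    (htr : LinearMap.trace T V (ρ (φ * φ)) = 1 + q ^ 2) :
    LinearMap.charpoly (ρ φ) = X ^ 2 - C (q + 1) * X + C q ∨
      LinearMap.charpoly (ρ φ) = X ^ 2 + C (q + 1) * X + C q := by
  refine s35a_charpoly hV (ρ φ) q hdet ?_
  rw [← htr, ρ.map_mul]

/-- determinant from the traces: `2 * det M = (trace M)² - trace (M²)` in rank 2. -/
theorem s35a_two_det {T : Type*} [CommRing T] {V : Type*} [AddCommGroup V] [Module T V]
    [Module.Free T V] [Module.Finite T V] (hV : Module.finrank T V = 2) (M : Module.End T V) :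
    2 * LinearMap.det M = LinearMap.trace T V M ^ 2 - LinearMap.trace T V (M * M) := by
  rw [s35a_trace_sq hV M]
  ring

end Fermat.Agent.S35
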