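import Mathlib
import Fermat.Agent.S23.Main
import Fermat.Agent.S23.HeckeFinite
import Fermat.Agent.S31.HeckeRes

/-!
# S35, leaf NEWP-IOTA: a character of the Hecke algebra has integral range, and every ring
homomorphism from that range to a domain of characteristic zero is injective

* `nwi_isIntegral`, `nwi_range_isIntegral`: the values of a ring homomorphism
  `χ : heckeAlgebra N k S →+* ℂ` are integral over `ℤ` (the Hecke algebra is a finite
  `ℤ`-module);
* `nwi_iota_injective`: every ring homomorphism `ι : χ.range →+* R` to a domain `R` of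
  characteristic zero is injective;
* `nwi_iota_ne_zero_iff`, `nwi_map_ne_zero_iff`, `nwi_hres_ne_zero_iff`: the transport
  `ι'' (ι (χ T)) ≠ 0 ↔ χ T ≠ 0`, also for `T = P(T_l)` with `P` a noncommutative polynomial in
  the good Hecke operators;
* `nwi_iota_eq_iff`, `nwi_map_eq_iff`: the same for equalities.
-/

set_option autoImplicit false

namespace Fermat.Agent.S35

open CuspForm Fermat.Agent.S31

section Integral

variable {N : ℕ} [NeZero N] {k : ℤ} {S : Set ℕ}

/-- the values of a character of the Hecke algebra are algebraic integers -/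
theorem nwi_isIntegral (χ : CuspForm.heckeAlgebra N k S →+* ℂ)
    (T : CuspForm.heckeAlgebra N k S) : IsIntegral ℤ (χ T) := by
  have : Module.Finite ℤ (CuspForm.heckeAlgebra N k S) :=
    Fermat.Agent.S23.moduleFinite_heckeAlgebra_of_hasIntegralStructure N k S
      (fun _ => Fermat.Agent.S23.hasIntegralStructure N k)
  exact (IsIntegral.of_finite ℤ T).map χ.toIntAlgHom

/-- the range of a character of the Hecke algebra is integral over `ℤ` -/
theorem nwi_range_isIntegral (χ : CuspForm.heckeAlgebra N k S →+* ℂ) (x : χ.range) :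
    IsIntegral ℤ x := by
  have : Module.Finite ℤ (CuspForm.heckeAlgebra N k S) :=
    Fermat.Agent.S23.moduleFinite_heckeAlgebra_of_hasIntegralStructure N k S
      (fun _ => Fermat.Agent.S23.hasIntegralStructure N k)
  obtain ⟨T, hT⟩ := χ.rangeRestrict_surjective x
  rw [← hT]
  exact (IsIntegral.of_finite ℤ T).map χ.rangeRestrict.toIntAlgHom

/-- **NEWP-IOTA**: every ring homomorphism from the range of a character of the Hecke algebra
to a domain of characteristic zero is injective -/
theorem nwi_iota_injective (χ : CuspForm.heckeAlgebra N k S →+* ℂ)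
    {R : Type*} [CommRing R] [IsDomain R] [CharZero R] (ι : χ.range →+* R) :
    Function.Injective ι := by
  have hint : Algebra.IsIntegral ℤ χ.range := ⟨nwi_range_isIntegral χ⟩
  rw [RingHom.injective_iff_ker_eq_bot]
  refine Ideal.eq_bot_of_comap_eq_bot (R := ℤ) ?_
  rw [eq_bot_iff]
  intro n hn
  rw [Ideal.mem_comap, RingHom.mem_ker, eq_intCast, map_intCast] at hn
  rw [Ideal.mem_bot]
  exact_mod_cast hn

/-- transport of non-vanishing along `ι` -/
theorem nwi_iota_ne_zero_iff (χ : CuspForm.heckeAlgebra N k S →+* ℂ)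
    {R : Type*} [CommRing R] [IsDomain R] [CharZero R] (ι : χ.range →+* R)
    (T : CuspForm.heckeAlgebra N k S) :
    (ι.comp χ.rangeRestrict) T ≠ 0 ↔ χ T ≠ 0 := by
  rw [RingHom.comp_apply, Ne, Ne, map_eq_zero_iff ι (nwi_iota_injective χ ι)]
  constructor
  · intro h h0
    exact h (Subtype.ext h0)
  · intro h h0
    exact h (congrArg Subtype.val h0)

/-- transport of equalities along `ι` -/
theorem nwi_iota_eq_iff (χ : CuspForm.heckeAlgebra N k S →+* ℂ)
    {R : Type*} [CommRing R] [IsDomain R] [CharZero R] (ι : χ.range →+* R)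
    (T T' : CuspForm.heckeAlgebra N k S) :
    (ι.comp χ.rangeRestrict) T = (ι.comp χ.rangeRestrict) T' ↔ χ T = χ T' := by
  rw [RingHom.comp_apply, RingHom.comp_apply, (nwi_iota_injective χ ι).eq_iff]
  constructor
  · intro h
    exact congrArg Subtype.val h
  · intro h
    exact Subtype.ext h

/-- transport of non-vanishing along `ι` followed by an injective extension of scalars -/
theorem nwi_map_ne_zero_iff (χ : CuspForm.heckeAlgebra N k S →+* ℂ)
    {R : Type*} [CommRing R] [IsDomain R] [CharZero R] (ι : χ.range →+* R)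
    {R' : Type*} [CommRing R'] [Algebra R R'] (hinj : Function.Injective (algebraMap R R'))
    (T : CuspForm.heckeAlgebra N k S) :
    algebraMap R R' ((ι.comp χ.rangeRestrict) T) ≠ 0 ↔ χ T ≠ 0 := by
  rw [Ne, map_eq_zero_iff _ hinj]
  exact nwi_iota_ne_zero_iff χ ι T

/-- transport of equalities along `ι` followed by an injective extension of scalars -/
theorem nwi_map_eq_iff (χ : CuspForm.heckeAlgebra N k S →+* ℂ)
    {R : Type*} [CommRing R] [IsDomain R] [CharZero R] (ι : χ.range →+* R)
    {R' : Type*} [CommRing R'] [Algebra R R'] (hinj : Function.Injective (algebraMap R R'))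
    (T T' : CuspForm.heckeAlgebra N k S) :
    algebraMap R R' ((ι.comp χ.rangeRestrict) T) = algebraMap R R' ((ι.comp χ.rangeRestrict) T')
      ↔ χ T = χ T' := by
  rw [hinj.eq_iff]
  exact nwi_iota_eq_iff χ ι T T'

end Integral

section Hres

variable {N : ℕ} [NeZero N] {S : Set ℕ}

/-- the transport for `T = P(T_l)`, `P` a noncommutative polynomial in the good Hecke
operators: `ι'' (ι (χ (P(T)))) ≠ 0 ↔ χ (P(T)) ≠ 0` -/
theorem nwi_hres_ne_zero_iff (χ : CuspForm.heckeAlgebra N 2 S →+* ℂ)
    {R : Type*} [CommRing R] [IsDomain R] [CharZero R] (ι : χ.range →+* R)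
    {R' : Type*} [CommRing R'] [Algebra R R'] (hinj : Function.Injective (algebraMap R R'))
    (P : FreeAlgebra ℤ (HresIdx N S)) :
    algebraMap R R' ((ι.comp χ.rangeRestrict) (hresT N S P)) ≠ 0 ↔ χ (hresT N S P) ≠ 0 :=
  nwi_map_ne_zero_iff χ ι hinj _

end Hres

end Fermat.Agent.S35
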