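import Fermat.Agent.S35.PushLevelAbs
import Fermat.Agent.S35.Push
import Fermat.Agent.S37.LevelUp
import Fermat.Agent.S37.HeckeDeg

/-!
# S35 — DEG-LEVEL at the modular function fields (generic square)

`psq_square`: for `ℚ̄`-embeddings `a : F_N → F_M`, `a' : F_N' → F_M'` and the level inclusions
`F_N → F_N'`, `F_M → F_M'`, if the norms agree on `F_M` then on torsion classes
`a'_* ∘ π^* = π'^* ∘ a_*` (`s35pPush` = push-forward, `lvlPullback` = pull-back).

`psq_alpha`, `psq_beta`: the instances for `s35pAlpha`, `s35pBeta`, with the norm squares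
(`hkdNorm`, `hkdNormBeta`) as hypotheses.
-/

set_option autoImplicit false
set_option linter.unusedSectionVars false
set_option linter.style.haveILetI false

open AlgebraicCurve ModularCurve Fermat.Agent.S37

namespace Fermat.Agent.S35

local notation "Qb" => AlgebraicClosure ℚ

/-- the norm along `φ : F_N → F_M`. -/
noncomputable def psqNorm (N M : ℕ) [NeZero N] [NeZero M]
    (φ : ↥(modularFunctionFieldBar N) →ₐ[Qb] ↥(modularFunctionFieldBar M)) :
    ↥(modularFunctionFieldBar M) →* ↥(modularFunctionFieldBar N) :=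
  letI := algebraAlong φ
  Algebra.norm ↥(modularFunctionFieldBar N)

theorem psqNorm_alpha (M ℓ : ℕ) [NeZero M] [NeZero ℓ] :
    psqNorm M (M * ℓ) (heckeAlphaBar Qb M ℓ) = hkdNorm M ℓ := rfl

theorem psqNorm_beta (M ℓ : ℕ) [NeZero M] [NeZero ℓ] :
    psqNorm M (M * ℓ) (heckeBetaBar Qb M ℓ) = hkdNormBeta M ℓ := rfl

/-- **DEG-LEVEL (generic square)**: `a'_* (π^* x) = π'^* (a_* x)` for torsion `x`. -/
theorem psq_square (N M N' M' : ℕ) [NeZero N] [NeZero M] [NeZero N'] [NeZero M']
    (a : ↥(modularFunctionFieldBar N) →ₐ[Qb] ↥(modularFunctionFieldBar M))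
    (a' : ↥(modularFunctionFieldBar N') →ₐ[Qb] ↥(modularFunctionFieldBar M'))
    (hN : N ∣ N') (hM : M ∣ M')
    (hsq : ∀ f : ↥(modularFunctionFieldBar M),
      psqNorm N' M' a' (lvlIncl M M' hM f) = lvlIncl N N' hN (psqNorm N M a f))
    (m : ℕ) (hm : m ≠ 0) (x : JZero M) (hx : m • x = 0) :
    s35pPush N' M' a' (lvlPullback M M' hM x) = lvlPullback N N' hN (s35pPush N M a x) := by
  letI iEF := algebraAlong a
  haveI := isScalarTower_along a
  letI iE'F' := algebraAlong a'
  haveI := isScalarTower_along a'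
  letI iEE' := algebraAlong (lvlIncl N N' hN)
  haveI := isScalarTower_along (lvlIncl N N' hN)
  haveI := isIntegral_along (lvlIncl N N' hN) (lvlIncl_isIntegral N N' hN)
  letI iFF' := algebraAlong (lvlIncl M M' hM)
  haveI := isScalarTower_along (lvlIncl M M' hM)
  haveI := isIntegral_along (lvlIncl M M' hM) (lvlIncl_isIntegral M M' hM)
  haveI := hki_hasPrincipalDivisors N'
  haveI := hki_hasPrincipalDivisors M'
  haveI : FundamentalIdentity Qb ↥(modularFunctionFieldBar N) ↥(modularFunctionFieldBar N') :=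
    lvlIncl_FI N N' hN
  haveI : FundamentalIdentity Qb ↥(modularFunctionFieldBar M) ↥(modularFunctionFieldBar M') :=
    lvlIncl_FI M M' hM
  haveI : Module.Finite ↥(modularFunctionFieldBar N) ↥(modularFunctionFieldBar M) :=
    hki_finiteAlong N M a
  haveI : Module.Finite ↥(modularFunctionFieldBar N') ↥(modularFunctionFieldBar M') :=
    hki_finiteAlong N' M' a'
  exact pla_abs (K := Qb) (E := ↥(modularFunctionFieldBar N)) (F := ↥(modularFunctionFieldBar M))
    (E' := ↥(modularFunctionFieldBar N')) (F' := ↥(modularFunctionFieldBar M'))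
    (hki_normFormulaAlong N M a (hki_finiteAlong N M a))
    (hki_normFormulaAlong N' M' a' (hki_finiteAlong N' M' a')) hsq m hm x hx

/-- **DEG-LEVEL for `α_*`**, the norm square as a hypothesis. -/
theorem psq_alpha (N N' q : ℕ) [NeZero N] [NeZero N'] [NeZero q]
    (h : N ∣ N') (h' : N * q ∣ N' * q)
    (hsq : ∀ f : ↥(modularFunctionFieldBar (N * q)),
      hkdNorm N' q (lvlIncl (N * q) (N' * q) h' f) = lvlIncl N N' h (hkdNorm N q f))
    (m : ℕ) (hm : m ≠ 0) (x : JZero (N * q)) (hx : m • x = 0) :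
    s35pAlpha N' q (lvlPullback (N * q) (N' * q) h' x) =
      lvlPullback N N' h (s35pAlpha N q x) :=
  psq_square N (N * q) N' (N' * q) (heckeAlphaBar Qb N q) (heckeAlphaBar Qb N' q) h h' hsq
    m hm x hx

/-- **DEG-LEVEL for `β_*`**, the norm square as a hypothesis. -/
theorem psq_beta (N N' q : ℕ) [NeZero N] [NeZero N'] [NeZero q]
    (h : N ∣ N') (h' : N * q ∣ N' * q)
    (hsq : ∀ f : ↥(modularFunctionFieldBar (N * q)),
      hkdNormBeta N' q (lvlIncl (N * q) (N' * q) h' f) = lvlIncl N N' h (hkdNormBeta N q f))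
    (m : ℕ) (hm : m ≠ 0) (x : JZero (N * q)) (hx : m • x = 0) :
    s35pBeta N' q (lvlPullback (N * q) (N' * q) h' x) =
      lvlPullback N N' h (s35pBeta N q x) :=
  psq_square N (N * q) N' (N' * q) (heckeBetaBar Qb N q) (heckeBetaBar Qb N' q) h h' hsq
    m hm x hx

end Fermat.Agent.S35
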