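import Fermat.Agent.S35.Transfer
import Fermat.Agent.S35.TorsMain
import Fermat.Agent.S35.NewMain
import Fermat.Agent.S35.NewIota
import Fermat.Agent.S35.NewFwd
import Fermat.Agent.S35.NewEigTop
import Fermat.Agent.S35.PushGal
import Fermat.Agent.S35.PushSquare
import Fermat.Agent.S35.HCoreDef
import Fermat.Agent.S29.CompareGenMain
import Fermat.Agent.S18.Haupt9Rec

/-!
# S35, final assembly, auxiliary part (all inputs are landed theorems)

* `s35cl_core_of_kum` : the class form of the geometric core (`s35k_main`) gives the hypothesis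
  `hCORE` of `s35tm_main_end`;
* `s35cl_deg` : the hypothesis `hDEG` of `s35tm_main_end` (the two degeneracy push-forwards kill
  `π^*(d • P(T) x)`), from `pgl_alpha_hecke` / `pgl_beta_hecke` (the push-forwards commute with
  the Hecke operators on torsion), `psq_alpha` / `psq_beta` (base change along the level raising;
  the two norm squares are hypotheses) and the vanishing of `d • P(T)` at the lower level;
* `s35cl_new` : the Hecke polynomial of a newform (`nwm_abs` with `nwf_fwd` and `nwt_char`).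
-/

set_option autoImplicit false

open ModularCurve AlgebraicCurve Polynomial CuspForm

namespace Fermat.Agent.S35

open Fermat.Agent.S29 Fermat.Agent.S30 Fermat.Agent.S31 Fermat.Agent.S34 Fermat.Agent.S37

local notation "Qb" => AlgebraicClosure ℚ

/-! ### Bridge for (CORE) -/

/-- Bridge for (CORE) from the class form of `s35k_main`. -/
theorem s35cl_core_of_kum (N : ℕ) [NeZero N] (m c : ℕ) (σ : Qb ≃ₐ[ℚ] Qb) (y : TrcX N m)
    (H : σ • (σ • σ • (y : JZero N) - (σ • (y : JZero N) + σ • (y : JZero N)) + (y : JZero N))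
      - c • (σ • σ • (y : JZero N) - (σ • (y : JZero N) + σ • (y : JZero N)) + (y : JZero N))
        = 0) :
    (trcRhoJ N m σ - (c : Module.End ℤ (TrcX N m)))
      ((trcRhoJ N m σ - 1) ((trcRhoJ N m σ - 1) y)) = 0 := by
  refine s35tm_core_of_smul N m c σ y ?_
  have e : σ • (σ • (y : JZero N) - (y : JZero N)) - (σ • (y : JZero N) - (y : JZero N))
      = σ • σ • (y : JZero N) - (σ • (y : JZero N) + σ • (y : JZero N)) + (y : JZero N) := by
    rw [smul_sub]
    abel
  rw [e]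
  exact H

/-! ### The degeneracy maps on the torsion and the Hecke polynomials -/

/-- restriction of an additive map `J₀(A) → J₀(B)` to the `m`-torsion, as a `ℤ`-linear map -/
noncomputable def s35clTors {A B : ℕ} (f : JZero A →+ JZero B) (m : ℕ) : TrcX A m →ₗ[ℤ] TrcX B m :=
  ((f.comp (Pic0.torsion Qb (modularFunctionFieldBar A) m).subtype).codRestrict
    (Pic0.torsion Qb (modularFunctionFieldBar B) m) (fun x => by
      rw [Pic0.mem_torsion]
      show (m : ℤ) • f (x : JZero A) = 0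
      rw [← map_zsmul, Pic0.mem_torsion.mp x.2, map_zero])).toIntLinearMap

theorem s35cl_tors_coe {A B : ℕ} (f : JZero A →+ JZero B) (m : ℕ) (x : TrcX A m) :
    ((s35clTors f m x : TrcX B m) : JZero B) = f (x : JZero A) :=
  rfl

/-- an additive map intertwining two families of operators intertwines their polynomials -/
theorem s35cl_lift_comm {I : Type*} {X Y : Type*} [AddCommGroup X] [AddCommGroup Y]
    (T : I → Module.End ℤ X) (T' : I → Module.End ℤ Y) (f : X →ₗ[ℤ] Y)
    (h : ∀ (i : I) (x : X), f (T i x) = T' i (f x)) (P : FreeAlgebra ℤ I) :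
    ∀ x : X, f (FreeAlgebra.lift ℤ T P x) = FreeAlgebra.lift ℤ T' P (f x) := by
  induction P using FreeAlgebra.induction with
  | grade0 r =>
    intro x
    rw [AlgHom.commutes, AlgHom.commutes, Algebra.algebraMap_eq_smul_one,
      Algebra.algebraMap_eq_smul_one, LinearMap.smul_apply, LinearMap.smul_apply,
      Module.End.one_apply, Module.End.one_apply, map_zsmul]
  | grade1 i =>
    intro x
    rw [FreeAlgebra.lift_ι_apply, FreeAlgebra.lift_ι_apply]
    exact h i x
  | mul a b ha hb =>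
    intro x
    rw [map_mul, map_mul, Module.End.mul_apply, Module.End.mul_apply, ha, hb]
  | add a b ha hb =>
    intro x
    rw [map_add, map_add, LinearMap.add_apply, LinearMap.add_apply, map_add, ha, hb]

/-- **DEG.** -/
theorem s35cl_deg (M' q : ℕ) [NeZero M'] [NeZero (M' * q)] (a k : ℕ)
    [NeZero (a ^ k * M')] [NeZero q] [NeZero (a ^ k * M' * q)]
    (lam : ℕ) (hlam : lam.Prime) (S : Finset ℕ) (hlamS : lam ∈ S)
    (P : FreeAlgebra ℤ (HresIdx (M' * q) (↑S : Set ℕ))) (d : ℕ)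
    (hN : M' ∣ M' * q) (h : M' ∣ a ^ k * M') (hdvd : M' * q ∣ a ^ k * M' * q)
    (hsqα : ∀ f : ↥(modularFunctionFieldBar (M' * q)),
      hkdNorm (a ^ k * M') q (lvlIncl (M' * q) (a ^ k * M' * q) hdvd f)
        = lvlIncl M' (a ^ k * M') h (hkdNorm M' q f))
    (hsqβ : ∀ f : ↥(modularFunctionFieldBar (M' * q)),
      hkdNormBeta (a ^ k * M') q (lvlIncl (M' * q) (a ^ k * M' * q) hdvd f)
        = lvlIncl M' (a ^ k * M') h (hkdNormBeta M' q f))
    (hNEW : ∀ (n : ℕ) (z : TrcX M' (lam ^ n)),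
      d • hresJ (fun l : HresIdx (M' * q) (↑S : Set ℕ) =>
        trcTheta M' (lam ^ n) (↑S : Set ℕ) (nwmIdx (↑S : Set ℕ) hN l)) P z = 0)
    (n : ℕ) (x : TrcX (M' * q) (lam ^ n)) :
    s35pAlpha (a ^ k * M') q
        (lvlPullback (M' * q) (a ^ k * M' * q) hdvd
          ((d • hresJ (trcTheta (M' * q) (lam ^ n) (↑S : Set ℕ)) P x :
            TrcX (M' * q) (lam ^ n)) : JZero (M' * q))) = 0 ∧
      s35pBeta (a ^ k * M') q
        (lvlPullback (M' * q) (a ^ k * M' * q) hdvd
          ((d • hresJ (trcTheta (M' * q) (lam ^ n) (↑S : Set ℕ)) P x :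
            TrcX (M' * q) (lam ^ n)) : JZero (M' * q))) = 0 := by
  have hm : lam ^ n ≠ 0 := pow_ne_zero n hlam.ne_zero
  have hS : ∀ l : HresIdx (M' * q) (↑S : Set ℕ), ¬ l.1 ∣ M' * q * lam ^ n := fun l =>
    trc_not_dvd hlam l.2.1 l.2.2.1 (fun hl => l.2.2.2 (by rw [hl]; exact Finset.mem_coe.mpr hlamS)) n
  set x' : TrcX (M' * q) (lam ^ n) := d • hresJ (trcTheta (M' * q) (lam ^ n) (↑S : Set ℕ)) P x
    with hx'
  have hx't : lam ^ n • (x' : JZero (M' * q)) = 0 := by
    have h1 := Pic0.mem_torsion.mp x'.2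
    rwa [natCast_zsmul] at h1
  -- the two push-forwards of `x'` vanish
  have key : ∀ f : JZero (M' * q) →+ JZero M',
      (∀ (l : ℕ) (hl : l.Prime), ¬ l ∣ M' * q * lam ^ n → ∀ z : JZero (M' * q),
        lam ^ n • z = 0 → f (heckeOperatorBar (M' * q) ⟨l, hl⟩ z)
          = heckeOperatorBar M' ⟨l, hl⟩ (f z)) → f (x' : JZero (M' * q)) = 0 := by
    intro f hf
    have h1 : ∀ (l : HresIdx (M' * q) (↑S : Set ℕ)) (z : TrcX (M' * q) (lam ^ n)),
        s35clTors f (lam ^ n) (trcTheta (M' * q) (lam ^ n) (↑S : Set ℕ) l z)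
          = trcTheta M' (lam ^ n) (↑S : Set ℕ) (nwmIdx (↑S : Set ℕ) hN l)
            (s35clTors f (lam ^ n) z) := by
      intro l z
      refine Subtype.ext ?_
      have hz : lam ^ n • (z : JZero (M' * q)) = 0 := by
        have h1 := Pic0.mem_torsion.mp z.2
        rwa [natCast_zsmul] at h1
      exact hf l.1 l.2.1 (hS l) (z : JZero (M' * q)) hz
    have h2 := s35cl_lift_comm (trcTheta (M' * q) (lam ^ n) (↑S : Set ℕ))
      (fun l : HresIdx (M' * q) (↑S : Set ℕ) =>
        trcTheta M' (lam ^ n) (↑S : Set ℕ) (nwmIdx (↑S : Set ℕ) hN l))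
      (s35clTors f (lam ^ n)) h1 P x
    have h3 : s35clTors f (lam ^ n) x' = 0 := by
      rw [hx', map_nsmul]
      show d • s35clTors f (lam ^ n) (hresJ (trcTheta (M' * q) (lam ^ n) (↑S : Set ℕ)) P x) = 0
      have h4 : s35clTors f (lam ^ n) (hresJ (trcTheta (M' * q) (lam ^ n) (↑S : Set ℕ)) P x)
          = hresJ (fun l : HresIdx (M' * q) (↑S : Set ℕ) =>
            trcTheta M' (lam ^ n) (↑S : Set ℕ) (nwmIdx (↑S : Set ℕ) hN l)) P
              (s35clTors f (lam ^ n) x) := h2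
      rw [h4]
      exact hNEW n _
    have h5 := congrArg Subtype.val h3
    rw [s35cl_tors_coe] at h5
    exact h5
  constructor
  · rw [psq_alpha M' (a ^ k * M') q h hdvd hsqα (lam ^ n) hm _ hx't,
      key (s35pAlpha M' q) (fun l hl hlm z hz => pgl_alpha_hecke M' q (lam ^ n) l hl hlm z hz),
      map_zero]
  · rw [psq_beta M' (a ^ k * M') q h hdvd hsqβ (lam ^ n) hm _ hx't,
      key (s35pBeta M' q) (fun l hl hlm z hz => pgl_beta_hecke M' q (lam ^ n) l hl hlm z hz),
      map_zero]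

/-- NEWP-MAIN, closed form. -/
theorem s35cl_new {M : ℕ} [NeZero M] {g : CuspForm (CongruenceSubgroup.Gamma0 M) 2}
    (hg : g.IsNewform) (lam : ℕ) (hlam : lam.Prime) (S : Finset ℕ)
    (chig : heckeAlgebra M 2 (↑S : Set ℕ) →+* ℂ)
    (hchig : ∀ (ℓ : ℕ) (hℓ : ℓ.Prime) (hℓM : ¬ ℓ ∣ M) (hℓS : ℓ ∉ (↑S : Set ℕ)),
      chig (heckeAlgebra.T hℓ hℓM hℓS) = ModularFormClass.qCoeff g ℓ)
    (hMS : ∀ q : ℕ, q.Prime → q ∣ M → q ∈ S)
    (N' : ℕ) [NeZero N'] (hN : N' ∣ M) (hne : N' ≠ M) :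
    ∃ (P : FreeAlgebra ℤ (HresIdx M (↑S : Set ℕ))) (d : ℕ), d ≠ 0 ∧
      chig (hresT M (↑S : Set ℕ) P) ≠ 0 ∧
      ∀ (n : ℕ) (x : TrcX N' (lam ^ n)),
        d • hresJ (fun l : HresIdx M (↑S : Set ℕ) =>
          trcTheta N' (lam ^ n) (↑S : Set ℕ) (nwmIdx (↑S : Set ℕ) hN l)) P x = 0 :=
  nwm_abs hg lam S chig hchig hMS N' hN hne (nwf_fwd N' (↑S : Set ℕ) lam hlam.ne_zero)
    (fun χ' => nwt_char N' (↑S : Set ℕ) χ')

end Fermat.Agent.S35
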