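/-
S35, sub-step of CORE-ABS: the local datum (ideal form) at a closed point of a chart lying off
the first component, by transfer along the swap `w` from the centre on another chart (the
analogue for J-data of `s34ib_loc_off`).  Prefix `s35co_`.
-/
import Mathlib
import Fermat.Agent.S34.InstAbs2
import Fermat.Agent.S35.CorePt

set_option autoImplicit false
set_option linter.unusedSectionVars false

namespace Fermat.Agent.S35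

open Fermat.Agent.S18 Fermat.Agent.S34

section Off

variable {A F : Type*} [CommRing A] [Field F] [Algebra A F]

/-- A closed point of `O` lying off the first component (some `r ∈ 𝔪_{V₁} ∩ O` is not in `𝔫`)
and containing `τ` lies on the second component. -/
theorem s35co_on_second (τ : A) (O : Subalgebra A F) (V₁ V₂ : ValuationSubring F)
    (hOV : ∀ x ∈ O, x ∈ V₁ ∧ x ∈ V₂)
    (hVτ : ∀ x ∈ O, x ∈ V₁.nonunits → x ∈ V₂.nonunits → ∃ y ∈ O, x = algebraMap A F τ * y)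
    (𝔫 : Ideal ↥O) [h𝔫 : 𝔫.IsPrime] (hτ𝔫 : algebraMap A ↥O τ ∈ 𝔫)
    (r : ↥O) (hr : (r : F) ∈ V₁.nonunits) (hr𝔫 : r ∉ 𝔫) :
    ∀ y : ↥O, (y : F) ∈ V₂.nonunits → y ∈ 𝔫 := by
  intro y hy
  obtain ⟨z, hz, hzy⟩ := hVτ ((r : F) * (y : F)) (O.mul_mem r.2 y.2)
    (s35pt_nu_mul V₁ hr (hOV y y.2).1)
    (s35pt_nu_mul' V₂ (hOV r r.2).2 hy)
  have hry : r * y ∈ 𝔫 := by
    have : r * y = algebraMap A ↥O τ * ⟨z, hz⟩ := Subtype.ext hzy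
    rw [this]
    exact 𝔫.mul_mem_right _ hτ𝔫
  exact (h𝔫.mem_or_mem hry).resolve_left hr𝔫

/-- **Off the first component.**  The local datum in ideal form for `w W'` at a closed point
`𝔫` of the chart `O` lying off the first component, from the one-sided local data for `W'` at
the closed points of the chart `O'` lying on the first component, when `w` maps `O'` into the
local ring of `O` at `𝔫`. -/
theorem s35co_off (τ : A) (O O' : Subalgebra A F) (w : F ≃+* F)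
    (hwA : ∀ a : A, w (algebraMap A F a) = algebraMap A F a)
    (V₁ V₂ : ValuationSubring F) (hOV : ∀ x ∈ O, x ∈ V₁ ∧ x ∈ V₂)
    (hVτ : ∀ x ∈ O, x ∈ V₁.nonunits → x ∈ V₂.nonunits → ∃ y ∈ O, x = algebraMap A F τ * y)
    (hwV : ∀ x ∈ V₁.nonunits, w x ∈ V₂.nonunits)
    (hτgen₁ : ∀ x ∈ V₁.nonunits, x * (algebraMap A F τ)⁻¹ ∈ V₁)
    (hτgen₂ : ∀ x ∈ V₂.nonunits, x * (algebraMap A F τ)⁻¹ ∈ V₂)
    (m : ℕ) (hm : 0 < m) (W' : F) (hW0 : W' ≠ 0) (hWo : (w W')⁻¹ ∈ V₁)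
    (hdat' : ∀ 𝔫' : Ideal ↥O', 𝔫'.IsMaximal →
      (∀ x : ↥O', (x : F) ∈ V₁.nonunits → x ∈ 𝔫') → ∀ c : ℕ,
      ∃ y₀ : F, (∃ a s : ↥O', s ∉ 𝔫' ∧ y₀ ^ m * W' ^ c * (s : F) = (a : F)) ∧
        y₀ - 1 ∈ V₁.nonunits)
    (𝔫 : Ideal ↥O) (h𝔫 : 𝔫.IsMaximal) (hτ𝔫 : algebraMap A ↥O τ ∈ 𝔫)
    (hoff : ∃ r : ↥O, (r : F) ∈ V₁.nonunits ∧ r ∉ 𝔫)
    (hdom : ∀ x : ↥O', ∃ a s : ↥O, s ∉ 𝔫 ∧ w (x : F) * (s : F) = a) (c : ℕ) :
    ∃ x : ↥O, x ∉ 𝔫 ∧ ∃ y : F, y ^ m * (w W') ^ c ∈ O ∧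
      (y - (x : F)) * (algebraMap A F τ)⁻¹ ∈ V₁ ∧
      (y - (x : F)) * (algebraMap A F τ)⁻¹ ∈ V₂ := by
  have hprime : 𝔫.IsPrime := h𝔫.isPrime
  obtain ⟨r, hr, hr𝔫⟩ := hoff
  have hp₂ := s35co_on_second τ O V₁ V₂ hOV hVτ 𝔫 hτ𝔫 r hr hr𝔫
  obtain ⟨𝔫', htop, -, hp₁', hunit⟩ := s34ib_centre τ O O' w hwA V₁ V₂
    (fun x hx => (hOV x hx).2) hwV 𝔫 hτ𝔫 hp₂ hdom
  obtain ⟨𝔫'', hmax, hle⟩ := Ideal.exists_le_maximal 𝔫' htop
  have hprime'' : 𝔫''.IsPrime := hmax.isPrime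
  obtain ⟨y₀, hy₀, hy₀1⟩ := hdat' 𝔫'' hmax (fun x hx => hle (hp₁' x hx)) c
  have ht := s35pt_transfer O O' w 𝔫 𝔫'' hdom
    (fun x hx => hunit x (fun hx' => hx (hle hx'))) V₂ V₁ hwV m c W' y₀ hy₀ hy₀1
  have hwW0 : w W' ≠ 0 := (map_ne_zero w).2 hW0
  obtain ⟨x, hx, y, hy, h2, h1⟩ := s35pt_j_of_dat τ O 𝔫 V₂ V₁ (fun x hx => (hOV x hx).2)
    (fun x hx => (hOV x hx).1) hτgen₂ hτgen₁ r hr hr𝔫 m hm (w W') hwW0 hWo c (w y₀) ht.1 ht.2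
  exact ⟨x, hx, y, hy, h1, h2⟩

end Off

end Fermat.Agent.S35
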