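import Fermat.Agent.S35.PushGal
import Fermat.Agent.S35.PushSquare
import Fermat.Agent.S35.NewMain

/-!
# S35, DEG-MAIN: the Hecke polynomial of newness lands in the kernel of the degeneracy maps

Let `P` be a noncommutative polynomial in the Hecke operators `T_l` (`l` a prime not dividing
`N q`, `l ∉ S`) and `d` a natural number such that `d • P(T)` kills the `p`-power torsion of
`J₀(N)` (the output of NEWP-MAIN at the level `N' = N`).  Then for every `p`-power torsion class
`x` of `J₀(N q)` the class `z = d • P(T) x` satisfies `α_* z = 0 = β_* z`.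

* `dgm_lift_comm`: an additive map intertwining two families of endomorphisms on `m`-torsion
  intertwines all noncommutative polynomials in them on `m`-torsion;
* `dgm_alpha_poly`, `dgm_beta_poly`: `α_* P(T) = P(T) α_*`, `β_* P(T) = P(T) β_*` on torsion;
* `dgm_coe_hresJ`: noncommutative Hecke polynomials on the torsion type and on `J₀(N)`;
* `dgm_main`: the seam at the levels `N q → N`;
* `dgm_deg`: the hypothesis `hDEG` of `s35tm_main` (TORS-MAIN), verbatim: the pull-back of
  `d • P(T) x` to the level `a ^ k * M' * q` is killed by both degeneracy push-forwards to the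
  level `a ^ k * M'` (the two norm squares of DEG-LEVEL as hypotheses).
-/

set_option autoImplicit false
set_option linter.unusedSectionVars false
set_option linter.unusedVariables false

open AlgebraicCurve ModularCurve

namespace Fermat.Agent.S35

open Fermat.Agent.S31 Fermat.Agent.S29

local notation "Qb" => AlgebraicClosure ℚ

/-- An additive map intertwining two families of endomorphisms on the `m`-torsion intertwines
all noncommutative polynomials in them on the `m`-torsion. -/
theorem dgm_lift_comm {I : Type*} {X Y : Type*} [AddCommGroup X] [AddCommGroup Y] (a : X →+ Y)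
    (TX : I → Module.End ℤ X) (TY : I → Module.End ℤ Y) (m : ℕ)
    (h : ∀ i z, m • z = 0 → a (TX i z) = TY i (a z)) (P : FreeAlgebra ℤ I) :
    ∀ z : X, m • z = 0 → a (FreeAlgebra.lift ℤ TX P z) = FreeAlgebra.lift ℤ TY P (a z) := by
  refine FreeAlgebra.induction ℤ I ?_ ?_ ?_ ?_ P
  · intro r z _
    rw [AlgHom.commutes, AlgHom.commutes, Algebra.algebraMap_eq_smul_one,
      Algebra.algebraMap_eq_smul_one, LinearMap.smul_apply, LinearMap.smul_apply,
      Module.End.one_apply, Module.End.one_apply, map_zsmul]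
  · intro i z hz
    rw [FreeAlgebra.lift_ι_apply, FreeAlgebra.lift_ι_apply]
    exact h i z hz
  · intro b c hb hc z hz
    have hcz : m • (FreeAlgebra.lift ℤ TX c z) = 0 := by
      rw [← map_nsmul, hz, map_zero]
    rw [map_mul, map_mul, Module.End.mul_apply, Module.End.mul_apply, hb _ hcz, hc z hz]
  · intro b c hb hc z hz
    rw [map_add, map_add, LinearMap.add_apply, LinearMap.add_apply, map_add, hb z hz, hc z hz]

/-- noncommutative polynomials in the Hecke operators preserve torsion -/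
theorem dgm_lift_torsion {I : Type*} {X : Type*} [AddCommGroup X] (TX : I → Module.End ℤ X)
    (m : ℕ) (P : FreeAlgebra ℤ I) (z : X) (hz : m • z = 0) :
    m • (FreeAlgebra.lift ℤ TX P z) = 0 := by
  rw [← map_nsmul, hz, map_zero]

section poly

variable (N q : ℕ) [NeZero N] [NeZero q] [NeZero (N * q)] (S : Set ℕ)

/-- **`α_* P(T) = P(T) α_*` on `m`-torsion**, for a noncommutative polynomial `P` in the Hecke
operators at primes not dividing `N q m`. -/
theorem dgm_alpha_poly (m : ℕ) (hm : ∀ l : HresIdx (N * q) S, ¬ l.1 ∣ N * q * m)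
    (P : FreeAlgebra ℤ (HresIdx (N * q) S)) (z : JZero (N * q)) (hz : m • z = 0) :
    s35pAlpha N q
        (hresJ (fun l : HresIdx (N * q) S => heckeOperatorBar (N * q) ⟨l.1, l.2.1⟩) P z) =
      hresJ (fun l : HresIdx (N * q) S => heckeOperatorBar N ⟨l.1, l.2.1⟩) P
        (s35pAlpha N q z) :=
  dgm_lift_comm (s35pAlpha N q) _ _ m
    (fun l y hy => pgl_alpha_hecke N q m l.1 l.2.1 (hm l) y hy) P z hz

/-- **`β_* P(T) = P(T) β_*` on `m`-torsion**. -/
theorem dgm_beta_poly (m : ℕ) (hm : ∀ l : HresIdx (N * q) S, ¬ l.1 ∣ N * q * m)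
    (P : FreeAlgebra ℤ (HresIdx (N * q) S)) (z : JZero (N * q)) (hz : m • z = 0) :
    s35pBeta N q
        (hresJ (fun l : HresIdx (N * q) S => heckeOperatorBar (N * q) ⟨l.1, l.2.1⟩) P z) =
      hresJ (fun l : HresIdx (N * q) S => heckeOperatorBar N ⟨l.1, l.2.1⟩) P
        (s35pBeta N q z) :=
  dgm_lift_comm (s35pBeta N q) _ _ m
    (fun l y hy => pgl_beta_hecke N q m l.1 l.2.1 (hm l) y hy) P z hz

end poly

/-- noncommutative Hecke polynomials (indexed by the good primes of level `N q`) on the torsion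
type `TrcX N m` and on `J₀(N)` -/
theorem dgm_coe_hresJ (N q m : ℕ) [NeZero N] (S : Set ℕ)
    (P : FreeAlgebra ℤ (HresIdx (N * q) S)) :
    ∀ x : TrcX N m,
      ((hresJ (fun l : HresIdx (N * q) S =>
          trcTheta N m S (nwmIdx S (dvd_mul_right N q) l)) P x : TrcX N m) : JZero N) =
        hresJ (fun l : HresIdx (N * q) S => heckeOperatorBar N ⟨l.1, l.2.1⟩) P (x : JZero N) := by
  refine FreeAlgebra.induction ℤ (HresIdx (N * q) S) ?_ ?_ ?_ ?_ P
  · intro r x
    rw [AlgHom.commutes, AlgHom.commutes, Algebra.algebraMap_eq_smul_one,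
      Algebra.algebraMap_eq_smul_one, LinearMap.smul_apply, LinearMap.smul_apply,
      Module.End.one_apply, Module.End.one_apply]
    rfl
  · intro l x
    rw [hresJ_ι, hresJ_ι, trcTheta_apply]
    rfl
  · intro a b ha hb x
    rw [map_mul, map_mul, Module.End.mul_apply, Module.End.mul_apply, ha, hb]
  · intro a b ha hb x
    have e1 : hresJ (fun l : HresIdx (N * q) S =>
        trcTheta N m S (nwmIdx S (dvd_mul_right N q) l)) (a + b) x =
        hresJ (fun l : HresIdx (N * q) S =>
          trcTheta N m S (nwmIdx S (dvd_mul_right N q) l)) a x +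
        hresJ (fun l : HresIdx (N * q) S =>
          trcTheta N m S (nwmIdx S (dvd_mul_right N q) l)) b x := by
      rw [map_add, LinearMap.add_apply]
    have e2 : hresJ (fun l : HresIdx (N * q) S => heckeOperatorBar N ⟨l.1, l.2.1⟩) (a + b)
        (x : JZero N) =
        hresJ (fun l : HresIdx (N * q) S => heckeOperatorBar N ⟨l.1, l.2.1⟩) a (x : JZero N) +
        hresJ (fun l : HresIdx (N * q) S => heckeOperatorBar N ⟨l.1, l.2.1⟩) b (x : JZero N) := by
      rw [map_add, LinearMap.add_apply]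
    exact (congrArg Subtype.val e1).trans
      ((congrArg₂ (· + ·) (ha x) (hb x)).trans e2.symm)

/-- a prime outside `S ∋ p` not dividing the level does not divide `level * p ^ n` -/
theorem dgm_not_dvd {L p l n : ℕ} (hp : p.Prime) (hl : l.Prime) (hlL : ¬ l ∣ L) (hlp : l ≠ p) :
    ¬ l ∣ L * p ^ n := by
  intro h
  rcases (Nat.Prime.dvd_mul hl).mp h with h1 | h1
  · exact hlL h1
  · exact hlp ((Nat.prime_dvd_prime_iff_eq hl hp).mp (hl.dvd_of_dvd_pow h1))

/-- **DEG-MAIN.**  If `d • P(T)` kills the `p`-power torsion of `J₀(N)` (NEWP-MAIN at the level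
`N`, in its output shape), then for every `p`-power torsion class `x` of `J₀(N q)` the class
`d • P(T) x` is killed by both degeneracy push-forwards. -/
theorem dgm_main (N q : ℕ) [NeZero N] [NeZero q] [NeZero (N * q)] (S : Set ℕ) (p : ℕ)
    (hp : p.Prime) (hpS : p ∈ S) (P : FreeAlgebra ℤ (HresIdx (N * q) S)) (d : ℕ)
    {hN : N ∣ N * q}
    (hP : ∀ (n : ℕ) (x : TrcX N (p ^ n)),
      d • hresJ (fun l : HresIdx (N * q) S =>
        trcTheta N (p ^ n) S (nwmIdx S hN l)) P x = 0)
    (n : ℕ) (x : JZero (N * q)) (hx : p ^ n • x = 0) :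
    s35pAlpha N q
        (d • hresJ (fun l : HresIdx (N * q) S => heckeOperatorBar (N * q) ⟨l.1, l.2.1⟩) P x)
        = 0 ∧
      s35pBeta N q
        (d • hresJ (fun l : HresIdx (N * q) S => heckeOperatorBar (N * q) ⟨l.1, l.2.1⟩) P x)
        = 0 := by
  have hm : ∀ l : HresIdx (N * q) S, ¬ l.1 ∣ N * q * p ^ n := fun l =>
    dgm_not_dvd hp l.2.1 l.2.2.1 (fun h => l.2.2.2 (h ▸ hpS))
  -- the level-`N` statement on `J₀(N)`
  have hN : ∀ y : JZero N, p ^ n • y = 0 →
      d • hresJ (fun l : HresIdx (N * q) S => heckeOperatorBar N ⟨l.1, l.2.1⟩) P y = 0 := by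
    intro y hy
    have hy' : y ∈ Pic0.torsion Qb (modularFunctionFieldBar N) (p ^ n) := by
      rw [Pic0.mem_torsion, natCast_zsmul]
      exact hy
    have h1 := hP n ⟨y, hy'⟩
    have h2 : ((d • hresJ (fun l : HresIdx (N * q) S =>
        trcTheta N (p ^ n) S (nwmIdx S (dvd_mul_right N q) l)) P ⟨y, hy'⟩ :
          TrcX N (p ^ n)) : JZero N) = 0 := by
      rw [h1]
      rfl
    have h3 := dgm_coe_hresJ N q (p ^ n) S P ⟨y, hy'⟩
    rw [AddSubgroupClass.coe_nsmul, h3] at h2
    exact h2
  constructor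
  · rw [map_nsmul, dgm_alpha_poly N q S (p ^ n) hm P x hx]
    exact hN _ (pgl_push_torsion N (N * q) _ (p ^ n) x hx)
  · rw [map_nsmul, dgm_beta_poly N q S (p ^ n) hm P x hx]
    exact hN _ (pgl_push_torsion N (N * q) _ (p ^ n) x hx)

/-- noncommutative Hecke polynomials on the torsion type `TrcX N m` and on `J₀(N)` (same
level) -/
theorem dgm_coe_hresJ_self (N m : ℕ) [NeZero N] (S : Set ℕ)
    (P : FreeAlgebra ℤ (HresIdx N S)) :
    ∀ x : TrcX N m,
      ((hresJ (trcTheta N m S) P x : TrcX N m) : JZero N) =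
        hresJ (fun l : HresIdx N S => heckeOperatorBar N ⟨l.1, l.2.1⟩) P (x : JZero N) := by
  refine FreeAlgebra.induction ℤ (HresIdx N S) ?_ ?_ ?_ ?_ P
  · intro r x
    rw [AlgHom.commutes, AlgHom.commutes, Algebra.algebraMap_eq_smul_one,
      Algebra.algebraMap_eq_smul_one, LinearMap.smul_apply, LinearMap.smul_apply,
      Module.End.one_apply, Module.End.one_apply]
    rfl
  · intro l x
    rw [hresJ_ι, hresJ_ι, trcTheta_apply]
    rfl
  · intro a b ha hb x
    rw [map_mul, map_mul, Module.End.mul_apply, Module.End.mul_apply, ha, hb]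
  · intro a b ha hb x
    have e1 : hresJ (trcTheta N m S) (a + b) x =
        hresJ (trcTheta N m S) a x + hresJ (trcTheta N m S) b x := by
      rw [map_add, LinearMap.add_apply]
    have e2 : hresJ (fun l : HresIdx N S => heckeOperatorBar N ⟨l.1, l.2.1⟩) (a + b)
        (x : JZero N) =
        hresJ (fun l : HresIdx N S => heckeOperatorBar N ⟨l.1, l.2.1⟩) a (x : JZero N) +
        hresJ (fun l : HresIdx N S => heckeOperatorBar N ⟨l.1, l.2.1⟩) b (x : JZero N) := by
      rw [map_add, LinearMap.add_apply]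
    exact (congrArg Subtype.val e1).trans
      ((congrArg₂ (· + ·) (ha x) (hb x)).trans e2.symm)

/-- **DEG-MAIN in the shape of `hDEG` of `s35tm_main`.**  `M = M' * q`, auxiliary level
`a ^ k * M'`; the two norm squares of DEG-LEVEL (`nsq_level_alpha`, `nsq_level_beta`) and the
output of NEWP-MAIN at the level `M'` are hypotheses. -/
theorem dgm_deg (M' q : ℕ) [NeZero M'] [NeZero q] [NeZero (M' * q)] (a k : ℕ)
    [NeZero (a ^ k * M')] [NeZero (a ^ k * M' * q)]
    (lam : ℕ) (hlam : lam.Prime) (S : Finset ℕ) (hlamS : lam ∈ S)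
    (P : FreeAlgebra ℤ (HresIdx (M' * q) (↑S : Set ℕ))) (d : ℕ)
    (h : M' ∣ a ^ k * M') (hdvd : M' * q ∣ a ^ k * M' * q)
    (hsqα : ∀ f : ↥(modularFunctionFieldBar (M' * q)),
      Fermat.Agent.S37.hkdNorm (a ^ k * M') q
          (Fermat.Agent.S37.lvlIncl (M' * q) (a ^ k * M' * q) hdvd f) =
        Fermat.Agent.S37.lvlIncl M' (a ^ k * M') h (Fermat.Agent.S37.hkdNorm M' q f))
    (hsqβ : ∀ f : ↥(modularFunctionFieldBar (M' * q)),
      Fermat.Agent.S37.hkdNormBeta (a ^ k * M') q
          (Fermat.Agent.S37.lvlIncl (M' * q) (a ^ k * M' * q) hdvd f) =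
        Fermat.Agent.S37.lvlIncl M' (a ^ k * M') h (Fermat.Agent.S37.hkdNormBeta M' q f))
    (hN : M' ∣ M' * q)
    (hNEW : ∀ (n : ℕ) (z : TrcX M' (lam ^ n)),
      d • hresJ (fun l : HresIdx (M' * q) (↑S : Set ℕ) =>
        trcTheta M' (lam ^ n) (↑S : Set ℕ) (nwmIdx (↑S : Set ℕ) hN l)) P z = 0)
    (n : ℕ) (x : TrcX (M' * q) (lam ^ n)) :
    s35pAlpha (a ^ k * M') q
        (Fermat.Agent.S37.lvlPullback (M' * q) (a ^ k * M' * q) hdvd
          ((d • hresJ (trcTheta (M' * q) (lam ^ n) (↑S : Set ℕ)) P x :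
            TrcX (M' * q) (lam ^ n)) : JZero (M' * q))) = 0 ∧
      s35pBeta (a ^ k * M') q
        (Fermat.Agent.S37.lvlPullback (M' * q) (a ^ k * M' * q) hdvd
          ((d • hresJ (trcTheta (M' * q) (lam ^ n) (↑S : Set ℕ)) P x :
            TrcX (M' * q) (lam ^ n)) : JZero (M' * q))) = 0 := by
  have hx : lam ^ n • (x : JZero (M' * q)) = 0 := by
    have h1 := Pic0.mem_torsion.mp x.2
    rwa [natCast_zsmul] at h1
  have hz : ((d • hresJ (trcTheta (M' * q) (lam ^ n) (↑S : Set ℕ)) P x :
      TrcX (M' * q) (lam ^ n)) : JZero (M' * q)) =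
      d • hresJ (fun l : HresIdx (M' * q) (↑S : Set ℕ) =>
        heckeOperatorBar (M' * q) ⟨l.1, l.2.1⟩) P (x : JZero (M' * q)) := by
    rw [AddSubgroupClass.coe_nsmul, dgm_coe_hresJ_self]
  have hzt : lam ^ n • (d • hresJ (fun l : HresIdx (M' * q) (↑S : Set ℕ) =>
      heckeOperatorBar (M' * q) ⟨l.1, l.2.1⟩) P (x : JZero (M' * q))) = 0 := by
    rw [smul_comm, ← map_nsmul, hx, map_zero, nsmul_zero]
  have hmain := dgm_main M' q (↑S : Set ℕ) lam hlam (Finset.mem_coe.mpr hlamS) P d hNEW n
    (x : JZero (M' * q)) hx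
  rw [hz]
  constructor
  · rw [psq_alpha M' (a ^ k * M') q h hdvd hsqα (lam ^ n) (pow_ne_zero n hlam.ne_zero) _ hzt,
      hmain.1, map_zero]
  · rw [psq_beta M' (a ^ k * M') q h hdvd hsqβ (lam ^ n) (pow_ne_zero n hlam.ne_zero) _ hzt,
      hmain.2, map_zero]

end Fermat.Agent.S35
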