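import Fermat.Agent.S35.PushSquare

/-!
# S35 — descent of the class form of (CORE) along the level raising `N q → N' q`

The pull-back `π^* : J₀(N q) → J₀(N' q)` (`N ∣ N'`) is Galois-equivariant, injective on torsion
(under the numerical condition of `lvl_injective_torsion`) and maps
`ker α_* ∩ ker β_*` (torsion classes) into `ker α_* ∩ ker β_*` (`psq_alpha`, `psq_beta`).
Hence a Galois relation valid on the torsion of `ker α_* ∩ ker β_*` at level `N' q`
descends to level `N q`.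

* `s35ds_gen` : generic operators `Φ` (level `N q`), `Φ'` (level `N' q`) intertwined by `π^*`;
* `s35ds_cubic` : the relation `ψ³ y - c₂ ψ² y + c₁ ψ y - c₀ y = 0`;
* `s35ds_num` : the numerical condition for `N' = a ^ k * N`.
-/

set_option autoImplicit false
set_option linter.unusedSectionVars false
set_option linter.style.haveILetI false

open AlgebraicCurve ModularCurve Fermat.Agent.S37

namespace Fermat.Agent.S35

local notation "Qb" => AlgebraicClosure ℚ

/-- the numerical condition of `lvl_injective_torsion` for the levels `N q → (a ^ k * N) q`. -/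
theorem s35ds_num (N q a k : ℕ) (hN : 0 < N) (hq : 0 < q) (ha : a.Prime) :
    dedekindPsi (a ^ k * N * q) * (N * q) < 2 * (a ^ k * N * q) * dedekindPsi (N * q) := by
  have h := lvl_num (N * q) a k (Nat.mul_pos hN hq) ha
  have e : a ^ k * N * q = a ^ k * (N * q) := Nat.mul_assoc _ _ _
  rw [e]
  exact h

/-- **Descent, generic form.** -/
theorem s35ds_gen (N N' q : ℕ) [NeZero N] [NeZero N'] [NeZero q]
    (h : N ∣ N') (h' : N * q ∣ N' * q)
    (hnum : dedekindPsi (N' * q) * (N * q) < 2 * (N' * q) * dedekindPsi (N * q))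
    (hsqα : ∀ f : ↥(modularFunctionFieldBar (N * q)),
      hkdNorm N' q (lvlIncl (N * q) (N' * q) h' f) = lvlIncl N N' h (hkdNorm N q f))
    (hsqβ : ∀ f : ↥(modularFunctionFieldBar (N * q)),
      hkdNormBeta N' q (lvlIncl (N * q) (N' * q) h' f) = lvlIncl N N' h (hkdNormBeta N q f))
    (p : ℕ) (hp : p ≠ 0)
    (Φ : JZero (N * q) → JZero (N * q)) (Φ' : JZero (N' * q) → JZero (N' * q))
    (hΦ : ∀ x, lvlPullback (N * q) (N' * q) h' (Φ x) = Φ' (lvlPullback (N * q) (N' * q) h' x))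
    (hΦt : ∀ (n : ℕ) (x : JZero (N * q)), p ^ n • x = 0 → p ^ n • Φ x = 0)
    (hcore : ∀ (n : ℕ) (y : JZero (N' * q)), p ^ n • y = 0 → s35pAlpha N' q y = 0 →
      s35pBeta N' q y = 0 → Φ' y = 0)
    (n : ℕ) (x : JZero (N * q)) (hx : p ^ n • x = 0) (hα : s35pAlpha N q x = 0)
    (hβ : s35pBeta N q x = 0) : Φ x = 0 := by
  have hpn : p ^ n ≠ 0 := pow_ne_zero n hp
  refine lvl_injective_torsion (N * q) (N' * q) h' hnum _ (p ^ n) hpn (hΦt n x hx) ?_
  rw [hΦ]
  refine hcore n _ ?_ ?_ ?_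
  · rw [← map_nsmul, hx, map_zero]
  · rw [psq_alpha N N' q h h' hsqα (p ^ n) hpn x hx, hα, map_zero]
  · rw [psq_beta N N' q h h' hsqβ (p ^ n) hpn x hx, hβ, map_zero]

/-- the Galois action commutes with multiplication by natural numbers. -/
theorem s35ds_smul_nsmul (L : ℕ) [NeZero L] (σ : Qb ≃ₐ[ℚ] Qb) (k : ℕ) (x : JZero L) :
    σ • (k • x) = k • (σ • x) :=
  map_nsmul (DistribSMul.toAddMonoidHom (JZero L) σ) k x

/-- **Descent of the cubic relation** `ψ³ y - c₂ ψ² y + c₁ ψ y - c₀ y = 0`. -/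
theorem s35ds_cubic (N N' q : ℕ) [NeZero N] [NeZero N'] [NeZero q]
    (h : N ∣ N') (h' : N * q ∣ N' * q)
    (hnum : dedekindPsi (N' * q) * (N * q) < 2 * (N' * q) * dedekindPsi (N * q))
    (hsqα : ∀ f : ↥(modularFunctionFieldBar (N * q)),
      hkdNorm N' q (lvlIncl (N * q) (N' * q) h' f) = lvlIncl N N' h (hkdNorm N q f))
    (hsqβ : ∀ f : ↥(modularFunctionFieldBar (N * q)),
      hkdNormBeta N' q (lvlIncl (N * q) (N' * q) h' f) = lvlIncl N N' h (hkdNormBeta N q f))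
    (p : ℕ) (hp : p ≠ 0) (ψ : Qb ≃ₐ[ℚ] Qb) (c₂ c₁ c₀ : ℕ)
    (hcore : ∀ (n : ℕ) (y : JZero (N' * q)), p ^ n • y = 0 → s35pAlpha N' q y = 0 →
      s35pBeta N' q y = 0 →
      ψ • ψ • ψ • y - c₂ • ψ • ψ • y + c₁ • ψ • y - c₀ • y = 0)
    (n : ℕ) (x : JZero (N * q)) (hx : p ^ n • x = 0) (hα : s35pAlpha N q x = 0)
    (hβ : s35pBeta N q x = 0) :
    ψ • ψ • ψ • x - c₂ • ψ • ψ • x + c₁ • ψ • x - c₀ • x = 0 := by
  refine s35ds_gen N N' q h h' hnum hsqα hsqβ p hp
    (fun x => ψ • ψ • ψ • x - c₂ • ψ • ψ • x + c₁ • ψ • x - c₀ • x)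
    (fun y => ψ • ψ • ψ • y - c₂ • ψ • ψ • y + c₁ • ψ • y - c₀ • y) ?_ ?_ hcore n x hx hα hβ
  · intro x
    simp only [map_sub, map_add, map_nsmul, lvl_smul]
  · intro n x hx
    have hσ0 : ψ • (0 : JZero (N * q)) = 0 :=
      map_zero (DistribSMul.toAddMonoidHom (JZero (N * q)) ψ)
    have h1 : p ^ n • (ψ • x) = 0 := by
      rw [← s35ds_smul_nsmul, hx, hσ0]
    have h2 : p ^ n • (ψ • ψ • x) = 0 := by
      rw [← s35ds_smul_nsmul, h1, hσ0]
    have h3 : p ^ n • (ψ • ψ • ψ • x) = 0 := by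
      rw [← s35ds_smul_nsmul, h2, hσ0]
    rw [nsmul_sub, nsmul_add, nsmul_sub, h3, smul_comm (p ^ n) c₂, h2, smul_comm (p ^ n) c₁, h1,
      smul_comm (p ^ n) c₀, hx]
    simp

end Fermat.Agent.S35
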