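import Mathlib
import Fermat.Prelude.Def_AlgebraicCurve_DivisorClassGroup
import Fermat.Prelude.Def_AlgebraicCurve_BaseChangeGalois
import Fermat.Prelude.Def_ModularCurve_ArithmeticGalois

/-!
# S35, leaf CORE-HORD: the hypotheses on the Kummer function pass to its Galois conjugates

`F / K` a function field, `g : SemilinearAut K F` a semilinear automorphism (for instance the
coefficientwise action `arithmeticGalois F₀ s` of `s : K ≃ₐ[ℚ] K` on `K(X₀(N))`).  The
hypotheses of the core statements (`S34hCore`, `S34imNode`, `swr_transport`) on a function `f`,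

* `m ∣ ord_Q f` at all places `Q`,
* every zero or pole `Q` of `f` is a `K`-rational place (three forms: the valuation form, the
  form with `deg Q = 1`, and the form with `deg Q = 1` and `K → κ(Q)` bijective),

pass from `f` to `g • f`: `g` permutes the places (`SemilinearAut.ord_smul`, `deg_smul`,
`smulResidueRingEquiv`).

* `s35o_ord`: `ord_Q (g • f) = ord_{g⁻¹ Q} f`;
* `s35o_val_smul`, `s35o_bij_smul`: rationality of `g • Q` from rationality of `Q`;
* `s35o_transport` (three-part form of `S34hCore`), `s35o_transport_deg` (form of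
  `swr_transport`), `s35o_transport_val` (form of `S34imNode`);
* `s35o_arith`, `s35o_arith_deg`, `s35o_arith_val`: the same for the coefficientwise action
  `arithmeticRingAut F₀ s` of the modular function fields; `s35o_arith_ne_zero`.

Names are prefixed `s35o`.
-/

set_option autoImplicit false

open AlgebraicCurve ModularCurve
open scoped Pointwise

namespace Fermat.Agent.S35

section Abs

variable {K F : Type*} [Field K] [Field F] [Algebra K F]

/-- the order of `g • f` at `Q` is the order of `f` at `g⁻¹ • Q` -/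
theorem s35o_ord (g : SemilinearAut K F) (Q : Place K F) (f : F) :
    Q.ord (g • f) = (g⁻¹ • Q).ord f := by
  have h := SemilinearAut.ord_smul g (g⁻¹ • Q) f
  rwa [smul_inv_smul] at h

theorem s35o_mem_smul (g : SemilinearAut K F) (A : ValuationSubring F) (x : F) :
    x ∈ (g • A : ValuationSubring F) ↔ g⁻¹ • x ∈ A :=
  ValuationSubring.mem_pointwise_smul_iff_inv_smul_mem

theorem s35o_nonunits_smul (g : SemilinearAut K F) (A : ValuationSubring F) (x : F) :
    x ∈ (g • A : ValuationSubring F).nonunits ↔ g⁻¹ • x ∈ A.nonunits := by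
  rw [ValuationSubring.mem_nonunits_iff_or, ValuationSubring.mem_nonunits_iff_or, s35o_mem_smul,
    smul_inv'' ]
  constructor
  · rintro (h | h)
    · left
      rw [h, smul_zero]
    · exact Or.inr h
  · rintro (h | h)
    · left
      exact (smul_eq_zero_iff_eq g⁻¹).mp h
    · exact Or.inr h

/-- the valuation form of rationality passes from `Q` to `g • Q` -/
theorem s35o_val_smul (g : SemilinearAut K F) (Q : Place K F)
    (h : ∀ y ∈ Q.toValuationSubring, ∃ c : K,
      y - algebraMap K F c ∈ Q.toValuationSubring.nonunits) :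
    ∀ y ∈ (g • Q).toValuationSubring, ∃ c : K,
      y - algebraMap K F c ∈ (g • Q).toValuationSubring.nonunits := by
  intro y hy
  rw [SemilinearAut.smul_toValuationSubring, s35o_mem_smul] at hy
  obtain ⟨c, hc⟩ := h _ hy
  refine ⟨SemilinearAut.baseAut g c, ?_⟩
  rw [SemilinearAut.smul_toValuationSubring, s35o_nonunits_smul, smul_sub]
  have h1 : g⁻¹ • algebraMap K F (SemilinearAut.baseAut g c) = algebraMap K F c := by
    rw [SemilinearAut.smul_algebraMap, SemilinearAut.baseAut_inv]
    congr 1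
    exact RingEquiv.symm_apply_apply _ c
  rw [h1]
  exact hc

/-- bijectivity of `K → κ(Q)` passes from `Q` to `g • Q` -/
theorem s35o_bij_smul (g : SemilinearAut K F) (Q : Place K F)
    (h : Function.Bijective (algebraMap K Q.ResidueField)) :
    Function.Bijective (algebraMap K (g • Q).ResidueField) := by
  have h1 : (algebraMap K (g • Q).ResidueField : K → (g • Q).ResidueField) =
      (SemilinearAut.smulResidueRingEquiv g Q) ∘ (algebraMap K Q.ResidueField) ∘
        (SemilinearAut.baseAut g).symm := by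
    funext a
    simp only [Function.comp_apply]
    rw [SemilinearAut.smulResidueRingEquiv_algebraMap, RingEquiv.apply_symm_apply]
  rw [h1]
  exact (SemilinearAut.smulResidueRingEquiv g Q).bijective.comp
    (h.comp (SemilinearAut.baseAut g).symm.bijective)

/-- **CORE-HORD, abstract form (three-part rationality, the shape of `S34hCore`).** -/
theorem s35o_transport (g : SemilinearAut K F) (m : ℕ) (f : F)
    (hdiv : ∀ Q : Place K F, (m : ℤ) ∣ Q.ord f)
    (hrat : ∀ Q : Place K F, Q.ord f ≠ 0 →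
      Q.deg = 1 ∧ Function.Bijective (algebraMap K Q.ResidueField) ∧
      ∀ y ∈ Q.toValuationSubring, ∃ c : K,
        y - algebraMap K F c ∈ Q.toValuationSubring.nonunits) :
    (∀ Q : Place K F, (m : ℤ) ∣ Q.ord (g • f)) ∧
    (∀ Q : Place K F, Q.ord (g • f) ≠ 0 →
      Q.deg = 1 ∧ Function.Bijective (algebraMap K Q.ResidueField) ∧
      ∀ y ∈ Q.toValuationSubring, ∃ c : K,
        y - algebraMap K F c ∈ Q.toValuationSubring.nonunits) := by
  refine ⟨fun Q => ?_, fun Q hQ => ?_⟩
  · rw [s35o_ord]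
    exact hdiv _
  · rw [s35o_ord] at hQ
    obtain ⟨hdeg, hbij, hres⟩ := hrat (g⁻¹ • Q) hQ
    have h1 : (g • (g⁻¹ • Q)).deg = 1 := by
      rw [SemilinearAut.deg_smul]
      exact hdeg
    have h2 := s35o_bij_smul g (g⁻¹ • Q) hbij
    have h3 := s35o_val_smul g (g⁻¹ • Q) hres
    rw [smul_inv_smul] at h1 h2 h3
    exact ⟨h1, h2, h3⟩

/-- **CORE-HORD, abstract form (rationality as `deg = 1` + valuation form, the shape of
`swr_transport`).** -/
theorem s35o_transport_deg (g : SemilinearAut K F) (m : ℕ) (f : F)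
    (hdiv : ∀ Q : Place K F, (m : ℤ) ∣ Q.ord f)
    (hrat : ∀ Q : Place K F, Q.ord f ≠ 0 → Q.deg = 1 ∧
      ∀ y ∈ Q.toValuationSubring, ∃ c : K,
        y - algebraMap K F c ∈ Q.toValuationSubring.nonunits) :
    (∀ Q : Place K F, (m : ℤ) ∣ Q.ord (g • f)) ∧
    (∀ Q : Place K F, Q.ord (g • f) ≠ 0 → Q.deg = 1 ∧
      ∀ y ∈ Q.toValuationSubring, ∃ c : K,
        y - algebraMap K F c ∈ Q.toValuationSubring.nonunits) := by
  refine ⟨fun Q => ?_, fun Q hQ => ?_⟩
  · rw [s35o_ord]
    exact hdiv _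
  · rw [s35o_ord] at hQ
    obtain ⟨hdeg, hres⟩ := hrat (g⁻¹ • Q) hQ
    have h1 : (g • (g⁻¹ • Q)).deg = 1 := by
      rw [SemilinearAut.deg_smul]
      exact hdeg
    have h3 := s35o_val_smul g (g⁻¹ • Q) hres
    rw [smul_inv_smul] at h1 h3
    exact ⟨h1, h3⟩

/-- **CORE-HORD, abstract form (valuation form of rationality, the shape of `S34imNode`).** -/
theorem s35o_transport_val (g : SemilinearAut K F) (m : ℕ) (f : F)
    (hdiv : ∀ Q : Place K F, (m : ℤ) ∣ Q.ord f)
    (hrat : ∀ Q : Place K F, Q.ord f ≠ 0 →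
      ∀ y ∈ Q.toValuationSubring, ∃ c : K,
        y - algebraMap K F c ∈ Q.toValuationSubring.nonunits) :
    (∀ Q : Place K F, (m : ℤ) ∣ Q.ord (g • f)) ∧
    (∀ Q : Place K F, Q.ord (g • f) ≠ 0 →
      ∀ y ∈ Q.toValuationSubring, ∃ c : K,
        y - algebraMap K F c ∈ Q.toValuationSubring.nonunits) := by
  refine ⟨fun Q => ?_, fun Q hQ => ?_⟩
  · rw [s35o_ord]
    exact hdiv _
  · rw [s35o_ord] at hQ
    have h3 := s35o_val_smul g (g⁻¹ • Q) (hrat (g⁻¹ • Q) hQ)
    rwa [smul_inv_smul] at h3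

end Abs

section Arith

variable {L : Type*} [Field L] [Algebra ℚ L] (F₀ : IntermediateField ℚ (LaurentSeries ℚ))

/-- the coefficientwise action as a semilinear automorphism -/
theorem s35o_smul_eq (s : L ≃ₐ[ℚ] L) (f : ↥(laurentBaseChange L F₀)) :
    arithmeticGalois F₀ s • f = arithmeticRingAut F₀ s f := rfl

theorem s35o_arith_ne_zero (s : L ≃ₐ[ℚ] L) (f : ↥(laurentBaseChange L F₀)) (hf : f ≠ 0) :
    arithmeticRingAut F₀ s f ≠ 0 :=
  (map_ne_zero_iff _ (arithmeticRingAut F₀ s).injective).mpr hf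

/-- **CORE-HORD for the coefficientwise Galois action (shape of `S34hCore`).** -/
theorem s35o_arith (s : L ≃ₐ[ℚ] L) (m : ℕ) (f : ↥(laurentBaseChange L F₀))
    (hdiv : ∀ Q : Place L ↥(laurentBaseChange L F₀), (m : ℤ) ∣ Q.ord f)
    (hrat : ∀ Q : Place L ↥(laurentBaseChange L F₀), Q.ord f ≠ 0 →
      Q.deg = 1 ∧ Function.Bijective (algebraMap L Q.ResidueField) ∧
      ∀ y ∈ Q.toValuationSubring, ∃ c : L,
        y - algebraMap L ↥(laurentBaseChange L F₀) c ∈ Q.toValuationSubring.nonunits) :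
    (∀ Q : Place L ↥(laurentBaseChange L F₀),
      (m : ℤ) ∣ Q.ord (arithmeticRingAut F₀ s f)) ∧
    (∀ Q : Place L ↥(laurentBaseChange L F₀), Q.ord (arithmeticRingAut F₀ s f) ≠ 0 →
      Q.deg = 1 ∧ Function.Bijective (algebraMap L Q.ResidueField) ∧
      ∀ y ∈ Q.toValuationSubring, ∃ c : L,
        y - algebraMap L ↥(laurentBaseChange L F₀) c ∈ Q.toValuationSubring.nonunits) :=
  s35o_transport (arithmeticGalois F₀ s) m f hdiv hrat

/-- **CORE-HORD for the coefficientwise Galois action (shape of `swr_transport`).** -/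
theorem s35o_arith_deg (s : L ≃ₐ[ℚ] L) (m : ℕ) (f : ↥(laurentBaseChange L F₀))
    (hdiv : ∀ Q : Place L ↥(laurentBaseChange L F₀), (m : ℤ) ∣ Q.ord f)
    (hrat : ∀ Q : Place L ↥(laurentBaseChange L F₀), Q.ord f ≠ 0 → Q.deg = 1 ∧
      ∀ y ∈ Q.toValuationSubring, ∃ c : L,
        y - algebraMap L ↥(laurentBaseChange L F₀) c ∈ Q.toValuationSubring.nonunits) :
    (∀ Q : Place L ↥(laurentBaseChange L F₀),
      (m : ℤ) ∣ Q.ord (arithmeticRingAut F₀ s f)) ∧
    (∀ Q : Place L ↥(laurentBaseChange L F₀), Q.ord (arithmeticRingAut F₀ s f) ≠ 0 →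
      Q.deg = 1 ∧
      ∀ y ∈ Q.toValuationSubring, ∃ c : L,
        y - algebraMap L ↥(laurentBaseChange L F₀) c ∈ Q.toValuationSubring.nonunits) :=
  s35o_transport_deg (arithmeticGalois F₀ s) m f hdiv hrat

/-- **CORE-HORD for the coefficientwise Galois action (shape of `S34imNode`).** -/
theorem s35o_arith_val (s : L ≃ₐ[ℚ] L) (m : ℕ) (f : ↥(laurentBaseChange L F₀))
    (hdiv : ∀ Q : Place L ↥(laurentBaseChange L F₀), (m : ℤ) ∣ Q.ord f)
    (hrat : ∀ Q : Place L ↥(laurentBaseChange L F₀), Q.ord f ≠ 0 →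
      ∀ y ∈ Q.toValuationSubring, ∃ c : L,
        y - algebraMap L ↥(laurentBaseChange L F₀) c ∈ Q.toValuationSubring.nonunits) :
    (∀ Q : Place L ↥(laurentBaseChange L F₀),
      (m : ℤ) ∣ Q.ord (arithmeticRingAut F₀ s f)) ∧
    (∀ Q : Place L ↥(laurentBaseChange L F₀), Q.ord (arithmeticRingAut F₀ s f) ≠ 0 →
      ∀ y ∈ Q.toValuationSubring, ∃ c : L,
        y - algebraMap L ↥(laurentBaseChange L F₀) c ∈ Q.toValuationSubring.nonunits) :=
  s35o_transport_val (arithmeticGalois F₀ s) m f hdiv hrat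

end Arith

end Fermat.Agent.S35
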