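import Mathlib
import Fermat.Agent.S31.HeckeResAbs

/-!
# S35, package NEWP-FWD, leaf HOM-LIFT (Mathlib + the abstract evaluation `hresEv` only)

For a finitely generated group `G` and a set `Z ⊆ G` there is an integer `d ≠ 0` such that for
every modulus `m` and every homomorphism `χ : G → ℤ/m` killing `Z`, the multiple `d • χ` is the
reduction of an integer-valued homomorphism killing `Z` (`d` kills the torsion of the largest
commutative quotient of `G` in which `Z` dies).

Consequence (`hlf_hres`): a noncommutative polynomial `P` in natural operators on `Hom(G, A)`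
which kills the complex-valued homomorphisms vanishing on `Z` satisfies
`d • P(χ) = 0` for every `χ : G → ℤ/m` vanishing on `Z`.
-/

set_option autoImplicit false

namespace Fermat.Agent.S35

open Fermat.Agent.S31

/-- **Lifting homomorphisms to `ℤ/m` up to a fixed integer.** -/
theorem hlf_main {G : Type} [AddGroup G] [AddGroup.FG G] (Z : Set G) :
    ∃ d : ℤ, d ≠ 0 ∧ ∀ (m : ℕ) (χ : G →+ ZMod m), (∀ s ∈ Z, χ s = 0) →
      ∃ l : G →+ ℤ, (∀ s ∈ Z, l s = 0) ∧ d • χ = (Int.castAddHom (ZMod m)).comp l := by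
  classical
  -- the universal homomorphism killing `Z`
  let I : Type := Σ m : ℕ, {χ : G →+ ZMod m // ∀ s ∈ Z, χ s = 0}
  let u : G →+ (∀ i : I, ZMod i.1) := AddMonoidHom.pi (fun i => i.2.1)
  let Q : AddSubgroup (∀ i : I, ZMod i.1) := u.range
  have : Module.Finite ℤ Q := Module.Finite.iff_addGroup_fg.mpr (AddGroup.fg_range u)
  let T : Submodule ℤ Q := Submodule.torsion ℤ Q
  obtain ⟨d, hdann, hd0⟩ := Submodule.annihilator_top_inter_nonZeroDivisors (R := ℤ) (M := T)
    (Submodule.torsion_isTorsion)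
  have hdT : ∀ x : Q, x ∈ T → d • x = 0 := by
    intro x hx
    have h1 := Submodule.mem_annihilator.mp hdann (⟨x, hx⟩ : T) Submodule.mem_top
    exact congrArg Subtype.val h1
  have : Module.Free ℤ (Q ⧸ T) := Module.free_of_finite_type_torsion_free'
  let b := Module.finBasis ℤ (Q ⧸ T)
  refine ⟨d, nonZeroDivisors.ne_zero hd0, fun m χ hχ => ?_⟩
  let i0 : I := ⟨m, χ, hχ⟩
  let ev : Q →ₗ[ℤ] ZMod m :=
    ((Pi.evalAddMonoidHom (fun i : I => ZMod i.1) i0).comp Q.subtype).toIntLinearMap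
  let ev' : (Q ⧸ T) →ₗ[ℤ] ZMod m := T.liftQ (d • ev) (fun x hx => by
    rw [LinearMap.mem_ker, LinearMap.smul_apply, ← map_smul, hdT x hx, map_zero])
  have hsurj : ∀ j, ∃ z : ℤ, (z : ZMod m) = ev' (b j) := fun j => ZMod.intCast_surjective _
  choose z hz using hsurj
  let l' : (Q ⧸ T) →ₗ[ℤ] ℤ := b.constr ℤ z
  have hl' : ∀ y, ((l' y : ℤ) : ZMod m) = ev' y := by
    have h1 : (Int.castAddHom (ZMod m)).toIntLinearMap ∘ₗ l' = ev' := by
      refine b.ext fun j => ?_
      rw [LinearMap.comp_apply, Module.Basis.constr_basis]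
      exact hz j
    intro y
    exact LinearMap.congr_fun h1 y
  refine ⟨(l'.toAddMonoidHom.comp T.mkQ.toAddMonoidHom).comp u.rangeRestrict, ?_, ?_⟩
  · intro s hs
    have h0 : u.rangeRestrict s = 0 := Subtype.ext (funext fun i => i.2.2 s hs)
    show l' (T.mkQ (u.rangeRestrict s)) = 0
    rw [h0, map_zero, map_zero]
  · refine AddMonoidHom.ext fun g => ?_
    show d • χ g = ((l' (T.mkQ (u.rangeRestrict g)) : ℤ) : ZMod m)
    rw [hl']
    rfl

/-- **Transfer of an annihilating polynomial from `ℂ`-valued to `ℤ/m`-valued homomorphisms.** -/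
theorem hlf_hres {G : Type} [AddGroup G] [AddGroup.FG G] (Z : Set G) {I : Type}
    (t : ∀ (A : Type) [AddCommGroup A], I → (G →+ A) →+ (G →+ A))
    (hnat : ∀ (A B : Type) [AddCommGroup A] [AddCommGroup B] (φ : A →+ B) (i : I) (ψ : G →+ A),
      t B i (φ.comp ψ) = φ.comp (t A i ψ)) :
    ∃ d : ℤ, d ≠ 0 ∧ ∀ P : FreeAlgebra ℤ I,
      (∀ ψ : G →+ ℂ, (∀ s ∈ Z, ψ s = 0) → hresEv t ℂ P ψ = 0) →
      ∀ (m : ℕ) (χ : G →+ ZMod m), (∀ s ∈ Z, χ s = 0) → d • hresEv t (ZMod m) P χ = 0 := by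
  obtain ⟨d, hd, hlift⟩ := hlf_main Z
  refine ⟨d, hd, fun P hP m χ hχ => ?_⟩
  obtain ⟨l, hl, hdl⟩ := hlift m χ hχ
  -- `P` kills the integral homomorphism `l`
  have h1 : hresEv t ℤ P l = 0 := by
    have h2 := hP ((Int.castAddHom ℂ).comp l) (fun s hs => by
      rw [AddMonoidHom.comp_apply, hl s hs, map_zero])
    rw [hresEv_nat hnat] at h2
    refine AddMonoidHom.ext fun g => ?_
    have h3 := DFunLike.congr_fun h2 g
    rw [AddMonoidHom.comp_apply, AddMonoidHom.zero_apply, Int.coe_castAddHom] at h3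
    rw [AddMonoidHom.zero_apply]
    exact Int.cast_eq_zero.mp h3
  rw [← map_smul, hdl, hresEv_nat hnat, h1, AddMonoidHom.comp_zero]

end Fermat.Agent.S35
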