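import Mathlib
import Fermat.Agent.S35.HCoreDef

/-!
# S35, CORE-INST, leaf INST-REWRITE: the two normal forms of the core identity

For a ring automorphism `σ` of a field `F`, `f ≠ 0`, put `W0 := σ (σ f) * f * ((σ f)⁻¹) ^ 2`
(`= (σ - 1)² f` in multiplicative notation).  The conclusion of CORE-ABS (`s35c_main`) is

  (A)  `σ W0 = c * G ^ m * W0 ^ Q`,

the conclusion of `S35hCore` (S35/HCoreDef.lean) is the product form

  (B)  `σ (σ (σ f)) * (σ f) ^ (1 + 2 * Q) = c * G ^ m * (σ (σ f)) ^ (2 + Q) * f ^ Q`.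

* `s35in_rw_elt`: (A) ↔ (B) for four elements `a, b, c₂, d` (`= f, σ f, σ² f, σ³ f`);
* `s35in_rw_iff`: (A) ↔ (B), same `c`, `G`;
* `s35in_rw_exists_iff`: `(∃ w G, G ≠ 0 ∧ (A))` ↔ `(∃ w G, G ≠ 0 ∧ (B))`, `c = algebraMap K F w`;
* `s35in_rw_smul`, `s35in_rw_restrict_mul`: the action `arithmeticGalois F₀ s • f` is
  `arithmeticRingAut F₀ s f`; `(φ * φ).restrictNormal K1 = φ.restrictNormal K1 * φ.restrictNormal K1`;
* `s35in_rw_hcore_iff`: `S35hCore K1 ψ M q m` ↔ the same statement with the conclusion in the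
  form (A) for `R := arithmeticRingAut (modularFunctionFieldFull (M * q)) (ψ.restrictNormal K1)`;
  `s35in_rw_hcore_of` / `s35in_rw_hcore_to`: the two directions for one function.
-/

set_option autoImplicit false
set_option linter.unusedSectionVars false

noncomputable section

open ModularCurve AlgebraicCurve

namespace Fermat.Agent.S35

local notation "Qb" => AlgebraicClosure ℚ

section Abs

variable {F : Type*} [Field F]

/-- the two normal forms, for four elements -/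
theorem s35in_rw_elt (a b c₂ d c G : F) (hb : b ≠ 0) (hc₂ : c₂ ≠ 0) (Q m : ℕ) :
    d * b * (c₂⁻¹) ^ 2 = c * G ^ m * (c₂ * a * (b⁻¹) ^ 2) ^ Q ↔
      d * b ^ (1 + 2 * Q) = c * G ^ m * c₂ ^ (2 + Q) * a ^ Q := by
  have hu : (c₂ ^ 2)⁻¹ * (b ^ (2 * Q))⁻¹ ≠ 0 :=
    mul_ne_zero (inv_ne_zero (pow_ne_zero _ hc₂)) (inv_ne_zero (pow_ne_zero _ hb))
  have e1 : d * b * (c₂⁻¹) ^ 2 = (d * b ^ (1 + 2 * Q)) * ((c₂ ^ 2)⁻¹ * (b ^ (2 * Q))⁻¹) := by
    rw [pow_add, pow_one, inv_pow]
    have hb' : b ^ (2 * Q) ≠ 0 := pow_ne_zero _ hb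
    calc d * b * (c₂ ^ 2)⁻¹ = d * b * (c₂ ^ 2)⁻¹ * (b ^ (2 * Q) * (b ^ (2 * Q))⁻¹) := by
          rw [mul_inv_cancel₀ hb', mul_one]
      _ = d * (b * b ^ (2 * Q)) * ((c₂ ^ 2)⁻¹ * (b ^ (2 * Q))⁻¹) := by ring
  have e2 : c * G ^ m * (c₂ * a * (b⁻¹) ^ 2) ^ Q =
      (c * G ^ m * c₂ ^ (2 + Q) * a ^ Q) * ((c₂ ^ 2)⁻¹ * (b ^ (2 * Q))⁻¹) := by
    have hc' : c₂ ^ 2 ≠ 0 := pow_ne_zero _ hc₂
    rw [mul_pow, mul_pow, ← pow_mul, inv_pow, pow_add]
    calc c * G ^ m * (c₂ ^ Q * a ^ Q * (b ^ (2 * Q))⁻¹)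
        = c * G ^ m * (c₂ ^ Q * a ^ Q * (b ^ (2 * Q))⁻¹) * (c₂ ^ 2 * (c₂ ^ 2)⁻¹) := by
          rw [mul_inv_cancel₀ hc', mul_one]
      _ = c * G ^ m * (c₂ ^ 2 * c₂ ^ Q) * a ^ Q * ((c₂ ^ 2)⁻¹ * (b ^ (2 * Q))⁻¹) := by ring
  rw [e1, e2]
  exact mul_left_inj' hu

/-- **INST-REWRITE**: the conclusion (A) of CORE-ABS is equivalent to the product form (B) of
`S35hCore`, with the same constant and the same `G` -/
theorem s35in_rw_iff (σ : F ≃+* F) (f : F) (hf : f ≠ 0) (Q m : ℕ) (c G : F) :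
    σ (σ (σ f) * f * ((σ f)⁻¹) ^ 2) = c * G ^ m * (σ (σ f) * f * ((σ f)⁻¹) ^ 2) ^ Q ↔
      σ (σ (σ f)) * (σ f) ^ (1 + 2 * Q) = c * G ^ m * (σ (σ f)) ^ (2 + Q) * f ^ Q := by
  have h1 : σ f ≠ 0 := (map_ne_zero σ).mpr hf
  have h2 : σ (σ f) ≠ 0 := (map_ne_zero σ).mpr h1
  rw [map_mul, map_mul, map_pow, map_inv₀]
  exact s35in_rw_elt f (σ f) (σ (σ f)) (σ (σ (σ f))) c G h1 h2 Q m

/-- the existential form: constants from a base ring `K` -/
theorem s35in_rw_exists_iff {K : Type*} [CommSemiring K] [Algebra K F] (σ : F ≃+* F) (f : F)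
    (hf : f ≠ 0) (Q m : ℕ) :
    (∃ (w : K) (G : F), G ≠ 0 ∧
      σ (σ (σ f) * f * ((σ f)⁻¹) ^ 2) =
        algebraMap K F w * G ^ m * (σ (σ f) * f * ((σ f)⁻¹) ^ 2) ^ Q) ↔
    (∃ (w : K) (G : F), G ≠ 0 ∧
      σ (σ (σ f)) * (σ f) ^ (1 + 2 * Q) =
        algebraMap K F w * G ^ m * (σ (σ f)) ^ (2 + Q) * f ^ Q) := by
  constructor
  · rintro ⟨w, G, hG, h⟩
    exact ⟨w, G, hG, (s35in_rw_iff σ f hf Q m _ G).mp h⟩
  · rintro ⟨w, G, hG, h⟩
    exact ⟨w, G, hG, (s35in_rw_iff σ f hf Q m _ G).mpr h⟩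

end Abs

section Carrier

/-- the semilinear action of `arithmeticGalois` is the ring automorphism `arithmeticRingAut` -/
theorem s35in_rw_smul {L : Type*} [Field L] [Algebra ℚ L] (F₀ : IntermediateField ℚ (LaurentSeries ℚ))
    (s : L ≃ₐ[ℚ] L) (f : ↥(laurentBaseChange L F₀)) :
    arithmeticGalois F₀ s • f = arithmeticRingAut F₀ s f := rfl

/-- restriction to a normal subfield is multiplicative -/
theorem s35in_rw_restrict_mul (K1 : IntermediateField ℚ Qb) [Normal ℚ K1] (φ ψ : Qb ≃ₐ[ℚ] Qb) :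
    (φ * ψ).restrictNormal ↥K1 = φ.restrictNormal ↥K1 * ψ.restrictNormal ↥K1 :=
  map_mul (AlgEquiv.restrictNormalHom ↥K1) φ ψ

variable (K1 : IntermediateField ℚ Qb) [Normal ℚ K1] (ψ : Qb ≃ₐ[ℚ] Qb) (M q m : ℕ)
  [NeZero M] [NeZero q]

/-- for one function: the conclusion of `S35hCore` from the conclusion (A) of CORE-ABS -/
theorem s35in_rw_hcore_of
    (f0 : ↥(laurentBaseChange ↥K1 (modularFunctionFieldFull (M * q)))) (hf0 : f0 ≠ 0)
    (h : ∃ (w : ↥K1) (G : ↥(laurentBaseChange ↥K1 (modularFunctionFieldFull (M * q)))), G ≠ 0 ∧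
      arithmeticRingAut (modularFunctionFieldFull (M * q)) (ψ.restrictNormal ↥K1)
        (arithmeticRingAut (modularFunctionFieldFull (M * q)) (ψ.restrictNormal ↥K1)
            (arithmeticRingAut (modularFunctionFieldFull (M * q)) (ψ.restrictNormal ↥K1) f0) *
          f0 *
          ((arithmeticRingAut (modularFunctionFieldFull (M * q)) (ψ.restrictNormal ↥K1) f0)⁻¹) ^ 2)
        = algebraMap ↥K1 ↥(laurentBaseChange ↥K1 (modularFunctionFieldFull (M * q))) w * G ^ m *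
          (arithmeticRingAut (modularFunctionFieldFull (M * q)) (ψ.restrictNormal ↥K1)
              (arithmeticRingAut (modularFunctionFieldFull (M * q)) (ψ.restrictNormal ↥K1) f0) *
            f0 *
            ((arithmeticRingAut (modularFunctionFieldFull (M * q)) (ψ.restrictNormal ↥K1) f0)⁻¹)
              ^ 2) ^ (q ^ 2)) :
    ∃ (w : ↥K1) (G : ↥(laurentBaseChange ↥K1 (modularFunctionFieldFull (M * q)))), G ≠ 0 ∧
      (arithmeticGalois (modularFunctionFieldFull (M * q)) (ψ.restrictNormal ↥K1) •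
        arithmeticGalois (modularFunctionFieldFull (M * q)) (ψ.restrictNormal ↥K1) •
        arithmeticGalois (modularFunctionFieldFull (M * q)) (ψ.restrictNormal ↥K1) • f0) *
        (arithmeticGalois (modularFunctionFieldFull (M * q)) (ψ.restrictNormal ↥K1) • f0) ^
          (1 + 2 * q ^ 2) =
      algebraMap ↥K1 ↥(laurentBaseChange ↥K1 (modularFunctionFieldFull (M * q))) w * G ^ m *
        (arithmeticGalois (modularFunctionFieldFull (M * q)) (ψ.restrictNormal ↥K1) •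
          arithmeticGalois (modularFunctionFieldFull (M * q)) (ψ.restrictNormal ↥K1) • f0) ^
          (2 + q ^ 2) * f0 ^ (q ^ 2) :=
  (s35in_rw_exists_iff (K := ↥K1)
    (arithmeticRingAut (modularFunctionFieldFull (M * q)) (ψ.restrictNormal ↥K1)) f0 hf0
    (q ^ 2) m).mp h

/-- for one function: the conclusion (A) of CORE-ABS from the conclusion of `S35hCore` -/
theorem s35in_rw_hcore_to
    (f0 : ↥(laurentBaseChange ↥K1 (modularFunctionFieldFull (M * q)))) (hf0 : f0 ≠ 0)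
    (h : ∃ (w : ↥K1) (G : ↥(laurentBaseChange ↥K1 (modularFunctionFieldFull (M * q)))), G ≠ 0 ∧
      (arithmeticGalois (modularFunctionFieldFull (M * q)) (ψ.restrictNormal ↥K1) •
        arithmeticGalois (modularFunctionFieldFull (M * q)) (ψ.restrictNormal ↥K1) •
        arithmeticGalois (modularFunctionFieldFull (M * q)) (ψ.restrictNormal ↥K1) • f0) *
        (arithmeticGalois (modularFunctionFieldFull (M * q)) (ψ.restrictNormal ↥K1) • f0) ^
          (1 + 2 * q ^ 2) =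
      algebraMap ↥K1 ↥(laurentBaseChange ↥K1 (modularFunctionFieldFull (M * q))) w * G ^ m *
        (arithmeticGalois (modularFunctionFieldFull (M * q)) (ψ.restrictNormal ↥K1) •
          arithmeticGalois (modularFunctionFieldFull (M * q)) (ψ.restrictNormal ↥K1) • f0) ^
          (2 + q ^ 2) * f0 ^ (q ^ 2)) :
    ∃ (w : ↥K1) (G : ↥(laurentBaseChange ↥K1 (modularFunctionFieldFull (M * q)))), G ≠ 0 ∧
      arithmeticRingAut (modularFunctionFieldFull (M * q)) (ψ.restrictNormal ↥K1)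
        (arithmeticRingAut (modularFunctionFieldFull (M * q)) (ψ.restrictNormal ↥K1)
            (arithmeticRingAut (modularFunctionFieldFull (M * q)) (ψ.restrictNormal ↥K1) f0) *
          f0 *
          ((arithmeticRingAut (modularFunctionFieldFull (M * q)) (ψ.restrictNormal ↥K1) f0)⁻¹) ^ 2)
        = algebraMap ↥K1 ↥(laurentBaseChange ↥K1 (modularFunctionFieldFull (M * q))) w * G ^ m *
          (arithmeticRingAut (modularFunctionFieldFull (M * q)) (ψ.restrictNormal ↥K1)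
              (arithmeticRingAut (modularFunctionFieldFull (M * q)) (ψ.restrictNormal ↥K1) f0) *
            f0 *
            ((arithmeticRingAut (modularFunctionFieldFull (M * q)) (ψ.restrictNormal ↥K1) f0)⁻¹)
              ^ 2) ^ (q ^ 2) :=
  (s35in_rw_exists_iff (K := ↥K1)
    (arithmeticRingAut (modularFunctionFieldFull (M * q)) (ψ.restrictNormal ↥K1)) f0 hf0
    (q ^ 2) m).mpr h

/-- **`S35hCore` in the form (A)**: the core statement over `K1` is equivalent to the same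
statement with the conclusion of CORE-ABS, `R W0 = w * G ^ m * W0 ^ (q ^ 2)` for
`W0 = R (R f0) * f0 * ((R f0)⁻¹) ^ 2`, `R = arithmeticRingAut _ (ψ.restrictNormal K1)` -/
theorem s35in_rw_hcore_iff :
    S35hCore K1 ψ M q m ↔
    ∀ f0 : ↥(laurentBaseChange ↥K1 (modularFunctionFieldFull (M * q))), f0 ≠ 0 →
      (∀ Q : Place ↥K1 ↥(laurentBaseChange ↥K1 (modularFunctionFieldFull (M * q))),
        (m : ℤ) ∣ Q.ord f0) →
      (∀ Q : Place ↥K1 ↥(laurentBaseChange ↥K1 (modularFunctionFieldFull (M * q))),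
        Q.ord f0 ≠ 0 →
        Q.deg = 1 ∧ Function.Bijective (algebraMap ↥K1 Q.ResidueField) ∧
        ∀ y ∈ Q.toValuationSubring, ∃ c : ↥K1,
          y - algebraMap ↥K1 ↥(laurentBaseChange ↥K1 (modularFunctionFieldFull (M * q))) c ∈
            Q.toValuationSubring.nonunits) →
      (∃ (c : ↥K1) (e : ↥(laurentBaseChange ↥K1 (modularFunctionFieldFull M))),
        s35NormA ↥K1 M q f0 =
          algebraMap ↥K1 ↥(laurentBaseChange ↥K1 (modularFunctionFieldFull M)) c * e ^ m) →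
      (∃ (c : ↥K1) (e : ↥(laurentBaseChange ↥K1 (modularFunctionFieldFull M))),
        s35NormB ↥K1 M q f0 =
          algebraMap ↥K1 ↥(laurentBaseChange ↥K1 (modularFunctionFieldFull M)) c * e ^ m) →
      ∃ (w : ↥K1) (G : ↥(laurentBaseChange ↥K1 (modularFunctionFieldFull (M * q)))), G ≠ 0 ∧
        arithmeticRingAut (modularFunctionFieldFull (M * q)) (ψ.restrictNormal ↥K1)
          (arithmeticRingAut (modularFunctionFieldFull (M * q)) (ψ.restrictNormal ↥K1)
              (arithmeticRingAut (modularFunctionFieldFull (M * q)) (ψ.restrictNormal ↥K1) f0) *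
            f0 *
            ((arithmeticRingAut (modularFunctionFieldFull (M * q)) (ψ.restrictNormal ↥K1) f0)⁻¹)
              ^ 2)
          = algebraMap ↥K1 ↥(laurentBaseChange ↥K1 (modularFunctionFieldFull (M * q))) w * G ^ m *
            (arithmeticRingAut (modularFunctionFieldFull (M * q)) (ψ.restrictNormal ↥K1)
                (arithmeticRingAut (modularFunctionFieldFull (M * q)) (ψ.restrictNormal ↥K1) f0) *
              f0 *
              ((arithmeticRingAut (modularFunctionFieldFull (M * q)) (ψ.restrictNormal ↥K1) f0)⁻¹)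
                ^ 2) ^ (q ^ 2) := by
  constructor
  · intro h f0 hf0 hdiv hrat hNa hNb
    exact s35in_rw_hcore_to K1 ψ M q m f0 hf0 (h f0 hf0 hdiv hrat hNa hNb)
  · intro h f0 hf0 hdiv hrat hNa hNb
    exact s35in_rw_hcore_of K1 ψ M q m f0 hf0 (h f0 hf0 hdiv hrat hNa hNb)

end Carrier

end Fermat.Agent.S35
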