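import Mathlib
import Fermat.Agent.S34.InstAbs2
import Fermat.Agent.S35.LocUnit
import Fermat.Agent.S35.UnitW
import Fermat.Agent.S35.LocAll

/-!
# S35, LOC-ALL-SIGMA: (LOC) at every closed point for the Frobenius translates

The local statement `S34Loc` of S34, at every closed point of the special fibre of both charts,
for the eight functions `g, σ g, σ² g, σ³ g`, `g ∈ {f₀, w f₀}` (the inputs `h0 … h3` of the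
one-component point lemma of CORE-ABS).

* `s35ls_mul`: `S34Loc f` and `S35Unit u` give `S34Loc (u * f)`.
* `s35ls_sigma`: at a point where `σ` maps the chart into the local ring and is the `Q`-th power
  map modulo its maximal ideal (clauses 5, 6 of `S35Node`), `S34Loc f` gives `S34Loc (σ f)`.
* `s35ls_one`: `s35la_abs` for a function `g`, together with the transport of its hypotheses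
  (`g ≠ 0`, `hord`, (LOC) at the crossing points for `g` and `w g`) to `σ g`.
* `s35ls_four`, `s35ls_all`: the iteration.
-/

set_option autoImplicit false
set_option linter.unusedSectionVars false

open Polynomial

namespace Fermat.Agent.S35

open Fermat.Agent.S18 Fermat.Agent.S34

section Pointwise

variable {A F : Type*} [CommRing A] [Field F] [Algebra A F]

/-- (LOC) is stable under multiplication by a unit of the local ring times an `m`-th power. -/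
theorem s35ls_mul (τ : A) (m : ℕ) (O : Subalgebra A F) (𝔫 : Ideal ↥O) [h𝔫 : 𝔫.IsPrime]
    {f u : F} (hf : S34Loc τ m O f 𝔫) (hu : S35Unit m O 𝔫 u) : S34Loc τ m O (u * f) 𝔫 := by
  obtain ⟨g, hg, a, b, s, s', k, l, hs, hs', e1, e2⟩ := hf
  obtain ⟨g₁, hg₁, a₁, s₁, ha₁, hs₁, e⟩ := hu
  refine ⟨g * g₁, mul_ne_zero hg hg₁, a * a₁, b * s₁, s * s₁, s' * a₁, k, l,
    fun h => (h𝔫.mem_or_mem h).elim hs hs₁, fun h => (h𝔫.mem_or_mem h).elim hs' ha₁, ?_, ?_⟩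
  · push_cast
    rw [mul_pow]
    linear_combination (u * (s₁ : F)) * e1 + ((a : F) * g ^ m) * e
  · push_cast
    rw [mul_pow]
    linear_combination ((a₁ : F) * g₁ ^ m) * e2 - ((b : F) * f) * e

/-- (LOC) for `σ f` from (LOC) for `f`, at a point where `σ` maps the chart into the local ring
and is the `Q`-th power map modulo its maximal ideal. -/
theorem s35ls_sigma (τ ε : A) (hε : IsUnit ε) (hτ0 : algebraMap A F τ ≠ 0)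
    (O : Subalgebra A F) (𝔫 : Ideal ↥O) [𝔫.IsPrime]
    (V₁ V₂ : ValuationSubring F) (hOV₁ : ∀ x ∈ O, x ∈ V₁) (hOV₂ : ∀ x ∈ O, x ∈ V₂)
    (hdiv : ∀ x ∈ O, x * (algebraMap A F τ)⁻¹ ∈ V₁ → x * (algebraMap A F τ)⁻¹ ∈ V₂ →
      x * (algebraMap A F τ)⁻¹ ∈ O)
    (σ : F ≃+* F) (hστ : σ (algebraMap A F τ) = algebraMap A F ε * algebraMap A F τ) (Q : ℕ)
    (hσO : ∀ z : ↥O, ∃ a s : ↥O, s ∉ 𝔫 ∧ σ (z : F) * (s : F) = (a : F))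
    (hσQ : ∀ z : ↥O, ∃ a s : ↥O, a ∈ 𝔫 ∧ s ∉ 𝔫 ∧
      (σ (z : F) - (z : F) ^ Q) * (s : F) = (a : F))
    (hσV₁ : ∀ g : F, g ≠ 0 → σ g * g⁻¹ ∈ V₁) (hσV₂ : ∀ g : F, g ≠ 0 → σ g * g⁻¹ ∈ V₂)
    (m : ℕ) (f : F) (hf0 : f ≠ 0) (hf : S34Loc τ m O f 𝔫) : S34Loc τ m O (σ f) 𝔫 := by
  have hu : S35Unit m O 𝔫 (σ f * f⁻¹) :=
    s35u_node_point τ ε hε hτ0 O 𝔫 V₁ V₂ hOV₁ hOV₂ hdiv σ hστ hσO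
      (s35uw_hσu O 𝔫 σ Q hσO hσQ) hσV₁ hσV₂ m f hf0 hf
  have h := s35ls_mul τ m O 𝔫 hf hu
  rwa [inv_mul_cancel_right₀ hf0] at h

end Pointwise

section Global

variable {A0 K0 F : Type*} [CommRing A0] [IsDomain A0] [IsDiscreteValuationRing A0]
  [Field K0] [Algebra A0 K0] [IsFractionRing A0 K0] [CharZero K0]
  [Field F] [Algebra A0 F] [Algebra K0 F] [IsScalarTower A0 K0 F]

/-- (LOC) at every closed point of both charts for a function `g` given with `hord` and (LOC)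
at the crossing points for `g` and `w g`; and the same package of hypotheses for `σ g`. -/
theorem s35ls_one (V₁ V₂ : ValuationSubring F)
    (hA : ∀ a : A0, algebraMap A0 F a ∈ V₁) (hA₂ : ∀ a : A0, algebraMap A0 F a ∈ V₂)
    {τ : A0} (hτ : Irreducible τ) (hτV : algebraMap A0 F τ ∈ V₁.nonunits)
    (hτgen₁ : ∀ x ∈ V₁.nonunits, x * (algebraMap A0 F τ)⁻¹ ∈ V₁)
    (hτgen₂ : ∀ x ∈ V₂.nonunits, x * (algebraMap A0 F τ)⁻¹ ∈ V₂) (t : F)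
    (ht : Transcendental K0 t) (htV : t ∈ V₁) (htV' : t⁻¹ ∈ V₁)
    (htV₂ : t ∈ V₂) (htV₂' : t⁻¹ ∈ V₂)
    (hG : ∀ p : A0[X], (∃ i, ¬ τ ∣ p.coeff i) → aeval t p ∉ V₁.nonunits)
    (hfin : ∃ (n : ℕ) (β : Fin n → F), ∀ x : F, ∃ (a : Fin n → A0[X]) (d : A0[X]),
      aeval t d ≠ 0 ∧ aeval t d * x = ∑ i, aeval t (a i) * β i)
    (hex : ∀ O' : ValuationSubring F, ChtSame K0 V₁ t O' → O' = V₁ ∨ O' = V₂)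
    (hconst : ∀ x : F, IsAlgebraic K0 x → ∃ c : K0, algebraMap K0 F c = x)
    (m : ℕ) (hm : 0 < m)
    -- the automorphism `σ`
    (σ : F ≃+* F) (Q : ℕ) (ε : A0) (hε : IsUnit ε)
    (hστ : σ (algebraMap A0 F τ) = algebraMap A0 F ε * algebraMap A0 F τ)
    (hσA : ∀ a : A0, ∃ a' : A0, σ (algebraMap A0 F a) = algebraMap A0 F a')
    (hσu₁ : ∀ g : F, g ≠ 0 → σ g * g⁻¹ ∈ V₁) (hσu₂ : ∀ g : F, g ≠ 0 → σ g * g⁻¹ ∈ V₂)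
    -- the swap
    (w : F ≃+* F) (hwA : ∀ a : A0, w (algebraMap A0 F a) = algebraMap A0 F a)
    (hww : ∀ z : F, w (w z) = z)
    (hwV : ∀ z ∈ V₁.nonunits, w z ∈ V₂.nonunits)
    (hwσ : ∀ z : F, w (σ z) = σ (w z))
    -- the FIRST component of the special fibre of each chart has a Dedekind coordinate ring
    (hD₀ : ∀ 𝔭 : Ideal ↥(chtO A0 {t}),
      (∀ x : ↥(chtO A0 {t}), x ∈ 𝔭 ↔ (x : F) ∈ V₁.nonunits) →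
      IsDedekindDomain (↥(chtO A0 {t}) ⧸ 𝔭))
    (hD₁ : ∀ 𝔭 : Ideal ↥(chtO A0 {t⁻¹}),
      (∀ x : ↥(chtO A0 {t⁻¹}), x ∈ 𝔭 ↔ (x : F) ∈ V₁.nonunits) →
      IsDedekindDomain (↥(chtO A0 {t⁻¹}) ⧸ 𝔭))
    -- domination: at a closed point off the first component, `w t` or `w t⁻¹` is regular
    (hdom₀ : ∀ 𝔫 : Ideal ↥(chtO A0 {t}), 𝔫.IsMaximal →
      algebraMap A0 ↥(chtO A0 {t}) τ ∈ 𝔫 →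
      (∃ r : ↥(chtO A0 {t}), (r : F) ∈ V₁.nonunits ∧ r ∉ 𝔫) →
      (∃ a s : ↥(chtO A0 {t}), s ∉ 𝔫 ∧ w t * (s : F) = a) ∨
      (∃ a s : ↥(chtO A0 {t}), s ∉ 𝔫 ∧ w t⁻¹ * (s : F) = a))
    (hdom₁ : ∀ 𝔫 : Ideal ↥(chtO A0 {t⁻¹}), 𝔫.IsMaximal →
      algebraMap A0 ↥(chtO A0 {t⁻¹}) τ ∈ 𝔫 →
      (∃ r : ↥(chtO A0 {t⁻¹}), (r : F) ∈ V₁.nonunits ∧ r ∉ 𝔫) →
      (∃ a s : ↥(chtO A0 {t⁻¹}), s ∉ 𝔫 ∧ w t * (s : F) = a) ∨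
      (∃ a s : ↥(chtO A0 {t⁻¹}), s ∉ 𝔫 ∧ w t⁻¹ * (s : F) = a))
    -- `σ` at the crossing points of the two charts (clauses 5 and 6 of `S35Node`)
    (hσN₀ : ∀ 𝔫 : Ideal ↥(chtO A0 {t}), 𝔫.IsMaximal →
      (∀ x : ↥(chtO A0 {t}), (x : F) ∈ V₁.nonunits → x ∈ 𝔫) →
      (∀ x : ↥(chtO A0 {t}), (x : F) ∈ V₂.nonunits → x ∈ 𝔫) →
      (∀ z : ↥(chtO A0 {t}), ∃ a s : ↥(chtO A0 {t}), s ∉ 𝔫 ∧ σ (z : F) * (s : F) = (a : F)) ∧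
      (∀ z : ↥(chtO A0 {t}), ∃ a s : ↥(chtO A0 {t}), a ∈ 𝔫 ∧ s ∉ 𝔫 ∧
        (σ (z : F) - (z : F) ^ Q) * (s : F) = (a : F)))
    (hσN₁ : ∀ 𝔫 : Ideal ↥(chtO A0 {t⁻¹}), 𝔫.IsMaximal →
      (∀ x : ↥(chtO A0 {t⁻¹}), (x : F) ∈ V₁.nonunits → x ∈ 𝔫) →
      (∀ x : ↥(chtO A0 {t⁻¹}), (x : F) ∈ V₂.nonunits → x ∈ 𝔫) →
      (∀ z : ↥(chtO A0 {t⁻¹}), ∃ a s : ↥(chtO A0 {t⁻¹}), s ∉ 𝔫 ∧
        σ (z : F) * (s : F) = (a : F)) ∧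
      (∀ z : ↥(chtO A0 {t⁻¹}), ∃ a s : ↥(chtO A0 {t⁻¹}), a ∈ 𝔫 ∧ s ∉ 𝔫 ∧
        (σ (z : F) - (z : F) ^ Q) * (s : F) = (a : F)))
    (g : F) (hg : g ≠ 0)
    (hord : ∀ V : ValuationSubring F, (∀ a : A0, algebraMap A0 F a ∈ V) →
      (algebraMap A0 F τ)⁻¹ ∈ V → IsPrincipalIdealRing V →
      ∃ u : F, u ≠ 0 ∧ g * u ^ m ∈ V ∧ (g * u ^ m)⁻¹ ∈ V)
    (hn₀ : ∀ f : F, f = g ∨ f = w (g) →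
      ∀ 𝔫 : Ideal ↥(chtO A0 {t}), 𝔫.IsMaximal →
      (∀ x : ↥(chtO A0 {t}), (x : F) ∈ V₁.nonunits → x ∈ 𝔫) →
      (∀ x : ↥(chtO A0 {t}), (x : F) ∈ V₂.nonunits → x ∈ 𝔫) →
      S34Loc τ m (chtO A0 {t}) f 𝔫)
    (hn₁ : ∀ f : F, f = g ∨ f = w (g) →
      ∀ 𝔫 : Ideal ↥(chtO A0 {t⁻¹}), 𝔫.IsMaximal →
      (∀ x : ↥(chtO A0 {t⁻¹}), (x : F) ∈ V₁.nonunits → x ∈ 𝔫) →
      (∀ x : ↥(chtO A0 {t⁻¹}), (x : F) ∈ V₂.nonunits → x ∈ 𝔫) →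
      S34Loc τ m (chtO A0 {t⁻¹}) f 𝔫) :
    ((∀ 𝔫 : Ideal ↥(chtO A0 {t}), 𝔫.IsMaximal → algebraMap A0 ↥(chtO A0 {t}) τ ∈ 𝔫 →
        S34Loc τ m (chtO A0 {t}) (g) 𝔫) ∧
      (∀ 𝔫 : Ideal ↥(chtO A0 {t⁻¹}), 𝔫.IsMaximal → algebraMap A0 ↥(chtO A0 {t⁻¹}) τ ∈ 𝔫 →
        S34Loc τ m (chtO A0 {t⁻¹}) (g) 𝔫)) ∧
    σ g ≠ 0 ∧
    (∀ V : ValuationSubring F, (∀ a : A0, algebraMap A0 F a ∈ V) →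
      (algebraMap A0 F τ)⁻¹ ∈ V → IsPrincipalIdealRing V →
      ∃ u : F, u ≠ 0 ∧ σ g * u ^ m ∈ V ∧ (σ g * u ^ m)⁻¹ ∈ V) ∧
    (∀ f : F, f = σ g ∨ f = w (σ g) →
      ∀ 𝔫 : Ideal ↥(chtO A0 {t}), 𝔫.IsMaximal →
      (∀ x : ↥(chtO A0 {t}), (x : F) ∈ V₁.nonunits → x ∈ 𝔫) →
      (∀ x : ↥(chtO A0 {t}), (x : F) ∈ V₂.nonunits → x ∈ 𝔫) →
      S34Loc τ m (chtO A0 {t}) f 𝔫) ∧
    (∀ f : F, f = σ g ∨ f = w (σ g) →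
      ∀ 𝔫 : Ideal ↥(chtO A0 {t⁻¹}), 𝔫.IsMaximal →
      (∀ x : ↥(chtO A0 {t⁻¹}), (x : F) ∈ V₁.nonunits → x ∈ 𝔫) →
      (∀ x : ↥(chtO A0 {t⁻¹}), (x : F) ∈ V₂.nonunits → x ∈ 𝔫) →
      S34Loc τ m (chtO A0 {t⁻¹}) f 𝔫) := by
  classical
  obtain ⟨-, -, -, -, -, -, -, -, -, -, -, hV0, hV1, hdiv0, hdiv1, -, -⟩ :=
    cht2_all (K0 := K0) V₁ V₂ hA hA₂ hτ hτV hτgen₁ hτgen₂ t ht htV htV' htV₂ htV₂' hG hfin hex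
      hconst m hm
  have hτ0 : algebraMap A0 F τ ≠ 0 := by
    rw [IsScalarTower.algebraMap_apply A0 K0 F, Ne, map_eq_zero,
      map_eq_zero_iff _ (IsFractionRing.injective A0 K0)]
    exact hτ.ne_zero
  have hws : ∀ z : F, w.symm z = w z := fun z => by rw [RingEquiv.symm_apply_eq, hww]
  have hwg : w g ≠ 0 := (map_ne_zero w).mpr hg
  refine ⟨?_, (map_ne_zero σ).mpr hg, s35la_hord_gal τ ε hε m g σ hσA hστ hord, ?_, ?_⟩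
  · exact s35la_abs (K0 := K0) V₁ V₂ hA hA₂ hτ hτV hτgen₁ hτgen₂ t ht htV htV' htV₂ htV₂' hG
      hfin hex hconst m hm w hwA hwV hD₀ hD₁ hdom₀ hdom₁ g hg hord
      (fun f hf => hn₀ f (hf.imp id fun h => by rw [h, hws]))
      (fun f hf => hn₁ f (hf.imp id fun h => by rw [h, hws]))
  · rintro f (rfl | rfl) 𝔫 h𝔫 h1 h2
    · have : 𝔫.IsPrime := h𝔫.isPrime
      obtain ⟨hσO, hσQ⟩ := hσN₀ 𝔫 h𝔫 h1 h2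
      exact s35ls_sigma τ ε hε hτ0 (chtO A0 {t}) 𝔫 V₁ V₂ (fun x hx => (hV0 x hx).1)
        (fun x hx => (hV0 x hx).2) hdiv0 σ hστ Q hσO hσQ hσu₁ hσu₂ m g hg
        (hn₀ g (Or.inl rfl) 𝔫 h𝔫 h1 h2)
    · have : 𝔫.IsPrime := h𝔫.isPrime
      obtain ⟨hσO, hσQ⟩ := hσN₀ 𝔫 h𝔫 h1 h2
      rw [hwσ]
      exact s35ls_sigma τ ε hε hτ0 (chtO A0 {t}) 𝔫 V₁ V₂ (fun x hx => (hV0 x hx).1)
        (fun x hx => (hV0 x hx).2) hdiv0 σ hστ Q hσO hσQ hσu₁ hσu₂ m (w g) hwg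
        (hn₀ (w g) (Or.inr rfl) 𝔫 h𝔫 h1 h2)
  · rintro f (rfl | rfl) 𝔫 h𝔫 h1 h2
    · have : 𝔫.IsPrime := h𝔫.isPrime
      obtain ⟨hσO, hσQ⟩ := hσN₁ 𝔫 h𝔫 h1 h2
      exact s35ls_sigma τ ε hε hτ0 (chtO A0 {t⁻¹}) 𝔫 V₁ V₂ (fun x hx => (hV1 x hx).1)
        (fun x hx => (hV1 x hx).2) hdiv1 σ hστ Q hσO hσQ hσu₁ hσu₂ m g hg
        (hn₁ g (Or.inl rfl) 𝔫 h𝔫 h1 h2)
    · have : 𝔫.IsPrime := h𝔫.isPrime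
      obtain ⟨hσO, hσQ⟩ := hσN₁ 𝔫 h𝔫 h1 h2
      rw [hwσ]
      exact s35ls_sigma τ ε hε hτ0 (chtO A0 {t⁻¹}) 𝔫 V₁ V₂ (fun x hx => (hV1 x hx).1)
        (fun x hx => (hV1 x hx).2) hdiv1 σ hστ Q hσO hσQ hσu₁ hσu₂ m (w g) hwg
        (hn₁ (w g) (Or.inr rfl) 𝔫 h𝔫 h1 h2)

/-- (LOC) at every closed point of both charts for `g`, `σ g`, `σ² g`, `σ³ g`. -/
theorem s35ls_four (V₁ V₂ : ValuationSubring F)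
    (hA : ∀ a : A0, algebraMap A0 F a ∈ V₁) (hA₂ : ∀ a : A0, algebraMap A0 F a ∈ V₂)
    {τ : A0} (hτ : Irreducible τ) (hτV : algebraMap A0 F τ ∈ V₁.nonunits)
    (hτgen₁ : ∀ x ∈ V₁.nonunits, x * (algebraMap A0 F τ)⁻¹ ∈ V₁)
    (hτgen₂ : ∀ x ∈ V₂.nonunits, x * (algebraMap A0 F τ)⁻¹ ∈ V₂) (t : F)
    (ht : Transcendental K0 t) (htV : t ∈ V₁) (htV' : t⁻¹ ∈ V₁)
    (htV₂ : t ∈ V₂) (htV₂' : t⁻¹ ∈ V₂)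
    (hG : ∀ p : A0[X], (∃ i, ¬ τ ∣ p.coeff i) → aeval t p ∉ V₁.nonunits)
    (hfin : ∃ (n : ℕ) (β : Fin n → F), ∀ x : F, ∃ (a : Fin n → A0[X]) (d : A0[X]),
      aeval t d ≠ 0 ∧ aeval t d * x = ∑ i, aeval t (a i) * β i)
    (hex : ∀ O' : ValuationSubring F, ChtSame K0 V₁ t O' → O' = V₁ ∨ O' = V₂)
    (hconst : ∀ x : F, IsAlgebraic K0 x → ∃ c : K0, algebraMap K0 F c = x)
    (m : ℕ) (hm : 0 < m)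
    -- the automorphism `σ`
    (σ : F ≃+* F) (Q : ℕ) (ε : A0) (hε : IsUnit ε)
    (hστ : σ (algebraMap A0 F τ) = algebraMap A0 F ε * algebraMap A0 F τ)
    (hσA : ∀ a : A0, ∃ a' : A0, σ (algebraMap A0 F a) = algebraMap A0 F a')
    (hσu₁ : ∀ g : F, g ≠ 0 → σ g * g⁻¹ ∈ V₁) (hσu₂ : ∀ g : F, g ≠ 0 → σ g * g⁻¹ ∈ V₂)
    -- the swap
    (w : F ≃+* F) (hwA : ∀ a : A0, w (algebraMap A0 F a) = algebraMap A0 F a)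
    (hww : ∀ z : F, w (w z) = z)
    (hwV : ∀ z ∈ V₁.nonunits, w z ∈ V₂.nonunits)
    (hwσ : ∀ z : F, w (σ z) = σ (w z))
    -- the FIRST component of the special fibre of each chart has a Dedekind coordinate ring
    (hD₀ : ∀ 𝔭 : Ideal ↥(chtO A0 {t}),
      (∀ x : ↥(chtO A0 {t}), x ∈ 𝔭 ↔ (x : F) ∈ V₁.nonunits) →
      IsDedekindDomain (↥(chtO A0 {t}) ⧸ 𝔭))
    (hD₁ : ∀ 𝔭 : Ideal ↥(chtO A0 {t⁻¹}),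
      (∀ x : ↥(chtO A0 {t⁻¹}), x ∈ 𝔭 ↔ (x : F) ∈ V₁.nonunits) →
      IsDedekindDomain (↥(chtO A0 {t⁻¹}) ⧸ 𝔭))
    -- domination: at a closed point off the first component, `w t` or `w t⁻¹` is regular
    (hdom₀ : ∀ 𝔫 : Ideal ↥(chtO A0 {t}), 𝔫.IsMaximal →
      algebraMap A0 ↥(chtO A0 {t}) τ ∈ 𝔫 →
      (∃ r : ↥(chtO A0 {t}), (r : F) ∈ V₁.nonunits ∧ r ∉ 𝔫) →
      (∃ a s : ↥(chtO A0 {t}), s ∉ 𝔫 ∧ w t * (s : F) = a) ∨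
      (∃ a s : ↥(chtO A0 {t}), s ∉ 𝔫 ∧ w t⁻¹ * (s : F) = a))
    (hdom₁ : ∀ 𝔫 : Ideal ↥(chtO A0 {t⁻¹}), 𝔫.IsMaximal →
      algebraMap A0 ↥(chtO A0 {t⁻¹}) τ ∈ 𝔫 →
      (∃ r : ↥(chtO A0 {t⁻¹}), (r : F) ∈ V₁.nonunits ∧ r ∉ 𝔫) →
      (∃ a s : ↥(chtO A0 {t⁻¹}), s ∉ 𝔫 ∧ w t * (s : F) = a) ∨
      (∃ a s : ↥(chtO A0 {t⁻¹}), s ∉ 𝔫 ∧ w t⁻¹ * (s : F) = a))
    -- `σ` at the crossing points of the two charts (clauses 5 and 6 of `S35Node`)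
    (hσN₀ : ∀ 𝔫 : Ideal ↥(chtO A0 {t}), 𝔫.IsMaximal →
      (∀ x : ↥(chtO A0 {t}), (x : F) ∈ V₁.nonunits → x ∈ 𝔫) →
      (∀ x : ↥(chtO A0 {t}), (x : F) ∈ V₂.nonunits → x ∈ 𝔫) →
      (∀ z : ↥(chtO A0 {t}), ∃ a s : ↥(chtO A0 {t}), s ∉ 𝔫 ∧ σ (z : F) * (s : F) = (a : F)) ∧
      (∀ z : ↥(chtO A0 {t}), ∃ a s : ↥(chtO A0 {t}), a ∈ 𝔫 ∧ s ∉ 𝔫 ∧
        (σ (z : F) - (z : F) ^ Q) * (s : F) = (a : F)))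
    (hσN₁ : ∀ 𝔫 : Ideal ↥(chtO A0 {t⁻¹}), 𝔫.IsMaximal →
      (∀ x : ↥(chtO A0 {t⁻¹}), (x : F) ∈ V₁.nonunits → x ∈ 𝔫) →
      (∀ x : ↥(chtO A0 {t⁻¹}), (x : F) ∈ V₂.nonunits → x ∈ 𝔫) →
      (∀ z : ↥(chtO A0 {t⁻¹}), ∃ a s : ↥(chtO A0 {t⁻¹}), s ∉ 𝔫 ∧
        σ (z : F) * (s : F) = (a : F)) ∧
      (∀ z : ↥(chtO A0 {t⁻¹}), ∃ a s : ↥(chtO A0 {t⁻¹}), a ∈ 𝔫 ∧ s ∉ 𝔫 ∧
        (σ (z : F) - (z : F) ^ Q) * (s : F) = (a : F)))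
    (g : F) (hg : g ≠ 0)
    (hord : ∀ V : ValuationSubring F, (∀ a : A0, algebraMap A0 F a ∈ V) →
      (algebraMap A0 F τ)⁻¹ ∈ V → IsPrincipalIdealRing V →
      ∃ u : F, u ≠ 0 ∧ g * u ^ m ∈ V ∧ (g * u ^ m)⁻¹ ∈ V)
    (hn₀ : ∀ f : F, f = g ∨ f = w (g) →
      ∀ 𝔫 : Ideal ↥(chtO A0 {t}), 𝔫.IsMaximal →
      (∀ x : ↥(chtO A0 {t}), (x : F) ∈ V₁.nonunits → x ∈ 𝔫) →
      (∀ x : ↥(chtO A0 {t}), (x : F) ∈ V₂.nonunits → x ∈ 𝔫) →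
      S34Loc τ m (chtO A0 {t}) f 𝔫)
    (hn₁ : ∀ f : F, f = g ∨ f = w (g) →
      ∀ 𝔫 : Ideal ↥(chtO A0 {t⁻¹}), 𝔫.IsMaximal →
      (∀ x : ↥(chtO A0 {t⁻¹}), (x : F) ∈ V₁.nonunits → x ∈ 𝔫) →
      (∀ x : ↥(chtO A0 {t⁻¹}), (x : F) ∈ V₂.nonunits → x ∈ 𝔫) →
      S34Loc τ m (chtO A0 {t⁻¹}) f 𝔫) :
    ((∀ 𝔫 : Ideal ↥(chtO A0 {t}), 𝔫.IsMaximal → algebraMap A0 ↥(chtO A0 {t}) τ ∈ 𝔫 →
        S34Loc τ m (chtO A0 {t}) (g) 𝔫) ∧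
      (∀ 𝔫 : Ideal ↥(chtO A0 {t⁻¹}), 𝔫.IsMaximal → algebraMap A0 ↥(chtO A0 {t⁻¹}) τ ∈ 𝔫 →
        S34Loc τ m (chtO A0 {t⁻¹}) (g) 𝔫)) ∧
    ((∀ 𝔫 : Ideal ↥(chtO A0 {t}), 𝔫.IsMaximal → algebraMap A0 ↥(chtO A0 {t}) τ ∈ 𝔫 →
        S34Loc τ m (chtO A0 {t}) (σ g) 𝔫) ∧
      (∀ 𝔫 : Ideal ↥(chtO A0 {t⁻¹}), 𝔫.IsMaximal → algebraMap A0 ↥(chtO A0 {t⁻¹}) τ ∈ 𝔫 →
        S34Loc τ m (chtO A0 {t⁻¹}) (σ g) 𝔫)) ∧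
    ((∀ 𝔫 : Ideal ↥(chtO A0 {t}), 𝔫.IsMaximal → algebraMap A0 ↥(chtO A0 {t}) τ ∈ 𝔫 →
        S34Loc τ m (chtO A0 {t}) (σ (σ g)) 𝔫) ∧
      (∀ 𝔫 : Ideal ↥(chtO A0 {t⁻¹}), 𝔫.IsMaximal → algebraMap A0 ↥(chtO A0 {t⁻¹}) τ ∈ 𝔫 →
        S34Loc τ m (chtO A0 {t⁻¹}) (σ (σ g)) 𝔫)) ∧
    ((∀ 𝔫 : Ideal ↥(chtO A0 {t}), 𝔫.IsMaximal → algebraMap A0 ↥(chtO A0 {t}) τ ∈ 𝔫 →
        S34Loc τ m (chtO A0 {t}) (σ (σ (σ g))) 𝔫) ∧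
      (∀ 𝔫 : Ideal ↥(chtO A0 {t⁻¹}), 𝔫.IsMaximal → algebraMap A0 ↥(chtO A0 {t⁻¹}) τ ∈ 𝔫 →
        S34Loc τ m (chtO A0 {t⁻¹}) (σ (σ (σ g))) 𝔫)) := by
  obtain ⟨r0, hg1, hord1, hn₀1, hn₁1⟩ := s35ls_one (K0 := K0) V₁ V₂ hA hA₂ hτ hτV hτgen₁ hτgen₂ t ht htV htV' htV₂ htV₂' hG hfin hex hconst m hm σ Q ε hε hστ hσA hσu₁ hσu₂ w hwA hww hwV hwσ hD₀ hD₁ hdom₀ hdom₁ hσN₀ hσN₁
    g hg hord hn₀ hn₁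
  obtain ⟨r1, hg2, hord2, hn₀2, hn₁2⟩ := s35ls_one (K0 := K0) V₁ V₂ hA hA₂ hτ hτV hτgen₁ hτgen₂ t ht htV htV' htV₂ htV₂' hG hfin hex hconst m hm σ Q ε hε hστ hσA hσu₁ hσu₂ w hwA hww hwV hwσ hD₀ hD₁ hdom₀ hdom₁ hσN₀ hσN₁
    (σ g) hg1 hord1 hn₀1 hn₁1
  obtain ⟨r2, hg3, hord3, hn₀3, hn₁3⟩ := s35ls_one (K0 := K0) V₁ V₂ hA hA₂ hτ hτV hτgen₁ hτgen₂ t ht htV htV' htV₂ htV₂' hG hfin hex hconst m hm σ Q ε hε hστ hσA hσu₁ hσu₂ w hwA hww hwV hwσ hD₀ hD₁ hdom₀ hdom₁ hσN₀ hσN₁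
    (σ (σ g)) hg2 hord2 hn₀2 hn₁2
  obtain ⟨r3, -⟩ := s35ls_one (K0 := K0) V₁ V₂ hA hA₂ hτ hτV hτgen₁ hτgen₂ t ht htV htV' htV₂ htV₂' hG hfin hex hconst m hm σ Q ε hε hστ hσA hσu₁ hσu₂ w hwA hww hwV hwσ hD₀ hD₁ hdom₀ hdom₁ hσN₀ hσN₁
    (σ (σ (σ g))) hg3 hord3 hn₀3 hn₁3
  exact ⟨r0, r1, r2, r3⟩

/-- **LOC-ALL-SIGMA.**  (LOC) at every closed point of both charts for the eight functions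
`g, σ g, σ² g, σ³ g`, `g ∈ {f₀, w f₀}`, in the binder shapes of `s35c_main`. -/
theorem s35ls_all (V₁ V₂ : ValuationSubring F)
    (hA : ∀ a : A0, algebraMap A0 F a ∈ V₁) (hA₂ : ∀ a : A0, algebraMap A0 F a ∈ V₂)
    {τ : A0} (hτ : Irreducible τ) (hτV : algebraMap A0 F τ ∈ V₁.nonunits)
    (hτgen₁ : ∀ x ∈ V₁.nonunits, x * (algebraMap A0 F τ)⁻¹ ∈ V₁)
    (hτgen₂ : ∀ x ∈ V₂.nonunits, x * (algebraMap A0 F τ)⁻¹ ∈ V₂) (t : F)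
    (ht : Transcendental K0 t) (htV : t ∈ V₁) (htV' : t⁻¹ ∈ V₁)
    (htV₂ : t ∈ V₂) (htV₂' : t⁻¹ ∈ V₂)
    (hG : ∀ p : A0[X], (∃ i, ¬ τ ∣ p.coeff i) → aeval t p ∉ V₁.nonunits)
    (hfin : ∃ (n : ℕ) (β : Fin n → F), ∀ x : F, ∃ (a : Fin n → A0[X]) (d : A0[X]),
      aeval t d ≠ 0 ∧ aeval t d * x = ∑ i, aeval t (a i) * β i)
    (hex : ∀ O' : ValuationSubring F, ChtSame K0 V₁ t O' → O' = V₁ ∨ O' = V₂)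
    (hconst : ∀ x : F, IsAlgebraic K0 x → ∃ c : K0, algebraMap K0 F c = x)
    (m : ℕ) (hm : 0 < m)
    -- the automorphism `σ`
    (σ : F ≃+* F) (Q : ℕ) (ε : A0) (hε : IsUnit ε)
    (hστ : σ (algebraMap A0 F τ) = algebraMap A0 F ε * algebraMap A0 F τ)
    (hσA : ∀ a : A0, ∃ a' : A0, σ (algebraMap A0 F a) = algebraMap A0 F a')
    (hσu₁ : ∀ g : F, g ≠ 0 → σ g * g⁻¹ ∈ V₁) (hσu₂ : ∀ g : F, g ≠ 0 → σ g * g⁻¹ ∈ V₂)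
    -- the swap
    (w : F ≃+* F) (hwA : ∀ a : A0, w (algebraMap A0 F a) = algebraMap A0 F a)
    (hww : ∀ z : F, w (w z) = z)
    (hwV : ∀ z ∈ V₁.nonunits, w z ∈ V₂.nonunits)
    (hwσ : ∀ z : F, w (σ z) = σ (w z))
    -- the FIRST component of the special fibre of each chart has a Dedekind coordinate ring
    (hD₀ : ∀ 𝔭 : Ideal ↥(chtO A0 {t}),
      (∀ x : ↥(chtO A0 {t}), x ∈ 𝔭 ↔ (x : F) ∈ V₁.nonunits) →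
      IsDedekindDomain (↥(chtO A0 {t}) ⧸ 𝔭))
    (hD₁ : ∀ 𝔭 : Ideal ↥(chtO A0 {t⁻¹}),
      (∀ x : ↥(chtO A0 {t⁻¹}), x ∈ 𝔭 ↔ (x : F) ∈ V₁.nonunits) →
      IsDedekindDomain (↥(chtO A0 {t⁻¹}) ⧸ 𝔭))
    -- domination: at a closed point off the first component, `w t` or `w t⁻¹` is regular
    (hdom₀ : ∀ 𝔫 : Ideal ↥(chtO A0 {t}), 𝔫.IsMaximal →
      algebraMap A0 ↥(chtO A0 {t}) τ ∈ 𝔫 →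
      (∃ r : ↥(chtO A0 {t}), (r : F) ∈ V₁.nonunits ∧ r ∉ 𝔫) →
      (∃ a s : ↥(chtO A0 {t}), s ∉ 𝔫 ∧ w t * (s : F) = a) ∨
      (∃ a s : ↥(chtO A0 {t}), s ∉ 𝔫 ∧ w t⁻¹ * (s : F) = a))
    (hdom₁ : ∀ 𝔫 : Ideal ↥(chtO A0 {t⁻¹}), 𝔫.IsMaximal →
      algebraMap A0 ↥(chtO A0 {t⁻¹}) τ ∈ 𝔫 →
      (∃ r : ↥(chtO A0 {t⁻¹}), (r : F) ∈ V₁.nonunits ∧ r ∉ 𝔫) →
      (∃ a s : ↥(chtO A0 {t⁻¹}), s ∉ 𝔫 ∧ w t * (s : F) = a) ∨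
      (∃ a s : ↥(chtO A0 {t⁻¹}), s ∉ 𝔫 ∧ w t⁻¹ * (s : F) = a))
    -- `σ` at the crossing points of the two charts (clauses 5 and 6 of `S35Node`)
    (hσN₀ : ∀ 𝔫 : Ideal ↥(chtO A0 {t}), 𝔫.IsMaximal →
      (∀ x : ↥(chtO A0 {t}), (x : F) ∈ V₁.nonunits → x ∈ 𝔫) →
      (∀ x : ↥(chtO A0 {t}), (x : F) ∈ V₂.nonunits → x ∈ 𝔫) →
      (∀ z : ↥(chtO A0 {t}), ∃ a s : ↥(chtO A0 {t}), s ∉ 𝔫 ∧ σ (z : F) * (s : F) = (a : F)) ∧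
      (∀ z : ↥(chtO A0 {t}), ∃ a s : ↥(chtO A0 {t}), a ∈ 𝔫 ∧ s ∉ 𝔫 ∧
        (σ (z : F) - (z : F) ^ Q) * (s : F) = (a : F)))
    (hσN₁ : ∀ 𝔫 : Ideal ↥(chtO A0 {t⁻¹}), 𝔫.IsMaximal →
      (∀ x : ↥(chtO A0 {t⁻¹}), (x : F) ∈ V₁.nonunits → x ∈ 𝔫) →
      (∀ x : ↥(chtO A0 {t⁻¹}), (x : F) ∈ V₂.nonunits → x ∈ 𝔫) →
      (∀ z : ↥(chtO A0 {t⁻¹}), ∃ a s : ↥(chtO A0 {t⁻¹}), s ∉ 𝔫 ∧
        σ (z : F) * (s : F) = (a : F)) ∧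
      (∀ z : ↥(chtO A0 {t⁻¹}), ∃ a s : ↥(chtO A0 {t⁻¹}), a ∈ 𝔫 ∧ s ∉ 𝔫 ∧
        (σ (z : F) - (z : F) ^ Q) * (s : F) = (a : F)))
    (f₀ : F) (hf₀ : f₀ ≠ 0)
    (hord : ∀ V : ValuationSubring F, (∀ a : A0, algebraMap A0 F a ∈ V) →
      (algebraMap A0 F τ)⁻¹ ∈ V → IsPrincipalIdealRing V →
      ∃ u : F, u ≠ 0 ∧ f₀ * u ^ m ∈ V ∧ (f₀ * u ^ m)⁻¹ ∈ V)
    (hnode₀ : ∀ f : F, f = f₀ ∨ f = w (f₀) →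
      ∀ 𝔫 : Ideal ↥(chtO A0 {t}), 𝔫.IsMaximal →
      (∀ x : ↥(chtO A0 {t}), (x : F) ∈ V₁.nonunits → x ∈ 𝔫) →
      (∀ x : ↥(chtO A0 {t}), (x : F) ∈ V₂.nonunits → x ∈ 𝔫) →
      S34Loc τ m (chtO A0 {t}) f 𝔫)
    (hnode₁ : ∀ f : F, f = f₀ ∨ f = w (f₀) →
      ∀ 𝔫 : Ideal ↥(chtO A0 {t⁻¹}), 𝔫.IsMaximal →
      (∀ x : ↥(chtO A0 {t⁻¹}), (x : F) ∈ V₁.nonunits → x ∈ 𝔫) →
      (∀ x : ↥(chtO A0 {t⁻¹}), (x : F) ∈ V₂.nonunits → x ∈ 𝔫) →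
      S34Loc τ m (chtO A0 {t⁻¹}) f 𝔫) :
    ∀ g : F, g = f₀ ∨ g = w f₀ →
      ((∀ 𝔫 : Ideal ↥(chtO A0 {t}), 𝔫.IsMaximal → algebraMap A0 ↥(chtO A0 {t}) τ ∈ 𝔫 →
        S34Loc τ m (chtO A0 {t}) (g) 𝔫) ∧
      (∀ 𝔫 : Ideal ↥(chtO A0 {t⁻¹}), 𝔫.IsMaximal → algebraMap A0 ↥(chtO A0 {t⁻¹}) τ ∈ 𝔫 →
        S34Loc τ m (chtO A0 {t⁻¹}) (g) 𝔫)) ∧
      ((∀ 𝔫 : Ideal ↥(chtO A0 {t}), 𝔫.IsMaximal → algebraMap A0 ↥(chtO A0 {t}) τ ∈ 𝔫 →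
        S34Loc τ m (chtO A0 {t}) (σ g) 𝔫) ∧
      (∀ 𝔫 : Ideal ↥(chtO A0 {t⁻¹}), 𝔫.IsMaximal → algebraMap A0 ↥(chtO A0 {t⁻¹}) τ ∈ 𝔫 →
        S34Loc τ m (chtO A0 {t⁻¹}) (σ g) 𝔫)) ∧
      ((∀ 𝔫 : Ideal ↥(chtO A0 {t}), 𝔫.IsMaximal → algebraMap A0 ↥(chtO A0 {t}) τ ∈ 𝔫 →
        S34Loc τ m (chtO A0 {t}) (σ (σ g)) 𝔫) ∧
      (∀ 𝔫 : Ideal ↥(chtO A0 {t⁻¹}), 𝔫.IsMaximal → algebraMap A0 ↥(chtO A0 {t⁻¹}) τ ∈ 𝔫 →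
        S34Loc τ m (chtO A0 {t⁻¹}) (σ (σ g)) 𝔫)) ∧
      ((∀ 𝔫 : Ideal ↥(chtO A0 {t}), 𝔫.IsMaximal → algebraMap A0 ↥(chtO A0 {t}) τ ∈ 𝔫 →
        S34Loc τ m (chtO A0 {t}) (σ (σ (σ g))) 𝔫) ∧
      (∀ 𝔫 : Ideal ↥(chtO A0 {t⁻¹}), 𝔫.IsMaximal → algebraMap A0 ↥(chtO A0 {t⁻¹}) τ ∈ 𝔫 →
        S34Loc τ m (chtO A0 {t⁻¹}) (σ (σ (σ g))) 𝔫)) := by
  have hws : ∀ z : F, w.symm z = w z := fun z => by rw [RingEquiv.symm_apply_eq, hww]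
  rintro g (rfl | rfl)
  · exact s35ls_four (K0 := K0) V₁ V₂ hA hA₂ hτ hτV hτgen₁ hτgen₂ t ht htV htV' htV₂ htV₂' hG hfin hex hconst m hm σ Q ε hε hστ hσA hσu₁ hσu₂ w hwA hww hwV hwσ hD₀ hD₁ hdom₀ hdom₁ hσN₀ hσN₁
      g hf₀ hord hnode₀ hnode₁
  · refine s35ls_four (K0 := K0) V₁ V₂ hA hA₂ hτ hτV hτgen₁ hτgen₂ t ht htV htV' htV₂ htV₂' hG hfin hex hconst m hm σ Q ε hε hστ hσA hσu₁ hσu₂ w hwA hww hwV hwσ hD₀ hD₁ hdom₀ hdom₁ hσN₀ hσN₁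
      (w f₀) ((map_ne_zero w).mpr hf₀) ?_ ?_ ?_
    · intro V hAV hτV' hV
      have h := s34ib_hord_symm τ w hwA m f₀ hord V hAV hτV' hV
      rwa [hws] at h
    · intro f hf
      exact hnode₀ f (hf.symm.imp (fun h => by rw [h, hww]) id)
    · intro f hf
      exact hnode₁ f (hf.symm.imp (fun h => by rw [h, hww]) id)

end Global

end Fermat.Agent.S35
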