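import Fermat.Agent.S35.NewMain
import Fermat.Agent.S35.NewFwd
import Fermat.Agent.S35.NewEigTop

/-!
# S35, leaf NEWP-MAIN, closed form

`nwm_main`: a newform `g` of level `M` (eigencharacter `chig` away from a finite set `S`
containing the primes of `M`) has, for every proper divisor level `N' ∣ M`, a noncommutative Hecke
polynomial `P` (level-`M` variables) and `d ≠ 0` with `chig (P(T)) ≠ 0` such that `d • P(T)`,
evaluated at the Hecke operators of level `N'`, kills the `λ`-power torsion of `J₀(N')`.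

It is `nwm_abs` (S35/NewMain) with its two hypotheses discharged by NEWP-FWD (`nwf_fwd`,
S35/NewFwd) and NEWP-ALG + NEWP-EIG (`nwt_char`, S35/NewEigTop).  `nwm_main_mul` is the form at
`M = M₀ q`, `N' = M₀`, in the index shape consumed by the degeneracy step.
-/

set_option autoImplicit false

open CongruenceSubgroup CuspForm

namespace Fermat.Agent.S35

open Fermat.Agent.S31

/-- **NEWP-MAIN.** -/
theorem nwm_main {M : ℕ} [NeZero M] {g : CuspForm (Gamma0 M) 2} (hg : g.IsNewform)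
    (lam : ℕ) (hlam : lam ≠ 0) (S : Finset ℕ)
    (chig : heckeAlgebra M 2 (↑S : Set ℕ) →+* ℂ)
    (hchig : ∀ (ℓ : ℕ) (hℓ : ℓ.Prime) (hℓM : ¬ ℓ ∣ M) (hℓS : ℓ ∉ (↑S : Set ℕ)),
      chig (heckeAlgebra.T hℓ hℓM hℓS) = ModularFormClass.qCoeff g ℓ)
    (hMS : ∀ q : ℕ, q.Prime → q ∣ M → q ∈ S)
    (N' : ℕ) [NeZero N'] (hN : N' ∣ M) (hne : N' ≠ M) :
    ∃ (P : FreeAlgebra ℤ (HresIdx M (↑S : Set ℕ))) (d : ℕ), d ≠ 0 ∧
      chig (hresT M (↑S : Set ℕ) P) ≠ 0 ∧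
      ∀ (n : ℕ) (x : TrcX N' (lam ^ n)),
        d • hresJ (fun l : HresIdx M (↑S : Set ℕ) =>
          trcTheta N' (lam ^ n) (↑S : Set ℕ) (nwmIdx (↑S : Set ℕ) hN l)) P x = 0 :=
  nwm_abs hg lam S chig hchig hMS N' hN hne (nwf_fwd N' (↑S : Set ℕ) lam hlam)
    (fun χ' => nwt_char N' (↑S : Set ℕ) χ')

/-- **NEWP-MAIN at the level `M₀ q`**, divisor level `M₀`. -/
theorem nwm_main_mul {M0 q : ℕ} [NeZero M0] [NeZero (M0 * q)]
    {g : CuspForm (Gamma0 (M0 * q)) 2} (hg : g.IsNewform) (hq : q ≠ 1)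
    (lam : ℕ) (hlam : lam ≠ 0) (S : Finset ℕ)
    (chig : heckeAlgebra (M0 * q) 2 (↑S : Set ℕ) →+* ℂ)
    (hchig : ∀ (ℓ : ℕ) (hℓ : ℓ.Prime) (hℓM : ¬ ℓ ∣ M0 * q) (hℓS : ℓ ∉ (↑S : Set ℕ)),
      chig (heckeAlgebra.T hℓ hℓM hℓS) = ModularFormClass.qCoeff g ℓ)
    (hMS : ∀ r : ℕ, r.Prime → r ∣ M0 * q → r ∈ S) :
    ∃ (P : FreeAlgebra ℤ (HresIdx (M0 * q) (↑S : Set ℕ))) (d : ℕ), d ≠ 0 ∧
      chig (hresT (M0 * q) (↑S : Set ℕ) P) ≠ 0 ∧
      ∀ (n : ℕ) (x : TrcX M0 (lam ^ n)),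
        d • hresJ (fun l : HresIdx (M0 * q) (↑S : Set ℕ) =>
          trcTheta M0 (lam ^ n) (↑S : Set ℕ)
            (nwmIdx (↑S : Set ℕ) (dvd_mul_right M0 q) l)) P x = 0 := by
  have hne : M0 ≠ M0 * q := fun h =>
    hq (Nat.eq_of_mul_eq_mul_left (NeZero.pos M0) (by rw [mul_one]; exact h.symm))
  exact nwm_main hg lam hlam S chig hchig hMS M0 (dvd_mul_right M0 q) hne

end Fermat.Agent.S35
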