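import Mathlib
import Fermat.Agent.S35.NodeData
import Fermat.Agent.S35.FrobNodeInst

/-!
# S35, CORE-NODEDATA, part 2: the full node datum of CORE-ABS at the carrier

`s35nf_node`: at a crossing point `𝔫` of the chart `O = chtO A0 {t}` (`t = cinstU H K0 c0 c1`),
for `s` a Frobenius element of `A0` at `q`, `σ = arithmeticRingAut _ (s * s)`, `Q = q ^ 2`,
`x = h ^ q - θ`, `y = h - θ ^ q` (`h = α (nunH)`, `θ = β (nunH)`): the six statements

* `x ∈ O_𝔫`, `y ∈ O_𝔫`;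
* `hB₁` (with `y`), `hB₂` (with `x`);
* `σ z ∈ O_𝔫` and `σ z - z ^ Q ∈ 𝔫 O_𝔫` for every `z ∈ O`,

i.e. the unfolded form of the predicate `S35Node O 𝔫 V₁ V₂ x y σ Q` of the abstract core
(contract finding 191).  Inputs: `s35nd_node` (S35/NodeData.lean) and `fnd_inst_sq`
(S35/FrobNodeInst.lean).
-/

set_option autoImplicit false
set_option linter.unusedSectionVars false

noncomputable section

open ModularCurve AlgebraicCurve Polynomial
open Fermat.Agent.S18 Fermat.Agent.S37 Fermat.Agent.S34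

namespace Fermat.Agent.S35

local notation "Qb" => AlgebraicClosure ℚ

section NodeFull

variable (M q : ℕ) [NeZero M] [hq : Fact q.Prime] (hM : ¬ q ∣ M)
  (K0 : Type*) [Field K0] [Algebra ℚ K0] [Algebra K0 Qb]
  (A0 : ValuationSubring K0) [IsDiscreteValuationRing ↥A0]
  {a2 : ℕ} (H : HauptRec a2 q)

/-- **The node datum of CORE-ABS at a crossing point of a Hauptmodul chart.** -/
theorem s35nf_node (ha2 : a2 ∣ M) (hA0 : A0.LiesOverPrime q) (c0 c1 : A0)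
    (hc : IsLocalRing.residue ↥A0 c0 ≠ IsLocalRing.residue ↥A0 c1)
    (hQ0 : smi2U A0 (aeval (c0 : K0) H.Qrad))
    (hSM0 : cinstSMChart K0 A0 M H (c0 : K0) (c1 : K0))
    (hSM1 : cinstSMChart K0 A0 M H (c1 : K0) (c0 : K0))
    (hu0 : unrChart K0 A0 M H c0 c1) (hu1 : unrChart K0 A0 M H c1 c0)
    (t : ↥(laurentBaseChange K0 (modularFunctionFieldFull (M * q))))
    (ht : (t : LaurentSeries K0) = cinstU H K0 (c0 : K0) (c1 : K0))
    [Algebra ↥A0 ↥(laurentBaseChange K0 (modularFunctionFieldFull (M * q)))]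
    [IsScalarTower ↥A0 K0 ↥(laurentBaseChange K0 (modularFunctionFieldFull (M * q)))]
    (τ : A0) (hτ : Irreducible τ)
    (𝔫 : Ideal ↥(chtO A0 {t})) (h𝔫 : 𝔫.IsMaximal)
    (hc₁ : ∀ x : ↥(chtO A0 {t}),
      (x : ↥(laurentBaseChange K0 (modularFunctionFieldFull (M * q)))) ∈
        (va2V1 M q K0 A0).nonunits → x ∈ 𝔫)
    (hc₂ : ∀ x : ↥(chtO A0 {t}),
      (x : ↥(laurentBaseChange K0 (modularFunctionFieldFull (M * q)))) ∈
        (va2V2 M q hM K0 A0).nonunits → x ∈ 𝔫)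
    {s : K0 ≃ₐ[ℚ] K0} (hs : A0.IsFrobeniusAt s q) :
    -- `x ∈ O_𝔫`, `y ∈ O_𝔫`
    (∃ a b : ↥(chtO A0 {t}), b ∉ 𝔫 ∧
      (heckeAlphaBar K0 M q (nunH K0 M H ha2) ^ q - heckeBetaBar K0 M q (nunH K0 M H ha2)) *
        (b : ↥(laurentBaseChange K0 (modularFunctionFieldFull (M * q)))) =
        (a : ↥(laurentBaseChange K0 (modularFunctionFieldFull (M * q))))) ∧
    (∃ a b : ↥(chtO A0 {t}), b ∉ 𝔫 ∧
      (heckeAlphaBar K0 M q (nunH K0 M H ha2) - heckeBetaBar K0 M q (nunH K0 M H ha2) ^ q) *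
        (b : ↥(laurentBaseChange K0 (modularFunctionFieldFull (M * q)))) =
        (a : ↥(laurentBaseChange K0 (modularFunctionFieldFull (M * q))))) ∧
    -- hB₁ (with `y`)
    (∀ a : ↥(chtO A0 {t}), a ∈ 𝔫 → ∃ b c : ↥(chtO A0 {t}), c ∉ 𝔫 ∧
        (a : ↥(laurentBaseChange K0 (modularFunctionFieldFull (M * q)))) *
            (c : ↥(laurentBaseChange K0 (modularFunctionFieldFull (M * q)))) -
          (heckeAlphaBar K0 M q (nunH K0 M H ha2) -
            heckeBetaBar K0 M q (nunH K0 M H ha2) ^ q) *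
            (b : ↥(laurentBaseChange K0 (modularFunctionFieldFull (M * q))))
          ∈ (va2V1 M q K0 A0).nonunits) ∧
    -- hB₂ (with `x`)
    (∀ a : ↥(chtO A0 {t}), a ∈ 𝔫 → ∃ b c : ↥(chtO A0 {t}), c ∉ 𝔫 ∧
        (a : ↥(laurentBaseChange K0 (modularFunctionFieldFull (M * q)))) *
            (c : ↥(laurentBaseChange K0 (modularFunctionFieldFull (M * q)))) -
          (heckeAlphaBar K0 M q (nunH K0 M H ha2) ^ q -
            heckeBetaBar K0 M q (nunH K0 M H ha2)) *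
            (b : ↥(laurentBaseChange K0 (modularFunctionFieldFull (M * q))))
          ∈ (va2V2 M q hM K0 A0).nonunits) ∧
    -- `σ` maps the chart into `O_𝔫`
    (∀ z : ↥(chtO A0 {t}), ∃ a b : ↥(chtO A0 {t}), b ∉ 𝔫 ∧
      arithmeticRingAut (modularFunctionFieldFull (M * q)) (s * s)
          (z : ↥(laurentBaseChange K0 (modularFunctionFieldFull (M * q)))) *
        (b : ↥(laurentBaseChange K0 (modularFunctionFieldFull (M * q)))) =
      (a : ↥(laurentBaseChange K0 (modularFunctionFieldFull (M * q))))) ∧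
    -- `σ` is the `q ^ 2`-power map modulo `𝔫 O_𝔫`
    (∀ z : ↥(chtO A0 {t}), ∃ a b : ↥(chtO A0 {t}), a ∈ 𝔫 ∧ b ∉ 𝔫 ∧
      (arithmeticRingAut (modularFunctionFieldFull (M * q)) (s * s)
          (z : ↥(laurentBaseChange K0 (modularFunctionFieldFull (M * q)))) -
        (z : ↥(laurentBaseChange K0 (modularFunctionFieldFull (M * q)))) ^ (q ^ 2)) *
        (b : ↥(laurentBaseChange K0 (modularFunctionFieldFull (M * q)))) =
      (a : ↥(laurentBaseChange K0 (modularFunctionFieldFull (M * q))))) := by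
  have hp := h𝔫.isPrime
  obtain ⟨hB₁, hB₂, -, -, hx, hy⟩ := s35nd_node M q hM K0 A0 H ha2 hA0 c0 c1 hc hQ0 hSM0 hSM1
    hu0 hu1 t ht τ hτ 𝔫 h𝔫 hc₁ hc₂
  obtain ⟨hσO, -, hσΛ⟩ := fnd_inst_sq M q hM K0 A0 H ha2 hA0 c0 c1 hc hSM0 t ht 𝔫 hc₁ hc₂ hs
  refine ⟨?_, ?_, hB₁, hB₂, hσO, fun z => ?_⟩
  · obtain ⟨a, b, -, hb, h⟩ := hx
    exact ⟨a, b, hb, h⟩
  · obtain ⟨a, b, -, hb, h⟩ := hy
    exact ⟨a, b, hb, h⟩
  · have h1 : (1 : ↥(chtO A0 {t})) ∉ 𝔫 := fun h1 =>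
      (Ideal.ne_top_iff_one 𝔫).mp hp.ne_top h1
    exact (hσΛ (z : ↥(laurentBaseChange K0 (modularFunctionFieldFull (M * q))))
      ⟨z, 1, h1, by simp⟩).2

end NodeFull

end Fermat.Agent.S35
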