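import Mathlib
import Fermat.Agent.S35.NormResHecke
import Fermat.Agent.S35.NormDescK
import Fermat.Agent.S35.FrobKron
import Fermat.Agent.S34.Val2Exh
import Fermat.Agent.S35.CoreRes

/-!
# S35 [CORE-RES], the norm-residue formula at the `Val2Def` carrier

`K0` a field over `ℚ` with an embedding into `ℚ̄`, `A0` a discrete valuation subring of `K0`
over the prime `q ∤ M`, `E = K0(X₀(M))`, `F = K0(X₀(M q))`, `α, β : E → F` the two degeneracy
maps, `V₁ = va2V1` (Gauss), `V₂ = va2V2` (its swap), `VE = grO` the Gauss valuation ring of `E`,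
`s` a Frobenius element of `A0` and `Φ = arithmeticRingAut _ s`.

For `u ∈ V₁ ∩ V₂` with `u ≡ α a` mod `𝔪_{V₁}` and `u ≡ β b` mod `𝔪_{V₂}` (`a`, `b`
Gauss-integral of level `M`):

* `nri_beta`  : `N_β u ∈ VE` and `N_β u ≡ Φ a · b` mod `𝔪_{VE}` (`nri_beta'`: `≡ b · Φ a`);
* `nri_alpha` : `N_α u ∈ VE` and `N_α u ≡ a · Φ b` mod `𝔪_{VE}`.

`nri_beta'` and `nri_alpha` are the inputs `hNβ` (with `(x', e') = (b, Φ a)`) and `hNα` (with
`(x, e) = (a, Φ b)`) of `crs_main` (S35/CoreRes); `nri_heu`, `nri_heu'` are its inputs `heu`,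
`heu'`; `nri_norm_swap`: `N_β (w u) = N_α u`; `nri_beta_res`: the residue form for an arbitrary
`z` with `(ρ₁ u) ^ q = z(q^q)`.
-/

set_option autoImplicit false
set_option linter.unusedSectionVars false
set_option linter.style.haveILetI false

noncomputable section

open AlgebraicCurve ModularCurve Fermat.Agent.S18 Fermat.Agent.S37 Fermat.Agent.S34

namespace Fermat.Agent.S35

local notation "Qb" => AlgebraicClosure ℚ

section NormResInst

variable (M q : ℕ) [NeZero M] [hq : Fact q.Prime] (hM : ¬ q ∣ M)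
  (K0 : Type*) [Field K0] [Algebra ℚ K0] [Algebra K0 Qb]
  (A0 : ValuationSubring K0) [IsDiscreteValuationRing ↥A0]

/-- **Norm-residue formula for `N_β`** at the `Val2Def` carrier, residue form. -/
theorem nri_beta_res (hA0 : A0.LiesOverPrime q)
    (u : ↥(laurentBaseChange K0 (modularFunctionFieldFull (M * q))))
    (hu₁ : u ∈ va2V1 M q K0 A0) (hu₂ : u ∈ va2V2 M q hM K0 A0)
    (z : LaurentSeries (IsLocalRing.ResidueField A0))
    (hz : (va2xRho1 M q K0 A0 ⟨u, hu₁⟩) ^ q = qExpand (IsLocalRing.ResidueField A0) q z) :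
    ∃ hN : s35NormB K0 M q u ∈ grO A0 hA0 M hM,
      grRes A0 hA0 M hM ⟨_, hN⟩
        = z * va2xRho1 M q K0 A0 ⟨va2Swap M q hq.out hM K0 u, hu₂⟩ := by
  letI : Algebra ↥(laurentBaseChange K0 (modularFunctionFieldFull M))
      ↥(laurentBaseChange K0 (modularFunctionFieldFull (M * q))) :=
    algebraAlong (heckeBetaBar K0 M q)
  have hcharA : CharP (IsLocalRing.ResidueField A0) q := grc_charP A0 q hA0
  have hchar := tvf_charP (k := IsLocalRing.ResidueField A0) q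
  have hJmem : grJ K0 M ∈ grO A0 hA0 M hM := gr_jqModC_mem A0
  have hJres : grRes A0 hA0 M hM ⟨_, hJmem⟩ = jqModC (IsLocalRing.ResidueField A0) :=
    grRho_jqModC A0 _
  exact nrh_main q (heckeAlphaBar K0 M q).toRingHom (heckeBetaBar K0 M q).toRingHom
    (fun _ => rfl) (va2Swap M q hq.out hM K0) (va2Swap_alpha M q hq.out hM K0)
    (va2Swap_beta M q hq.out hM K0)
    (grO A0 hA0 M hM) (grRes A0 hA0 M hM) (va2x_hkerE M q hM K0 A0 hA0)
    (va2V1 M q K0 A0).toSubring (va2xRho1 M q K0 A0) (va2x_hinv M q K0 A0)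
    (qExpand (IsLocalRing.ResidueField A0) q)
    (va2x_ha M q hM K0 A0 hA0) (va2x_hb M q hM K0 A0 hA0)
    (grJ K0 M) hJmem (by rw [hJres]; exact tvf_jq_pow q) (by rw [hJres]; exact tvf_jq_not_range q)
    (ndk_finrank_beta K0 M q hq.out hM) u hu₁ hu₂ z hz

omit [Algebra K0 Qb] in
/-- congruent elements of `V₁` have the same Gauss residue -/
theorem nri_rho_eq (x y : ↥(laurentBaseChange K0 (modularFunctionFieldFull (M * q))))
    (hx : x ∈ va2V1 M q K0 A0) (hy : y ∈ va2V1 M q K0 A0)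
    (h : x - y ∈ (va2V1 M q K0 A0).nonunits) :
    va2xRho1 M q K0 A0 ⟨x, hx⟩ = va2xRho1 M q K0 A0 ⟨y, hy⟩ := by
  obtain ⟨h1, h0⟩ := (cinst_mem_nonunits_iff (va2V1 M q K0 A0) (fun _ => Iff.rfl) (x - y)).mp h
  have h2 : va2xRho1 M q K0 A0 (⟨x, hx⟩ - ⟨y, hy⟩) = 0 := h0
  rw [map_sub, sub_eq_zero] at h2
  exact h2

/-- the swap exchanges the two norms over `K0`: `N_β (w u) = N_α u`. -/
theorem nri_norm_swap (u : ↥(laurentBaseChange K0 (modularFunctionFieldFull (M * q)))) :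
    s35NormB K0 M q (va2Swap M q hq.out hM K0 u) = s35NormA K0 M q u := by
  have h := @Algebra.norm_eq_of_equiv_equiv
    ↥(laurentBaseChange K0 (modularFunctionFieldFull M))
    ↥(laurentBaseChange K0 (modularFunctionFieldFull (M * q)))
    ↥(laurentBaseChange K0 (modularFunctionFieldFull M))
    ↥(laurentBaseChange K0 (modularFunctionFieldFull (M * q))) _ _ _ _
    (algebraAlong (heckeAlphaBar K0 M q))
    (algebraAlong (heckeBetaBar K0 M q))
    (RingEquiv.refl _) (va2SwapEquiv M q hq.out hM K0)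
    (RingHom.ext fun x => (va2Swap_alpha M q hq.out hM K0 x).symm) u
  exact h.symm

/-- **Norm-residue formula for `N_β`**, element form in the shape of `crs_main`'s `hNβ`:
`N_β u ≡ b · Φ a`. -/
theorem nri_beta' (hA0 : A0.LiesOverPrime q) {s : K0 ≃ₐ[ℚ] K0} (hs : A0.IsFrobeniusAt s q)
    (u : ↥(laurentBaseChange K0 (modularFunctionFieldFull (M * q))))
    (hu₁ : u ∈ va2V1 M q K0 A0) (hu₂ : u ∈ va2V2 M q hM K0 A0)
    (a b : ↥(laurentBaseChange K0 (modularFunctionFieldFull M)))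
    (ha : (a : LaurentSeries K0) ∈ grV A0) (hb : (b : LaurentSeries K0) ∈ grV A0)
    (hua : u - heckeAlphaBar K0 M q a ∈ (va2V1 M q K0 A0).nonunits)
    (hub : u - heckeBetaBar K0 M q b ∈ (va2V2 M q hM K0 A0).nonunits) :
    s35NormB K0 M q u ∈ grO A0 hA0 M hM ∧
      s35NormB K0 M q u - b * arithmeticRingAut (modularFunctionFieldFull M) s a
        ∈ (grO A0 hA0 M hM).nonunits := by
  have hcharA : CharP (IsLocalRing.ResidueField A0) q := grc_charP A0 q hA0
  obtain ⟨hα1, hρα⟩ := va2x_ha M q hM K0 A0 hA0 a ha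
  obtain ⟨hαb1, hραb⟩ := va2x_ha M q hM K0 A0 hA0 b hb
  -- the residue of `u`
  have hρu : va2xRho1 M q K0 A0 ⟨u, hu₁⟩ = grRes A0 hA0 M hM ⟨a, ha⟩ :=
    (nri_rho_eq M q K0 A0 u _ hu₁ hα1 hua).trans hρα
  -- the residue of `w u`
  have hwub : va2Swap M q hq.out hM K0 u - heckeAlphaBar K0 M q b
      ∈ (va2V1 M q K0 A0).nonunits := by
    have h1 := (va2_mem_nonunits_V2 A0 M q hM _).mp hub
    rwa [map_sub, va2Swap_beta] at h1
  have hρwu : va2xRho1 M q K0 A0 ⟨va2Swap M q hq.out hM K0 u, hu₂⟩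
      = grRes A0 hA0 M hM ⟨b, hb⟩ :=
    (nri_rho_eq M q K0 A0 _ _ hu₂ hαb1 hwub).trans hραb
  -- the Frobenius lift
  obtain ⟨hsa, hρs⟩ := jrg_grRho_frobenius ℚ A0 q hs ⟨(a : LaurentSeries K0), ha⟩
  have hcoe : ((arithmeticRingAut (modularFunctionFieldFull M) s a :
      ↥(laurentBaseChange K0 (modularFunctionFieldFull M))) : LaurentSeries K0)
      = coeffMap ((s : K0 ≃ₐ[ℚ] K0) : K0 →+* K0) (a : LaurentSeries K0) :=
    coe_arithmeticRingAut_apply _ _ _
  have hΦa : arithmeticRingAut (modularFunctionFieldFull M) s a ∈ grO A0 hA0 M hM := by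
    show ((arithmeticRingAut (modularFunctionFieldFull M) s a :
      ↥(laurentBaseChange K0 (modularFunctionFieldFull M))) : LaurentSeries K0) ∈ grV A0
    rw [hcoe]
    exact hsa
  have hρΦ : grRes A0 hA0 M hM ⟨_, hΦa⟩
      = coeffMap (frobenius (IsLocalRing.ResidueField A0) q)
          (grRho A0 ⟨(a : LaurentSeries K0), ha⟩) := by
    rw [← hρs, grRes_apply]
    exact congrArg (grRho A0) (Subtype.ext hcoe)
  have hz : (va2xRho1 M q K0 A0 ⟨u, hu₁⟩) ^ q
      = qExpand (IsLocalRing.ResidueField A0) q (grRes A0 hA0 M hM ⟨_, hΦa⟩) := by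
    rw [hρu, tvf_pow_char q, hρΦ, grRes_apply]
  obtain ⟨hN, hρN⟩ := nri_beta_res M q hM K0 A0 hA0 u hu₁ hu₂ _ hz
  refine ⟨hN, ?_⟩
  have hmem : s35NormB K0 M q u - b * arithmeticRingAut (modularFunctionFieldFull M) s a
      ∈ grO A0 hA0 M hM := sub_mem hN (mul_mem hb hΦa)
  refine (gr_mem_nonunits_iff_grRes A0 hA0 M hM ⟨_, hmem⟩).mpr ?_
  have h3 : (⟨_, hmem⟩ : ↥(grO A0 hA0 M hM)) = ⟨_, hN⟩ - ⟨b, hb⟩ * ⟨_, hΦa⟩ := rfl
  rw [h3, map_sub, map_mul, hρN, hρwu, mul_comm, sub_self]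

/-- **Norm-residue formula for `N_β`**, element form: `N_β u ≡ Φ a · b`. -/
theorem nri_beta (hA0 : A0.LiesOverPrime q) {s : K0 ≃ₐ[ℚ] K0} (hs : A0.IsFrobeniusAt s q)
    (u : ↥(laurentBaseChange K0 (modularFunctionFieldFull (M * q))))
    (hu₁ : u ∈ va2V1 M q K0 A0) (hu₂ : u ∈ va2V2 M q hM K0 A0)
    (a b : ↥(laurentBaseChange K0 (modularFunctionFieldFull M)))
    (ha : (a : LaurentSeries K0) ∈ grV A0) (hb : (b : LaurentSeries K0) ∈ grV A0)
    (hua : u - heckeAlphaBar K0 M q a ∈ (va2V1 M q K0 A0).nonunits)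
    (hub : u - heckeBetaBar K0 M q b ∈ (va2V2 M q hM K0 A0).nonunits) :
    s35NormB K0 M q u ∈ grO A0 hA0 M hM ∧
      s35NormB K0 M q u - arithmeticRingAut (modularFunctionFieldFull M) s a * b
        ∈ (grO A0 hA0 M hM).nonunits := by
  have h := nri_beta' M q hM K0 A0 hA0 hs u hu₁ hu₂ a b ha hb hua hub
  rw [mul_comm (arithmeticRingAut (modularFunctionFieldFull M) s a) b]
  exact h

/-- **Norm-residue formula for `N_α`**, element form: `N_α u ≡ a · Φ b`. -/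
theorem nri_alpha (hA0 : A0.LiesOverPrime q) {s : K0 ≃ₐ[ℚ] K0} (hs : A0.IsFrobeniusAt s q)
    (u : ↥(laurentBaseChange K0 (modularFunctionFieldFull (M * q))))
    (hu₁ : u ∈ va2V1 M q K0 A0) (hu₂ : u ∈ va2V2 M q hM K0 A0)
    (a b : ↥(laurentBaseChange K0 (modularFunctionFieldFull M)))
    (ha : (a : LaurentSeries K0) ∈ grV A0) (hb : (b : LaurentSeries K0) ∈ grV A0)
    (hua : u - heckeAlphaBar K0 M q a ∈ (va2V1 M q K0 A0).nonunits)
    (hub : u - heckeBetaBar K0 M q b ∈ (va2V2 M q hM K0 A0).nonunits) :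
    s35NormA K0 M q u ∈ grO A0 hA0 M hM ∧
      s35NormA K0 M q u - a * arithmeticRingAut (modularFunctionFieldFull M) s b
        ∈ (grO A0 hA0 M hM).nonunits := by
  have hw₁ : va2Swap M q hq.out hM K0 u ∈ va2V1 M q K0 A0 := hu₂
  have hw₂ : va2Swap M q hq.out hM K0 u ∈ va2V2 M q hM K0 A0 := by
    rw [mem_va2V2, va2Swap_swap]
    exact hu₁
  have hwa : va2Swap M q hq.out hM K0 u - heckeAlphaBar K0 M q b
      ∈ (va2V1 M q K0 A0).nonunits := by
    have h1 := (va2_mem_nonunits_V2 A0 M q hM _).mp hub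
    rwa [map_sub, va2Swap_beta] at h1
  have hwb : va2Swap M q hq.out hM K0 u - heckeBetaBar K0 M q a
      ∈ (va2V2 M q hM K0 A0).nonunits := by
    rw [va2_mem_nonunits_V2, map_sub, va2Swap_swap, va2Swap_beta]
    exact hua
  have h := nri_beta' M q hM K0 A0 hA0 hs (va2Swap M q hq.out hM K0 u) hw₁ hw₂ b a hb ha hwa hwb
  rw [nri_norm_swap] at h
  exact h

omit [Algebra K0 Qb] in
/-- the input `heu'` of `crs_main`: `β (Φ a) ≡ u ^ q` mod `𝔪_{V₁}` when `u ≡ α a`. -/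
theorem nri_heu' (hA0 : A0.LiesOverPrime q) {s : K0 ≃ₐ[ℚ] K0} (hs : A0.IsFrobeniusAt s q)
    (u : ↥(laurentBaseChange K0 (modularFunctionFieldFull (M * q))))
    (hu₁ : u ∈ va2V1 M q K0 A0)
    (a : ↥(laurentBaseChange K0 (modularFunctionFieldFull M)))
    (ha : (a : LaurentSeries K0) ∈ grV A0)
    (hua : u - heckeAlphaBar K0 M q a ∈ (va2V1 M q K0 A0).nonunits) :
    heckeBetaBar K0 M q (arithmeticRingAut (modularFunctionFieldFull M) s a) - u ^ q
      ∈ (va2V1 M q K0 A0).nonunits := by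
  have hα1 : heckeAlphaBar K0 M q a ∈ va2V1 M q K0 A0 := by
    show ((heckeAlphaBar K0 M q a : ↥(laurentBaseChange K0 (modularFunctionFieldFull (M * q)))) :
      LaurentSeries K0) ∈ grV A0
    rw [coe_heckeAlphaBar]
    exact ha
  have hk := fkr_kron1 M q K0 A0 hA0 hs a ha
  -- `u ^ q - (α a) ^ q ∈ 𝔪`
  have hpow : u ^ q - heckeAlphaBar K0 M q a ^ q ∈ (va2V1 M q K0 A0).nonunits :=
    crs_pow_sub (va2V1 M q K0 A0) hu₁ hα1 hua q
  have he : heckeBetaBar K0 M q (arithmeticRingAut (modularFunctionFieldFull M) s a) - u ^ q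
      = -((u ^ q - heckeAlphaBar K0 M q a ^ q)
        + (heckeAlphaBar K0 M q a ^ q
          - heckeBetaBar K0 M q (arithmeticRingAut (modularFunctionFieldFull M) s a))) := by
    ring
  rw [he]
  exact (va2V1 M q K0 A0).nonunits.neg_mem ((va2V1 M q K0 A0).nonunits.add_mem hpow hk)

/-- the input `heu` of `crs_main`: `α (Φ b) ≡ u ^ q` mod `𝔪_{V₂}` when `u ≡ β b`. -/
theorem nri_heu (hA0 : A0.LiesOverPrime q) {s : K0 ≃ₐ[ℚ] K0} (hs : A0.IsFrobeniusAt s q)
    (u : ↥(laurentBaseChange K0 (modularFunctionFieldFull (M * q))))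
    (hu₂ : u ∈ va2V2 M q hM K0 A0)
    (b : ↥(laurentBaseChange K0 (modularFunctionFieldFull M)))
    (hb : (b : LaurentSeries K0) ∈ grV A0)
    (hub : u - heckeBetaBar K0 M q b ∈ (va2V2 M q hM K0 A0).nonunits) :
    heckeAlphaBar K0 M q (arithmeticRingAut (modularFunctionFieldFull M) s b) - u ^ q
      ∈ (va2V2 M q hM K0 A0).nonunits := by
  have hwa : va2Swap M q hq.out hM K0 u - heckeAlphaBar K0 M q b
      ∈ (va2V1 M q K0 A0).nonunits := by
    have h1 := (va2_mem_nonunits_V2 A0 M q hM _).mp hub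
    rwa [map_sub, va2Swap_beta] at h1
  have h := nri_heu' M q K0 A0 hA0 hs (va2Swap M q hq.out hM K0 u) hu₂ b hb hwa
  rw [va2_mem_nonunits_V2, map_sub, map_pow, va2Swap_alpha]
  exact h

end NormResInst

end Fermat.Agent.S35
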