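import Mathlib
import Fermat.Agent.S37.LevelUp
import Fermat.Agent.S37.HeckeDeg

/-!
# S35 : the swap commutes with raising the level

For `N ∣ N'` and a prime `q ∤ N'`, the swap `w` of `X₀(N' q)` restricts to the swap of
`X₀(N q)` on the function field of the latter; consequently the two norms `hkdNorm`,
`hkdNormBeta` have the same behaviour under `lvlIncl`.
-/

set_option autoImplicit false
set_option linter.unusedSectionVars false
set_option linter.style.haveILetI false

open AlgebraicCurve ModularCurve Fermat.Agent.S37 Fermat.Agent.S24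

namespace Fermat.Agent.S35

local notation "Qb" => AlgebraicClosure ℚ

/-- the inclusion of function fields maps `j(dτ)` to `j(dτ)`. -/
theorem swl_lvlIncl_jdBar (N N' d : ℕ) [NeZero N] [NeZero N'] [NeZero d] (h : N ∣ N')
    (hd : d ∣ N) (hd' : d ∣ N') :
    lvlIncl N N' h (jdBar N d hd) = jdBar N' d hd' :=
  Subtype.ext rfl

/-- **the swap commutes with the inclusion** `F_{N q} ⊆ F_{N' q}`. -/
theorem swl_swp_lvlIncl (N N' q : ℕ) [NeZero N] [NeZero N'] [NeZero q] (hq : q.Prime)
    (hN : ¬ q ∣ N) (hN' : ¬ q ∣ N') (h' : N * q ∣ N' * q)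
    (x : ↥(modularFunctionFieldBar (N * q))) :
    swp N' q hq hN' (lvlIncl (N * q) (N' * q) h' x) =
      lvlIncl (N * q) (N' * q) h' (swp N q hq hN x) := by
  have hNN' : N ∣ N' := Nat.dvd_of_mul_dvd_mul_right hq.pos h'
  have key := ringHom_ext_Fb (N * q)
    ((swp N' q hq hN').comp (lvlIncl (N * q) (N' * q) h').toRingHom)
    ((lvlIncl (N * q) (N' * q) h').toRingHom.comp (swp N q hq hN)) ?_ ?_
  · exact congrArg (fun φ => φ x) key
  · intro c
    show swp N' q hq hN' (lvlIncl (N * q) (N' * q) h' (algebraMap _ _ c)) =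
      lvlIncl (N * q) (N' * q) h' (swp N q hq hN (algebraMap _ _ c))
    rw [swp_const, AlgHom.commutes, swp_const]
  · intro e _ he
    show swp N' q hq hN' (lvlIncl (N * q) (N' * q) h' (jdBar (N * q) e he)) =
      lvlIncl (N * q) (N' * q) h' (swp N q hq hN (jdBar (N * q) e he))
    rcases swp_dvd_cases N q hq he with h1 | ⟨d, hd, rfl⟩
    · have e1 : lvlIncl (N * q) (N' * q) h' (jdBar (N * q) e he) =
          jdBar (N' * q) e ((h1.trans hNN').mul_right q) :=
        swl_lvlIncl_jdBar (N * q) (N' * q) e h' he _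
      rw [e1, swp_jd1 N' q hq hN' e (h1.trans hNN'), swp_jd1 N q hq hN e h1]
      exact (swl_lvlIncl_jdBar (N * q) (N' * q) (q * e) h' _ _).symm
    · have : NeZero d := ⟨ne_zero_of_dvd_ne_zero (NeZero.ne N) hd⟩
      have e1 : lvlIncl (N * q) (N' * q) h' (jdBar (N * q) (q * d) he) =
          jdBar (N' * q) (q * d)
            (by rw [mul_comm N' q]; exact Nat.mul_dvd_mul_left q (hd.trans hNN')) :=
        swl_lvlIncl_jdBar (N * q) (N' * q) (q * d) h' he _
      rw [e1, swp_jd2 N' q hq hN' d (hd.trans hNN'), swp_jd2 N q hq hN d hd]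
      exact (swl_lvlIncl_jdBar (N * q) (N' * q) d h' _ _).symm

/-- the β-norm square follows from the α-norm square. -/
theorem swl_beta_of_alpha (N N' q : ℕ) [NeZero N] [NeZero N'] [NeZero q] (hq : q.Prime)
    (hN : ¬ q ∣ N) (hN' : ¬ q ∣ N') (h : N ∣ N') (h' : N * q ∣ N' * q)
    (hα : ∀ x : ↥(modularFunctionFieldBar (N * q)),
      hkdNorm N' q (lvlIncl (N * q) (N' * q) h' x) = lvlIncl N N' h (hkdNorm N q x))
    (x : ↥(modularFunctionFieldBar (N * q))) :
    hkdNormBeta N' q (lvlIncl (N * q) (N' * q) h' x) = lvlIncl N N' h (hkdNormBeta N q x) := by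
  rw [← hkdNorm_swp N' hq hN', ← hkdNorm_swp N hq hN, swl_swp_lvlIncl N N' q hq hN hN' h', hα]

end Fermat.Agent.S35
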