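import Fermat.Agent.S35.NormBC
import Fermat.Agent.S35.NormDescK
import Fermat.Agent.S35.SwapLevel
import Fermat.Agent.S35.PushSquare
import Fermat.Agent.S34.Val2Gen
import Fermat.Agent.S37.JRingInt
import Fermat.Agent.S37.LevelUp
import Fermat.Agent.S37.HeckeDeg

/-!
# S35 — DEG-SQUARES and DEG-LEVEL, closed forms

* `nsg_level_alpha`: given that `F_{N' q}` is generated over `α (F_{N'})` by `β (j)`
  (hypothesis `hgen`), the norm along `α` commutes with the level inclusions:
  `N_α (incl x) = incl (N_α x)` for `x ∈ F_{N q}`, `N ∣ N'`, `q ∤ N'`;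
* `nsg_gen`: the generation statement over `ℚ̄`, `F_{M q} = α (F_M) (β j)` for a prime `q ∤ M`;
* `nsg_alpha`, `nsg_beta`: the two level squares of norms, without hypotheses;
* `nsg_push_alpha`, `nsg_push_beta`: on torsion classes `α_* π^* = π'^* α_*`, `β_* π^* = π'^* β_*`.
-/

set_option autoImplicit false
set_option linter.unusedSectionVars false
set_option linter.style.haveILetI false

open AlgebraicCurve ModularCurve Fermat.Agent.S18 Fermat.Agent.S37 Fermat.Agent.S34

namespace Fermat.Agent.S35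

local notation "Qb" => AlgebraicClosure ℚ

/-- the level inclusion commutes with `α`. -/
theorem nsg_incl_alpha (N N' q : ℕ) [NeZero N] [NeZero N'] [NeZero q]
    (h : N ∣ N') (h' : N * q ∣ N' * q) (a : ↥(modularFunctionFieldBar N)) :
    lvlIncl (N * q) (N' * q) h' (heckeAlphaBar Qb N q a) =
      heckeAlphaBar Qb N' q (lvlIncl N N' h a) := by
  apply Subtype.ext
  rw [coe_lvlIncl, coe_heckeAlphaBar, coe_heckeAlphaBar, coe_lvlIncl]

/-- the level inclusion commutes with `β`. -/
theorem nsg_incl_beta (N N' q : ℕ) [NeZero N] [NeZero N'] [NeZero q]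
    (h : N ∣ N') (h' : N * q ∣ N' * q) (a : ↥(modularFunctionFieldBar N)) :
    lvlIncl (N * q) (N' * q) h' (heckeBetaBar Qb N q a) =
      heckeBetaBar Qb N' q (lvlIncl N N' h a) := by
  apply Subtype.ext
  rw [coe_lvlIncl, coe_heckeBetaBar, coe_heckeBetaBar, coe_lvlIncl]

/-- **The level square for the norm along `α`**, from the generation statement at level `N'`. -/
theorem nsg_level_alpha (N N' q : ℕ) [NeZero N] [NeZero N'] [NeZero q] (hq : q.Prime)
    (hN' : ¬ q ∣ N') (h : N ∣ N') (h' : N * q ∣ N' * q)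
    (hgen : letI := algebraAlong (heckeAlphaBar Qb N' q)
      IntermediateField.adjoin ↥(modularFunctionFieldBar N')
        ({heckeBetaBar Qb N' q (Fermat.Agent.S24.jBar N')} :
          Set ↥(modularFunctionFieldBar (N' * q))) = ⊤)
    (x : ↥(modularFunctionFieldBar (N * q))) :
    hkdNorm N' q (lvlIncl (N * q) (N' * q) h' x) = lvlIncl N N' h (hkdNorm N q x) := by
  have hN : ¬ q ∣ N := fun hqN => hN' (hqN.trans h)
  letI iE := algebraAlong (heckeAlphaBar Qb N q)
  letI iE' := algebraAlong (heckeAlphaBar Qb N' q)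
  haveI : FiniteDimensional ↥(modularFunctionFieldBar N) ↥(modularFunctionFieldBar (N * q)) :=
    hki_finiteAlong N (N * q) (heckeAlphaBar Qb N q)
  have hdeg : Module.finrank ↥(modularFunctionFieldBar N') ↥(modularFunctionFieldBar (N' * q)) =
      Module.finrank ↥(modularFunctionFieldBar N) ↥(modularFunctionFieldBar (N * q)) :=
    (hkd_finrankAlong_alpha N' hq hN').trans (hkd_finrankAlong_alpha N hq hN).symm
  refine nbc_norm_eq_of_mem (lvlIncl N N' h).toRingHom (lvlIncl (N * q) (N' * q) h').toRingHom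
    (fun a => nsg_incl_alpha N N' q h h' a) hdeg
    (heckeBetaBar Qb N' q (Fermat.Agent.S24.jBar N')) ?_ hgen x
  refine ⟨heckeBetaBar Qb N q (Fermat.Agent.S24.jBar N), ?_⟩
  show lvlIncl (N * q) (N' * q) h' (heckeBetaBar Qb N q (Fermat.Agent.S24.jBar N)) = _
  rw [nsg_incl_beta N N' q h h']
  congr 1

/-- **Generation over `ℚ̄`**: `F_{M q} = α (F_M) (β j)` for a prime `q ∤ M` (from the statement
over a number field with a DVR over `q`, `va2g_adjoin_betaJ`, and the base change `ndk_gen`). -/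
theorem nsg_gen (M q : ℕ) [NeZero M] [NeZero q] (hq : q.Prime) (hM : ¬ q ∣ M) :
    letI := algebraAlong (heckeAlphaBar Qb M q)
    IntermediateField.adjoin ↥(modularFunctionFieldBar M)
      ({heckeBetaBar Qb M q (Fermat.Agent.S24.jBar M)} :
        Set ↥(modularFunctionFieldBar (M * q))) = ⊤ := by
  letI iQ := algebraAlong (heckeAlphaBar Qb M q)
  haveI : Fact q.Prime := ⟨hq⟩
  obtain ⟨A, hA⟩ := va2d_exists_liesOver Qb q hq
  obtain ⟨K₀, hfin, -, hdvr, -, hq0, -⟩ := dvd_exists q hq.ne_zero A hA ∅ ∅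
  haveI := hdvr
  have hgenK := va2g_adjoin_betaJ M q hM ↥K₀ (A.comap (algebraMap ↥K₀ Qb)) hq0
  rw [eq_top_iff]
  intro y _
  have hy := ndk_gen ↥K₀ M (M * q) (heckeAlphaBar Qb M q) y
  refine (Subfield.closure_le (t := (IntermediateField.adjoin ↥(modularFunctionFieldBar M)
      ({heckeBetaBar Qb M q (Fermat.Agent.S24.jBar M)} :
        Set ↥(modularFunctionFieldBar (M * q)))).toSubfield)).2 ?_ hy
  rintro z (⟨a, rfl⟩ | ⟨z0, rfl⟩)
  · exact IntermediateField.algebraMap_mem _ a
  · letI iK := algebraAlong (heckeAlphaBar ↥K₀ M q)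
    have hz0 : z0 ∈ (IntermediateField.adjoin ↥(laurentBaseChange ↥K₀ (modularFunctionFieldFull M))
        ({heckeBetaBar ↥K₀ M q (grJ ↥K₀ M)} :
          Set ↥(laurentBaseChange ↥K₀ (modularFunctionFieldFull (M * q))))).toSubfield := by
      show z0 ∈ IntermediateField.adjoin ↥(laurentBaseChange ↥K₀ (modularFunctionFieldFull M))
        ({heckeBetaBar ↥K₀ M q (grJ ↥K₀ M)} :
          Set ↥(laurentBaseChange ↥K₀ (modularFunctionFieldFull (M * q))))
      rw [hgenK]
      trivial
    rw [IntermediateField.adjoin_toSubfield] at hz0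
    refine (Subfield.closure_le (t := ((IntermediateField.adjoin ↥(modularFunctionFieldBar M)
      ({heckeBetaBar Qb M q (Fermat.Agent.S24.jBar M)} :
        Set ↥(modularFunctionFieldBar (M * q)))).toSubfield).comap
          (bcfHom ↥K₀ Qb (modularFunctionFieldFull (M * q))))).2 ?_ hz0
    rintro u (⟨a, rfl⟩ | hu)
    · show bcfHom ↥K₀ Qb (modularFunctionFieldFull (M * q)) (heckeAlphaBar ↥K₀ M q a) ∈
        IntermediateField.adjoin ↥(modularFunctionFieldBar M)
          ({heckeBetaBar Qb M q (Fermat.Agent.S24.jBar M)} :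
            Set ↥(modularFunctionFieldBar (M * q)))
      rw [va2_bcf_alpha]
      exact IntermediateField.algebraMap_mem _ _
    · rw [Set.mem_singleton_iff] at hu
      subst hu
      show bcfHom ↥K₀ Qb (modularFunctionFieldFull (M * q))
          (heckeBetaBar ↥K₀ M q (grJ ↥K₀ M)) ∈
        IntermediateField.adjoin ↥(modularFunctionFieldBar M)
          ({heckeBetaBar Qb M q (Fermat.Agent.S24.jBar M)} :
            Set ↥(modularFunctionFieldBar (M * q)))
      rw [va2_bcf_beta]
      have hj : bcfHom ↥K₀ Qb (modularFunctionFieldFull M) (grJ ↥K₀ M) =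
          Fermat.Agent.S24.jBar M := by
        rw [jri_jBar_eq]
        apply Subtype.ext
        rw [bcfHom_coe]
        exact coeffMap_jqModC _
      rw [hj]
      exact IntermediateField.subset_adjoin _ _ rfl

/-- **The level square for the norm along `α`** (closed form). -/
theorem nsg_alpha (N N' q : ℕ) [NeZero N] [NeZero N'] [NeZero q] (hq : q.Prime)
    (hN' : ¬ q ∣ N') (h : N ∣ N') (h' : N * q ∣ N' * q)
    (x : ↥(modularFunctionFieldBar (N * q))) :
    hkdNorm N' q (lvlIncl (N * q) (N' * q) h' x) = lvlIncl N N' h (hkdNorm N q x) :=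
  nsg_level_alpha N N' q hq hN' h h' (nsg_gen N' q hq hN') x

/-- **The level square for the norm along `β`** (closed form). -/
theorem nsg_beta (N N' q : ℕ) [NeZero N] [NeZero N'] [NeZero q] (hq : q.Prime)
    (hN' : ¬ q ∣ N') (h : N ∣ N') (h' : N * q ∣ N' * q)
    (x : ↥(modularFunctionFieldBar (N * q))) :
    hkdNormBeta N' q (lvlIncl (N * q) (N' * q) h' x) = lvlIncl N N' h (hkdNormBeta N q x) :=
  swl_beta_of_alpha N N' q hq (fun hqN => hN' (hqN.trans h)) hN' h h'
    (nsg_alpha N N' q hq hN' h h') x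

/-- **DEG-LEVEL for `α_*`** (closed form): `α_* (π^* x) = π'^* (α_* x)` for torsion `x`. -/
theorem nsg_push_alpha (N N' q : ℕ) [NeZero N] [NeZero N'] [NeZero q] (hq : q.Prime)
    (hN' : ¬ q ∣ N') (h : N ∣ N') (h' : N * q ∣ N' * q)
    (m : ℕ) (hm : m ≠ 0) (x : JZero (N * q)) (hx : m • x = 0) :
    s35pAlpha N' q (lvlPullback (N * q) (N' * q) h' x) =
      lvlPullback N N' h (s35pAlpha N q x) :=
  psq_alpha N N' q h h' (nsg_alpha N N' q hq hN' h h') m hm x hx

/-- **DEG-LEVEL for `β_*`** (closed form): `β_* (π^* x) = π'^* (β_* x)` for torsion `x`. -/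
theorem nsg_push_beta (N N' q : ℕ) [NeZero N] [NeZero N'] [NeZero q] (hq : q.Prime)
    (hN' : ¬ q ∣ N') (h : N ∣ N') (h' : N * q ∣ N' * q)
    (m : ℕ) (hm : m ≠ 0) (x : JZero (N * q)) (hx : m • x = 0) :
    s35pBeta N' q (lvlPullback (N * q) (N' * q) h' x) =
      lvlPullback N N' h (s35pBeta N q x) :=
  psq_beta N N' q h h' (nsg_beta N N' q hq hN' h h') m hm x hx

end Fermat.Agent.S35
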