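import Fermat.Prelude.Def_AlgebraicCurve_DivisorPushPull

/-!
# S35 — DEG-LEVEL, abstract part

`pla_abs`: in a square of function fields over `K`

```
   F  ---->  F'
   ^         ^
   E  ---->  E'
```

(horizontal maps integral: pull-backs; vertical maps finite with the norm formula:
push-forwards) such that the norms agree, `N_{F'/E'} (f) = N_{F/E} (f)` for `f : F`,
the two composites `Pic⁰ F → Pic⁰ E'` agree on torsion classes.
-/

set_option autoImplicit false

namespace Fermat.Agent.S35

open AlgebraicCurve

section abs

variable {K E F E' F' : Type*} [Field K] [Field E] [Field F] [Field E'] [Field F']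
  [Algebra K E] [Algebra K F] [Algebra K E'] [Algebra K F']
  [Algebra E F] [IsScalarTower K E F] [Algebra E' F'] [IsScalarTower K E' F']
  [Algebra E E'] [IsScalarTower K E E'] [Algebra F F'] [IsScalarTower K F F']
  [Algebra.IsIntegral E E'] [Algebra.IsIntegral F F']
  [HasPrincipalDivisors K E'] [HasPrincipalDivisors K F']

/-- divisor level: for `D` with `m • D = div f`, push-forward after pull-back equals
pull-back after push-forward, provided the norms of `f` agree. -/
theorem pla_div [Module.Finite E F] [Module.Finite E' F']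
    (H : Divisor.PushforwardNormFormula K E F) (H' : Divisor.PushforwardNormFormula K E' F')
    (m : ℕ) (hm : m ≠ 0) (D : Divisor K F) (f : F) (hf : f ≠ 0)
    (hD : ∀ v : Place K F, (m • D) v = v.ord f)
    (hsq : Algebra.norm E' (algebraMap F F' f) = algebraMap E E' (Algebra.norm E f)) :
    Divisor.pushforward E' (Divisor.pullback F' D) =
      Divisor.pullback E' (Divisor.pushforward E D) := by
  have hinj : Function.Injective fun X : Divisor K E' => m • X := by
    intro X Y hXY
    ext v
    have h := DFunLike.congr_fun hXY v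
    simp only [Finsupp.smul_apply] at h
    exact mul_left_cancel₀ (Nat.cast_ne_zero.2 hm) (by exact_mod_cast h)
  apply hinj
  show m • Divisor.pushforward E' (Divisor.pullback F' D) =
    m • Divisor.pullback E' (Divisor.pushforward E D)
  rw [← map_nsmul, ← map_nsmul, ← map_nsmul, ← map_nsmul]
  ext v
  have h1 : ∀ w : Place K F', Divisor.pullback F' (m • D) w = w.ord (algebraMap F F' f) :=
    fun w => Divisor.pullback_apply_eq_ord hD w
  have hf' : algebraMap F F' f ≠ 0 := by
    rwa [Ne, map_eq_zero]
  rw [H' (algebraMap F F' f) hf' _ h1 v, hsq]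
  have h2 : ∀ u : Place K E, Divisor.pushforward E (m • D) u = u.ord (Algebra.norm E f) :=
    fun u => H f hf _ hD u
  rw [Divisor.pullback_apply_eq_ord h2 v]

/-- a torsion class is the class of a divisor `D` with `m • D = div f`. -/
theorem pla_exists_kummer {K F : Type*} [Field K] [Field F] [Algebra K F]
    (m : ℕ) (D : Divisor.degZero (K := K) (F := F)) (hx : m • Pic0.mk D = 0) :
    ∃ f : F, f ≠ 0 ∧ ∀ v : Place K F, (m • (D : Divisor K F)) v = v.ord f := by
  have h1 : Pic0.mk (m • D) = 0 := by
    rw [← hx]
    exact map_nsmul (QuotientAddGroup.mk' _) m D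
  have h2 : (m • D) ∈ (Divisor.principal (K := K) (F := F)).addSubgroupOf
      (Divisor.degZero (K := K) (F := F)) := (QuotientAddGroup.eq_zero_iff _).1 h1
  rw [AddSubgroup.mem_addSubgroupOf] at h2
  obtain ⟨f, hf, hDf⟩ := h2
  exact ⟨f, hf, fun v => by
    have := hDf v
    rwa [AddSubgroup.coe_nsmul] at this⟩

/-- **DEG-LEVEL, abstract**: on torsion classes, push-forward after pull-back equals pull-back
after push-forward when the norms agree. -/
theorem pla_abs [FundamentalIdentity K E E'] [FundamentalIdentity K F F']
    [Module.Finite E F] [Module.Finite E' F']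
    (H : Divisor.PushforwardNormFormula K E F) (H' : Divisor.PushforwardNormFormula K E' F')
    (hsq : ∀ f : F, Algebra.norm E' (algebraMap F F' f) = algebraMap E E' (Algebra.norm E f))
    (m : ℕ) (hm : m ≠ 0) (x : Pic0 K F) (hx : m • x = 0) :
    Pic0.pushforwardHom K E' F' H' (Pic0.pullbackHom F' x) =
      Pic0.pullbackHom E' (Pic0.pushforwardHom K E F H x) := by
  obtain ⟨D, rfl⟩ := Pic0.mk_surjective x
  obtain ⟨f, hf, hD⟩ := pla_exists_kummer m D hx
  rw [Pic0.pullbackHom_mk, Pic0.pushforwardHom_mk, Pic0.pushforwardHom_mk, Pic0.pullbackHom_mk]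
  refine congrArg Pic0.mk (Subtype.ext ?_)
  rw [Pic0.coe_pushforwardDegZeroHom, Pic0.coe_pullbackDegZeroHom, Pic0.coe_pullbackDegZeroHom,
    Pic0.coe_pushforwardDegZeroHom]
  exact pla_div H H' m hm (D : Divisor K F) f hf hD (hsq f)

end abs

end Fermat.Agent.S35
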