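/-
S35, sub-step of CORE-ABS: (LOC) at EVERY closed point of both charts for all the translates
`σ^i f₀` and `σ^i (w f₀)` of the function and of its swap (the inputs `h0 … h3` of the
one-component point lemma, on the charts and after the swap).  (LOC) for `f₀` and `w f₀` at the
crossing points is transported along `σ` (which maps each chart into the local ring of each
crossing point and units to units), and `s35la_abs` does the rest.  Prefix `s35sl_`.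
-/
import Mathlib
import Fermat.Agent.S35.LocAll
import Fermat.Agent.S35.LocUnit

set_option autoImplicit false
set_option linter.unusedSectionVars false

open Polynomial

namespace Fermat.Agent.S35

open Fermat.Agent.S18 Fermat.Agent.S34

section Transport

variable {A F : Type*} [CommRing A] [Field F] [Algebra A F]

/-- If `σ` is the `Q`-th power map modulo the maximal ideal of the local ring at `𝔫`, then `σ`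
maps `O ∖ 𝔫` to units of that local ring. -/
theorem s35sl_sigma_unit (O : Subalgebra A F) (𝔫 : Ideal ↥O) [h𝔫 : 𝔫.IsPrime] (σ : F ≃+* F)
    (Q : ℕ)
    (hσQ : ∀ z : ↥O, ∃ a s : ↥O, a ∈ 𝔫 ∧ s ∉ 𝔫 ∧ (σ (z : F) - (z : F) ^ Q) * (s : F) = (a : F))
    (z : ↥O) (hz : z ∉ 𝔫) : ∃ a s : ↥O, a ∉ 𝔫 ∧ s ∉ 𝔫 ∧ σ (z : F) * (s : F) = (a : F) := by
  obtain ⟨a, s, ha, hs, e⟩ := hσQ z
  refine ⟨a + z ^ Q * s, s, ?_, hs, ?_⟩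
  · intro h
    have h1 : z ^ Q * s ∈ 𝔫 := by
      have h2 := 𝔫.sub_mem h ha
      rwa [add_sub_cancel_left] at h2
    rcases h𝔫.mem_or_mem h1 with h3 | h3
    · exact hz (h𝔫.mem_of_pow_mem Q h3)
    · exact hs h3
  · push_cast
    rw [← e]
    ring

/-- (LOC) transports along an automorphism `σ` mapping the chart into the local ring at `𝔫`,
elements outside `𝔫` to units, and `τ` to a unit multiple of `τ`. -/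
theorem s35sl_loc_sigma (τ ε : A) (hε : IsUnit ε) (m : ℕ) (O : Subalgebra A F)
    (𝔫 : Ideal ↥O) [h𝔫 : 𝔫.IsPrime] (σ : F ≃+* F)
    (hστ : σ (algebraMap A F τ) = algebraMap A F ε * algebraMap A F τ)
    (hσO : ∀ z : ↥O, ∃ a s : ↥O, s ∉ 𝔫 ∧ σ (z : F) * (s : F) = (a : F))
    (hσu : ∀ z : ↥O, z ∉ 𝔫 → ∃ a s : ↥O, a ∉ 𝔫 ∧ s ∉ 𝔫 ∧ σ (z : F) * (s : F) = (a : F))
    (f : F) (h : S34Loc τ m O f 𝔫) : S34Loc τ m O (σ f) 𝔫 := by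
  obtain ⟨g, hg, a, b, s, s', k, l, hs, hs', e1, e2⟩ := h
  obtain ⟨as, cs, has, hcs, es⟩ := hσu s hs
  obtain ⟨as', cs', has', hcs', es'⟩ := hσu s' hs'
  obtain ⟨aa, sa, hsa, ea⟩ := hσO a
  obtain ⟨ab, sb, hsb, eb⟩ := hσO b
  have e1' := congrArg σ e1
  have e2' := congrArg σ e2
  simp only [map_mul, map_pow, hστ] at e1' e2'
  have hεk : ∀ n : ℕ, algebraMap A ↥O (ε ^ n) ∉ 𝔫 := fun n =>
    s35u_unit_not_mem O 𝔫 (hε.pow n)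
  have hcoe : ∀ n : ℕ, ((algebraMap A ↥O (ε ^ n) : ↥O) : F) = algebraMap A F ε ^ n := by
    intro n
    rw [Subalgebra.coe_algebraMap, map_pow]
  refine ⟨σ g, (map_ne_zero σ).2 hg, aa * cs, ab * cs', as * sa * algebraMap A ↥O (ε ^ k),
    as' * sb * algebraMap A ↥O (ε ^ l), k, l, ?_, ?_, ?_, ?_⟩
  · exact fun hc => (h𝔫.mem_or_mem hc).elim
      (fun hc' => (h𝔫.mem_or_mem hc').elim has hsa) (hεk k)
  · exact fun hc => (h𝔫.mem_or_mem hc).elim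
      (fun hc' => (h𝔫.mem_or_mem hc').elim has' hsb) (hεk l)
  · show σ f * ((as : F) * (sa : F) * ((algebraMap A ↥O (ε ^ k) : ↥O) : F)) *
        algebraMap A F τ ^ k = ((aa : F) * (cs : F)) * σ g ^ m
    rw [hcoe, ← es, ← ea]
    linear_combination (cs : F) * (sa : F) * e1'
  · show σ g ^ m * ((as' : F) * (sb : F) * ((algebraMap A ↥O (ε ^ l) : ↥O) : F)) *
        algebraMap A F τ ^ l = ((ab : F) * (cs' : F)) * σ f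
    rw [hcoe, ← es', ← eb]
    linear_combination (cs' : F) * (sb : F) * e2'

/-- Iterated form of `s35sl_loc_sigma`, with the node data (clauses 5 and 6 of `S35Node`). -/
theorem s35sl_loc_iter (τ ε : A) (hε : IsUnit ε) (m : ℕ) (O : Subalgebra A F)
    (𝔫 : Ideal ↥O) [h𝔫 : 𝔫.IsPrime] (σ : F ≃+* F) (Q : ℕ)
    (hστ : σ (algebraMap A F τ) = algebraMap A F ε * algebraMap A F τ)
    (hσO : ∀ z : ↥O, ∃ a s : ↥O, s ∉ 𝔫 ∧ σ (z : F) * (s : F) = (a : F))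
    (hσQ : ∀ z : ↥O, ∃ a s : ↥O, a ∈ 𝔫 ∧ s ∉ 𝔫 ∧ (σ (z : F) - (z : F) ^ Q) * (s : F) = (a : F))
    (f : F) (h : S34Loc τ m O f 𝔫) (i : ℕ) : S34Loc τ m O ((⇑σ)^[i] f) 𝔫 := by
  induction i with
  | zero => exact h
  | succ n ih =>
    rw [Function.iterate_succ_apply']
    exact s35sl_loc_sigma τ ε hε m O 𝔫 σ hστ hσO
      (fun z hz => s35sl_sigma_unit O 𝔫 σ Q hσQ z hz) _ ih

end Transport

section Main

variable {A0 K0 F : Type*} [CommRing A0] [IsDomain A0] [IsDiscreteValuationRing A0]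
  [Field K0] [Algebra A0 K0] [IsFractionRing A0 K0] [CharZero K0]
  [Field F] [Algebra A0 F] [Algebra K0 F] [IsScalarTower A0 K0 F]

/-- **(LOC) everywhere for the translates.**  In the situation of CORE-ABS (finding 191): for
`g = f₀` or `g = w f₀` and every `i`, the local statement (LOC) holds for `σ^i g` at every
closed point of the special fibre of both charts.  The hypotheses `hσN₀`, `hσN₁` are clauses 5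
and 6 of `S35Node` at the crossing points. -/
theorem s35sl_main (V₁ V₂ : ValuationSubring F)
    (hA : ∀ a : A0, algebraMap A0 F a ∈ V₁) (hA₂ : ∀ a : A0, algebraMap A0 F a ∈ V₂)
    {τ : A0} (hτ : Irreducible τ) (hτV : algebraMap A0 F τ ∈ V₁.nonunits)
    (hτgen₁ : ∀ x ∈ V₁.nonunits, x * (algebraMap A0 F τ)⁻¹ ∈ V₁)
    (hτgen₂ : ∀ x ∈ V₂.nonunits, x * (algebraMap A0 F τ)⁻¹ ∈ V₂) (t : F)
    (ht : Transcendental K0 t) (htV : t ∈ V₁) (htV' : t⁻¹ ∈ V₁)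
    (htV₂ : t ∈ V₂) (htV₂' : t⁻¹ ∈ V₂)
    (hG : ∀ p : A0[X], (∃ i, ¬ τ ∣ p.coeff i) → aeval t p ∉ V₁.nonunits)
    (hfin : ∃ (n : ℕ) (β : Fin n → F), ∀ x : F, ∃ (a : Fin n → A0[X]) (d : A0[X]),
      aeval t d ≠ 0 ∧ aeval t d * x = ∑ i, aeval t (a i) * β i)
    (hex : ∀ O' : ValuationSubring F, ChtSame K0 V₁ t O' → O' = V₁ ∨ O' = V₂)
    (hconst : ∀ x : F, IsAlgebraic K0 x → ∃ c : K0, algebraMap K0 F c = x)
    (m : ℕ) (hm : 0 < m)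
    -- the automorphism `σ`
    (σ : F ≃+* F) (Q : ℕ) (ε : A0) (hε : IsUnit ε)
    (hστ : σ (algebraMap A0 F τ) = algebraMap A0 F ε * algebraMap A0 F τ)
    (hσA : ∀ a : A0, ∃ a' : A0, σ (algebraMap A0 F a) = algebraMap A0 F a')
    -- the swap
    (w : F ≃+* F) (hwA : ∀ a : A0, w (algebraMap A0 F a) = algebraMap A0 F a)
    (hww : ∀ z : F, w (w z) = z)
    (hwV : ∀ z ∈ V₁.nonunits, w z ∈ V₂.nonunits)
    (hwσ : ∀ z : F, w (σ z) = σ (w z))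
    (hD₀ : ∀ 𝔭 : Ideal ↥(chtO A0 {t}),
      (∀ x : ↥(chtO A0 {t}), x ∈ 𝔭 ↔ (x : F) ∈ V₁.nonunits) →
      IsDedekindDomain (↥(chtO A0 {t}) ⧸ 𝔭))
    (hD₁ : ∀ 𝔭 : Ideal ↥(chtO A0 {t⁻¹}),
      (∀ x : ↥(chtO A0 {t⁻¹}), x ∈ 𝔭 ↔ (x : F) ∈ V₁.nonunits) →
      IsDedekindDomain (↥(chtO A0 {t⁻¹}) ⧸ 𝔭))
    (hdom₀ : ∀ 𝔫 : Ideal ↥(chtO A0 {t}), 𝔫.IsMaximal →
      algebraMap A0 ↥(chtO A0 {t}) τ ∈ 𝔫 →
      (∃ r : ↥(chtO A0 {t}), (r : F) ∈ V₁.nonunits ∧ r ∉ 𝔫) →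
      (∃ a s : ↥(chtO A0 {t}), s ∉ 𝔫 ∧ w t * (s : F) = a) ∨
      (∃ a s : ↥(chtO A0 {t}), s ∉ 𝔫 ∧ w t⁻¹ * (s : F) = a))
    (hdom₁ : ∀ 𝔫 : Ideal ↥(chtO A0 {t⁻¹}), 𝔫.IsMaximal →
      algebraMap A0 ↥(chtO A0 {t⁻¹}) τ ∈ 𝔫 →
      (∃ r : ↥(chtO A0 {t⁻¹}), (r : F) ∈ V₁.nonunits ∧ r ∉ 𝔫) →
      (∃ a s : ↥(chtO A0 {t⁻¹}), s ∉ 𝔫 ∧ w t * (s : F) = a) ∨
      (∃ a s : ↥(chtO A0 {t⁻¹}), s ∉ 𝔫 ∧ w t⁻¹ * (s : F) = a))
    -- the function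
    (f₀ : F) (hf₀ : f₀ ≠ 0)
    (hord : ∀ V : ValuationSubring F, (∀ a : A0, algebraMap A0 F a ∈ V) →
      (algebraMap A0 F τ)⁻¹ ∈ V → IsPrincipalIdealRing V →
      ∃ u : F, u ≠ 0 ∧ f₀ * u ^ m ∈ V ∧ (f₀ * u ^ m)⁻¹ ∈ V)
    (hnode₀ : ∀ f : F, f = f₀ ∨ f = w f₀ →
      ∀ 𝔫 : Ideal ↥(chtO A0 {t}), 𝔫.IsMaximal →
      (∀ x : ↥(chtO A0 {t}), (x : F) ∈ V₁.nonunits → x ∈ 𝔫) →
      (∀ x : ↥(chtO A0 {t}), (x : F) ∈ V₂.nonunits → x ∈ 𝔫) →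
      S34Loc τ m (chtO A0 {t}) f 𝔫)
    (hnode₁ : ∀ f : F, f = f₀ ∨ f = w f₀ →
      ∀ 𝔫 : Ideal ↥(chtO A0 {t⁻¹}), 𝔫.IsMaximal →
      (∀ x : ↥(chtO A0 {t⁻¹}), (x : F) ∈ V₁.nonunits → x ∈ 𝔫) →
      (∀ x : ↥(chtO A0 {t⁻¹}), (x : F) ∈ V₂.nonunits → x ∈ 𝔫) →
      S34Loc τ m (chtO A0 {t⁻¹}) f 𝔫)
    -- clauses 5 and 6 of `S35Node` at the crossing points of the two charts
    (hσN₀ : ∀ 𝔫 : Ideal ↥(chtO A0 {t}), 𝔫.IsMaximal →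
      (∀ x : ↥(chtO A0 {t}), (x : F) ∈ V₁.nonunits → x ∈ 𝔫) →
      (∀ x : ↥(chtO A0 {t}), (x : F) ∈ V₂.nonunits → x ∈ 𝔫) →
      (∀ z : ↥(chtO A0 {t}), ∃ a s : ↥(chtO A0 {t}), s ∉ 𝔫 ∧ σ (z : F) * (s : F) = (a : F)) ∧
      (∀ z : ↥(chtO A0 {t}), ∃ a s : ↥(chtO A0 {t}), a ∈ 𝔫 ∧ s ∉ 𝔫 ∧
        (σ (z : F) - (z : F) ^ Q) * (s : F) = (a : F)))
    (hσN₁ : ∀ 𝔫 : Ideal ↥(chtO A0 {t⁻¹}), 𝔫.IsMaximal →
      (∀ x : ↥(chtO A0 {t⁻¹}), (x : F) ∈ V₁.nonunits → x ∈ 𝔫) →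
      (∀ x : ↥(chtO A0 {t⁻¹}), (x : F) ∈ V₂.nonunits → x ∈ 𝔫) →
      (∀ z : ↥(chtO A0 {t⁻¹}), ∃ a s : ↥(chtO A0 {t⁻¹}), s ∉ 𝔫 ∧
        σ (z : F) * (s : F) = (a : F)) ∧
      (∀ z : ↥(chtO A0 {t⁻¹}), ∃ a s : ↥(chtO A0 {t⁻¹}), a ∈ 𝔫 ∧ s ∉ 𝔫 ∧
        (σ (z : F) - (z : F) ^ Q) * (s : F) = (a : F))) :
    ∀ g : F, g = f₀ ∨ g = w f₀ → ∀ i : ℕ,
      (∀ 𝔫 : Ideal ↥(chtO A0 {t}), 𝔫.IsMaximal → algebraMap A0 ↥(chtO A0 {t}) τ ∈ 𝔫 →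
        S34Loc τ m (chtO A0 {t}) ((⇑σ)^[i] g) 𝔫) ∧
      (∀ 𝔫 : Ideal ↥(chtO A0 {t⁻¹}), 𝔫.IsMaximal → algebraMap A0 ↥(chtO A0 {t⁻¹}) τ ∈ 𝔫 →
        S34Loc τ m (chtO A0 {t⁻¹}) ((⇑σ)^[i] g) 𝔫) := by
  -- the swap is an involution
  have hwsymm : ∀ z : F, w.symm z = w z := fun z => by
    rw [RingEquiv.symm_apply_eq, hww]
  have hwiter : ∀ (z : F) (i : ℕ), w ((⇑σ)^[i] z) = (⇑σ)^[i] (w z) := by
    intro z i
    induction i with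
    | zero => rfl
    | succ n ih =>
      rw [Function.iterate_succ_apply', Function.iterate_succ_apply', hwσ, ih]
  -- the set `{f₀, w f₀}` is stable under `w`
  have hstab : ∀ g : F, g = f₀ ∨ g = w f₀ → w g = f₀ ∨ w g = w f₀ := by
    rintro g (rfl | rfl)
    · exact Or.inr rfl
    · exact Or.inl (hww _)
  have hne : ∀ g : F, g = f₀ ∨ g = w f₀ → ∀ i : ℕ, (⇑σ)^[i] g ≠ 0 := by
    intro g hg i
    have hg0 : g ≠ 0 := by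
      rcases hg with rfl | rfl
      · exact hf₀
      · exact (map_ne_zero w).2 hf₀
    induction i with
    | zero => exact hg0
    | succ n ih =>
      rw [Function.iterate_succ_apply']
      exact (map_ne_zero σ).2 ih
  -- `hord` for all the translates
  have hordw : ∀ V : ValuationSubring F, (∀ a : A0, algebraMap A0 F a ∈ V) →
      (algebraMap A0 F τ)⁻¹ ∈ V → IsPrincipalIdealRing V →
      ∃ u : F, u ≠ 0 ∧ w f₀ * u ^ m ∈ V ∧ (w f₀ * u ^ m)⁻¹ ∈ V := by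
    intro V hAV hτV' hV
    have h := s34ib_hord_symm τ w hwA m f₀ hord V hAV hτV' hV
    rwa [hwsymm] at h
  have hord_all : ∀ g : F, g = f₀ ∨ g = w f₀ → ∀ i : ℕ,
      ∀ V : ValuationSubring F, (∀ a : A0, algebraMap A0 F a ∈ V) →
      (algebraMap A0 F τ)⁻¹ ∈ V → IsPrincipalIdealRing V →
      ∃ u : F, u ≠ 0 ∧ (⇑σ)^[i] g * u ^ m ∈ V ∧ ((⇑σ)^[i] g * u ^ m)⁻¹ ∈ V := by
    intro g hg i
    induction i with
    | zero =>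
      rcases hg with rfl | rfl
      · exact hord
      · exact hordw
    | succ n ih =>
      rw [Function.iterate_succ_apply']
      exact s35la_hord_gal τ ε hε m _ σ hσA hστ ih
  -- (LOC) at the crossing points for all the translates
  have hnode_all₀ : ∀ g : F, g = f₀ ∨ g = w f₀ → ∀ i : ℕ,
      ∀ 𝔫 : Ideal ↥(chtO A0 {t}), 𝔫.IsMaximal →
      (∀ x : ↥(chtO A0 {t}), (x : F) ∈ V₁.nonunits → x ∈ 𝔫) →
      (∀ x : ↥(chtO A0 {t}), (x : F) ∈ V₂.nonunits → x ∈ 𝔫) →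
      S34Loc τ m (chtO A0 {t}) ((⇑σ)^[i] g) 𝔫 := by
    intro g hg i 𝔫 h𝔫 h1 h2
    have hprime : 𝔫.IsPrime := h𝔫.isPrime
    obtain ⟨hσO, hσQ⟩ := hσN₀ 𝔫 h𝔫 h1 h2
    exact s35sl_loc_iter τ ε hε m _ 𝔫 σ Q hστ hσO hσQ g (hnode₀ g hg 𝔫 h𝔫 h1 h2) i
  have hnode_all₁ : ∀ g : F, g = f₀ ∨ g = w f₀ → ∀ i : ℕ,
      ∀ 𝔫 : Ideal ↥(chtO A0 {t⁻¹}), 𝔫.IsMaximal →
      (∀ x : ↥(chtO A0 {t⁻¹}), (x : F) ∈ V₁.nonunits → x ∈ 𝔫) →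
      (∀ x : ↥(chtO A0 {t⁻¹}), (x : F) ∈ V₂.nonunits → x ∈ 𝔫) →
      S34Loc τ m (chtO A0 {t⁻¹}) ((⇑σ)^[i] g) 𝔫 := by
    intro g hg i 𝔫 h𝔫 h1 h2
    have hprime : 𝔫.IsPrime := h𝔫.isPrime
    obtain ⟨hσO, hσQ⟩ := hσN₁ 𝔫 h𝔫 h1 h2
    exact s35sl_loc_iter τ ε hε m _ 𝔫 σ Q hστ hσO hσQ g (hnode₁ g hg 𝔫 h𝔫 h1 h2) i
  intro g hg i
  refine s35la_abs (K0 := K0) V₁ V₂ hA hA₂ hτ hτV hτgen₁ hτgen₂ t ht htV htV' htV₂ htV₂' hG hfin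
    hex hconst m hm w hwA hwV hD₀ hD₁ hdom₀ hdom₁ ((⇑σ)^[i] g) (hne g hg i) (hord_all g hg i)
    ?_ ?_
  · rintro f (rfl | rfl) 𝔫 h𝔫 h1 h2
    · exact hnode_all₀ g hg i 𝔫 h𝔫 h1 h2
    · rw [hwsymm, hwiter]
      exact hnode_all₀ (w g) (hstab g hg) i 𝔫 h𝔫 h1 h2
  · rintro f (rfl | rfl) 𝔫 h𝔫 h1 h2
    · exact hnode_all₁ g hg i 𝔫 h𝔫 h1 h2
    · rw [hwsymm, hwiter]
      exact hnode_all₁ (w g) (hstab g hg) i 𝔫 h𝔫 h1 h2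

end Main

end Fermat.Agent.S35
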