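import Fermat.Agent.S35.NewMain
import Fermat.Agent.S35.PushGal

/-!
# S35, TORS-MAIN, the Hecke-algebra step

Level `M = M₀ q`.  Let `P` be a noncommutative polynomial in the Hecke operators `T_l`
(`l ∤ M`, `l ∉ S`, `λ ∈ S`) and `d` a natural number such that `d • P(T)` kills the `λ`-power
torsion of `J₀(M₀)` (the output of NEWP-MAIN, `nwm_abs`).  Then for every `λ`-power torsion point
`x` of `J₀(M)` the point `y = d • P(T) x` is killed by both degeneracy push-forwards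
(`tsa_alpha_zero`, `tsa_beta_zero`: `α_* T_l = T_l α_*` on torsion, `pgl_alpha_hecke`), so every
relation `R y = 0` valid on the torsion of `ker α_* ∩ ker β_*` holds for `y` (`tsa_key`); as
`P(T)` commutes with the Galois action on torsion (`tsa_galois`), a Galois relation for `y` is
the relation `d • P(T) (R x) = 0`:

* `tsa_cubic`: for `R = ψ³ - c₂ ψ² + c₁ ψ - c₀`;
* `tsa_main_elt`: from the class form of (CORE) (shape of `s35k_main`) to the torsion hypothesis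
  of `s35t_main_elt` verbatim.
-/

set_option autoImplicit false

open AlgebraicCurve ModularCurve

namespace Fermat.Agent.S35

open Fermat.Agent.S31 Fermat.Agent.S29 Fermat.Agent.S30

local notation "Qb" => AlgebraicClosure ℚ

/-- an additive map intertwining two families of operators on the `m`-torsion intertwines their
noncommutative polynomials on the `m`-torsion -/
theorem tsa_intertwine {M : ℕ} {S : Set ℕ} {X Y : Type*} [AddCommGroup X] [AddCommGroup Y]
    (TX : HresIdx M S → Module.End ℤ X) (TY : HresIdx M S → Module.End ℤ Y) (π : X →+ Y) (m : ℕ)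
    (h : ∀ (l : HresIdx M S) (z : X), m • z = 0 → π (TX l z) = TY l (π z))
    (P : FreeAlgebra ℤ (HresIdx M S)) :
    ∀ z : X, m • z = 0 → π (hresJ TX P z) = hresJ TY P (π z) := by
  refine FreeAlgebra.induction ℤ (HresIdx M S) ?_ ?_ ?_ ?_ P
  · intro r z _
    rw [AlgHom.commutes, AlgHom.commutes, Algebra.algebraMap_eq_smul_one,
      Algebra.algebraMap_eq_smul_one, LinearMap.smul_apply, LinearMap.smul_apply,
      Module.End.one_apply, Module.End.one_apply, map_zsmul]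
  · intro l z hz
    rw [hresJ_ι, hresJ_ι]
    exact h l z hz
  · intro a b ha hb z hz
    rw [map_mul, map_mul, Module.End.mul_apply, Module.End.mul_apply,
      ha _ (by rw [← map_nsmul, hz, map_zero]), hb z hz]
  · intro a b ha hb z hz
    rw [map_add, map_add, LinearMap.add_apply, LinearMap.add_apply, map_add, ha z hz, hb z hz]

/-- the Hecke polynomial on the torsion subgroup of a divisor level, read in `J₀(N')` -/
theorem tsa_coe {M N' : ℕ} [NeZero N'] (S : Set ℕ) (hN : N' ∣ M) (m : ℕ)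
    (P : FreeAlgebra ℤ (HresIdx M S)) (x : TrcX N' m) :
    ((hresJ (fun l : HresIdx M S => trcTheta N' m S (nwmIdx S hN l)) P x : TrcX N' m) :
        JZero N') =
      hresJ (fun l : HresIdx M S => heckeOperatorBar N' ⟨l.1, l.2.1⟩) P (x : JZero N') := by
  have h := tsa_intertwine (fun l : HresIdx M S => trcTheta N' m S (nwmIdx S hN l))
    (fun l : HresIdx M S => heckeOperatorBar N' ⟨l.1, l.2.1⟩)
    (Pic0.torsion Qb (modularFunctionFieldBar N') m).subtype 0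
    (fun l z _ => by
      rw [trcTheta_apply]
      rfl) P x (zero_nsmul x)
  exact h

/-- the output of NEWP-MAIN read on `J₀(N')` -/
theorem tsa_kill {M N' : ℕ} [NeZero N'] (S : Set ℕ) (hN : N' ∣ M) (m : ℕ)
    (P : FreeAlgebra ℤ (HresIdx M S)) (d : ℕ)
    (hP : ∀ x : TrcX N' m,
      d • hresJ (fun l : HresIdx M S => trcTheta N' m S (nwmIdx S hN l)) P x = 0)
    (z : JZero N') (hz : m • z = 0) :
    d • hresJ (fun l : HresIdx M S => heckeOperatorBar N' ⟨l.1, l.2.1⟩) P z = 0 := by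
  have hzt : z ∈ Pic0.torsion Qb (modularFunctionFieldBar N') m := by
    rw [Pic0.mem_torsion, natCast_zsmul]
    exact hz
  have h := congrArg (fun y : TrcX N' m => (y : JZero N')) (hP ⟨z, hzt⟩)
  simp only [AddSubgroup.coe_nsmul, ZeroMemClass.coe_zero] at h
  rw [tsa_coe] at h
  exact h

/-- Hecke polynomials commute with the Galois action on the `m`-torsion -/
theorem tsa_galois {N : ℕ} [NeZero N] (S : Set ℕ) (m : ℕ)
    (hnd : ∀ l : HresIdx N S, ¬ l.1 ∣ N * m) (τ : Qb ≃ₐ[ℚ] Qb)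
    (P : FreeAlgebra ℤ (HresIdx N S)) (z : JZero N) (hz : m • z = 0) :
    hresJ (fun l : HresIdx N S => heckeOperatorBar N ⟨l.1, l.2.1⟩) P (τ • z) =
      τ • hresJ (fun l : HresIdx N S => heckeOperatorBar N ⟨l.1, l.2.1⟩) P z := by
  have h := tsa_intertwine (fun l : HresIdx N S => heckeOperatorBar N ⟨l.1, l.2.1⟩)
    (fun l : HresIdx N S => heckeOperatorBar N ⟨l.1, l.2.1⟩)
    (DistribSMul.toAddMonoidHom (JZero N) τ) m
    (fun l z hz => (Fermat.Agent.S37.est_hecke_galois N m l.1 l.2.1 (hnd l) τ z hz).symm) P z hz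
  exact h.symm

/-- the Galois action commutes with multiplication by natural numbers -/
theorem tsa_smul_nsmul {N : ℕ} [NeZero N] (σ : Qb ≃ₐ[ℚ] Qb) (k : ℕ) (x : JZero N) :
    σ • (k • x) = k • (σ • x) :=
  map_nsmul (DistribSMul.toAddMonoidHom (JZero N) σ) k x

theorem tsa_alg_cubic {G : Type*} [AddCommGroup G] (d c₂ c₁ c₀ : ℕ) (u0 u1 u2 u3 : G) :
    d • (u3 - c₂ • u2 + c₁ • u1 - c₀ • u0) =
      d • u3 - c₂ • d • u2 + c₁ • d • u1 - c₀ • d • u0 := by
  rw [nsmul_sub, nsmul_add, nsmul_sub, smul_comm d c₂ u2, smul_comm d c₁ u1, smul_comm d c₀ u0]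

theorem tsa_alg_elt {G : Type*} [AddCommGroup G] (d Q : ℕ) (u0 u1 u2 u3 : G) :
    d • (u3 - Q • u2 - (u2 - Q • u1) - (u2 - Q • u1 - (u1 - Q • u0))) =
      (d • u3 - (d • u2 + d • u2) + d • u1) - Q • (d • u2 - (d • u1 + d • u1) + d • u0) := by
  simp only [nsmul_sub, nsmul_add]
  rw [smul_comm Q d u2, smul_comm Q d u1, smul_comm Q d u0]
  abel

section level

variable (M0 q : ℕ) [NeZero M0] [NeZero q] [NeZero (M0 * q)] (S : Set ℕ) (lam : ℕ)

omit [NeZero M0] [NeZero q] [NeZero (M0 * q)] in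
/-- a good prime away from `S ∋ λ` does not divide `M λ ^ n` -/
theorem tsa_not_dvd (hlam : lam.Prime) (hlamS : lam ∈ S) (n : ℕ) (l : HresIdx (M0 * q) S) :
    ¬ l.1 ∣ M0 * q * lam ^ n :=
  trc_not_dvd hlam l.2.1 l.2.2.1 (fun h => l.2.2.2 (h ▸ hlamS)) n

/-- `α_* (d • P(T) x) = 0` for torsion `x` -/
theorem tsa_alpha_zero (hlam : lam.Prime) (hlamS : lam ∈ S)
    (P : FreeAlgebra ℤ (HresIdx (M0 * q) S)) (d n : ℕ)
    (hP : ∀ x : TrcX M0 (lam ^ n),
      d • hresJ (fun l : HresIdx (M0 * q) S =>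
        trcTheta M0 (lam ^ n) S (nwmIdx S (dvd_mul_right M0 q) l)) P x = 0)
    (x : JZero (M0 * q)) (hx : lam ^ n • x = 0) :
    s35pAlpha M0 q (d • hresJ (fun l : HresIdx (M0 * q) S =>
      heckeOperatorBar (M0 * q) ⟨l.1, l.2.1⟩) P x) = 0 := by
  rw [map_nsmul, tsa_intertwine
    (fun l : HresIdx (M0 * q) S => heckeOperatorBar (M0 * q) ⟨l.1, l.2.1⟩)
    (fun l : HresIdx (M0 * q) S => heckeOperatorBar M0 ⟨l.1, l.2.1⟩) (s35pAlpha M0 q) (lam ^ n)
    (fun l z hz => pgl_alpha_hecke M0 q (lam ^ n) l.1 l.2.1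
      (tsa_not_dvd M0 q S lam hlam hlamS n l) z hz) P x hx]
  exact tsa_kill S (dvd_mul_right M0 q) (lam ^ n) P d hP _ (by rw [← map_nsmul, hx, map_zero])

/-- `β_* (d • P(T) x) = 0` for torsion `x` -/
theorem tsa_beta_zero (hlam : lam.Prime) (hlamS : lam ∈ S)
    (P : FreeAlgebra ℤ (HresIdx (M0 * q) S)) (d n : ℕ)
    (hP : ∀ x : TrcX M0 (lam ^ n),
      d • hresJ (fun l : HresIdx (M0 * q) S =>
        trcTheta M0 (lam ^ n) S (nwmIdx S (dvd_mul_right M0 q) l)) P x = 0)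
    (x : JZero (M0 * q)) (hx : lam ^ n • x = 0) :
    s35pBeta M0 q (d • hresJ (fun l : HresIdx (M0 * q) S =>
      heckeOperatorBar (M0 * q) ⟨l.1, l.2.1⟩) P x) = 0 := by
  rw [map_nsmul, tsa_intertwine
    (fun l : HresIdx (M0 * q) S => heckeOperatorBar (M0 * q) ⟨l.1, l.2.1⟩)
    (fun l : HresIdx (M0 * q) S => heckeOperatorBar M0 ⟨l.1, l.2.1⟩) (s35pBeta M0 q) (lam ^ n)
    (fun l z hz => pgl_beta_hecke M0 q (lam ^ n) l.1 l.2.1
      (tsa_not_dvd M0 q S lam hlam hlamS n l) z hz) P x hx]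
  exact tsa_kill S (dvd_mul_right M0 q) (lam ^ n) P d hP _ (by rw [← map_nsmul, hx, map_zero])

/-- **Key step.**  Every relation valid on the `λ`-power torsion of `ker α_* ∩ ker β_*` holds for
`d • P(T) x`, `x` a `λ`-power torsion point of `J₀(M₀ q)`. -/
theorem tsa_key (hlam : lam.Prime) (hlamS : lam ∈ S)
    (P : FreeAlgebra ℤ (HresIdx (M0 * q) S)) (d : ℕ)
    (hP : ∀ (n : ℕ) (x : TrcX M0 (lam ^ n)),
      d • hresJ (fun l : HresIdx (M0 * q) S =>
        trcTheta M0 (lam ^ n) S (nwmIdx S (dvd_mul_right M0 q) l)) P x = 0)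
    (R : JZero (M0 * q) → JZero (M0 * q))
    (hrel : ∀ (n : ℕ) (y : JZero (M0 * q)), lam ^ n • y = 0 → s35pAlpha M0 q y = 0 →
      s35pBeta M0 q y = 0 → R y = 0)
    (n : ℕ) (x : JZero (M0 * q)) (hx : lam ^ n • x = 0) :
    R (d • hresJ (fun l : HresIdx (M0 * q) S =>
      heckeOperatorBar (M0 * q) ⟨l.1, l.2.1⟩) P x) = 0 := by
  refine hrel n _ ?_ (tsa_alpha_zero M0 q S lam hlam hlamS P d n (hP n) x hx)
    (tsa_beta_zero M0 q S lam hlam hlamS P d n (hP n) x hx)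
  rw [smul_comm, ← map_nsmul, hx, map_zero, nsmul_zero]

/-- **The cubic relation.** -/
theorem tsa_cubic (hlam : lam.Prime) (hlamS : lam ∈ S)
    (P : FreeAlgebra ℤ (HresIdx (M0 * q) S)) (d : ℕ)
    (hP : ∀ (n : ℕ) (x : TrcX M0 (lam ^ n)),
      d • hresJ (fun l : HresIdx (M0 * q) S =>
        trcTheta M0 (lam ^ n) S (nwmIdx S (dvd_mul_right M0 q) l)) P x = 0)
    (ψ : Qb ≃ₐ[ℚ] Qb) (c₂ c₁ c₀ : ℕ)
    (hrel : ∀ (n : ℕ) (y : JZero (M0 * q)), lam ^ n • y = 0 → s35pAlpha M0 q y = 0 →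
      s35pBeta M0 q y = 0 → ψ • ψ • ψ • y - c₂ • ψ • ψ • y + c₁ • ψ • y - c₀ • y = 0)
    (n : ℕ) (x : JZero (M0 * q)) (hx : lam ^ n • x = 0) :
    d • hresJ (fun l : HresIdx (M0 * q) S => heckeOperatorBar (M0 * q) ⟨l.1, l.2.1⟩) P
      (ψ • ψ • ψ • x - c₂ • ψ • ψ • x + c₁ • ψ • x - c₀ • x) = 0 := by
  have h := tsa_key M0 q S lam hlam hlamS P d hP
    (fun y => ψ • ψ • ψ • y - c₂ • ψ • ψ • y + c₁ • ψ • y - c₀ • y) hrel n x hx
  have hnd := tsa_not_dvd M0 q S lam hlam hlamS n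
  have h1 : lam ^ n • (ψ • x) = 0 := Fermat.Agent.S37.est_galois_torsion _ _ ψ x hx
  have h2 : lam ^ n • (ψ • ψ • x) = 0 := Fermat.Agent.S37.est_galois_torsion _ _ ψ _ h1
  have e1 := tsa_galois S (lam ^ n) hnd ψ P x hx
  have e2 := tsa_galois S (lam ^ n) hnd ψ P (ψ • x) h1
  have e3 := tsa_galois S (lam ^ n) hnd ψ P (ψ • ψ • x) h2
  rw [e1] at e2
  rw [e2] at e3
  simp only [tsa_smul_nsmul] at h
  rw [map_sub, map_add, map_sub, map_nsmul, map_nsmul, map_nsmul, e1, e2, e3, tsa_alg_cubic]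
  exact h

/-- **TORS-MAIN, Hecke-algebra step.**  From the class form of (CORE) on the `λ`-power torsion of
`ker α_* ∩ ker β_*` at level `M₀ q` (conclusion shape of `s35k_main`) and the Hecke polynomial of
NEWP-MAIN to the torsion hypothesis of `s35t_main_elt`. -/
theorem tsa_main_elt (hlam : lam.Prime) (hlamS : lam ∈ S)
    (P : FreeAlgebra ℤ (HresIdx (M0 * q) S)) (d : ℕ)
    (hP : ∀ (n : ℕ) (x : TrcX M0 (lam ^ n)),
      d • hresJ (fun l : HresIdx (M0 * q) S =>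
        trcTheta M0 (lam ^ n) S (nwmIdx S (dvd_mul_right M0 q) l)) P x = 0)
    (σ : Qb ≃ₐ[ℚ] Qb) (Q : ℕ)
    (hrel : ∀ (n : ℕ) (y : JZero (M0 * q)), lam ^ n • y = 0 → s35pAlpha M0 q y = 0 →
      s35pBeta M0 q y = 0 →
      σ • (σ • σ • y - (σ • y + σ • y) + y) - Q • (σ • σ • y - (σ • y + σ • y) + y) = 0)
    (n : ℕ) (x : JZero (M0 * q)) (hx : lam ^ n • x = 0) :
    d • hresJ (fun l : HresIdx (M0 * q) S => heckeOperatorBar (M0 * q) ⟨l.1, l.2.1⟩) P
      (σ • (σ • (σ • x - Q • x) - (σ • x - Q • x))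
        - (σ • (σ • x - Q • x) - (σ • x - Q • x))) = 0 := by
  have h := tsa_key M0 q S lam hlam hlamS P d hP
    (fun y => σ • (σ • σ • y - (σ • y + σ • y) + y) - Q • (σ • σ • y - (σ • y + σ • y) + y))
    hrel n x hx
  have hnd := tsa_not_dvd M0 q S lam hlam hlamS n
  have h1 : lam ^ n • (σ • x) = 0 := Fermat.Agent.S37.est_galois_torsion _ _ σ x hx
  have h2 : lam ^ n • (σ • σ • x) = 0 := Fermat.Agent.S37.est_galois_torsion _ _ σ _ h1
  have e1 := tsa_galois S (lam ^ n) hnd σ P x hx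
  have e2 := tsa_galois S (lam ^ n) hnd σ P (σ • x) h1
  have e3 := tsa_galois S (lam ^ n) hnd σ P (σ • σ • x) h2
  rw [e1] at e2
  rw [e2] at e3
  have harg : σ • (σ • (σ • x - Q • x) - (σ • x - Q • x))
        - (σ • (σ • x - Q • x) - (σ • x - Q • x)) =
      σ • σ • σ • x - Q • σ • σ • x - (σ • σ • x - Q • σ • x)
        - (σ • σ • x - Q • σ • x - (σ • x - Q • x)) := by
    simp only [smul_sub, tsa_smul_nsmul]
  simp only [smul_sub, smul_add, tsa_smul_nsmul] at h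
  rw [harg]
  simp only [map_sub, map_nsmul]
  rw [e1, e2, e3, tsa_alg_elt]
  exact h

end level

end Fermat.Agent.S35
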