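import Mathlib
import Fermat.Prelude.Def_ModularCurve_PeriodHomPair
import Fermat.Agent.S29.HeckeTr
import Fermat.Agent.S31.HeckeRes

/-!
# S35, package NEWP-FWD, leaf TR-INVOL

The transfer Hecke operators `heckeTr N l A` on `Hom(Γ₀(N), A)` commute with the involution
`charInvolution` (composition with the conjugation by `diag(1, -1)` on `Γ₀(N)`), hence so does
every noncommutative polynomial `hresTr N S A P` in them.
-/

set_option autoImplicit false

open CongruenceSubgroup Matrix.SpecialLinearGroup ModularForm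
open P2MW.S_ModularForm_heckeT_slash_eq_self_of_mem_Gamma0.ModularForm.HeckeSlashInvariance
open ModularCurve.Period
open scoped MatrixGroups OnePoint

namespace Fermat.Agent.S35

open Fermat.Agent.S29 Fermat.Agent.S31

/-- the matrix `diag(1, -1)` -/
noncomputable def triJ : GL (Fin 2) ℝ :=
  Matrix.GeneralLinearGroup.mkOfDetNeZero !![1, 0; 0, -1] (by simp [Matrix.det_fin_two_of])

theorem triJ_val : (triJ : Matrix (Fin 2) (Fin 2) ℝ) = !![1, 0; 0, -1] := rfl

theorem triJ_mul_self : triJ * triJ = 1 := by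
  ext i j
  fin_cases i <;> fin_cases j <;> simp [triJ, Matrix.mul_apply, Fin.sum_univ_two]

theorem triJ_inv : triJ⁻¹ = triJ := inv_eq_of_mul_eq_one_left triJ_mul_self

/-- `jConjSL` is the conjugation by `diag(1, -1)` -/
theorem tri_mapGL_jConj (g : SL(2, ℤ)) :
    mapGL ℝ (jConjSL g) = triJ * mapGL ℝ g * triJ⁻¹ := by
  rw [triJ_inv]
  apply Matrix.GeneralLinearGroup.ext
  intro i j
  rw [Matrix.GeneralLinearGroup.coe_mul, Matrix.GeneralLinearGroup.coe_mul, triJ_val,
    Matrix.mul_apply, Fin.sum_univ_two, Matrix.mul_apply, Matrix.mul_apply, Fin.sum_univ_two,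
    Fin.sum_univ_two, mapGL_apply, mapGL_apply, mapGL_apply, jConjSL_coe]
  fin_cases i <;> fin_cases j <;> simp [jConjMat]

variable {N ℓ : ℕ} [Fact ℓ.Prime]

/-- negation on `ℙ¹(𝔽_ℓ)` -/
def triNeg (ℓ : ℕ) : OnePoint (ZMod ℓ) ≃ OnePoint (ZMod ℓ) :=
  Equiv.optionCongr (Equiv.neg (ZMod ℓ))

omit [Fact ℓ.Prime] in
theorem triNeg_infty : triNeg ℓ ∞ = ∞ := rfl

theorem triNeg_coe (k : ZMod ℓ) :
    triNeg ℓ (k : OnePoint (ZMod ℓ)) = ((-k : ZMod ℓ) : OnePoint (ZMod ℓ)) :=
  rfl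

/-- the conjugate of a coset representative is a unipotent element times a representative -/
theorem tri_rep (x : OnePoint (ZMod ℓ)) :
    ∃ u : SL(2, ℤ), u 1 0 = 0 ∧
      triJ * heckeRep ℓ x * triJ⁻¹ = mapGL ℝ u * heckeRep ℓ (triNeg ℓ x) := by
  have hℓ : ℓ ≠ 0 := (Fact.out : ℓ.Prime).ne_zero
  rw [triJ_inv]
  induction x using OnePoint.rec with
  | infty =>
    refine ⟨1, by simp, ?_⟩
    rw [triNeg_infty, heckeRep_infty, map_one, one_mul]
    ext i j
    fin_cases i <;> fin_cases j <;> simp [triJ, hℓ, Matrix.mul_apply, Fin.sum_univ_two]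
  | coe k =>
    rw [triNeg_coe, heckeRep_coe, heckeRep_coe]
    obtain ⟨e, he⟩ : (ℓ : ℤ) ∣ (k.val : ℤ) + ((-k).val : ℤ) := by
      rw [← ZMod.intCast_zmod_eq_zero_iff_dvd]
      push_cast
      rw [ZMod.natCast_zmod_val, ZMod.natCast_zmod_val, add_neg_cancel]
    have hu : ∃ u : SL(2, ℤ), u 0 0 = 1 ∧ u 0 1 = -e ∧ u 1 0 = 0 ∧ u 1 1 = 1 :=
      ⟨⟨!![1, -e; 0, 1], by simp [Matrix.det_fin_two_of]⟩, rfl, rfl, rfl, rfl⟩
    obtain ⟨u, h00, h01, h10, h11⟩ := hu
    refine ⟨u, h10, ?_⟩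
    have he' := congrArg (Int.cast : ℤ → ℝ) he
    push_cast at he'
    apply Matrix.GeneralLinearGroup.ext
    intro i j
    rw [Matrix.GeneralLinearGroup.coe_mul, Matrix.GeneralLinearGroup.coe_mul,
      Matrix.GeneralLinearGroup.coe_mul, triJ_val,
      Matrix.mul_apply, Fin.sum_univ_two, Matrix.mul_apply, Matrix.mul_apply, Fin.sum_univ_two,
      Fin.sum_univ_two, Matrix.mul_apply, Fin.sum_univ_two, mapGL_apply, mapGL_apply,
      val_heckeMatrix hℓ, val_heckeMatrix hℓ]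
    fin_cases i <;> fin_cases j <;> simp [h00, h01, h10, h11, -ZMod.natCast_val]
    linear_combination -he'

/-- the unipotent element of `tri_rep`, in `Γ₀(N)` -/
noncomputable def triU (N : ℕ) (x : OnePoint (ZMod ℓ)) : Gamma0 N :=
  ⟨Classical.choose (tri_rep x), per_mem_of_dvd (by
    rw [(Classical.choose_spec (tri_rep x)).1]; exact dvd_zero _)⟩

theorem triU_spec (N : ℕ) (x : OnePoint (ZMod ℓ)) :
    triJ * heckeRep ℓ x * triJ⁻¹
      = mapGL ℝ ((triU N x : Gamma0 N) : SL(2, ℤ)) * heckeRep ℓ (triNeg ℓ x) :=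
  (Classical.choose_spec (tri_rep x)).2

/-- the permutation of `ℙ¹(𝔽_ℓ)` attached to the conjugate -/
theorem tri_red (g : SL(2, ℤ)) (x : OnePoint (ZMod ℓ)) :
    redMatrix ℓ (jConjSL g) • triNeg ℓ x = triNeg ℓ (redMatrix ℓ g • x) := by
  induction x using OnePoint.rec with
  | infty =>
    rw [triNeg_infty, OnePoint.smul_infty_eq_ite, OnePoint.smul_infty_eq_ite]
    simp only [redMatrix_apply_one_zero, redMatrix_apply_zero_zero, jConjSL_coe,
      jConjMat_apply_one_zero, jConjMat_apply_one_one, Int.cast_neg, neg_eq_zero]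
    split_ifs with h
    · rfl
    · rw [triNeg_coe, div_neg]
  | coe k =>
    rw [triNeg_coe, OnePoint.smul_some_eq_ite, OnePoint.smul_some_eq_ite]
    simp only [redMatrix_apply_one_zero, redMatrix_apply_zero_zero, redMatrix_apply_zero_one,
      redMatrix_apply_one_one, jConjSL_coe, jConjMat_apply_one_zero, jConjMat_apply_one_one,
      jConjMat_apply_zero_zero, jConjMat_apply_zero_one, Int.cast_neg, neg_mul_neg]
    split_ifs with h
    · rfl
    · rw [triNeg_coe]
      congr 1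
      rw [← neg_div]
      congr 1
      ring

/-- the cocycle of the conjugate -/
theorem tri_gam (hℓN : ¬ ℓ ∣ N) (γ : Gamma0 N) (x : OnePoint (ZMod ℓ)) :
    per_gam hℓN (jConjGamma0 N γ) (triNeg ℓ x)
      = (triU N x)⁻¹ * jConjGamma0 N (per_gam hℓN γ x)
        * triU N (redMatrix ℓ (γ : SL(2, ℤ)) • x) := by
  apply Subtype.ext
  apply per_mapGL_cancel (M := heckeRep ℓ (triNeg ℓ (redMatrix ℓ (γ : SL(2, ℤ)) • x)))
  have h1 := per_gam_spec hℓN γ x
  have h2 := per_gam_spec hℓN (jConjGamma0 N γ) (triNeg ℓ x)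
  have h3 := triU_spec N x
  have h4 := triU_spec N (redMatrix ℓ (γ : SL(2, ℤ)) • x)
  have h5 := tri_mapGL_jConj (γ : SL(2, ℤ))
  have h6 := tri_mapGL_jConj ((per_gam hℓN γ x : Gamma0 N) : SL(2, ℤ))
  rw [jConjGamma0_coe, tri_red] at h2
  have e : ((((triU N x)⁻¹ * jConjGamma0 N (per_gam hℓN γ x)
        * triU N (redMatrix ℓ (γ : SL(2, ℤ)) • x) : Gamma0 N)) : SL(2, ℤ))
      = ((triU N x : Gamma0 N) : SL(2, ℤ))⁻¹ * jConjSL ((per_gam hℓN γ x : Gamma0 N) : SL(2, ℤ))
        * ((triU N (redMatrix ℓ (γ : SL(2, ℤ)) • x) : Gamma0 N) : SL(2, ℤ)) := rfl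
  have h3' : heckeRep ℓ (triNeg ℓ x)
      = (mapGL ℝ ((triU N x : Gamma0 N) : SL(2, ℤ)))⁻¹ * (triJ * heckeRep ℓ x * triJ⁻¹) := by
    rw [h3]; group
  rw [← h2, e, map_mul, map_mul, map_inv, mul_assoc, ← h4, h6, h5, h3']
  have e1 : (mapGL ℝ ((triU N x : Gamma0 N) : SL(2, ℤ)))⁻¹ * (triJ * heckeRep ℓ x * triJ⁻¹)
        * (triJ * mapGL ℝ (γ : SL(2, ℤ)) * triJ⁻¹)
      = (mapGL ℝ ((triU N x : Gamma0 N) : SL(2, ℤ)))⁻¹ * triJ
        * (heckeRep ℓ x * mapGL ℝ (γ : SL(2, ℤ))) * triJ⁻¹ := by group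
  rw [e1, h1]
  group

/-- **The transfer operator commutes with the involution.** -/
theorem tri_Tcoh (hℓN : ¬ ℓ ∣ N) (R : Type*) [Semiring R] (A : Type*) [AddCommGroup A]
    [Module R A] (ψ : Additive (Gamma0 N) →+ A) :
    per_Tcoh hℓN A (charInvolution N R A ψ) = charInvolution N R A (per_Tcoh hℓN A ψ) := by
  refine AddMonoidHom.ext fun γ => ?_
  obtain ⟨γ, rfl⟩ := Additive.ofMul.surjective γ
  rw [per_Tcoh_apply, charInvolution_apply, toMul_ofMul, per_Tcoh_apply]
  rw [← Equiv.sum_comp (triNeg ℓ)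
    (fun y => ψ (Additive.ofMul (per_gam hℓN (jConjGamma0 N γ) y)))]
  have h : ∀ x : OnePoint (ZMod ℓ),
      ψ (Additive.ofMul (per_gam hℓN (jConjGamma0 N γ) (triNeg ℓ x)))
        = charInvolution N R A ψ (Additive.ofMul (per_gam hℓN γ x))
          + (ψ (Additive.ofMul (triU N (per_perm ℓ γ x)))
            - ψ (Additive.ofMul (triU N x))) := by
    intro x
    rw [tri_gam, ofMul_mul, ofMul_mul, ofMul_inv, map_add, map_add, map_neg,
      charInvolution_apply, toMul_ofMul, per_perm_apply]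
    abel
  simp only [h, Finset.sum_add_distrib, Finset.sum_sub_distrib]
  rw [Equiv.sum_comp (per_perm ℓ γ) (fun x => ψ (Additive.ofMul (triU N x))), sub_self, add_zero]

/-- **`heckeTr` commutes with the involution.** -/
theorem tri_main (N l : ℕ) (R : Type*) [Semiring R] (A : Type*) [AddCommGroup A] [Module R A]
    (ψ : Additive (Gamma0 N) →+ A) :
    heckeTr N l A (charInvolution N R A ψ) = charInvolution N R A (heckeTr N l A ψ) := by
  by_cases h : l.Prime ∧ ¬ l ∣ N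
  · have : Fact l.Prime := ⟨h.1⟩
    rw [heckeTr_eq_per_Tcoh h.2, tri_Tcoh]
  · rw [heckeTr, dif_neg h]
    simp

/-- **Noncommutative polynomials in the `heckeTr` commute with the involution.** -/
theorem tri_hres (N : ℕ) (S : Set ℕ) (R : Type*) [Semiring R] (A : Type) [AddCommGroup A]
    [Module R A] (P : FreeAlgebra ℤ (HresIdx N S)) :
    ∀ ψ : Additive (Gamma0 N) →+ A,
      hresTr N S A P (charInvolution N R A ψ) = charInvolution N R A (hresTr N S A P ψ) := by
  refine FreeAlgebra.induction ℤ (HresIdx N S) ?_ ?_ ?_ ?_ P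
  · intro r ψ
    rw [AlgHom.commutes, Algebra.algebraMap_eq_smul_one, LinearMap.smul_apply,
      LinearMap.smul_apply, Module.End.one_apply, Module.End.one_apply]
    rfl
  · intro l ψ
    rw [hresTr_ι, hresTr_ι, tri_main]
  · intro a b ha hb ψ
    rw [map_mul, Module.End.mul_apply, Module.End.mul_apply, hb, ha]
  · intro a b ha hb ψ
    rw [map_add, LinearMap.add_apply, LinearMap.add_apply, ha, hb]
    rfl

end Fermat.Agent.S35
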